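import Fermat.Agent.Ihara.Families

/-!
# Relations between the correspondences at levels `N` and `N q`

## Main results

* `resSys_heckeSys`, `wSys_heckeSys`: compatibility with `T_ℓ`.
* `wSys_resSys`, `wSys_wSys`, `traceSys_op`: relations of the involution at `q`.
* `corSys_resSys`, `corSys_diagSys`, `resSys_corSys`: composites of degeneracy maps and traces.
-/

set_option autoImplicit false

noncomputable section

namespace Fermat.Agent.Ihara

open Matrix CongruenceSubgroup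
open scoped MatrixGroups

section General

variable {Γ₁ Γ₂ Γ₂' Γ₃ : Subgroup SL(2, ℤ)} {ι κ ι' κ' μ : Type*} [Fintype ι] [Fintype κ]
  [Fintype ι'] [Fintype κ'] [Fintype μ] {A : Type*} [AddCommGroup A]

omit [Fintype ι] [Fintype κ] [Fintype ι'] [Fintype κ'] [Fintype μ] in
theorem inj_of_congr {Γ : Subgroup SL(2, ℤ)} {a : ι → Mat2} {b : μ → Mat2} (e : ι ≃ μ) {k : ℤ}
    (hk : k ≠ 0) (h : ∀ i, ∃ g : Γ, a i = k • (mcoe g * b (e i)))
    (hb : ∀ (i j : μ) (g : Γ), b i = mcoe g * b j → i = j) {i j : ι} {g : Γ}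
    (hij : a i = mcoe g * a j) : i = j := by
  obtain ⟨g₁, h₁⟩ := h i
  obtain ⟨g₂, h₂⟩ := h j
  rw [h₁, h₂, Matrix.mul_smul] at hij
  have h3 := smul_right_injective Mat2 hk hij
  refine e.injective (hb _ _ (g₁⁻¹ * (g * g₂)) ?_)
  rw [Subgroup.coe_mul, Subgroup.coe_mul, mcoe_mul, mcoe_mul, mul_assoc, mul_assoc, ← h3,
    Subgroup.coe_inv, mcoe_inv_mul_cancel]

/-- Two composites given by congruent families agree. -/
theorem op_comp_congr (S : CosetSys Γ₁ Γ₂ ι) (T : CosetSys Γ₂ Γ₃ κ) (S' : CosetSys Γ₁ Γ₂' ι')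
    (T' : CosetSys Γ₂' Γ₃ κ') (e : ι × κ ≃ ι' × κ') (k : ℤ) (hk : k ≠ 0)
    (hinj' : ∀ i i' x x' (g : Γ₁),
      S'.α i * T'.α x = mcoe g * (S'.α i' * T'.α x') → (i, x) = (i', x'))
    (h : ∀ x, ∃ g : Γ₁, S.α x.1 * T.α x.2 = k • (mcoe g * (S'.α (e x).1 * T'.α (e x).2)))
    (φ : Additive Γ₁ →+ A) : T.op ℤ A (S.op ℤ A φ) = T'.op ℤ A (S'.op ℤ A φ) := by
  have hinj : ∀ i i' x x' (g : Γ₁),
      S.α i * T.α x = mcoe g * (S.α i' * T.α x') → (i, x) = (i', x') := fun i i' x x' g he =>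
    inj_of_congr (a := fun y : ι × κ => S.α y.1 * T.α y.2)
      (b := fun y : ι' × κ' => S'.α y.1 * T'.α y.2) e hk h
      (fun y y' g' hy => hinj' y.1 y'.1 y.2 y'.2 g' hy) (i := (i, x)) (j := (i', x')) he
  rw [← S.op_prod T hinj, ← S'.op_prod T' hinj']
  exact CosetSys.op_congr _ _ e k hk h φ

/-- A composite congruent to a single family. -/
theorem op_comp_eq_single (S : CosetSys Γ₁ Γ₂ ι) (T : CosetSys Γ₂ Γ₃ κ) (U : CosetSys Γ₁ Γ₃ μ)
    (e : ι × κ ≃ μ) (k : ℤ) (hk : k ≠ 0)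
    (h : ∀ x, ∃ g : Γ₁, S.α x.1 * T.α x.2 = k • (mcoe g * U.α (e x))) (φ : Additive Γ₁ →+ A) :
    T.op ℤ A (S.op ℤ A φ) = U.op ℤ A φ := by
  have hinj : ∀ i i' x x' (g : Γ₁),
      S.α i * T.α x = mcoe g * (S.α i' * T.α x') → (i, x) = (i', x') := fun i i' x x' g he =>
    inj_of_congr (a := fun y : ι × κ => S.α y.1 * T.α y.2) e hk h U.inj (i := (i, x))
      (j := (i', x')) he
  rw [← S.op_prod T hinj]
  exact CosetSys.op_congr _ _ e k hk h φ

end General

variable (N q : ℕ) [hq : Fact q.Prime] (hqN : ¬q ∣ N) {A : Type*} [AddCommGroup A]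

omit hq in
theorem resSys_α (u : Unit) : (resSys N q).α u = 1 := rfl

omit hq in
/-- Restriction commutes with `T_ℓ`. -/
theorem resSys_heckeSys {ℓ : ℕ} [Fact ℓ.Prime] (hℓ : ¬ℓ ∣ N) (hℓ' : ¬ℓ ∣ N * q)
    (φ : Additive (Gamma0 N) →+ A) :
    (resSys N q).op ℤ A ((heckeSys N ℓ hℓ).op ℤ A φ)
      = (heckeSys (N * q) ℓ hℓ').op ℤ A ((resSys N q).op ℤ A φ) := by
  refine op_comp_congr _ _ _ _ (Equiv.prodComm _ _) 1 one_ne_zero ?_ (fun x => ⟨1, ?_⟩) φ
  · intro i i' x x' g he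
    simp only [resSys_α, heckeSys_α, one_mul] at he
    rw [zRep_inj (Fact.out : ℓ.Prime) he]
  · simp [resSys_α, heckeSys_α]

include hqN

theorem wSys_α (u : Unit) : (wSys N q hqN).α u = wMat N q := rfl

/-- The square of the Atkin–Lehner matrix is `q` times an element of `Γ₀(N q)`. -/
theorem wMat_sq : ∃ g : Gamma0 (N * q), wMat N q * wMat N q = (q : ℤ) • mcoe g := by
  have hb := bezout_eq N q hqN
  set x := (bezout N q).1
  set y := (bezout N q).2
  refine ⟨⟨slMk ((q : ℤ) * x ^ 2 + N * y) (x * y + y) ((N : ℤ) * q * (x + 1)) ((N : ℤ) * y + q)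
    (by linear_combination ((q : ℤ) * x - N * y + 1) * hb), slMk_mem _ ?_⟩, ?_⟩
  · rw [Nat.cast_mul]; exact dvd_mul_right _ _
  · rw [mcoe_slMk, wMat]
    ext i j
    fin_cases i <;> fin_cases j <;> simp [Matrix.mul_apply, Fin.sum_univ_two] <;> ring

/-- Conjugation by the Atkin–Lehner matrix preserves the sets of determinant `m`. -/
theorem wMat_conj {m : ℕ} {M : Mat2} (hM : heckeSet (N * q) m M) :
    ∃ M' : Mat2, heckeSet (N * q) m M' ∧ wMat N q * M = M' * wMat N q := by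
  obtain ⟨hdet, c, hc⟩ := hM
  rw [Nat.cast_mul] at hc
  have hb := bezout_eq N q hqN
  set x := (bezout N q).1 with hx
  set y := (bezout N q).2 with hy
  set a := M 0 0
  set b := M 0 1
  set d := M 1 1
  set M' : Mat2 := !![(q : ℤ) * x * a + N * q * y * c - N * q * x * b - N * y * d,
      -(x * y * a) - N * y ^ 2 * c + q * x ^ 2 * b + x * y * d;
      (N : ℤ) * q * (a + q * c - N * b - d),
      -((N : ℤ) * y * a) - N * q * y * c + N * q * x * b + q * x * d] with hM'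
  have he : wMat N q * M = M' * wMat N q := by
    rw [hM', wMat, ← hx, ← hy]
    ext i j
    fin_cases i <;> fin_cases j <;> simp [Matrix.mul_apply, Fin.sum_univ_two, hc]
    · linear_combination -((q : ℤ) * x * a + N * q * y * c) * hb
    · linear_combination -((q : ℤ) * x * b + y * d) * hb
    · linear_combination -((N : ℤ) * q * a + N * q * q * c) * hb
    · linear_combination -((N : ℤ) * q * b + q * d) * hb
  refine ⟨M', ⟨?_, by simp [hM']⟩, he⟩
  have h2 := congrArg Matrix.det he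
  rw [Matrix.det_mul, Matrix.det_mul, hdet, det_wMat N q hqN, mul_comm (M'.det)] at h2
  exact (mul_left_cancel₀ (by exact_mod_cast hq.out.ne_zero) h2).symm

theorem wMat_conj_one (h : Gamma0 (N * q)) :
    ∃ h' : Gamma0 (N * q), wMat N q * mcoe h = mcoe h' * wMat N q := by
  obtain ⟨M', ⟨hd, hc⟩, he⟩ := wMat_conj N q hqN (m := 1) (M := mcoe h)
    ⟨by rw [mcoe_det]; rfl, mem_Gamma0_iff.mp h.2⟩
  exact ⟨⟨⟨M', by simpa using hd⟩, mem_Gamma0_iff.mpr hc⟩, he⟩

/-- The Atkin–Lehner involution commutes with `T_ℓ`. -/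
theorem wSys_heckeSys {ℓ : ℕ} [hℓF : Fact ℓ.Prime] (hℓ : ¬ℓ ∣ N * q)
    (φ : Additive (Gamma0 (N * q)) →+ A) :
    (heckeSys (N * q) ℓ hℓ).op ℤ A ((wSys N q hqN).op ℤ A φ)
      = (wSys N q hqN).op ℤ A ((heckeSys (N * q) ℓ hℓ).op ℤ A φ) := by
  have : NeZero ℓ := ⟨hℓF.out.ne_zero⟩
  have key : ∀ x : OnePoint (ZMod ℓ), ∃ (y : OnePoint (ZMod ℓ)) (g : Gamma0 (N * q)),
      wMat N q * zRep ℓ x = mcoe g * (zRep ℓ y * wMat N q) := by
    intro x
    obtain ⟨M', hM', he⟩ := wMat_conj N q hqN (heckeSet_zRep (N * q) ℓ x)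
    obtain ⟨y, g, rfl⟩ := heckeSet_cover hℓF.out hℓ M' hM'
    exact ⟨y, g, by rw [he, mul_assoc]⟩
  choose σ g hσ using key
  have hinj : Function.Injective σ := by
    intro x x' hxx'
    obtain ⟨g₀, hg₀⟩ := wMat_sq N q hqN
    have h1 : wMat N q * zRep ℓ x = mcoe (g x * (g x')⁻¹ : Gamma0 (N * q))
        * (wMat N q * zRep ℓ x') := by
      rw [hσ x, hσ x', hxx', Subgroup.coe_mul, Subgroup.coe_inv, mcoe_mul, mul_assoc,
        mcoe_inv_mul_cancel]
    obtain ⟨h', hh'⟩ := wMat_conj_one N q hqN (g x * (g x')⁻¹)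
    have h2 := congrArg (fun X => wMat N q * X) h1
    simp only [← mul_assoc] at h2
    rw [hh', mul_assoc (mcoe h') (wMat N q), hg₀, Matrix.smul_mul, Matrix.mul_smul,
      Matrix.smul_mul] at h2
    have h3 := smul_right_injective Mat2 (by exact_mod_cast hq.out.ne_zero) h2
    refine zRep_inj hℓF.out (g := ((g₀⁻¹ * (h' * g₀) : Gamma0 (N * q)) : SL(2, ℤ))) ?_
    rw [Subgroup.coe_mul, Subgroup.coe_mul, Subgroup.coe_inv, mcoe_mul, mcoe_mul, mul_assoc,
      ← h3, mcoe_inv_mul_cancel]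
  let e : Unit × OnePoint (ZMod ℓ) ≃ OnePoint (ZMod ℓ) × Unit :=
    ((Equiv.refl Unit).prodCongr
      (Equiv.ofBijective σ (Finite.injective_iff_bijective.mp hinj))).trans (Equiv.prodComm _ _)
  refine op_comp_congr _ _ _ _ e 1 one_ne_zero ?_ (fun x => ⟨g x.2, ?_⟩) φ
  · intro i i' x x' h he
    simp only [wSys_α, heckeSys_α] at he
    rw [← mul_assoc] at he
    have := mat2_right_cancel (by rw [det_wMat N q hqN]; exact_mod_cast hq.out.ne_zero) he
    rw [zRep_inj hℓF.out this]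
  · simp only [wSys_α, heckeSys_α, one_smul]
    exact hσ x.2

/-- `W ∘ res = diag`. -/
theorem wSys_resSys (φ : Additive (Gamma0 N) →+ A) :
    (wSys N q hqN).op ℤ A ((resSys N q).op ℤ A φ) = (diagSys N q).op ℤ A φ := by
  obtain ⟨-, g, hg⟩ := diagSet_cover N q (A := wMat N q)
    ⟨det_wMat N q hqN, by simp [wMat], by simp [wMat]⟩
  refine op_comp_eq_single _ _ _ (Equiv.punitProd Unit) 1 one_ne_zero (fun x => ⟨g, ?_⟩) φ
  simp only [resSys_α, wSys_α, one_mul, one_smul]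
  exact hg

/-- `W² = 1`. -/
theorem wSys_wSys (φ : Additive (Gamma0 (N * q)) →+ A) :
    (wSys N q hqN).op ℤ A ((wSys N q hqN).op ℤ A φ) = φ := by
  set S := wSys N q hqN
  refine AddMonoidHom.ext fun γ => ?_
  obtain ⟨γ, rfl⟩ := Additive.ofMul.surjective γ
  rw [S.op_apply, Fintype.sum_unique, S.op_apply, Fintype.sum_unique]
  obtain ⟨g₀, hg₀⟩ := wMat_sq N q hqN
  set δ := S.cof γ default
  set ε := S.cof δ default
  have h1 : wMat N q * mcoe γ = mcoe δ * wMat N q := S.mul_eq γ default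
  have h2 : wMat N q * mcoe δ = mcoe ε * wMat N q := S.mul_eq δ default
  have h3 : (q : ℤ) • (mcoe g₀ * mcoe γ) = (q : ℤ) • (mcoe ε * mcoe g₀) := by
    rw [← Matrix.smul_mul, ← Matrix.mul_smul, ← hg₀, mul_assoc, h1, ← mul_assoc, h2, mul_assoc]
  have h4 : g₀ * γ = ε * g₀ := Subtype.ext (mcoe_injective (by
    rw [Subgroup.coe_mul, Subgroup.coe_mul, mcoe_mul, mcoe_mul]
    exact smul_right_injective Mat2 (by exact_mod_cast hq.out.ne_zero) h3))
  have h5 := congrArg (fun u => φ (Additive.ofMul u)) h4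
  simp only [ofMul_mul, map_add] at h5
  rw [add_comm] at h5
  exact (add_right_cancel h5).symm

/-- The second trace is `cor ∘ W`. -/
theorem traceSys_op (φ : Additive (Gamma0 (N * q)) →+ A) :
    (traceSys N q hqN).op ℤ A φ = (corSys N q hqN).op ℤ A ((wSys N q hqN).op ℤ A φ) :=
  CosetSys.op_prod _ _ _ φ

theorem corSys_α (x : OnePoint (ZMod q)) :
    (corSys N q hqN).α x = mcoe (corRep N q hqN x) := rfl

/-- `cor ∘ res = q + 1`. -/
theorem corSys_resSys (φ : Additive (Gamma0 N) →+ A) :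
    (corSys N q hqN).op ℤ A ((resSys N q).op ℤ A φ) = (q + 1) • φ := by
  have : NeZero q := ⟨hq.out.ne_zero⟩
  set S := corSys N q hqN with hS
  refine AddMonoidHom.ext fun γ => ?_
  obtain ⟨γ, rfl⟩ := Additive.ofMul.surjective γ
  let c : OnePoint (ZMod q) → Gamma0 N := fun x => ⟨corRep N q hqN x, corRep_mem N q hqN x⟩
  let i : Gamma0 (N * q) → Gamma0 N := fun g =>
    ⟨g.1, Gamma0_le_of_dvd (dvd_mul_right N q) g.2⟩
  have hres : ∀ δ : Gamma0 (N * q),
      (resSys N q).op ℤ A φ (Additive.ofMul δ) = φ (Additive.ofMul (i δ)) := by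
    intro δ
    rw [(resSys N q).op_apply_of_eq φ δ id (fun _ => i δ) (fun _ => by simp [resSys_α, i]),
      Fintype.sum_unique]
  rw [S.op_apply]
  have hterm : ∀ x, (resSys N q).op ℤ A φ (Additive.ofMul (S.cof γ x))
      = φ (Additive.ofMul γ) + (φ (Additive.ofMul (c x)) - φ (Additive.ofMul (c (S.idx γ x)))) := by
    intro x
    have h1 : c x * γ = i (S.cof γ x) * c (S.idx γ x) := Subtype.ext (mcoe_injective (by
      rw [Subgroup.coe_mul, Subgroup.coe_mul, mcoe_mul, mcoe_mul]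
      exact S.mul_eq γ x))
    have h2 := congrArg (fun u => φ (Additive.ofMul u)) h1
    simp only [ofMul_mul, map_add] at h2
    rw [hres, ← add_sub_assoc, eq_sub_iff_add_eq, ← h2, add_comm]
  simp only [hterm, Finset.sum_add_distrib, Finset.sum_sub_distrib]
  rw [show (∑ x, φ (Additive.ofMul (c (S.idx γ x)))) = ∑ x, φ (Additive.ofMul (c x)) from
    Equiv.sum_comp (S.permE γ) fun x => φ (Additive.ofMul (c x)), sub_self, add_zero,
    Finset.sum_const, Finset.card_univ, AddMonoidHom.smul_apply]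
  congr 1
  rw [← Nat.card_eq_fintype_card, show Nat.card (OnePoint (ZMod q)) = Nat.card (Option (ZMod q))
    from rfl, Finite.card_option, Nat.card_zmod]

/-- `cor ∘ diag = T_q`. -/
theorem corSys_diagSys (φ : Additive (Gamma0 N) →+ A) :
    (corSys N q hqN).op ℤ A ((diagSys N q).op ℤ A φ) = (heckeSys N q hqN).op ℤ A φ := by
  have : NeZero q := ⟨hq.out.ne_zero⟩
  have key : ∀ x : OnePoint (ZMod q), ∃ (y : OnePoint (ZMod q)) (g : Gamma0 N),
      diagMat q * mcoe (corRep N q hqN x) = mcoe g * zRep q y := by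
    intro x
    refine heckeSet_cover hq.out hqN _ ⟨?_, ?_⟩
    · rw [Matrix.det_mul, (diagMat_mem N q).1, mcoe_det, mul_one]
    · simpa [diagMat, Matrix.mul_apply, Fin.sum_univ_two] using
        mem_Gamma0_iff.mp (corRep_mem N q hqN x)
  choose σ g hσ using key
  have hinj : Function.Injective σ := by
    intro x x' hxx'
    refine corRep_inj N q hqN ?_
    set m := corRep N q hqN x * (corRep N q hqN x')⁻¹ with hm
    set h : Gamma0 N := g x * (g x')⁻¹
    have h1 : diagMat q * mcoe m = mcoe h * diagMat q := by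
      have h2 : diagMat q * mcoe (corRep N q hqN x)
          = mcoe h * (diagMat q * mcoe (corRep N q hqN x')) := by
        rw [hσ x, hσ x', hxx', Subgroup.coe_mul, Subgroup.coe_inv, mcoe_mul, mul_assoc,
          mcoe_inv_mul_cancel]
      rw [hm, mcoe_mul, ← mul_assoc, h2, mul_assoc (mcoe h), mul_assoc (diagMat q), ← mcoe_mul,
        mul_inv_cancel, mcoe_one, mul_one]
    have h10 := congrFun (congrFun h1 1) 0
    simp [diagMat, Matrix.mul_apply, Fin.sum_univ_two] at h10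
    rw [mem_Gamma0_iff, show m 1 0 = h.1 1 0 * (q : ℤ) from h10, Nat.cast_mul]
    exact mul_dvd_mul_right (mem_Gamma0_iff.mp h.2) _
  refine op_comp_eq_single _ _ _ ((Equiv.punitProd _).trans
    (Equiv.ofBijective σ (Finite.injective_iff_bijective.mp hinj))) 1 one_ne_zero
    (fun x => ⟨g x.2, ?_⟩) φ
  simp only [corSys_α, heckeSys_α, one_smul]
  exact hσ x.2

/-- `res ∘ cor = 1 + U_q ∘ W`. -/
theorem resSys_corSys (φ : Additive (Gamma0 (N * q)) →+ A) :
    (resSys N q).op ℤ A ((corSys N q hqN).op ℤ A φ)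
      = φ + (uSys N q).op ℤ A ((wSys N q hqN).op ℤ A φ) := by
  have : NeZero q := ⟨hq.out.ne_zero⟩
  refine AddMonoidHom.ext fun γ => ?_
  obtain ⟨γ, rfl⟩ := Additive.ofMul.surjective γ
  set S := corSys N q hqN
  set W := wSys N q hqN
  set U := uSys N q
  let γ' : Gamma0 N := ⟨γ.1, Gamma0_le_of_dvd (dvd_mul_right N q) γ.2⟩
  have hwu : ∀ j : ZMod q,
      wMat N q * uRep q j = (q : ℤ) • mcoe (corRep N q hqN (j : OnePoint (ZMod q))) := by
    intro j
    rw [corRep_coe, wMat, uRep]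
    ext i k
    fin_cases i <;> fin_cases k <;>
      simp [Matrix.mul_apply, Fin.sum_univ_two, -ZMod.natCast_val] <;> ring
  let σ : OnePoint (ZMod q) → OnePoint (ZMod q) := fun x =>
    x.elim OnePoint.infty fun j : ZMod q => ((U.idx γ j : ZMod q) : OnePoint (ZMod q))
  let g : OnePoint (ZMod q) → Gamma0 (N * q) := fun x =>
    x.elim γ fun j : ZMod q => W.cof (U.cof γ j) ()
  have hrel : ∀ x, S.α x * mcoe γ' = mcoe (g x) * S.α (σ x) := by
    intro x
    induction x using OnePoint.rec with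
    | infty =>
      show mcoe 1 * mcoe γ.1 = mcoe γ.1 * mcoe 1
      rw [mcoe_one, one_mul, mul_one]
    | coe j =>
      show mcoe (corRep N q hqN (j : OnePoint (ZMod q))) * mcoe γ.1 =
        mcoe (W.cof (U.cof γ j) ()) *
          mcoe (corRep N q hqN ((U.idx γ j : ZMod q) : OnePoint (ZMod q)))
      refine smul_right_injective Mat2 (show (q : ℤ) ≠ 0 by exact_mod_cast hq.out.ne_zero) ?_
      show (q : ℤ) • _ = (q : ℤ) • _
      rw [← Matrix.smul_mul, ← Matrix.mul_smul, ← hwu, ← hwu, mul_assoc]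
      have h1 : uRep q j * mcoe γ = mcoe (U.cof γ j) * uRep q (U.idx γ j) := U.mul_eq γ j
      have h2 : wMat N q * mcoe (U.cof γ j) = mcoe (W.cof (U.cof γ j) ()) * wMat N q :=
        W.mul_eq (U.cof γ j) ()
      rw [h1, ← mul_assoc, h2, mul_assoc]
  rw [(resSys N q).op_apply_of_eq (S.op ℤ A φ) γ id (fun _ => γ')
      (fun _ => by simp [resSys_α, γ']), Fintype.sum_unique, S.op_apply_of_eq φ γ' σ g hrel,
    AddMonoidHom.add_apply, U.op_apply]
  classical
  rw [← Finset.add_sum_erase _ _ (Finset.mem_univ (OnePoint.infty : OnePoint (ZMod q)))]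
  refine congrArg₂ (· + ·) rfl ?_
  symm
  refine Finset.sum_bij (fun j _ => (j : OnePoint (ZMod q))) (fun j _ => by simp)
    (fun a _ b _ h => OnePoint.coe_injective h) (fun x hx => ?_) (fun j _ => ?_)
  · induction x using OnePoint.rec with
    | infty => simp at hx
    | coe j => exact ⟨j, Finset.mem_univ _, rfl⟩
  · rw [W.op_apply, Fintype.sum_unique]
    rfl

end Fermat.Agent.Ihara
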