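import Fermat.Agent.Ihara.Adjoint
import Fermat.Agent.Periods.HeckeHom

/-!
# The correspondences at levels `N` and `N q`

The families of matrices behind `T_ℓ` (`heckeSys`), restriction (`resSys`), corestriction
(`corSys`), `f ↦ f(qτ)` (`diagSys`), the Atkin–Lehner involution at `q` (`wSys`), the second trace
(`traceSys`) and `U_q` (`uSys`), with their cover properties.

## Main results

* `heckeSys_op_eq`, `uSys_op_eq`: the operators are the Hecke operators on homomorphisms.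
* `heckeSys_adjoint`, `res_cor_adjoint`, `diag_trace_adjoint`: the adjoint pairs.
-/

set_option autoImplicit false

noncomputable section

namespace Fermat.Agent.Ihara

open Matrix CongruenceSubgroup
open scoped MatrixGroups

/-- An integral matrix of determinant one with prescribed entries. -/
def slMk (a b c d : ℤ) (h : a * d - b * c = 1) : SL(2, ℤ) :=
  ⟨!![a, b; c, d], by rw [Matrix.det_fin_two_of, h]⟩

@[simp] theorem mcoe_slMk (a b c d : ℤ) (h) : mcoe (slMk a b c d h) = !![a, b; c, d] := rfl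

theorem mem_Gamma0_iff {M : ℕ} {g : SL(2, ℤ)} : g ∈ Gamma0 M ↔ (M : ℤ) ∣ g 1 0 := by
  rw [Gamma0_mem, ZMod.intCast_zmod_eq_zero_iff_dvd]

theorem slMk_mem {M : ℕ} {a b c d : ℤ} (h) (hc : (M : ℤ) ∣ c) :
    slMk a b c d h ∈ Gamma0 M := mem_Gamma0_iff.mpr hc

theorem Gamma0_le_of_dvd {N M : ℕ} (h : N ∣ M) : Gamma0 M ≤ Gamma0 N := fun _ hg =>
  mem_Gamma0_iff.mpr ((Int.natCast_dvd_natCast.mpr h).trans (mem_Gamma0_iff.mp hg))

/-- A family of matrices from a set stable on the right and covered by the family. -/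
def CosetSys.ofCover {Γ₁ Γ₂ : Subgroup SL(2, ℤ)} {ι : Type*} (α : ι → Mat2) (P : Mat2 → Prop)
    (pos : ∀ i, 0 < (α i).det) (hα : ∀ i, P (α i))
    (hright : ∀ M (g : Γ₂), P M → P (M * mcoe g))
    (cover : ∀ M, P M → ∃ (i : ι) (g : Γ₁), M = mcoe g * α i)
    (inj : ∀ (i j : ι) (g : Γ₁), α i = mcoe g * α j → i = j) : CosetSys Γ₁ Γ₂ ι where
  α := α
  pos := pos
  exists_perm γ i := cover _ (hright _ γ (hα i))
  inj := inj

/-- Adjointness from sets exchanged by the adjugate. -/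
theorem isAdjointPair_of_sets {Γ₁ Γ₂ : Subgroup SL(2, ℤ)} {ι κ : Type*}
    (S : CosetSys Γ₁ Γ₂ ι) (T : CosetSys Γ₂ Γ₁ κ) (P Q : Mat2 → Prop)
    (hS : ∀ i, P (S.α i)) (hT : ∀ j, Q (T.α j))
    (coverS : ∀ M, P M → ∃ (i : ι) (g : Γ₁), M = mcoe g * S.α i)
    (coverT : ∀ M, Q M → ∃ (j : κ) (g : Γ₂), M = mcoe g * T.α j)
    (hPQ : ∀ M, P M → Q M.adjugate) (hQP : ∀ M, Q M → P M.adjugate)
    (hQright : ∀ M (g : Γ₁), Q M → Q (M * mcoe g))
    (hQleft : ∀ M (g : Γ₂), Q M → Q (mcoe g * M)) : IsAdjointPair S T where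
  left i h := coverT _ (hQright _ h (hPQ _ (hS i)))
  right j k := by
    obtain ⟨i, g, hg⟩ := coverS _ (hQP _ (hQleft _ k (hT j)))
    refine ⟨i, g⁻¹, ?_⟩
    have h2 := congrArg Matrix.adjugate hg
    rw [adjugate_adjugate_two, Matrix.adjugate_mul_distrib,
      ← Matrix.SpecialLinearGroup.coe_inv] at h2
    rw [h2]
    rfl

/-! ## `T_ℓ` -/

/-- Representatives for `T_ℓ`. -/
def zRep (ℓ : ℕ) (x : OnePoint (ZMod ℓ)) : Mat2 :=
  x.elim !![(ℓ : ℤ), 0; 0, 1] (fun j => !![1, (j.val : ℤ); 0, (ℓ : ℤ)])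

theorem zRep_infty (ℓ : ℕ) : zRep ℓ OnePoint.infty = !![(ℓ : ℤ), 0; 0, 1] := rfl

theorem zRep_coe (ℓ : ℕ) (j : ZMod ℓ) :
    zRep ℓ (j : OnePoint (ZMod ℓ)) = !![1, (j.val : ℤ); 0, (ℓ : ℤ)] := rfl

theorem det_zRep (ℓ : ℕ) (x : OnePoint (ZMod ℓ)) : (zRep ℓ x).det = ℓ := by
  induction x using OnePoint.rec with
  | infty => simp [zRep_infty]
  | coe j => simp [zRep_coe]

/-- Matrices of determinant `ℓ` with lower left entry divisible by `M`. -/
def heckeSet (M ℓ : ℕ) (A : Mat2) : Prop := A.det = ℓ ∧ (M : ℤ) ∣ A 1 0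

theorem heckeSet_mul_right {M ℓ : ℕ} {A : Mat2} (g : Gamma0 M) (h : heckeSet M ℓ A) :
    heckeSet M ℓ (A * mcoe g) := by
  refine ⟨by rw [Matrix.det_mul, h.1, mcoe_det, mul_one], ?_⟩
  rw [Matrix.mul_apply, Fin.sum_univ_two]
  exact dvd_add (dvd_mul_of_dvd_left h.2 _) (dvd_mul_of_dvd_right (mem_Gamma0_iff.mp g.2) _)

theorem heckeSet_mul_left {M ℓ : ℕ} {A : Mat2} (g : Gamma0 M) (h : heckeSet M ℓ A) :
    heckeSet M ℓ (mcoe g * A) := by
  refine ⟨by rw [Matrix.det_mul, h.1, mcoe_det, one_mul], ?_⟩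
  rw [Matrix.mul_apply, Fin.sum_univ_two]
  exact dvd_add (dvd_mul_of_dvd_left (mem_Gamma0_iff.mp g.2) _) (dvd_mul_of_dvd_right h.2 _)

theorem heckeSet_adjugate {M ℓ : ℕ} {A : Mat2} (h : heckeSet M ℓ A) :
    heckeSet M ℓ A.adjugate := by
  refine ⟨by rw [Matrix.det_adjugate, Fintype.card_fin, pow_one, h.1], ?_⟩
  simpa [Matrix.adjugate_fin_two] using h.2

theorem heckeSet_zRep (M ℓ : ℕ) (x : OnePoint (ZMod ℓ)) : heckeSet M ℓ (zRep ℓ x) := by
  refine ⟨det_zRep ℓ x, ?_⟩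
  induction x using OnePoint.rec with
  | infty => simp [zRep_infty]
  | coe j => simp [zRep_coe]

theorem heckeSet_cover {M ℓ : ℕ} (hℓ : ℓ.Prime) (hℓM : ¬ℓ ∣ M) (A : Mat2) (hA : heckeSet M ℓ A) :
    ∃ (x : OnePoint (ZMod ℓ)) (g : Gamma0 M), A = mcoe g * zRep ℓ x := by
  have : Fact ℓ.Prime := ⟨hℓ⟩
  have hℓp : Prime (ℓ : ℤ) := Nat.prime_iff_prime_int.mp hℓ
  have hℓ0 : (ℓ : ℤ) ≠ 0 := by exact_mod_cast hℓ.ne_zero
  obtain ⟨hdet, hc⟩ := hA
  rw [Matrix.det_fin_two] at hdet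
  have hcop : IsCoprime (M : ℤ) (ℓ : ℤ) :=
    (hℓp.coprime_iff_not_dvd.mpr (by exact_mod_cast hℓM)).symm
  by_cases hcol : (ℓ : ℤ) ∣ A 0 0 ∧ (ℓ : ℤ) ∣ A 1 0
  · obtain ⟨⟨a, ha⟩, ⟨c, hc'⟩⟩ := hcol
    have hdet' : a * A 1 1 - A 0 1 * c = 1 := by
      refine mul_left_cancel₀ hℓ0 ?_
      rw [ha, hc'] at hdet
      linear_combination hdet
    refine ⟨OnePoint.infty, ⟨slMk a (A 0 1) c (A 1 1) hdet',
      slMk_mem _ (hcop.dvd_of_dvd_mul_left (hc' ▸ hc))⟩, ?_⟩
    ext i j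
    fin_cases i <;> fin_cases j <;> simp [zRep_infty, ha, hc', mul_comm]
  · obtain ⟨j, hj0, hj1⟩ : ∃ j : ZMod ℓ,
        (A 0 1 : ZMod ℓ) = j * (A 0 0 : ZMod ℓ) ∧ (A 1 1 : ZMod ℓ) = j * (A 1 0 : ZMod ℓ) := by
      have hz := congrArg (fun t : ℤ => (t : ZMod ℓ)) hdet
      push_cast at hz
      rw [ZMod.natCast_self] at hz
      by_cases h0 : (A 0 0 : ZMod ℓ) = 0
      · have h1 : (A 1 0 : ZMod ℓ) ≠ 0 := fun h1 =>
          hcol ⟨(ZMod.intCast_zmod_eq_zero_iff_dvd _ _).mp h0,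
            (ZMod.intCast_zmod_eq_zero_iff_dvd _ _).mp h1⟩
        refine ⟨(A 1 1 : ZMod ℓ) / (A 1 0 : ZMod ℓ), ?_, (div_mul_cancel₀ _ h1).symm⟩
        rw [h0, zero_mul, zero_sub, neg_eq_zero] at hz
        rw [h0, mul_zero]
        exact (mul_eq_zero.mp hz).resolve_right h1
      · refine ⟨(A 0 1 : ZMod ℓ) / (A 0 0 : ZMod ℓ), (div_mul_cancel₀ _ h0).symm, ?_⟩
        field_simp
        linear_combination hz
    obtain ⟨b, hb⟩ : (ℓ : ℤ) ∣ A 0 1 - A 0 0 * j.val := by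
      rw [← ZMod.intCast_zmod_eq_zero_iff_dvd]; push_cast
      rw [ZMod.natCast_zmod_val, hj0]; ring
    obtain ⟨d, hd⟩ : (ℓ : ℤ) ∣ A 1 1 - A 1 0 * j.val := by
      rw [← ZMod.intCast_zmod_eq_zero_iff_dvd]; push_cast
      rw [ZMod.natCast_zmod_val, hj1]; ring
    have hdet' : A 0 0 * d - b * A 1 0 = 1 := by
      refine mul_left_cancel₀ hℓ0 ?_
      linear_combination hdet - A 0 0 * hd + A 1 0 * hb
    refine ⟨(j : OnePoint (ZMod ℓ)), ⟨slMk (A 0 0) b (A 1 0) d hdet', slMk_mem _ hc⟩, ?_⟩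
    rw [zRep_coe, mcoe_slMk]
    ext i k
    fin_cases i <;> fin_cases k <;> simp [-ZMod.natCast_val] <;> linarith

theorem zRep_inj {ℓ : ℕ} (hℓ : ℓ.Prime) {x y : OnePoint (ZMod ℓ)} {g : SL(2, ℤ)}
    (h : zRep ℓ x = mcoe g * zRep ℓ y) : x = y := by
  have : NeZero ℓ := ⟨hℓ.ne_zero⟩
  have hℓ1 : ¬(ℓ : ℤ) ∣ 1 := fun hd =>
    hℓ.one_lt.ne' (by exact_mod_cast Int.eq_one_of_dvd_one (by positivity) hd)
  have e00 := congrFun (congrFun h 0) 0
  have e01 := congrFun (congrFun h 0) 1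
  have e10 := congrFun (congrFun h 1) 0
  have e11 := congrFun (congrFun h 1) 1
  simp only [Matrix.mul_apply, Fin.sum_univ_two] at e00 e01 e10 e11
  induction x using OnePoint.rec with
  | infty =>
    induction y using OnePoint.rec with
    | infty => rfl
    | coe k =>
      simp [zRep_infty, zRep_coe, -ZMod.natCast_val] at e10 e11
      rw [e10.symm, zero_mul, zero_add] at e11
      exact absurd ⟨g 1 1, by rw [mul_comm]; exact e11⟩ hℓ1
  | coe j =>
    induction y using OnePoint.rec with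
    | infty =>
      simp [zRep_infty, zRep_coe, -ZMod.natCast_val] at e00
      exact absurd ⟨g 0 0, by rw [mul_comm]; exact e00⟩ hℓ1
    | coe k =>
      simp [zRep_coe, -ZMod.natCast_val] at e00 e01
      have h2 := congrArg (fun t : ℤ => (t : ZMod ℓ)) e01
      simp [← e00, -ZMod.natCast_val] at h2
      rw [ZMod.natCast_zmod_val, ZMod.natCast_zmod_val] at h2
      rw [h2]

/-- The family of `T_ℓ`. -/
def heckeSys (M ℓ : ℕ) [hℓ : Fact ℓ.Prime] (hℓM : ¬ℓ ∣ M) :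
    CosetSys (Gamma0 M) (Gamma0 M) (OnePoint (ZMod ℓ)) :=
  CosetSys.ofCover (zRep ℓ) (heckeSet M ℓ)
    (fun x => by rw [det_zRep]; exact_mod_cast hℓ.out.pos)
    (heckeSet_zRep M ℓ) (fun _ g h => heckeSet_mul_right g h) (heckeSet_cover hℓ.out hℓM)
    (fun _ _ _ h => zRep_inj hℓ.out h)

theorem heckeSys_α (M ℓ : ℕ) [Fact ℓ.Prime] (hℓM : ¬ℓ ∣ M) : (heckeSys M ℓ hℓM).α = zRep ℓ := rfl

/-- `T_ℓ` is its own adjoint. -/
theorem heckeSys_adjoint (M ℓ : ℕ) [hℓ : Fact ℓ.Prime] (hℓM : ¬ℓ ∣ M) :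
    IsAdjointPair (heckeSys M ℓ hℓM) (heckeSys M ℓ hℓM) :=
  isAdjointPair_of_sets _ _ (heckeSet M ℓ) (heckeSet M ℓ) (heckeSet_zRep M ℓ) (heckeSet_zRep M ℓ)
    (heckeSet_cover hℓ.out hℓM) (heckeSet_cover hℓ.out hℓM) (fun _ => heckeSet_adjugate)
    (fun _ => heckeSet_adjugate) (fun _ g h => heckeSet_mul_right g h)
    (fun _ g h => heckeSet_mul_left g h)

open P2MW.S_ModularForm_heckeT_slash_eq_self_of_mem_Gamma0.ModularForm.HeckeSlashInvariance
  (heckeRep)

theorem rGL_zRep {ℓ : ℕ} (hℓ : ℓ ≠ 0) (x : OnePoint (ZMod ℓ)) :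
    rGL (zRep ℓ x) = heckeRep ℓ x := by
  have hne : (zRep ℓ x).det ≠ 0 := by rw [det_zRep]; exact_mod_cast hℓ
  ext i j
  rw [rGL_apply hne]
  induction x using OnePoint.rec with
  | infty =>
    show _ = (ModularForm.heckeDiagMatrix ℓ : GL (Fin 2) ℝ) i j
    fin_cases i <;> fin_cases j <;> simp [zRep_infty, ModularForm.val_heckeDiagMatrix hℓ]
  | coe k =>
    show _ = (ModularForm.heckeMatrix ℓ k.val : GL (Fin 2) ℝ) i j
    fin_cases i <;> fin_cases j <;>
      simp [zRep_coe, ModularForm.val_heckeMatrix hℓ, -ZMod.natCast_val]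

/-- The family of `T_ℓ` defines the Hecke operator on homomorphisms. -/
theorem heckeSys_op_eq {M ℓ : ℕ} [hℓ : Fact ℓ.Prime] (hℓM : ¬ℓ ∣ M)
    {R : Type*} [Semiring R] {A : Type*} [AddCommGroup A] [Module R A]
    (φ : Additive (Gamma0 M) →+ A) :
    (heckeSys M ℓ hℓM).op R A φ = Periods.heckeTHom R A hℓ.out hℓM φ := by
  have : NeZero ℓ := ⟨hℓ.out.ne_zero⟩
  refine AddMonoidHom.ext fun γ => ?_
  obtain ⟨γ, rfl⟩ := Additive.ofMul.surjective γ
  symm
  refine (Periods.isCosetFamily_heckeT hℓM).transfer_apply_of_eq φ γ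
    ((heckeSys M ℓ hℓM).idx γ) ((heckeSys M ℓ hℓM).cof γ) fun i => ?_
  rw [← rGL_zRep hℓ.out.ne_zero, ← rGL_zRep hℓ.out.ne_zero, Periods.toGLR, Periods.toGLR,
    ← rGL_mcoe, ← rGL_mcoe,
    ← rGL_mul (by rw [det_zRep]; exact_mod_cast hℓ.out.ne_zero) (by simp),
    ← rGL_mul (by simp) (by rw [det_zRep]; exact_mod_cast hℓ.out.ne_zero)]
  exact congrArg rGL ((heckeSys M ℓ hℓM).mul_eq γ i)

/-! ## Between levels `N` and `N q` -/

variable (N q : ℕ) [hq : Fact q.Prime] (hqN : ¬q ∣ N)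

/-- Matrices of determinant one with lower left entry divisible by `N`. -/
def unitSet (A : Mat2) : Prop := A.det = 1 ∧ (N : ℤ) ∣ A 1 0

omit hq in
theorem unitSet_exists {A : Mat2} (h : unitSet N A) : ∃ g : Gamma0 N, A = mcoe g :=
  ⟨⟨⟨A, h.1⟩, mem_Gamma0_iff.mpr h.2⟩, rfl⟩

omit hq in
theorem unitSet_mcoe {M : ℕ} (hNM : N ∣ M) (g : Gamma0 M) : unitSet N (mcoe g) :=
  ⟨mcoe_det _, (Int.natCast_dvd_natCast.mpr hNM).trans (mem_Gamma0_iff.mp g.2)⟩

omit hq in
theorem unitSet_mul {A B : Mat2} (hA : unitSet N A) (hB : unitSet N B) : unitSet N (A * B) := by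
  refine ⟨by rw [Matrix.det_mul, hA.1, hB.1, one_mul], ?_⟩
  rw [Matrix.mul_apply, Fin.sum_univ_two]
  exact dvd_add (dvd_mul_of_dvd_left hA.2 _) (dvd_mul_of_dvd_right hB.2 _)

omit hq in
theorem unitSet_adjugate {A : Mat2} (hA : unitSet N A) : unitSet N A.adjugate := by
  refine ⟨by rw [Matrix.det_adjugate, hA.1, one_pow], ?_⟩
  simpa [Matrix.adjugate_fin_two] using hA.2

/-- Restriction from level `N` to level `N q`. -/
def resSys : CosetSys (Gamma0 N) (Gamma0 (N * q)) Unit :=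
  CosetSys.ofCover (fun _ => 1) (unitSet N) (fun _ => by simp) (fun _ => ⟨by simp, by simp⟩)
    (fun _ g h => unitSet_mul N h (unitSet_mcoe N (dvd_mul_right N q) g))
    (fun A h => by obtain ⟨g, rfl⟩ := unitSet_exists N h; exact ⟨(), g, (mul_one _).symm⟩)
    (fun _ _ _ _ => rfl)

/-- A Bézout pair `q x - N y = 1`. -/
def bezout : ℤ × ℤ := (Nat.gcdA q N, -Nat.gcdB q N)

theorem bezout_spec : (q : ℤ) * (bezout N q).1 - (N : ℤ) * (bezout N q).2 = 1 ↔ ¬q ∣ N := by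
  have h := Nat.gcd_eq_gcd_ab q N
  constructor
  · intro h1 h2
    simp only [bezout] at h1
    have : (q : ℤ) ∣ 1 := by
      rw [← h1]
      exact dvd_sub (dvd_mul_right _ _) (dvd_mul_of_dvd_left (Int.natCast_dvd_natCast.mpr h2) _)
    exact hq.out.one_lt.ne' (by exact_mod_cast Int.eq_one_of_dvd_one (by positivity) this)
  · intro h1
    rw [(hq.out.coprime_iff_not_dvd.mpr h1).gcd_eq_one] at h
    simp only [bezout]
    push_cast at h
    linarith

theorem bezout_eq (hqN : ¬q ∣ N) : (q : ℤ) * (bezout N q).1 - (N : ℤ) * (bezout N q).2 = 1 :=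
  (bezout_spec N q).mpr hqN

/-- Representatives of `Γ₀(N q) \ Γ₀(N)`. -/
def corRep (x : OnePoint (ZMod q)) : SL(2, ℤ) :=
  x.elim (1 : SL(2, ℤ)) (fun j : ZMod q =>
    slMk (bezout N q).1 ((bezout N q).1 * (j.val : ℤ) + (bezout N q).2) (N : ℤ)
      ((N : ℤ) * (j.val : ℤ) + (q : ℤ)) (by linear_combination bezout_eq N q hqN))

theorem corRep_infty : corRep N q hqN OnePoint.infty = 1 := rfl

theorem corRep_coe (j : ZMod q) : mcoe (corRep N q hqN (j : OnePoint (ZMod q)))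
    = !![(bezout N q).1, (bezout N q).1 * (j.val : ℤ) + (bezout N q).2;
        (N : ℤ), (N : ℤ) * (j.val : ℤ) + (q : ℤ)] := rfl

include hqN

theorem corRep_mem (x : OnePoint (ZMod q)) : corRep N q hqN x ∈ Gamma0 N := by
  induction x using OnePoint.rec with
  | infty => exact one_mem _
  | coe j =>
    rw [mem_Gamma0_iff]
    simp [corRep_coe]

theorem corRep_cover (g : Gamma0 N) :
    ∃ (x : OnePoint (ZMod q)) (k : Gamma0 (N * q)), mcoe g = mcoe k * mcoe (corRep N q hqN x) := by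
  have hN0 : (N : ZMod q) ≠ 0 := fun h => hqN ((ZMod.natCast_eq_zero_iff _ _).mp h)
  obtain ⟨c, hc⟩ := mem_Gamma0_iff.mp g.2
  by_cases h : (c : ZMod q) = 0
  · refine ⟨OnePoint.infty, ⟨g, mem_Gamma0_iff.mpr ?_⟩, ?_⟩
    · rw [hc, Nat.cast_mul]
      exact mul_dvd_mul_left _ ((ZMod.intCast_zmod_eq_zero_iff_dvd _ _).mp h)
    · show _ = _ * mcoe 1
      rw [mcoe_one, mul_one]
  · set j : ZMod q := ((g.1 1 1 : ℤ) : ZMod q) / ((c : ZMod q) * (N : ZMod q)) with hj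
    refine ⟨(j : OnePoint (ZMod q)),
      ⟨g.1 * (corRep N q hqN (j : OnePoint (ZMod q)))⁻¹, mem_Gamma0_iff.mpr ?_⟩, ?_⟩
    swap
    · show mcoe g.1 = mcoe (_ * _) * _
      rw [← mcoe_mul, inv_mul_cancel_right]
    have he : (g.1 * (corRep N q hqN (j : OnePoint (ZMod q)))⁻¹) 1 0
        = (N : ℤ) * (c * ((N : ℤ) * j.val + q) - g.1 1 1) := by
      simp [corRep_coe, Matrix.SpecialLinearGroup.coe_mul, Matrix.SpecialLinearGroup.coe_inv,
        Matrix.adjugate_fin_two, Matrix.mul_apply, Fin.sum_univ_two, hc, -ZMod.natCast_val]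
      ring
    rw [he, Nat.cast_mul]
    refine mul_dvd_mul_left _ ((ZMod.intCast_zmod_eq_zero_iff_dvd _ _).mp ?_)
    push_cast
    rw [ZMod.natCast_zmod_val, ZMod.natCast_self, hj, add_zero, ← mul_assoc,
      mul_div_cancel₀ _ (mul_ne_zero h hN0), sub_self]

theorem corRep_inj {x y : OnePoint (ZMod q)}
    (h : corRep N q hqN x * (corRep N q hqN y)⁻¹ ∈ Gamma0 (N * q)) : x = y := by
  have hN0 : (N : ZMod q) ≠ 0 := fun h => hqN ((ZMod.natCast_eq_zero_iff _ _).mp h)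
  have hN : (N : ℤ) ≠ 0 := by
    have : N ≠ 0 := fun h => hqN (h ▸ dvd_zero q)
    exact_mod_cast this
  rw [mem_Gamma0_iff, Nat.cast_mul] at h
  have hno : ∀ e : ℤ, (e = N ∨ e = -N) → ¬(N : ℤ) * q ∣ e := by
    intro e he hd
    have h' : (N : ℤ) * q ∣ (N : ℤ) * 1 := by
      rw [mul_one]; rcases he with rfl | rfl
      · exact hd
      · exact (dvd_neg).mp hd
    have := (mul_dvd_mul_iff_left hN).mp h'
    exact hq.out.one_lt.ne' (by exact_mod_cast Int.eq_one_of_dvd_one (by positivity) this)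
  induction x using OnePoint.rec with
  | infty =>
    induction y using OnePoint.rec with
    | infty => rfl
    | coe k =>
      refine absurd h (hno _ (Or.inr ?_))
      simp [corRep_coe, corRep_infty, Matrix.adjugate_fin_two, Matrix.SpecialLinearGroup.coe_inv]
  | coe j =>
    induction y using OnePoint.rec with
    | infty =>
      refine absurd h (hno _ (Or.inl ?_))
      simp [corRep_coe, corRep_infty]
    | coe k =>
      have he : (corRep N q hqN (j : OnePoint (ZMod q)) *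
          (corRep N q hqN (k : OnePoint (ZMod q)))⁻¹) 1 0
          = (N : ℤ) * ((N : ℤ) * k.val - (N : ℤ) * j.val) := by
        simp [corRep_coe, Matrix.SpecialLinearGroup.coe_mul, Matrix.SpecialLinearGroup.coe_inv,
          Matrix.adjugate_fin_two, Matrix.mul_apply, Fin.sum_univ_two, -ZMod.natCast_val]
        ring
      rw [he, mul_dvd_mul_iff_left hN, ← ZMod.intCast_zmod_eq_zero_iff_dvd] at h
      push_cast at h
      rw [ZMod.natCast_zmod_val, ZMod.natCast_zmod_val, ← mul_sub, mul_eq_zero] at h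
      rcases h with h | h
      · exact absurd h hN0
      · rw [sub_eq_zero.mp h]

/-- Corestriction from level `N q` to level `N`. -/
def corSys : CosetSys (Gamma0 (N * q)) (Gamma0 N) (OnePoint (ZMod q)) :=
  CosetSys.ofCover (fun x => mcoe (corRep N q hqN x)) (unitSet N)
    (fun x => by rw [mcoe_det]; norm_num)
    (fun x => unitSet_mcoe N dvd_rfl ⟨_, corRep_mem N q hqN x⟩)
    (fun _ g h => unitSet_mul N h (unitSet_mcoe N dvd_rfl g))
    (fun A h => by obtain ⟨g, rfl⟩ := unitSet_exists N h; exact corRep_cover N q hqN g)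
    (fun i j g h => corRep_inj N q hqN (by
      rw [← mcoe_mul] at h
      rw [mcoe_injective h, mul_inv_cancel_right]; exact g.2))

/-- Corestriction is adjoint to restriction. -/
theorem res_cor_adjoint : IsAdjointPair (corSys N q hqN) (resSys N q) :=
  isAdjointPair_of_sets _ _ (unitSet N) (unitSet N)
    (fun x => unitSet_mcoe N dvd_rfl ⟨_, corRep_mem N q hqN x⟩)
    (fun _ => ⟨by simp [resSys, CosetSys.ofCover],
      by simp [resSys, CosetSys.ofCover]⟩)
    (fun A h => by obtain ⟨g, rfl⟩ := unitSet_exists N h; exact corRep_cover N q hqN g)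
    (fun A h => by obtain ⟨g, rfl⟩ := unitSet_exists N h; exact ⟨(), g, (mul_one _).symm⟩)
    (fun _ => unitSet_adjugate N) (fun _ => unitSet_adjugate N)
    (fun _ g h => unitSet_mul N h (unitSet_mcoe N (dvd_mul_right N q) g))
    (fun _ g h => unitSet_mul N (unitSet_mcoe N dvd_rfl g) h)

omit hqN

/-- Matrices behind `f ↦ f(qτ)`. -/
def diagSet (A : Mat2) : Prop := A.det = q ∧ (N : ℤ) * q ∣ A 1 0 ∧ (q : ℤ) ∣ A 0 0

/-- The matrix `diag(q, 1)`. -/
def diagMat : Mat2 := !![(q : ℤ), 0; 0, 1]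

omit hq in
theorem diagMat_mem : diagSet N q (diagMat q) :=
  ⟨by simp [diagMat], by simp [diagMat], by simp [diagMat]⟩

theorem diagSet_cover {A : Mat2} (h : diagSet N q A) :
    ∃ (_ : Unit) (g : Gamma0 N), A = mcoe g * diagMat q := by
  obtain ⟨hdet, ⟨c, hc⟩, ⟨a, ha⟩⟩ := h
  have hq0 : (q : ℤ) ≠ 0 := by exact_mod_cast hq.out.ne_zero
  have hdet' : a * A 1 1 - A 0 1 * ((N : ℤ) * c) = 1 := by
    refine mul_left_cancel₀ hq0 ?_
    rw [Matrix.det_fin_two, ha, hc] at hdet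
    linear_combination hdet
  refine ⟨(), ⟨slMk a (A 0 1) (N * c) (A 1 1) hdet', slMk_mem _ (dvd_mul_right _ _)⟩, ?_⟩
  rw [mcoe_slMk]
  ext i j
  fin_cases i <;> fin_cases j <;> simp [diagMat, ha, hc] <;> ring

omit hq in
theorem diagSet_mul_right {A : Mat2} (g : Gamma0 (N * q)) (h : diagSet N q A) :
    diagSet N q (A * mcoe g) := by
  have hg : (N : ℤ) * q ∣ (g.1 1 0) := by simpa using mem_Gamma0_iff.mp g.2
  refine ⟨by rw [Matrix.det_mul, h.1, mcoe_det, mul_one], ?_, ?_⟩ <;>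
    rw [Matrix.mul_apply, Fin.sum_univ_two]
  · exact dvd_add (dvd_mul_of_dvd_left h.2.1 _) (dvd_mul_of_dvd_right hg _)
  · exact dvd_add (dvd_mul_of_dvd_left h.2.2 _)
      (dvd_mul_of_dvd_right ((dvd_mul_left _ _).trans hg) _)

omit hq in
theorem diagSet_mul_left {A : Mat2} (g : Gamma0 N) (h : diagSet N q A) :
    diagSet N q (mcoe g * A) := by
  refine ⟨by rw [Matrix.det_mul, h.1, mcoe_det, one_mul], ?_, ?_⟩ <;>
    rw [Matrix.mul_apply, Fin.sum_univ_two]
  · exact dvd_add (mul_dvd_mul (mem_Gamma0_iff.mp g.2) h.2.2) (dvd_mul_of_dvd_right h.2.1 _)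
  · exact dvd_add (dvd_mul_of_dvd_right h.2.2 _)
      (dvd_mul_of_dvd_right ((dvd_mul_left _ _).trans h.2.1) _)

/-- `f ↦ f(qτ)` from level `N` to level `N q`. -/
def diagSys : CosetSys (Gamma0 N) (Gamma0 (N * q)) Unit :=
  CosetSys.ofCover (fun _ => diagMat q) (diagSet N q)
    (fun _ => by simp [diagMat]; exact_mod_cast hq.out.pos) (fun _ => diagMat_mem N q)
    (fun _ g h => diagSet_mul_right N q g h) (fun _ h => diagSet_cover N q h)
    (fun _ _ _ _ => rfl)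

/-- Matrices behind the Atkin–Lehner involution at `q`. -/
def wSet (A : Mat2) : Prop :=
  A.det = q ∧ (N : ℤ) * q ∣ A 1 0 ∧ (q : ℤ) ∣ A 0 0 ∧ (q : ℤ) ∣ A 1 1

/-- The Atkin–Lehner matrix. -/
def wMat : Mat2 := !![(q : ℤ) * (bezout N q).1, (bezout N q).2; (N : ℤ) * q, (q : ℤ)]

include hqN

theorem det_wMat : (wMat N q).det = q := by
  rw [wMat, Matrix.det_fin_two_of]
  linear_combination (q : ℤ) * bezout_eq N q hqN

theorem wMat_mem : wSet N q (wMat N q) :=
  ⟨det_wMat N q hqN, by simp [wMat], by simp [wMat], by simp [wMat]⟩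

theorem wSet_cover {A : Mat2} (h : wSet N q A) :
    ∃ (_ : Unit) (g : Gamma0 (N * q)), A = mcoe g * wMat N q := by
  obtain ⟨hdet, ⟨c, hc⟩, ⟨a, ha⟩, ⟨d, hd⟩⟩ := h
  have hq0 : (q : ℤ) ≠ 0 := by exact_mod_cast hq.out.ne_zero
  have hb := bezout_eq N q hqN
  set x := (bezout N q).1
  set y := (bezout N q).2
  rw [Matrix.det_fin_two, ha, hc, hd] at hdet
  have hdet' : (q : ℤ) * (a * d) - (N : ℤ) * c * A 0 1 = 1 := by
    refine mul_left_cancel₀ hq0 ?_
    linear_combination hdet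
  have hgdet : ((q : ℤ) * a - N * A 0 1) * (q * x * d - N * c * y)
      - (-(y * a) + x * A 0 1) * ((N : ℤ) * q * (c - d)) = 1 := by
    linear_combination ((q : ℤ) * x - (N : ℤ) * y) * hdet' + hb
  refine ⟨(), ⟨slMk _ _ _ _ hgdet,
    slMk_mem _ (by rw [Nat.cast_mul]; exact dvd_mul_right _ _)⟩, ?_⟩
  rw [mcoe_slMk, wMat]
  ext i j
  fin_cases i <;> fin_cases j <;> simp [ha, hc, hd]
  · linear_combination -((q : ℤ) * a) * hb
  · linear_combination -(A 0 1) * hb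
  · linear_combination -((N : ℤ) * q * c) * hb
  · linear_combination -((q : ℤ) * d) * hb

omit hqN hq in
theorem wSet_mul_right {A : Mat2} (g : Gamma0 (N * q)) (h : wSet N q A) :
    wSet N q (A * mcoe g) := by
  have hg : (N : ℤ) * q ∣ (g.1 1 0) := by simpa using mem_Gamma0_iff.mp g.2
  refine ⟨by rw [Matrix.det_mul, h.1, mcoe_det, mul_one], ?_, ?_, ?_⟩ <;>
    rw [Matrix.mul_apply, Fin.sum_univ_two]
  · exact dvd_add (dvd_mul_of_dvd_left h.2.1 _) (dvd_mul_of_dvd_right hg _)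
  · exact dvd_add (dvd_mul_of_dvd_left h.2.2.1 _)
      (dvd_mul_of_dvd_right ((dvd_mul_left _ _).trans hg) _)
  · exact dvd_add (dvd_mul_of_dvd_left ((dvd_mul_left _ _).trans h.2.1) _)
      (dvd_mul_of_dvd_left h.2.2.2 _)

/-- The Atkin–Lehner involution at `q`. -/
def wSys : CosetSys (Gamma0 (N * q)) (Gamma0 (N * q)) Unit :=
  CosetSys.ofCover (fun _ => wMat N q) (wSet N q)
    (fun _ => by rw [det_wMat N q hqN]; exact_mod_cast hq.out.pos) (fun _ => wMat_mem N q hqN)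
    (fun _ g h => wSet_mul_right N q g h) (fun _ h => wSet_cover N q hqN h)
    (fun _ _ _ _ => rfl)

/-- Matrices behind the second trace. -/
def traceSet (A : Mat2) : Prop := A.det = q ∧ (N : ℤ) * q ∣ A 1 0 ∧ (q : ℤ) ∣ A 1 1

/-- The second trace, from level `N q` to level `N`. -/
def traceSys : CosetSys (Gamma0 (N * q)) (Gamma0 N) (Unit × OnePoint (ZMod q)) :=
  (wSys N q hqN).prod (corSys N q hqN) fun i i' k k' g h => by
    have h' : wMat N q * mcoe (corRep N q hqN k)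
        = mcoe g * (wMat N q * mcoe (corRep N q hqN k')) := h
    have e : mcoe g * wMat N q = wMat N q * mcoe (corRep N q hqN k * (corRep N q hqN k')⁻¹) := by
      rw [mcoe_mul, ← mul_assoc, h', ← mul_assoc, mul_assoc (mcoe g * wMat N q), ← mcoe_mul,
        mul_inv_cancel, mcoe_one, mul_one]
    -- the conjugate lies in `Γ₀(N q)`
    set m := corRep N q hqN k * (corRep N q hqN k')⁻¹ with hm
    have hmem : m ∈ Gamma0 (N * q) := by
      obtain ⟨c0, hc0⟩ := mem_Gamma0_iff.mp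
        (show m ∈ Gamma0 N from mul_mem (corRep_mem N q hqN k) (inv_mem (corRep_mem N q hqN k')))
      have hg : (N : ℤ) * q ∣ (g.1 1 0) := by simpa using mem_Gamma0_iff.mp g.2
      obtain ⟨c1, hc1⟩ := hg
      have e00 := congrFun (congrFun e 0) 0
      simp [wMat, Matrix.mul_apply, Fin.sum_univ_two, hc0] at e00
      have hdvd : (q : ℤ) ∣ (bezout N q).2 * ((N : ℤ) * c0) :=
        ⟨g.1 0 0 * (bezout N q).1 + g.1 0 1 * N - (bezout N q).1 * m 0 0,
          by linear_combination -e00⟩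
      have hb := bezout_eq N q hqN
      have hq' : (q : ℤ) ∣ c0 := by
        have h2 : (q : ℤ) ∣ c0 * ((q : ℤ) * (bezout N q).1 - (N : ℤ) * (bezout N q).2) := by
          rw [mul_sub]
          refine dvd_sub (dvd_mul_of_dvd_right (dvd_mul_right _ _) _) ?_
          rw [show c0 * ((N : ℤ) * (bezout N q).2) = (bezout N q).2 * ((N : ℤ) * c0) by ring]
          exact hdvd
        rwa [hb, mul_one] at h2
      rw [mem_Gamma0_iff, hc0, Nat.cast_mul]
      exact mul_dvd_mul_left _ hq'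
    have := corRep_inj N q hqN hmem
    cases i; cases i'; rw [this]

/-- The second trace is adjoint to `f ↦ f(qτ)`. -/
theorem diag_trace_adjoint : IsAdjointPair (traceSys N q hqN) (diagSys N q) := by
  refine isAdjointPair_of_sets _ _ (traceSet N q) (diagSet N q) ?_ (fun _ => diagMat_mem N q) ?_
    (fun A h => diagSet_cover N q h) ?_ ?_ (fun _ g h => diagSet_mul_right N q g h)
    (fun _ g h => diagSet_mul_left N q g h)
  · rintro ⟨⟨⟩, x⟩
    show traceSet N q (wMat N q * mcoe (corRep N q hqN x))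
    obtain ⟨hd, hc, -, hdd⟩ := wMat_mem N q hqN
    have hg := mem_Gamma0_iff.mp (corRep_mem N q hqN x)
    refine ⟨by rw [Matrix.det_mul, hd, mcoe_det, mul_one], ?_, ?_⟩ <;>
      rw [Matrix.mul_apply, Fin.sum_univ_two]
    · refine dvd_add (dvd_mul_of_dvd_left hc _) ?_
      rw [mul_comm (N : ℤ)]; exact mul_dvd_mul hdd hg
    · exact dvd_add (dvd_mul_of_dvd_left ((dvd_mul_left _ _).trans hc) _)
        (dvd_mul_of_dvd_left hdd _)
  · rintro A ⟨hdet, ⟨c, hc⟩, ⟨d, hd⟩⟩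
    have hq0 : (q : ℤ) ≠ 0 := by exact_mod_cast hq.out.ne_zero
    have hb := bezout_eq N q hqN
    rw [Matrix.det_fin_two, hc, hd] at hdet
    have hdet' : A 0 0 * d - A 0 1 * ((N : ℤ) * c) = 1 := by
      refine mul_left_cancel₀ hq0 ?_
      linear_combination hdet
    set x := (bezout N q).1
    set y := (bezout N q).2
    have hgdet : (A 0 0 - (N : ℤ) * y * c) * (q * x * d - N * A 0 1)
        - (A 0 1 - y * d) * ((N : ℤ) * (q * x * c - A 0 0)) = 1 := by
      linear_combination ((q : ℤ) * x - (N : ℤ) * y) * hdet' + hb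
    obtain ⟨k, g, hg⟩ := corRep_cover N q hqN
      ⟨slMk _ _ _ _ hgdet, slMk_mem _ (dvd_mul_right _ _)⟩
    obtain ⟨-, g', hg'⟩ := wSet_cover N q hqN (wSet_mul_right N q g (wMat_mem N q hqN))
    refine ⟨((), k), g', ?_⟩
    show A = mcoe g' * (wMat N q * mcoe (corRep N q hqN k))
    rw [← mul_assoc, ← hg', mul_assoc, ← hg, mcoe_slMk, wMat]
    ext i j
    fin_cases i <;> fin_cases j <;> simp [hc, hd]
    · linear_combination -(A 0 0) * hb
    · linear_combination -(A 0 1) * hb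
    · linear_combination -((N : ℤ) * q * c) * hb
    · linear_combination -((q : ℤ) * d) * hb
  · rintro A ⟨h1, h2, h3⟩
    refine ⟨by rw [Matrix.det_adjugate, Fintype.card_fin, pow_one, h1], ?_, ?_⟩
    · simpa [Matrix.adjugate_fin_two] using h2
    · simpa [Matrix.adjugate_fin_two] using h3
  · rintro A ⟨h1, h2, h3⟩
    refine ⟨by rw [Matrix.det_adjugate, Fintype.card_fin, pow_one, h1], ?_, ?_⟩
    · simpa [Matrix.adjugate_fin_two] using h2
    · simpa [Matrix.adjugate_fin_two] using h3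

omit hqN

/-- Representatives for `U_q`. -/
def uRep (j : ZMod q) : Mat2 := !![1, (j.val : ℤ); 0, (q : ℤ)]

theorem uRep_exists_perm (γ : Gamma0 (N * q)) (x : ZMod q) :
    ∃ (y : ZMod q) (g : Gamma0 (N * q)), uRep q x * mcoe γ = mcoe g * uRep q y := by
  have hq0 : (q : ℤ) ≠ 0 := by exact_mod_cast hq.out.ne_zero
  obtain ⟨c, hc⟩ := mem_Gamma0_iff.mp γ.2
  rw [Nat.cast_mul] at hc
  have hdet : γ.1 0 0 * γ.1 1 1 - γ.1 0 1 * γ.1 1 0 = 1 := by
    rw [← Matrix.det_fin_two]; exact γ.1.2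
  have hd1 : (γ.1 0 0 : ZMod q) * (γ.1 1 1 : ZMod q) = 1 := by
    have := congrArg (fun t : ℤ => (t : ZMod q)) hdet
    rw [hc] at this
    push_cast at this
    simpa using this
  obtain ⟨y, hy⟩ : ∃ y : ZMod q, y * (γ.1 0 0 : ZMod q)
      = (γ.1 0 1 : ZMod q) + x * (γ.1 1 1 : ZMod q) :=
    ⟨((γ.1 0 1 : ZMod q) + x * (γ.1 1 1 : ZMod q)) * (γ.1 1 1 : ZMod q), by
      rw [mul_assoc, mul_comm (γ.1 1 1 : ZMod q), hd1, mul_one]⟩
  set a' := γ.1 0 0 + (x.val : ℤ) * ((N : ℤ) * q * c) with ha'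
  obtain ⟨b', hb'⟩ : (q : ℤ) ∣ γ.1 0 1 + (x.val : ℤ) * γ.1 1 1 - a' * (y.val : ℤ) := by
    rw [← ZMod.intCast_zmod_eq_zero_iff_dvd, ha']
    push_cast
    rw [ZMod.natCast_zmod_val, ZMod.natCast_zmod_val, ZMod.natCast_self]
    linear_combination -hy
  set c' := (N : ℤ) * q * (q * c) with hc'
  set d' := γ.1 1 1 - (N : ℤ) * q * c * (y.val : ℤ) with hd'
  have hdet' : a' * d' - b' * c' = 1 := by
    rw [hc] at hdet
    rw [ha', hc', hd']
    linear_combination hdet + ((N : ℤ) * q * c) * hb'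
  refine ⟨y, ⟨slMk a' b' c' d' hdet', slMk_mem _ (by rw [Nat.cast_mul]; exact dvd_mul_right _ _)⟩,
    ?_⟩
  rw [mcoe_slMk, uRep, uRep]
  ext i j
  fin_cases i <;> fin_cases j <;>
    simp [Matrix.mul_apply, Fin.sum_univ_two, hc, -ZMod.natCast_val]
  · rw [ha']
  · linear_combination hb'
  · rw [hc']; ring
  · rw [hc', hd']; ring

/-- The family of `U_q` at level `N q`. -/
def uSys : CosetSys (Gamma0 (N * q)) (Gamma0 (N * q)) (ZMod q) where
  α := uRep q
  pos j := by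
    have : (uRep q j).det = q := by simp [uRep]
    rw [this]; exact_mod_cast hq.out.pos
  exists_perm := uRep_exists_perm N q
  inj i j g h := by
    have : zRep q (i : OnePoint (ZMod q)) = mcoe g * zRep q (j : OnePoint (ZMod q)) := h
    exact OnePoint.coe_injective (zRep_inj hq.out this)

/-- The family of `U_q` defines the Hecke operator on homomorphisms. -/
theorem uSys_op_eq [NeZero N] {R : Type*} [Semiring R] {A : Type*} [AddCommGroup A] [Module R A]
    (φ : Additive (Gamma0 (N * q)) →+ A) :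
    (uSys N q).op R A φ
      = haveI : NeZero (N * q) := ⟨mul_ne_zero (NeZero.ne N) hq.out.ne_zero⟩
        Periods.heckeUHom R A (dvd_mul_left q N) φ := by
  have : NeZero q := ⟨hq.out.ne_zero⟩
  refine AddMonoidHom.ext fun γ => ?_
  obtain ⟨γ, rfl⟩ := Additive.ofMul.surjective γ
  symm
  refine (Periods.isCosetFamily_heckeU (dvd_mul_left q N)).transfer_apply_of_eq φ γ
    ((uSys N q).idx γ) ((uSys N q).cof γ) fun i => ?_
  show ModularForm.heckeMatrix q i.val * _ = _ * ModularForm.heckeMatrix q _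
  have e : ∀ j : ZMod q, ModularForm.heckeMatrix q j.val = rGL (uRep q j) := fun j =>
    (rGL_zRep hq.out.ne_zero (j : OnePoint (ZMod q))).symm
  rw [e, e, Periods.toGLR, Periods.toGLR, ← rGL_mcoe, ← rGL_mcoe,
    ← rGL_mul (by simp [uRep]; exact_mod_cast hq.out.ne_zero) (by simp),
    ← rGL_mul (by simp) (by simp [uRep]; exact_mod_cast hq.out.ne_zero)]
  exact congrArg rGL ((uSys N q).mul_eq γ i)

end Fermat.Agent.Ihara
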