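import Fermat.Agent.Ihara.Triangle
import Fermat.Agent.Cosets.ParEllHoms

/-!
# The intersection pairing on a subgroup of `SL(2, ℤ)`

`cycleHom Γ γ : Γ → ℤ` is the intersection number of the cycle of `γ` with the cycle of the
argument, computed by counting crossings of geodesics.

## Main results

* `crossing_triangle`: additivity in the endpoints of the geodesic.
* `cycleHom_mul`, `cycleMap`: the pairing is bilinear.
* `cycleHom_mem_parEll_of_le`: below `Γ₀(N)`, `2 ≤ N`, it kills elliptic and parabolic elements.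
-/

set_option autoImplicit false

noncomputable section

namespace Fermat.Agent.Ihara

open Matrix UpperHalfPlane CongruenceSubgroup
open scoped MatrixGroups

variable (Γ : Subgroup SL(2, ℤ))

/-- Signed number of `Γ`-translates of the geodesic from `u` to `v` crossed between `z` and `z'`,
counted with multiplicity `2`. -/
def crossing (u v : Fin 2 → ℤ) (z z' : ℍ) : ℤ :=
  ∑ᶠ h : Γ, (wind (rvec u) (rvec v) ((h : SL(2, ℤ)) • z')
    - wind (rvec u) (rvec v) ((h : SL(2, ℤ)) • z))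

theorem crossing_support_finite (u v : Fin 2 → ℤ) (z z' : ℍ) :
    (Function.support fun h : Γ => (wind (rvec u) (rvec v) ((h : SL(2, ℤ)) • z')
      - wind (rvec u) (rvec v) ((h : SL(2, ℤ)) • z))).Finite :=
  ((finite_wind_ne u v z z').preimage Subtype.val_injective.injOn).subset fun _ hh =>
    fun he => hh (sub_eq_zero.mpr he)

theorem crossing_trans (u v : Fin 2 → ℤ) (z z' z'' : ℍ) :
    crossing Γ u v z z' + crossing Γ u v z' z'' = crossing Γ u v z z'' := by
  rw [crossing, crossing, crossing, ← finsum_add_distrib (crossing_support_finite Γ u v z z')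
    (crossing_support_finite Γ u v z' z'')]
  exact finsum_congr fun h => by ring

theorem crossing_smul_pts (u v : Fin 2 → ℤ) (z z' : ℍ) (γ : Γ) :
    crossing Γ u v ((γ : SL(2, ℤ)) • z) ((γ : SL(2, ℤ)) • z') = crossing Γ u v z z' := by
  rw [crossing, crossing]
  refine Eq.trans (finsum_congr fun h => ?_) (finsum_comp_equiv (Equiv.mulRight γ))
  simp [mul_smul]

theorem crossing_zmv (u v : Fin 2 → ℤ) (z z' : ℍ) (γ : Γ) :
    crossing Γ (zmv γ u) (zmv γ v) z z' = crossing Γ u v z z' := by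
  rw [crossing, crossing]
  refine Eq.trans (finsum_congr fun h => ?_) (finsum_comp_equiv (Equiv.mulLeft γ⁻¹))
  have key : ∀ w : ℍ, wind (rvec (zmv γ u)) (rvec (zmv γ v)) w
      = wind (rvec u) (rvec v) (((γ : SL(2, ℤ))⁻¹) • w) := fun w => by
    rw [wind_smul_SL (γ : SL(2, ℤ))⁻¹, inv_inv]
  simp only [key, Equiv.coe_mulLeft, Subgroup.coe_mul, Subgroup.coe_inv, mul_smul]

theorem crossing_swap (u v : Fin 2 → ℤ) (z z' : ℍ) :
    crossing Γ v u z z' = -crossing Γ u v z z' := by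
  rw [crossing, crossing, ← finsum_neg_distrib]
  exact finsum_congr fun h => by rw [wind_swap (rvec u), wind_swap (rvec u)]; ring

theorem crossing_period_indep (u v : Fin 2 → ℤ) (z z' : ℍ) (δ : Γ) :
    crossing Γ u v z ((δ : SL(2, ℤ)) • z) = crossing Γ u v z' ((δ : SL(2, ℤ)) • z') := by
  have h1 := crossing_trans Γ u v z z' ((δ : SL(2, ℤ)) • z')
  have h2 := crossing_trans Γ u v z ((δ : SL(2, ℤ)) • z) ((δ : SL(2, ℤ)) • z')
  rw [crossing_smul_pts Γ u v z z' δ] at h2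
  linarith

/-- Crossing numbers along a period are additive in the endpoints of the geodesic. -/
theorem crossing_triangle (a b c : Fin 2 → ℤ) (ha : a ≠ 0) (hb : b ≠ 0) (hc : c ≠ 0)
    (z : ℍ) (δ : Γ) :
    crossing Γ a b z ((δ : SL(2, ℤ)) • z) + crossing Γ b c z ((δ : SL(2, ℤ)) • z)
      = crossing Γ a c z ((δ : SL(2, ℤ)) • z) := by
  suffices H : crossing Γ a b z ((δ : SL(2, ℤ)) • z) + crossing Γ b c z ((δ : SL(2, ℤ)) • z)
      + crossing Γ c a z ((δ : SL(2, ℤ)) • z) = 0 by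
    rw [crossing_swap Γ a c] at H; linarith
  obtain ⟨κ, hκ⟩ := finite_triSum a b c ha hb hc z
  set G : Γ → ℤ := fun h => triSum (rvec a) (rvec b) (rvec c) ((h : SL(2, ℤ)) • z) - κ with hG
  have hGfin : (Function.support G).Finite :=
    (hκ.preimage Subtype.val_injective.injOn).subset fun h hh => fun he => hh (sub_eq_zero.mpr he)
  have hGfin' : (Function.support fun h : Γ => G (h * δ)).Finite :=
    hGfin.preimage (mul_left_injective δ).injOn
  have fab := crossing_support_finite Γ a b z ((δ : SL(2, ℤ)) • z)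
  have fbc := crossing_support_finite Γ b c z ((δ : SL(2, ℤ)) • z)
  have fca := crossing_support_finite Γ c a z ((δ : SL(2, ℤ)) • z)
  rw [crossing, crossing, crossing, ← finsum_add_distrib fab fbc,
    ← finsum_add_distrib ((fab.union fbc).subset (Function.support_add _ _)) fca]
  rw [show (∑ᶠ h : Γ, _) = ∑ᶠ h : Γ, (G (h * δ) - G h) from finsum_congr fun h => by
    simp only [hG, triSum, Subgroup.coe_mul, mul_smul]; ring,
    finsum_sub_distrib hGfin' hGfin]
  exact sub_eq_zero.mpr (finsum_comp_equiv (Equiv.mulRight δ))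

theorem crossing_pow_periods (u v : Fin 2 → ℤ) (z : ℍ) (δ δ' : Γ) :
    crossing Γ u v z (((δ * δ' : Γ) : SL(2, ℤ)) • z)
      = crossing Γ u v z ((δ : SL(2, ℤ)) • z) + crossing Γ u v z ((δ' : SL(2, ℤ)) • z) := by
  rw [← crossing_trans Γ u v z ((δ : SL(2, ℤ)) • z), Subgroup.coe_mul, mul_smul,
    crossing_smul_pts]

/-- The cusp `∞`. -/
def vinf : Fin 2 → ℤ := ![1, 0]

theorem vinf_ne_zero : vinf ≠ 0 := fun h => one_ne_zero (congrFun h 0)

/-- Intersection of the cycle of `γ` with the cycle of `δ`. -/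
def cycleHom (γ : Γ) : Additive Γ →+ ℤ :=
  AddMonoidHom.mk' (fun δ => crossing Γ vinf (zmv γ vinf) UpperHalfPlane.I
    (((Additive.toMul δ : Γ) : SL(2, ℤ)) • UpperHalfPlane.I))
    fun δ δ' => crossing_pow_periods Γ _ _ _ δ.toMul δ'.toMul

theorem cycleHom_apply (γ δ : Γ) (z : ℍ) :
    cycleHom Γ γ (Additive.ofMul δ) = crossing Γ vinf (zmv γ vinf) z ((δ : SL(2, ℤ)) • z) :=
  crossing_period_indep Γ _ _ _ _ δ

/-- The base cusp does not matter. -/
theorem cycleHom_base (γ δ : Γ) (u : Fin 2 → ℤ) (hu : u ≠ 0) (z : ℍ) :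
    cycleHom Γ γ (Additive.ofMul δ) = crossing Γ u (zmv γ u) z ((δ : SL(2, ℤ)) • z) := by
  have hγ : zmv γ vinf ≠ 0 := zmv_ne_zero _ vinf_ne_zero
  have hγu : zmv γ u ≠ 0 := zmv_ne_zero _ hu
  have h1 := crossing_triangle Γ vinf u (zmv γ vinf) vinf_ne_zero hu hγ z δ
  have h2 := crossing_triangle Γ u (zmv γ u) (zmv γ vinf) hu hγu hγ z δ
  have h3 := crossing_zmv Γ u vinf z ((δ : SL(2, ℤ)) • z) γ
  rw [crossing_swap Γ vinf u] at h3
  rw [cycleHom_apply Γ γ δ z]
  linarith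

/-- The intersection number is additive in the first cycle. -/
theorem cycleHom_mul (γ γ' : Γ) : cycleHom Γ (γ * γ') = cycleHom Γ γ + cycleHom Γ γ' := by
  refine AddMonoidHom.ext fun δ => ?_
  obtain ⟨δ, rfl⟩ := Additive.ofMul.surjective δ
  rw [AddMonoidHom.add_apply, cycleHom_apply Γ _ _ UpperHalfPlane.I,
    cycleHom_apply Γ _ _ UpperHalfPlane.I,
    cycleHom_base Γ γ' δ vinf vinf_ne_zero UpperHalfPlane.I, Subgroup.coe_mul, zmv_mul,
    ← crossing_zmv Γ vinf (zmv γ' vinf) _ _ γ]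
  exact (crossing_triangle Γ _ _ _ vinf_ne_zero (zmv_ne_zero _ vinf_ne_zero)
    (zmv_ne_zero _ (zmv_ne_zero _ vinf_ne_zero)) _ δ).symm

/-- The intersection map as a homomorphism. -/
def cycleMap : Additive Γ →+ (Additive Γ →+ ℤ) :=
  AddMonoidHom.mk' (fun γ => cycleHom Γ γ.toMul) fun γ γ' => cycleHom_mul Γ γ.toMul γ'.toMul

@[simp] theorem cycleMap_apply (γ : Γ) : cycleMap Γ (Additive.ofMul γ) = cycleHom Γ γ := rfl

theorem det2_zmv (g : SL(2, ℤ)) (u v : Fin 2 → ℤ) :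
    det2 (rvec (zmv g u)) (rvec (zmv g v)) = det2 (rvec u) (rvec v) := by
  have hdet : g 0 0 * g 1 1 - g 0 1 * g 1 0 = 1 := by rw [← Matrix.det_fin_two]; exact g.2
  have := congrArg (fun x : ℤ => (x : ℝ)) hdet
  push_cast at this
  simp [det2, rvec, zmv]
  linear_combination ((u 0 : ℝ) * v 1 - u 1 * v 0) * this

/-- A parabolic element fixes a cusp. -/
theorem exists_fixed_vec {δ : SL(2, ℤ)} (hδ : (δ : Matrix (Fin 2) (Fin 2) ℤ).trace ^ 2 = 4) :
    ∃ (c : Fin 2 → ℤ) (e : ℤ), c ≠ 0 ∧ (e = 1 ∨ e = -1) ∧ zmv δ c = e • c := by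
  rw [Matrix.trace_fin_two] at hδ
  have hdet : δ 0 0 * δ 1 1 - δ 0 1 * δ 1 0 = 1 := by rw [← Matrix.det_fin_two]; exact δ.2
  obtain ⟨e, he, hsum⟩ : ∃ e : ℤ, (e = 1 ∨ e = -1) ∧ δ 0 0 + δ 1 1 = 2 * e := by
    have : (δ 0 0 + δ 1 1 - 2) * (δ 0 0 + δ 1 1 + 2) = 0 := by linear_combination hδ
    rcases mul_eq_zero.mp this with h | h
    · exact ⟨1, Or.inl rfl, by linarith⟩
    · exact ⟨-1, Or.inr rfl, by linarith⟩
  have he2 : e * e = 1 := by rcases he with rfl | rfl <;> norm_num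
  by_cases hc : δ 1 0 = 0
  · refine ⟨vinf, e, vinf_ne_zero, he, ?_⟩
    have h00 : δ 0 0 = e := by
      have h11 : δ 1 1 = 2 * e - δ 0 0 := by linarith
      rw [hc, h11] at hdet
      have : (δ 0 0 - e) ^ 2 = 0 := by linear_combination -hdet + he2
      linarith [sq_eq_zero_iff.mp this]
    ext i
    fin_cases i <;> simp [zmv, vinf, hc, h00]
  · refine ⟨![δ 0 0 - e, δ 1 0], e, fun h => hc (congrFun h 1), he, ?_⟩
    have h11 : δ 1 1 = 2 * e - δ 0 0 := by linarith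
    rw [h11] at hdet
    ext i
    fin_cases i <;> simp [zmv, h11]
    · linear_combination -hdet + he2
    · ring

/-- `u` avoids the `Γ`-orbit of the cusp `c`. -/
def Avoids (u c : Fin 2 → ℤ) : Prop := ∀ h ∈ Γ, det2 (rvec (zmv h u)) (rvec c) ≠ 0

theorem exists_avoids_Gamma0 {N : ℕ} (hN : 2 ≤ N) (c : Fin 2 → ℤ) (hc : c ≠ 0) :
    ∃ u : Fin 2 → ℤ, u ≠ 0 ∧ Avoids (Gamma0 N) u c := by
  by_contra hcon
  push Not at hcon
  have h1 := hcon vinf vinf_ne_zero
  have h2 := hcon ![0, 1] (fun h => one_ne_zero (congrFun h 1))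
  simp only [Avoids, not_forall, not_not] at h1 h2
  obtain ⟨g, hg, hg0⟩ := h1
  obtain ⟨g', hg', hg0'⟩ := h2
  set a := zmv g vinf with ha
  set b := zmv g' ![0, 1] with hb
  have hab : det2 (rvec a) (rvec b) = 0 := by
    simp only [det2] at hg0 hg0' ⊢
    by_cases h : rvec c 1 = 0
    · have hc0 : rvec c 0 ≠ 0 := by
        intro h0
        apply hc
        ext i
        fin_cases i
        · have : (c 0 : ℝ) = 0 := h0
          exact_mod_cast this
        · have : (c 1 : ℝ) = 0 := h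
          exact_mod_cast this
      rw [h] at hg0 hg0'
      simp only [mul_zero, zero_sub, neg_eq_zero, mul_eq_zero, hc0, or_false] at hg0 hg0'
      rw [hg0, hg0']; ring
    · refine mul_left_cancel₀ h ?_
      linear_combination (rvec b 1) * hg0 - (rvec a 1) * hg0'
  rw [show a = zmv g' (zmv (g'⁻¹ * g) vinf) by rw [← zmv_mul, mul_inv_cancel_left, ha], hb,
    det2_zmv] at hab
  have hm : g'⁻¹ * g ∈ Gamma0 N := mul_mem (inv_mem hg') hg
  rw [Gamma0_mem, ZMod.intCast_zmod_eq_zero_iff_dvd] at hm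
  set m := g'⁻¹ * g
  have hdet : m 0 0 * m 1 1 - m 0 1 * m 1 0 = 1 := by rw [← Matrix.det_fin_two]; exact m.2
  have h00 : m 0 0 = 0 := by
    have : (m 0 0 : ℝ) = 0 := by simpa [det2, rvec, zmv, vinf] using hab
    exact_mod_cast this
  rw [h00, zero_mul, zero_sub] at hdet
  have h1 : (N : ℤ) ∣ 1 := ⟨-(m 0 1) * (m 1 0 / N), by
    obtain ⟨t, ht⟩ := hm
    rw [ht, Int.mul_ediv_cancel_left _ (by exact_mod_cast (show N ≠ 0 by omega))]
    rw [ht] at hdet; linarith⟩
  have := Int.le_of_dvd one_pos h1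
  omega

/-- High horizontal segments do not cross geodesics between finite cusps. -/
theorem geo_pos_high {u v : Fin 2 → ℤ} (hu : u 1 ≠ 0) (hv : v 1 ≠ 0) (x : ℝ) {Y : ℝ}
    (hY : |det2 (rvec u) (rvec v)| < Y) :
    0 < ((u 1 : ℝ) * v 1) * ((rvec u 1 * x - rvec u 0) * (rvec v 1 * x - rvec v 0)
      + rvec u 1 * rvec v 1 * Y * Y) := by
  set A := rvec u 1 * x - rvec u 0
  set B := rvec v 1 * x - rvec v 0
  set P := rvec u 1 * rvec v 1 with hP
  have hP1 : 1 ≤ P ^ 2 := by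
    have : (1 : ℤ) ≤ (u 1 * v 1) ^ 2 := by
      have : 0 < (u 1 * v 1) ^ 2 := by positivity
      omega
    simp only [hP, rvec]; exact_mod_cast this
  have hD : det2 (rvec u) (rvec v) = rvec u 1 * B - rvec v 1 * A := by
    simp only [det2, A, B]; ring
  have hD2 : det2 (rvec u) (rvec v) ^ 2 < Y ^ 2 := by
    rw [← sq_abs]; exact pow_lt_pow_left₀ hY (abs_nonneg _) two_ne_zero
  have key : 4 * (P * (A * B)) ≥ -(det2 (rvec u) (rvec v) ^ 2) := by
    rw [hD, hP]; nlinarith [sq_nonneg (rvec u 1 * B + rvec v 1 * A)]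
  show 0 < P * (A * B + P * Y * Y)
  nlinarith [mul_le_mul_of_nonneg_right hP1 (sq_nonneg Y)]

/-- Below `Γ₀(N)` the intersection homomorphism kills elliptic and parabolic elements. -/
theorem cycleHom_mem_parEll_of_le {N : ℕ} (hN : 2 ≤ N) {Δ : Subgroup SL(2, ℤ)} (hΔ : Δ ≤ Gamma0 N)
    (γ : Δ) : cycleHom Δ γ ∈ Cosets.parEllHoms ℤ Δ ℤ := by
  intro δ hδ
  rcases Cosets.trace_sq_eq_four_or_pow_twelve hδ with h4 | h12
  swap
  · have h : (12 : ℕ) • cycleHom Δ γ (Additive.ofMul δ) = 0 := by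
      rw [← map_nsmul, ← ofMul_pow, show δ ^ 12 = 1 from Subtype.ext (by simpa using h12),
        ofMul_one, map_zero]
    simpa using h
  obtain ⟨c, e, hc, he, hfix⟩ := exists_fixed_vec h4
  obtain ⟨u, hu, hav⟩ := exists_avoids_Gamma0 hN c hc
  obtain ⟨g, k, hk, hgk⟩ := exists_SL_map_infty hc
  -- `g⁻¹ δ g` is `± T ^ L`
  set τ : SL(2, ℤ) := g⁻¹ * δ * g with hτ
  have hτe : zmv τ ![k, 0] = e • ![k, 0] := by
    rw [hτ, zmv_mul, zmv_mul, hgk, hfix]
    have : zmv g⁻¹ (e • c) = e • zmv g⁻¹ c := by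
      ext i; fin_cases i <;> simp [zmv] <;> ring
    rw [this, ← hgk, ← zmv_mul, inv_mul_cancel, one_zmv]
  have hτ10 : τ 1 0 = 0 := by
    have := congrFun hτe 1
    simpa [zmv, hk] using this
  have hτ00 : τ 0 0 = e := by
    have := congrFun hτe 0
    simp [zmv] at this
    rcases this with h | h
    · exact h
    · exact absurd h hk
  have hτ11 : τ 1 1 = e := by
    have hdet : τ 0 0 * τ 1 1 - τ 0 1 * τ 1 0 = 1 := by rw [← Matrix.det_fin_two]; exact τ.2
    rw [hτ00, hτ10] at hdet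
    rcases he with rfl | rfl <;> linarith
  set v := zmv γ u with hv
  set D := |det2 (rvec u) (rvec v)| with hD
  let z₁ : ℍ := ⟨⟨0, D + 1⟩,
    by show (0 : ℝ) < D + 1; have := abs_nonneg (det2 (rvec u) (rvec v)); linarith⟩
  rw [cycleHom_base Δ γ δ u hu (g • z₁)]
  refine finsum_eq_zero_of_forall_eq_zero fun h => sub_eq_zero.mpr ?_
  have hδg : (δ : SL(2, ℤ)) • g • z₁ = g • τ • z₁ := by
    rw [← mul_smul, ← mul_smul, hτ, mul_assoc, mul_inv_cancel_left]
  rw [hδg, ← mul_smul, ← mul_smul (h : SL(2, ℤ)) g, wind_smul_SL ((h : SL(2, ℤ)) * g),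
    wind_smul_SL ((h : SL(2, ℤ)) * g)]
  set m : SL(2, ℤ) := ((h : SL(2, ℤ)) * g)⁻¹ with hm
  have hne : ∀ w ∈ Δ, (zmv (m * w) u) 1 ≠ 0 := by
    intro w hw h0
    refine hav ((h : SL(2, ℤ))⁻¹ * w) (mul_mem (inv_mem (hΔ h.2)) (hΔ hw)) ?_
    rw [← det2_zmv g⁻¹, ← zmv_mul]
    have e1 : g⁻¹ * ((h : SL(2, ℤ))⁻¹ * w) = m * w := by rw [hm, _root_.mul_inv_rev]; group
    have e2 : zmv g⁻¹ c = ![k, 0] := by rw [← hgk, ← zmv_mul, inv_mul_cancel, one_zmv]
    rw [e1, e2]
    simp [det2, rvec, h0]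
  have hu' : (zmv m u) 1 ≠ 0 := by simpa using hne 1 (one_mem _)
  have hv' : (zmv m v) 1 ≠ 0 := by rw [hv, ← zmv_mul]; exact hne γ γ.2
  have hDm : |det2 (rvec (zmv m u)) (rvec (zmv m v))| < D + 1 := by
    rw [det2_zmv]; linarith
  have him : (τ • z₁ : ℍ).im = D + 1 := by
    rw [ModularGroup.im_smul_eq_div_normSq, ModularGroup.denom_apply, hτ10, hτ11]
    rcases he with rfl | rfl <;> simp [z₁, UpperHalfPlane.im]
  have key : ∀ w : ℍ, w.im = D + 1 → wind (rvec (zmv m u)) (rvec (zmv m v)) w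
      = ((SignType.sign (det2 (rvec (zmv m u)) (rvec (zmv m v))
          * ((zmv m u 1 : ℝ) * (zmv m v 1 : ℝ))) : SignType) : ℤ) := by
    intro w hw
    have hP := geo_pos_high hu' hv' w.re hDm
    rw [← hw] at hP
    set P : ℝ := (zmv m u 1 : ℝ) * (zmv m v 1 : ℝ) with hPdef
    have hP0 : P ≠ 0 := mul_ne_zero (by exact_mod_cast hu') (by exact_mod_cast hv')
    rw [wind, geoForm_eq, UpperHalfPlane.coe_re, UpperHalfPlane.coe_im]
    set G := (rvec (zmv m u) 1 * w.re - rvec (zmv m u) 0) * (rvec (zmv m v) 1 * w.re -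
      rvec (zmv m v) 0) + rvec (zmv m u) 1 * rvec (zmv m v) 1 * w.im * w.im
    have hs : SignType.sign G = SignType.sign P := by
      rcases lt_or_gt_of_ne hP0 with hneg | hpos
      · rw [sign_neg hneg, sign_neg (neg_of_mul_pos_right hP hneg.le)]
      · rw [sign_pos hpos, sign_pos ((pos_iff_pos_of_mul_pos hP).mp hpos)]
    rw [sign_mul, sign_mul, hs]
  rw [key _ him, key z₁ rfl]

/-- The intersection homomorphism of `Γ₀(N)` kills elliptic and parabolic elements. -/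
theorem cycleHom_mem_parEll {N : ℕ} (hN : 2 ≤ N) (γ : Gamma0 N) :
    cycleHom (Gamma0 N) γ ∈ Cosets.parEllHoms ℤ (Gamma0 N) ℤ :=
  cycleHom_mem_parEll_of_le hN le_rfl γ

end Fermat.Agent.Ihara
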