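import Fermat.Agent.Ihara.Ops
import Fermat.Agent.Ihara.Crossing

/-!
# Adjoint correspondences

## Main results

* `IsAdjointPair`: two families of matrices enumerating sets exchanged by the adjugate.
* `cycleHom_adjoint`: the intersection map intertwines a correspondence with the adjugate
  correspondence.
-/

set_option autoImplicit false

noncomputable section

namespace Fermat.Agent.Ihara

open Matrix UpperHalfPlane
open scoped MatrixGroups

theorem adjugate_adjugate_two (M : Mat2) : M.adjugate.adjugate = M := by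
  ext i j
  fin_cases i <;> fin_cases j <;> simp [Matrix.adjugate_fin_two]

/-- An integral matrix of non-zero determinant as an element of `GL(2, ℝ)`. -/
def rGL (M : Mat2) : GL (Fin 2) ℝ :=
  if h : M.det ≠ 0 then
    Matrix.GeneralLinearGroup.mkOfDetNeZero (M.map (Int.cast : ℤ → ℝ)) (by
      rw [Matrix.det_fin_two] at h ⊢
      simp only [Matrix.map_apply]
      exact_mod_cast h)
  else 1

theorem rGL_apply {M : Mat2} (h : M.det ≠ 0) (i j : Fin 2) : rGL M i j = (M i j : ℝ) := by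
  simp [rGL, h, Matrix.GeneralLinearGroup.mkOfDetNeZero]

theorem rGL_mul {M M' : Mat2} (h : M.det ≠ 0) (h' : M'.det ≠ 0) :
    rGL (M * M') = rGL M * rGL M' := by
  have hh : (M * M').det ≠ 0 := by rw [Matrix.det_mul]; exact mul_ne_zero h h'
  ext i j
  rw [rGL_apply hh, Units.val_mul, Matrix.mul_apply, Matrix.mul_apply, Fin.sum_univ_two,
    Fin.sum_univ_two, rGL_apply h, rGL_apply h, rGL_apply h', rGL_apply h']
  push_cast
  ring

theorem rGL_mcoe (g : SL(2, ℤ)) : rGL (mcoe g) = SpecialLinearGroup.mapGL ℝ g := by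
  ext i j
  rw [rGL_apply (by rw [mcoe_det]; norm_num)]
  simp

theorem det_rGL {M : Mat2} (h : M.det ≠ 0) : (rGL M).det.val = (M.det : ℝ) := by
  rw [Matrix.GeneralLinearGroup.val_det_apply, Matrix.det_fin_two, Matrix.det_fin_two,
    rGL_apply h, rGL_apply h, rGL_apply h, rGL_apply h]
  push_cast
  ring

/-- An integral matrix applied to an integral vector. -/
def matVec (M : Mat2) (u : Fin 2 → ℤ) : Fin 2 → ℤ :=
  ![M 0 0 * u 0 + M 0 1 * u 1, M 1 0 * u 0 + M 1 1 * u 1]

theorem matVec_mul (M M' : Mat2) (u : Fin 2 → ℤ) :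
    matVec (M * M') u = matVec M (matVec M' u) := by
  ext i
  fin_cases i <;> simp [matVec, Matrix.mul_apply, Fin.sum_univ_two] <;> ring

theorem matVec_mcoe (g : SL(2, ℤ)) (u : Fin 2 → ℤ) : matVec (mcoe g) u = zmv g u := rfl

theorem matVec_ne_zero {M : Mat2} (hM : M.det ≠ 0) {u : Fin 2 → ℤ} (hu : u ≠ 0) :
    matVec M u ≠ 0 := by
  intro h
  apply hu
  have h2 := congrArg (matVec M.adjugate) h
  rw [← matVec_mul, Matrix.adjugate_mul] at h2
  ext i
  have := congrFun h2 i
  fin_cases i <;> simpa [matVec, hM] using this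

/-- Pull back of a geodesic along an integral matrix. -/
theorem wind_matVec {M : Mat2} (hM : 0 < M.det) (u v : Fin 2 → ℤ) (w : ℍ) :
    wind (rvec (matVec M u)) (rvec (matVec M v)) w
      = wind (rvec u) (rvec v) (rGL M.adjugate • w) := by
  have hA : M.adjugate.det = M.det := by simp [Matrix.det_adjugate]
  have hg : 0 < (rGL M.adjugate).det.val := by
    rw [det_rGL (by rw [hA]; exact hM.ne'), hA]; exact_mod_cast hM
  have key : ∀ x : Fin 2 → ℤ,
      mv (rGL M.adjugate) (rvec (matVec M x)) = (M.det : ℝ) • rvec x := by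
    intro x
    have hr := fun i j => rGL_apply (M := M.adjugate) (by rw [hA]; exact hM.ne') i j
    ext i
    fin_cases i <;>
      simp [mv, rvec, matVec, hr 0 0, hr 0 1, hr 1 0, hr 1 1, Matrix.det_fin_two] <;>
      simp [Matrix.adjugate_fin_two] <;> ring
  have hne : (M.det : ℝ) ≠ 0 := by exact_mod_cast hM.ne'
  rw [← wind_mv hg, key, key, wind_smul_left hne, wind_smul_right hne]

/-- The families `S` and `T` enumerate sets exchanged by the adjugate. -/
structure IsAdjointPair {Γ₁ Γ₂ : Subgroup SL(2, ℤ)} {ι κ : Type*} (S : CosetSys Γ₁ Γ₂ ι)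
    (T : CosetSys Γ₂ Γ₁ κ) : Prop where
  left : ∀ (i : ι) (h : Γ₁), ∃ (j : κ) (k : Γ₂), (S.α i).adjugate * mcoe h = mcoe k * T.α j
  right : ∀ (j : κ) (k : Γ₂), ∃ (i : ι) (h : Γ₁), (S.α i).adjugate * mcoe h = mcoe k * T.α j

variable {Γ₁ Γ₂ : Subgroup SL(2, ℤ)} {ι κ : Type*} [Fintype ι] [Fintype κ]

/-- Jump of the side function between two translates. -/
def matJump (u v : Fin 2 → ℤ) (z z' : ℍ) (t : Mat2) : ℤ :=
  wind (rvec u) (rvec v) (rGL t • z') - wind (rvec u) (rvec v) (rGL t • z)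

theorem crossing_triangle' (Γ : Subgroup SL(2, ℤ)) {a b v : Fin 2 → ℤ} (ha : a ≠ 0) (hb : b ≠ 0)
    (hv : v ≠ 0) (z : ℍ) (δ : Γ) :
    crossing Γ a b z ((δ : SL(2, ℤ)) • z)
      = crossing Γ v b z ((δ : SL(2, ℤ)) • z) - crossing Γ v a z ((δ : SL(2, ℤ)) • z) := by
  rw [← crossing_triangle Γ v a b hv ha hb z δ]; ring

/-- The intersection map intertwines a correspondence with its adjoint. -/
theorem cycleHom_adjoint (S : CosetSys Γ₁ Γ₂ ι) (T : CosetSys Γ₂ Γ₁ κ) (hST : IsAdjointPair S T)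
    (γ : Γ₂) :
    (∑ i, cycleHom Γ₁ (S.cof γ i)) = T.op ℤ ℤ (cycleHom Γ₂ γ) := by
  classical
  refine AddMonoidHom.ext fun δ => ?_
  obtain ⟨δ, rfl⟩ := Additive.ofMul.surjective δ
  set z : ℍ := UpperHalfPlane.I with hz
  set z' : ℍ := (δ : SL(2, ℤ)) • z with hz'
  set u := vinf with hu
  set v := zmv γ vinf with hv
  have hu0 : u ≠ 0 := vinf_ne_zero
  have hv0 : v ≠ 0 := zmv_ne_zero _ vinf_ne_zero
  have hS0 : ∀ (i : ι) {x : Fin 2 → ℤ}, x ≠ 0 → matVec (S.α i) x ≠ 0 :=
    fun i _ hx => matVec_ne_zero (S.pos i).ne' hx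
  -- left hand side
  have hL : (∑ i, cycleHom Γ₁ (S.cof γ i)) (Additive.ofMul δ)
      = ∑ i, crossing Γ₁ (matVec (S.α i) u) (matVec (S.α i) v) z z' := by
    rw [AddMonoidHom.finsetSum_apply]
    have e1 : ∀ i, crossing Γ₁ (matVec (S.α i) u) (matVec (S.α i) v) z z'
        = cycleHom Γ₁ (S.cof γ i) (Additive.ofMul δ)
          + (crossing Γ₁ u (matVec (S.α (S.idx γ i)) u) z z'
            - crossing Γ₁ u (matVec (S.α i) u) z z') := by
      intro i
      have hb : matVec (S.α i) v = zmv (S.cof γ i) (matVec (S.α (S.idx γ i)) u) := by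
        rw [hv, ← matVec_mcoe (S.cof γ i : SL(2, ℤ)), ← matVec_mul, ← S.mul_eq γ i, matVec_mul,
          matVec_mcoe]
      rw [crossing_triangle' Γ₁ (hS0 i hu0) (hS0 i hv0) hu0 z δ, hb,
        ← crossing_triangle Γ₁ u (zmv (S.cof γ i) u) _ hu0 (zmv_ne_zero _ hu0)
          (zmv_ne_zero _ (hS0 _ hu0)) z δ,
        crossing_zmv, cycleHom_apply Γ₁ _ _ z]
      ring
    simp only [e1, Finset.sum_add_distrib, Finset.sum_sub_distrib]
    rw [show (∑ i, crossing Γ₁ u (matVec (S.α (S.idx γ i)) u) z z')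
        = ∑ i, crossing Γ₁ u (matVec (S.α i) u) z z' from
      Equiv.sum_comp (S.permE γ) (fun i => crossing Γ₁ u (matVec (S.α i) u) z z')]
    ring
  -- right hand side
  have hR : T.op ℤ ℤ (cycleHom Γ₂ γ) (Additive.ofMul δ)
      = ∑ j, crossing Γ₂ u v (rGL (T.α j) • z) (rGL (T.α j) • z') := by
    rw [T.op_apply]
    have e1 : ∀ j, crossing Γ₂ u v (rGL (T.α j) • z) (rGL (T.α j) • z')
        = cycleHom Γ₂ γ (Additive.ofMul (T.cof δ j))
          + (crossing Γ₂ u v z (rGL (T.α (T.idx δ j)) • z)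
            - crossing Γ₂ u v z (rGL (T.α j) • z)) := by
      intro j
      have hb : rGL (T.α j) • z'
          = (T.cof δ j : SL(2, ℤ)) • (rGL (T.α (T.idx δ j)) • z) := by
        have hδ : rGL (T.α j) * rGL (mcoe δ)
            = rGL (mcoe (T.cof δ j)) * rGL (T.α (T.idx δ j)) := by
          rw [← rGL_mul (T.pos _).ne' (by simp),
            ← rGL_mul (by simp) (T.pos _).ne', T.mul_eq]
        rw [rGL_mcoe, rGL_mcoe] at hδ
        show rGL (T.α j) • (SpecialLinearGroup.mapGL ℝ (δ : SL(2, ℤ)) • z)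
          = SpecialLinearGroup.mapGL ℝ (T.cof δ j : SL(2, ℤ)) • (rGL (T.α (T.idx δ j)) • z)
        rw [← mul_smul, hδ, mul_smul]
      rw [cycleHom_apply Γ₂ _ _ (rGL (T.α (T.idx δ j)) • z), hb]
      rw [← crossing_trans Γ₂ u v z (rGL (T.α j) • z) (rGL (T.α (T.idx δ j)) • z),
        ← crossing_trans Γ₂ u v (rGL (T.α j) • z) (rGL (T.α (T.idx δ j)) • z)]
      simp only [hu, hv]
      ring
    simp only [e1, Finset.sum_add_distrib, Finset.sum_sub_distrib]
    rw [show (∑ j, crossing Γ₂ u v z (rGL (T.α (T.idx δ j)) • z))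
        = ∑ j, crossing Γ₂ u v z (rGL (T.α j) • z) from
      Equiv.sum_comp (T.permE δ) (fun j => crossing Γ₂ u v z (rGL (T.α j) • z))]
    ring
  rw [hL, hR]
  -- both are sums of the jumps over one set of matrices
  have hdetA : ∀ (i : ι), (S.α i).adjugate.det ≠ 0 := fun i => by
    simpa [Matrix.det_adjugate] using (S.pos i).ne'
  have hLterm : ∀ (i : ι) (h : Γ₁),
      wind (rvec (matVec (S.α i) u)) (rvec (matVec (S.α i) v)) ((h : SL(2, ℤ)) • z')
        - wind (rvec (matVec (S.α i) u)) (rvec (matVec (S.α i) v)) ((h : SL(2, ℤ)) • z)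
      = matJump u v z z' ((S.α i).adjugate * mcoe h) := by
    intro i h
    rw [wind_matVec (S.pos i), wind_matVec (S.pos i), matJump,
      rGL_mul (hdetA i) (by simp), rGL_mcoe, mul_smul, mul_smul]
    rfl
  have hRterm : ∀ (j : κ) (k : Γ₂),
      wind (rvec u) (rvec v) ((k : SL(2, ℤ)) • rGL (T.α j) • z')
        - wind (rvec u) (rvec v) ((k : SL(2, ℤ)) • rGL (T.α j) • z)
      = matJump u v z z' (mcoe k * T.α j) := by
    intro j k
    rw [matJump, rGL_mul (by simp) (T.pos j).ne', rGL_mcoe, mul_smul, mul_smul]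
    rfl
  have finL : (Function.support fun x : ι × Γ₁ =>
      matJump u v z z' ((S.α x.1).adjugate * mcoe x.2)).Finite := by
    refine (Set.finite_iUnion fun i : ι =>
      ((crossing_support_finite Γ₁ (matVec (S.α i) u) (matVec (S.α i) v) z z').image
        fun h => (i, h))).subset ?_
    rintro ⟨i, h⟩ hx
    exact Set.mem_iUnion.mpr ⟨i, h, fun he => hx ((hLterm i h).symm.trans he), rfl⟩
  have finR : (Function.support fun x : κ × Γ₂ =>
      matJump u v z z' (mcoe x.2 * T.α x.1)).Finite := by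
    refine (Set.finite_iUnion fun j : κ =>
      ((crossing_support_finite Γ₂ u v (rGL (T.α j) • z) (rGL (T.α j) • z')).image
        fun k => (j, k))).subset ?_
    rintro ⟨j, k⟩ hx
    exact Set.mem_iUnion.mpr ⟨j, k, fun he => hx ((hRterm j k).symm.trans he), rfl⟩
  have hl : ∑ i, crossing Γ₁ (matVec (S.α i) u) (matVec (S.α i) v) z z'
      = ∑ᶠ x : ι × Γ₁, matJump u v z z' ((S.α x.1).adjugate * mcoe x.2) := by
    rw [finsum_curry _ finL, finsum_eq_sum_of_fintype]
    exact Finset.sum_congr rfl fun i _ => finsum_congr fun h => hLterm i h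
  have hr : ∑ j, crossing Γ₂ u v (rGL (T.α j) • z) (rGL (T.α j) • z')
      = ∑ᶠ x : κ × Γ₂, matJump u v z z' (mcoe x.2 * T.α x.1) := by
    rw [finsum_curry _ finR, finsum_eq_sum_of_fintype]
    exact Finset.sum_congr rfl fun j _ => finsum_congr fun k => hRterm j k
  rw [hl, hr]
  -- the bijection
  let Φ : ι × Γ₁ → κ × Γ₂ := fun x =>
    ((hST.left x.1 x.2).choose, (hST.left x.1 x.2).choose_spec.choose)
  have hΦ : ∀ x : ι × Γ₁, (S.α x.1).adjugate * mcoe x.2 = mcoe (Φ x).2 * T.α (Φ x).1 :=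
    fun x => (hST.left x.1 x.2).choose_spec.choose_spec
  have hinjS : ∀ x y : ι × Γ₁,
      (S.α x.1).adjugate * mcoe x.2 = (S.α y.1).adjugate * mcoe y.2 → x = y := by
    intro x y h
    have h2 := congrArg Matrix.adjugate h
    simp only [Matrix.adjugate_mul_distrib, adjugate_adjugate_two] at h2
    have h3 : S.α x.1 = mcoe (x.2 * y.2⁻¹ : Γ₁) * S.α y.1 := by
      have e : ∀ g : SL(2, ℤ), (mcoe g).adjugate = mcoe g⁻¹ := fun g =>
        (Matrix.SpecialLinearGroup.coe_inv g).symm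
      rw [e, e] at h2
      rw [Subgroup.coe_mul, Subgroup.coe_inv, mcoe_mul, mul_assoc, ← h2, mcoe_mul_inv_cancel]
    have hxy : x.1 = y.1 := S.inj _ _ _ h3
    refine Prod.ext hxy ?_
    rw [hxy] at h
    have h4 := congrArg (fun X : Mat2 => S.α y.1 * X) h
    simp only [← mul_assoc, Matrix.mul_adjugate, Matrix.smul_mul, one_mul] at h4
    exact Subtype.ext (mcoe_injective (smul_right_injective _ (S.pos y.1).ne' h4))
  have hbij : Function.Bijective Φ := by
    refine ⟨fun x y h => hinjS x y (by rw [hΦ, hΦ, h]), fun y => ?_⟩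
    obtain ⟨i, h, hh⟩ := hST.right y.1 y.2
    refine ⟨(i, h), ?_⟩
    have h2 : mcoe (Φ (i, h)).2 * T.α (Φ (i, h)).1 = mcoe y.2 * T.α y.1 := (hΦ (i, h)).symm.trans hh
    have h3 : T.α (Φ (i, h)).1 = mcoe (((Φ (i, h)).2)⁻¹ * y.2 : Γ₂) * T.α y.1 := by
      rw [Subgroup.coe_mul, Subgroup.coe_inv, mcoe_mul, mul_assoc, ← h2, mcoe_inv_mul_cancel]
    have h4 := T.inj _ _ _ h3
    refine Prod.ext h4 ?_
    rw [h4] at h2
    exact Subtype.ext (mcoe_injective (mat2_right_cancel (T.pos _).ne' h2))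
  rw [← finsum_comp_equiv (Equiv.ofBijective Φ hbij)]
  exact finsum_congr fun x => by rw [hΦ]; rfl

end Fermat.Agent.Ihara
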