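import Mathlib

/-!
# Lifting homomorphisms to functions on cusps

Cusps are the points of `OnePoint ℚ`.

## Main results

* `exists_cuspLift`: a homomorphism killing parabolic elements is `Ψ (γ x) - Ψ x` for a function
  `Ψ` on cusps.
-/

set_option autoImplicit false

noncomputable section

namespace Fermat.Agent.Ihara

open Matrix OnePoint
open scoped MatrixGroups

/-- An integral matrix as an element of `GL(2, ℚ)`. -/
abbrev qGL (g : SL(2, ℤ)) : GL (Fin 2) ℚ := Matrix.SpecialLinearGroup.mapGL ℚ g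

theorem exists_cusp_eq (x : OnePoint ℚ) :
    ∃ g : SL(2, ℤ), x = qGL g • (∞ : OnePoint ℚ) := by
  obtain ⟨g, hg⟩ := OnePoint.exists_mem_SL2 ℤ x
  exact ⟨g, hg.symm⟩

theorem trace_sq_of_stab_infty {g : SL(2, ℤ)} (h : qGL g • (∞ : OnePoint ℚ) = ∞) :
    (g : Matrix (Fin 2) (Fin 2) ℤ).trace ^ 2 = 4 := by
  rw [OnePoint.smul_infty_eq_self_iff] at h
  have h10 : g 1 0 = 0 := by simpa using h
  have hdet : g 0 0 * g 1 1 - g 0 1 * g 1 0 = 1 := by rw [← Matrix.det_fin_two]; exact g.2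
  rw [h10, mul_zero, sub_zero] at hdet
  rw [Matrix.trace_fin_two]
  rcases Int.eq_one_or_neg_one_of_mul_eq_one' hdet with ⟨a, b⟩ | ⟨a, b⟩ <;> rw [a, b] <;> norm_num

theorem trace_sq_of_fixes_cusp {g : SL(2, ℤ)} {x : OnePoint ℚ} (h : qGL g • x = x) :
    (g : Matrix (Fin 2) (Fin 2) ℤ).trace ^ 2 = 4 := by
  obtain ⟨r, rfl⟩ := exists_cusp_eq x
  have h' : qGL (r⁻¹ * g * r) • (∞ : OnePoint ℚ) = ∞ := by
    rw [qGL, map_mul, map_mul, map_inv, mul_smul, mul_smul, h, inv_smul_smul]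
  have := trace_sq_of_stab_infty h'
  rwa [Matrix.SpecialLinearGroup.coe_mul, Matrix.trace_mul_comm,
    ← Matrix.SpecialLinearGroup.coe_mul, ← mul_assoc, mul_inv_cancel, one_mul] at this

variable {Γ : Subgroup SL(2, ℤ)} {F : Type*} [AddCommGroup F]

/-- `Ψ` is a primitive of `χ` on cusps. -/
def IsCuspLift (χ : Additive Γ →+ F) (Ψ : OnePoint ℚ → F) : Prop :=
  ∀ (γ : Γ) (x : OnePoint ℚ), Ψ (qGL γ • x) = χ (Additive.ofMul γ) + Ψ x

variable (Γ)

/-- The orbit relation on cusps. -/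
def cuspSetoid : Setoid (OnePoint ℚ) where
  r x y := ∃ γ : Γ, qGL γ • x = y
  iseqv :=
    { refl := fun x => ⟨1, by simp [qGL]⟩
      symm := fun {x y} ⟨γ, h⟩ => ⟨γ⁻¹, by
        rw [← h, qGL, Subgroup.coe_inv, map_inv, inv_smul_smul]⟩
      trans := fun {x y z} ⟨γ, h⟩ ⟨δ, h'⟩ => ⟨δ * γ, by
        rw [qGL, Subgroup.coe_mul, map_mul, mul_smul, h, h']⟩ }

variable {Γ}

/-- A homomorphism killing parabolic elements lifts to a function on cusps. -/
theorem exists_cuspLift (χ : Additive Γ →+ F)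
    (hχ : ∀ γ : Γ, ((γ : SL(2, ℤ)) : Matrix (Fin 2) (Fin 2) ℤ).trace ^ 2 = 4 →
      χ (Additive.ofMul γ) = 0) :
    ∃ Ψ : OnePoint ℚ → F, IsCuspLift χ Ψ := by
  classical
  let s := cuspSetoid Γ
  let rep : OnePoint ℚ → OnePoint ℚ := fun x => (Quotient.mk s x).out
  have hrep : ∀ x, ∃ γ : Γ, qGL γ • rep x = x := fun x =>
    Quotient.exact (Quotient.out_eq (Quotient.mk s x))
  choose c hc using hrep
  refine ⟨fun x => χ (Additive.ofMul (c x)), fun γ x => ?_⟩
  have hr : rep (qGL γ • x) = rep x := by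
    show (Quotient.mk s _).out = (Quotient.mk s x).out
    rw [Quotient.sound (s := s) (show s.r x (qGL γ • x) from ⟨γ, rfl⟩)]
  have hfix : qGL ((c (qGL γ • x))⁻¹ * (γ * c x) : Γ) • rep x = rep x := by
    rw [qGL, Subgroup.coe_mul, Subgroup.coe_inv, Subgroup.coe_mul, map_mul, map_inv, map_mul,
      mul_smul, mul_smul, hc x, inv_smul_eq_iff]
    conv_rhs => rw [← hr]
    exact (hc _).symm
  have h0 := hχ _ (trace_sq_of_fixes_cusp hfix)
  simp only [ofMul_mul, ofMul_inv, map_add, map_neg, neg_add_eq_zero] at h0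
  exact h0

end Fermat.Agent.Ihara
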