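import Fermat.Agent.Ihara.Stabilizer

/-!
# Ihara's lemma in elementary form

## Main results

* `ihara_vanish`: a homomorphism from `Γ₁(N)[1/q]` to a group of odd prime exponent which is
  invariant under `Γ₀(N)[1/q]` and kills all unipotents vanishes.
-/

set_option autoImplicit false

namespace Fermat.Agent.Ihara

open Matrix
open scoped MatrixGroups

variable {q : ℕ} [Fact q.Prime] {F : Type*} [AddCommGroup F]

theorem eq_zero_of_coprime_nsmul {p n : ℕ} {x : F} (hp : p • x = 0) (hn : n • x = 0)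
    (h : Nat.Coprime p n) : x = 0 := by
  rw [← AddMonoid.addOrderOf_eq_one_iff]
  exact Nat.eq_one_of_dvd_coprimes h (addOrderOf_dvd_of_nsmul_eq_zero hp)
    (addOrderOf_dvd_of_nsmul_eq_zero hn)

/-- A homomorphism killing elementary unipotents and a congruence subgroup is zero. -/
theorem congr_eq_zero {L : ℤ} {f : SL(2, ℚ) → F} (hf : Adm q L f) (hL : L ≠ 0)
    (hqL : ¬(q : ℤ) ∣ L) {M : ℤ} (hM : M ≠ 0) (_hLM : L ∣ M)
    (hv : ∀ x, IsCongr q M x → f x = 0) {g : SL(2, ℚ)} (hg : g ∈ G1 q L) : f g = 0 := by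
  have hq : q.Prime := Fact.out
  obtain ⟨g₁, c₀, d, hd, hdB, hrow, hval⟩ :=
    exists_prime_row (F := F) hq hL hqL hg (M.natAbs + q)
  rw [← hval f hf]
  have hdM : IsCoprime (d : ℤ) M := by
    refine (Nat.prime_iff_prime_int.mp hd).coprime_iff_not_dvd.mpr fun h => ?_
    rw [← Int.dvd_natAbs, Int.natCast_dvd_natCast] at h
    have := Nat.le_of_dvd (Int.natAbs_pos.mpr hM) h
    omega
  obtain ⟨a, b, hab⟩ := hdM
  have hdd : QDvd q L (((d : ℤ) : ℚ) - 1) := hrow.d ▸ hrow.mem.2.2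
  obtain ⟨y, hyI, hy⟩ := hdd
  -- kill the lower left entry modulo `M`
  set x₁ := g₁ * lo ((L * (-a * c₀) : ℤ) : ℚ) with hx₁
  have hloI : QDvd q L ((L * (-a * c₀) : ℤ) : ℚ) := QDvd.of_dvd (Dvd.intro _ rfl)
  have hx₁m : x₁ ∈ G1 q L := mul_mem hrow.mem (lo_mem_G1 hloI)
  have hx₁v : f x₁ = f g₁ := hf.mul_lo hrow.mem hloI
  have hx₁c : QDvd q M (x₁ 1 0) := by
    have : x₁ 1 0 = ((M * (L * c₀ * b) : ℤ) : ℚ) := by
      rw [hx₁, sl_mul, lo_00, lo_10, hrow.c, hrow.d]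
      have : (a : ℚ) * d + b * M = 1 := by exact_mod_cast hab
      push_cast; linear_combination -((L : ℚ) * c₀) * this
    rw [this]; exact QDvd.of_dvd (dvd_mul_right _ _)
  have hx₁d : x₁ 1 1 = ((d : ℤ) : ℚ) := by
    rw [hx₁, sl_mul, lo_01, lo_11, hrow.d]; ring
  -- a product of elementary unipotents with the same bottom row modulo `M`
  obtain ⟨w, hw⟩ : ∃ w : ℚ, w = -y * a := ⟨_, rfl⟩
  set P := lo ((L : ℚ) * y) * up 1 * lo ((L : ℚ) * w) with hP
  have hwI : IsQInt q w := hw ▸ (hyI.neg.mul (IsQInt.intCast a))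
  have hP1 : QDvd q L ((L : ℚ) * y) := ⟨y, hyI, rfl⟩
  have hP2 : QDvd q L ((L : ℚ) * w) := ⟨w, hwI, rfl⟩
  have hPm : P ∈ G1 q L :=
    mul_mem (mul_mem (lo_mem_G1 hP1) (up_mem_G1 IsQInt.one)) (lo_mem_G1 hP2)
  have hPv : f P = 0 := by
    rw [hP, hf.mul_lo (mul_mem (lo_mem_G1 hP1) (up_mem_G1 IsQInt.one)) hP2,
      hf.mul_up (lo_mem_G1 hP1) IsQInt.one, hf.lo _ hP1]
  have hP11 : P 1 1 = ((d : ℤ) : ℚ) := by
    simp [hP, sl_mul]; push_cast at hy; linear_combination -hy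
  have hP10 : QDvd q M (P 1 0) := by
    refine ⟨(L : ℚ) * y * b, ((IsQInt.intCast L).mul hyI).mul (IsQInt.intCast b), ?_⟩
    have hab' : (a : ℚ) * d + b * M = 1 := by exact_mod_cast hab
    simp [hP, sl_mul, hw]
    push_cast at hy
    linear_combination -((L : ℚ) * y) * hab' + ((L : ℚ) * y * a) * hy
  set z := x₁ * P⁻¹ with hz
  have hzm : z ∈ G1 q L := mul_mem hx₁m (inv_mem hPm)
  have hz10 : QDvd q M (z 1 0) := by
    rw [hz, sl_mul, sl_inv00, sl_inv10]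
    exact (hx₁c.mul_right hPm.1.2.2.1).add
      (QDvd.mul_left hx₁m.1.2.2.1 hP10.neg)
  have hz11 : QDvd q M (z 1 1 - 1) := by
    have : z 1 1 - 1 = -(x₁ 1 0 * P 0 1) + P 0 1 * P 1 0 := by
      rw [hz, sl_mul, sl_inv01, sl_inv11, hx₁d, ← hP11]
      linear_combination sl_det P
    rw [this]
    exact (hx₁c.mul_right hPm.1.2.1).neg.add (QDvd.mul_left hPm.1.2.1 hP10)
  set z' := up (-(z 0 1)) * z with hz'
  have hupm : up (-(z 0 1)) ∈ G1 q L := up_mem_G1 hzm.1.2.1.neg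
  have hcong : IsCongr q M z' := by
    have h00 : z' 0 0 = z 0 0 - z 0 1 * z 1 0 := by simp [hz', sl_mul]; ring
    have h01 : z' 0 1 = -(z 0 1) * (z 1 1 - 1) := by simp [hz', sl_mul]; ring
    refine ⟨?_, ?_, by simpa [hz', sl_mul] using hz10, by simpa [hz', sl_mul] using hz11⟩
    · have : z' 0 0 - 1 = -(z 0 0 * (z 1 1 - 1)) := by
        rw [h00]; linear_combination sl_det z
      rw [this]; exact (QDvd.mul_left hzm.1.1 hz11).neg
    · rw [h01]; exact QDvd.mul_left hzm.1.2.1.neg hz11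
  have h0 := hv z' hcong
  rw [hz', hf.hom _ hupm _ hzm, hf.up _ hzm.1.2.1.neg, zero_add, hz,
    hf.hom _ hx₁m _ (inv_mem hPm), hf.map_inv hPm, hPv, hx₁v] at h0
  simpa using h0

omit [Fact (Nat.Prime q)] in
theorem pow_entry {L : ℤ} {g : SL(2, ℚ)} (hg : g ∈ G0 q L) (n : ℕ) :
    QDvd q L ((g ^ n) 1 1 - (g 1 1) ^ n) := by
  induction n with
  | zero => simp [QDvd.zero]
  | succ n ih =>
    have : (g ^ (n + 1)) 1 1 - g 1 1 ^ (n + 1)
        = (g ^ n) 1 0 * g 0 1 + ((g ^ n) 1 1 - g 1 1 ^ n) * g 1 1 := by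
      rw [pow_succ, sl_mul]; ring
    rw [this]
    exact ((pow_mem hg n).2.2.2.mul_right hg.2.1).add (ih.mul_right hg.2.2.1)

variable {N : ℕ} {p : ℕ}

/-- Invariance of the value at a row under multiplication of the lower left entry by `r²`. -/
theorem row_sq_eq (hN : N ≠ 0) (hqN : ¬q ∣ N) (hp : p.Prime) (hF : ∀ x : F, p • x = 0)
    {f : SL(2, ℚ) → F} (hf : UniHom q N f) {r : ℕ} (hr : r.Prime) (hrq : r ≠ q) (hrN : ¬r ∣ N)
    (hgood : ¬(r : ℤ) ∣ (q : ℤ) ^ (4 * N) - 1) (hpr : ¬p ∣ r * (r - 1))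
    {g g' : SL(2, ℚ)} {c₀ d : ℤ} (hrd : ¬(r : ℤ) ∣ d)
    (h : Row q (N : ℤ) g ((r : ℤ) ^ 2 * c₀) d) (h' : Row q (N : ℤ) g' c₀ d) : f g = f g' := by
  have hq : q.Prime := Fact.out
  have hr0 : (r : ℚ) ≠ 0 := by exact_mod_cast hr.ne_zero
  set L : ℕ := N * r ^ 2 with hL
  have hL0 : L ≠ 0 := by simp [hL, hN, hr.ne_zero]
  have hqL : ¬q ∣ L := by
    intro h
    rcases hq.dvd_mul.mp h with h | h
    · exact hqN h
    · exact hrq ((Nat.prime_dvd_prime_iff_eq hq hr).mp (hq.dvd_of_dvd_pow h)).symm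
  set s := dg (r : ℚ) hr0 with hs
  obtain ⟨M, hM, hNM, hstab⟩ := dg_mem_stab hN hqN hf hr hrq hrN hgood
  set η : SL(2, ℚ) → F := fun x => f (s * x * s⁻¹) - f x with hη
  set H : Subgroup SL(2, ℚ) := G1 q (N : ℤ) ⊓ G0 q (L : ℤ) with hH
  have hconjH : ∀ x ∈ H, s * x * s⁻¹ ∈ G1 q (N : ℤ) := by
    rintro x ⟨hx1, hxa, hxb, hxd, y, hy, hxc⟩
    refine mem_G1_of_d ?_ ?_
    swap
    · have : (s * x * s⁻¹) 1 1 = x 1 1 := by simp [hs, sl_mul]; field_simp
      rw [this]; exact hx1.2.2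
    simp only [mem_G0, hs, sl_mul, sl_inv00, sl_inv01, sl_inv10, sl_inv11, dg_00, dg_01, dg_10,
      dg_11]
    refine ⟨?_, ?_, ?_, ?_⟩
    · convert hxa using 1; field_simp; ring
    · convert ((IsQInt.natCast r).mul (IsQInt.natCast r)).mul hxb using 1; field_simp; ring
    · convert hxd using 1; field_simp; ring
    · refine ⟨y, hy, ?_⟩
      rw [hxc, hL]; push_cast; field_simp; ring
  have hhom : ∀ x ∈ H, ∀ y ∈ H, η (x * y) = η x + η y := by
    intro x hx y hy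
    simp only [hη]
    rw [show s * (x * y) * s⁻¹ = (s * x * s⁻¹) * (s * y * s⁻¹) by group,
      hf.hom _ (hconjH x hx) _ (hconjH y hy), hf.hom _ hx.1 _ hy.1]
    abel
  have hNL : (N : ℤ) ∣ (L : ℤ) := ⟨(r : ℤ) ^ 2, by simp [hL]⟩
  have hGH : ∀ x ∈ G1 q (L : ℤ), x ∈ H := fun x hx => ⟨G1_mono hNL hx, hx.1⟩
  have hηadm : Adm q (L : ℤ) η :=
    { hom := fun x hx y hy => hhom x (hGH x hx) y (hGH y hy)
      up := fun t ht => by
        have h2 : tr2 (up t) = 2 := by simp [tr2]; norm_num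
        simp only [hη]
        rw [hf.uni _ (hconjH _ (hGH _ (up_mem_G1 ht))) (by rw [tr2_conj, h2]),
          hf.uni _ (hGH _ (up_mem_G1 ht)).1 h2, sub_zero]
      lo := fun t ht => by
        have h2 : tr2 (lo t) = 2 := by simp [tr2]; norm_num
        simp only [hη]
        rw [hf.uni _ (hconjH _ (hGH _ (lo_mem_G1 ht))) (by rw [tr2_conj, h2]),
          hf.uni _ (hGH _ (lo_mem_G1 ht)).1 h2, sub_zero] }
  have hgH : g ∈ H := by
    refine ⟨h.mem, h.mem.1.1, h.mem.1.2.1, h.mem.1.2.2.1, ?_⟩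
    rw [h.c]; exact QDvd.of_dvd ⟨c₀, by simp [hL]; ring⟩
  -- the power lands in `Γ₁(N r²)`
  have hdN : (N : ℤ) ∣ d - 1 := by
    obtain ⟨y, ⟨k, n, hn⟩, hy⟩ := h.mem.2.2
    rw [h.d] at hy
    have h2 : (d - 1) * (q : ℤ) ^ k = N * n := by
      have : (((d - 1) * (q : ℤ) ^ k : ℤ) : ℚ) = ((N * n : ℤ) : ℚ) := by
        push_cast at hy ⊢; rw [← hn, hy]; ring
      exact_mod_cast this
    have hcop : IsCoprime (N : ℤ) ((q : ℤ) ^ k) :=
      ((Nat.prime_iff_prime_int.mp hq).coprime_iff_not_dvd.mpr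
        (by exact_mod_cast hqN)).symm.pow_right
    exact hcop.dvd_of_dvd_mul_right ⟨n, h2⟩
  have hdn : (L : ℤ) ∣ d ^ (r * (r - 1)) - 1 := by
    have h1 : (N : ℤ) ∣ d ^ (r * (r - 1)) - 1 := hdN.trans (sub_one_dvd_pow_sub_one d _)
    have hcopd : IsCoprime d (r : ℤ) :=
      ((Nat.prime_iff_prime_int.mp hr).coprime_iff_not_dvd.mpr hrd).symm
    have h2 : ((r ^ 2 : ℕ) : ℤ) ∣ d ^ (r * (r - 1)) - 1 := by
      rw [← ZMod.intCast_zmod_eq_zero_iff_dvd]
      have hu : IsUnit (d : ZMod (r ^ 2)) := by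
        rw [ZMod.coe_int_isUnit_iff_isCoprime]; push_cast; exact hcopd.symm.pow_left
      obtain ⟨u, hu'⟩ := hu
      have := congrArg (fun v : (ZMod (r ^ 2))ˣ => (v : ZMod (r ^ 2))) (ZMod.pow_totient u)
      simp only [Units.val_pow_eq_pow_val, Nat.totient_prime_pow hr (show 0 < 2 by norm_num),
        hu', Units.val_one, pow_one, Nat.add_one_sub_one] at this
      push_cast
      rw [this, sub_self]
    have hcop : IsCoprime (N : ℤ) ((r ^ 2 : ℕ) : ℤ) := by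
      push_cast
      exact ((Nat.prime_iff_prime_int.mp hr).coprime_iff_not_dvd.mpr
        (by exact_mod_cast hrN)).symm.pow_right
    rw [hL]; push_cast; push_cast at hcop h2
    exact hcop.mul_dvd h1 h2
  have hpowm : g ^ (r * (r - 1)) ∈ G1 q (L : ℤ) := by
    refine mem_G1_of_d (pow_mem hgH.2 _) ?_
    have h2 := (pow_entry hgH.2 (r * (r - 1))).add
      (QDvd.of_dvd (q := q) hdn)
    rw [h.d] at h2
    convert h2 using 1
    push_cast; ring
  have hη0 : η (g ^ (r * (r - 1))) = 0 := by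
    refine congr_eq_zero hηadm (by exact_mod_cast hL0) (by exact_mod_cast hqL)
      (M := M * L) (mul_ne_zero hM (by exact_mod_cast hL0)) (dvd_mul_left _ _) (fun x hx => ?_)
        hpowm
    simp only [hη]
    rw [(hstab x (hx.trans (dvd_mul_right _ _))).2, sub_self]
  have hpow : ∀ n : ℕ, η (g ^ n) = n • η g := by
    intro n
    induction n with
    | zero => simp [hη, hf.adm.map_one]
    | succ n ih => rw [pow_succ, hhom _ (pow_mem hgH n) _ hgH, ih, succ_nsmul]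
  rw [hpow] at hη0
  have hzero := eq_zero_of_coprime_nsmul (hF (η g)) hη0 (hp.coprime_iff_not_dvd.mpr hpr)
  simp only [hη, sub_eq_zero] at hzero
  rw [← hzero]
  -- the conjugate has row `(c₀, d)`
  have hconj : s * g * s⁻¹ ∈ G1 q (N : ℤ) := hconjH g hgH
  have hd11 : (s * g * s⁻¹) 1 1 = g 1 1 := by
    simp [hs, sl_mul]; field_simp
  refine hf.adm.row_eq ⟨hconj, ?_, hd11.trans h.d⟩ h'
  simp [hs, sl_mul, h.c]
  field_simp

open Classical in
/-- The value of `f` at an integral bottom row `(N c₀, d)`. -/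
noncomputable def rowVal (q : ℕ) (N : ℤ) (f : SL(2, ℚ) → F) (c₀ d : ℤ) : F :=
  if h : ∃ g, Row q N g c₀ d then f h.choose else 0

omit [Fact (Nat.Prime q)] in
theorem rowVal_eq {L : ℤ} {f : SL(2, ℚ) → F} (hf : Adm q L f) {g : SL(2, ℚ)} {c₀ d : ℤ}
    (h : Row q L g c₀ d) : rowVal q L f c₀ d = f g := by
  have hex : ∃ g, Row q L g c₀ d := ⟨g, h⟩
  rw [rowVal, dif_pos hex]
  exact hf.row_eq hex.choose_spec h

omit [Fact (Nat.Prime q)] in
theorem rowVal_congr_c {L : ℤ} {f : SL(2, ℚ) → F} (hf : Adm q L f) {c₀ c₀' d : ℤ}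
    (hco : IsCoprime c₀ d) (hco' : IsCoprime c₀' d) (hd : L ∣ d - 1) (hdvd : d ∣ c₀' - c₀) :
    rowVal q L f c₀ d = rowVal q L f c₀' d := by
  obtain ⟨g, hg⟩ := exists_row_of_coprime (q := q) hco hd
  obtain ⟨g', hg'⟩ := exists_row_of_coprime (q := q) hco' hd
  rw [rowVal_eq hf hg, rowVal_eq hf hg', hf.row_congr_c hg hg' hdvd]

omit [Fact (Nat.Prime q)] in
theorem rowVal_congr_d {L : ℤ} {f : SL(2, ℚ) → F} (hf : Adm q L f) {c₀ d d' : ℤ}
    (hco : IsCoprime c₀ d) (hco' : IsCoprime c₀ d') (hd : L ∣ d - 1) (hd' : L ∣ d' - 1)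
    (hdvd : L * c₀ ∣ d' - d) :
    rowVal q L f c₀ d = rowVal q L f c₀ d' := by
  obtain ⟨g, hg⟩ := exists_row_of_coprime (q := q) hco hd
  obtain ⟨g', hg'⟩ := exists_row_of_coprime (q := q) hco' hd'
  rw [rowVal_eq hf hg, rowVal_eq hf hg', hf.row_congr_d hg hg' hdvd]

/-- Bound beyond which all primes are harmless. -/
def bound (q N p : ℕ) : ℕ := q ^ (4 * N) + q + N + p + 4

theorem rowVal_sq (hN : N ≠ 0) (hqN : ¬q ∣ N) (hp : p.Prime) (hp2 : p ≠ 2)
    (hF : ∀ x : F, p • x = 0) {f : SL(2, ℚ) → F} (hf : UniHom q N f) {d : ℕ} (hd : d.Prime)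
    (hdB : bound q N p < d) (hdN : (N : ℤ) ∣ (d : ℤ) - 1) {c c' : ℤ} (hc : (c : ZMod d) ≠ 0)
    (hc' : (c' : ZMod d) ≠ 0) {x : ZMod d} (hx : (c' : ZMod d) = x ^ 2 * c) :
    rowVal q (N : ℤ) f c' d = rowVal q (N : ℤ) f c d := by
  have : Fact d.Prime := ⟨hd⟩
  have : Fact p.Prime := ⟨hp⟩
  have hq : q.Prime := Fact.out
  have hcop : ∀ c : ℤ, (c : ZMod d) ≠ 0 → IsCoprime c (d : ℤ) := fun c hc =>
    ((Nat.prime_iff_prime_int.mp hd).coprime_iff_not_dvd.mpr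
      fun h => hc ((ZMod.intCast_zmod_eq_zero_iff_dvd _ _).mpr h)).symm
  have hx0 : x ≠ 0 := by rintro rfl; simp at hx; exact hc' hx
  have hpd : Nat.Coprime d p := (Nat.coprime_primes hd hp).mpr (by unfold bound at hdB; omega)
  let e := ZMod.chineseRemainder hpd
  have hu : IsUnit (e.symm (x, 2)) := by
    rw [MulEquiv.isUnit_map, Prod.isUnit_iff]
    refine ⟨IsUnit.mk0 _ hx0, IsUnit.mk0 _ ?_⟩
    show ((2 : ℕ) : ZMod p) ≠ 0
    rw [Ne, ZMod.natCast_eq_zero_iff, Nat.prime_dvd_prime_iff_eq hp Nat.prime_two]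
    exact hp2
  have : NeZero (d * p) := ⟨Nat.mul_ne_zero hd.ne_zero hp.ne_zero⟩
  obtain ⟨r, hrB, hr, hrv⟩ := Nat.forall_exists_prime_gt_and_eq_mod hu (bound q N p + d)
  have hre : e (r : ZMod (d * p)) = (x, 2) := by rw [hrv, RingEquiv.apply_symm_apply]
  rw [map_natCast] at hre
  have hrx : (r : ZMod d) = x := congrArg Prod.fst hre
  have hrp : (r : ZMod p) = 2 := congrArg Prod.snd hre
  have hgood : ¬(r : ℤ) ∣ (q : ℤ) ^ (4 * N) - 1 := by
    intro h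
    have h1 : 2 ≤ q ^ (4 * N) := le_trans hq.two_le (Nat.le_self_pow (by omega) q)
    have h2 : ((q : ℤ) ^ (4 * N) - 1) = ((q ^ (4 * N) - 1 : ℕ) : ℤ) := by
      rw [Nat.cast_sub (by omega)]; push_cast; ring
    rw [h2, Int.natCast_dvd_natCast] at h
    have := Nat.le_of_dvd (by omega) h
    unfold bound at hrB; omega
  have hrN : ¬r ∣ N := fun h => by
    have := Nat.le_of_dvd (Nat.pos_of_ne_zero hN) h; unfold bound at hrB; omega
  have hpr : ¬p ∣ r * (r - 1) := by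
    rw [← ZMod.natCast_eq_zero_iff, Nat.cast_mul, Nat.cast_sub hr.one_le, hrp]
    push_cast
    norm_num
    show ((2 : ℕ) : ZMod p) ≠ 0
    rw [Ne, ZMod.natCast_eq_zero_iff, Nat.prime_dvd_prime_iff_eq hp Nat.prime_two]
    exact hp2
  have hrd : ¬(r : ℤ) ∣ (d : ℤ) := by
    rw [Int.natCast_dvd_natCast, Nat.prime_dvd_prime_iff_eq hr hd]; omega
  have hrc : (((r : ℤ) ^ 2 * c : ℤ) : ZMod d) ≠ 0 := by
    push_cast; rw [hrx]; exact mul_ne_zero (pow_ne_zero _ hx0) hc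
  obtain ⟨g, hg⟩ := exists_row_of_coprime (q := q) (hcop _ hc) hdN
  obtain ⟨g₂, hg₂⟩ := exists_row_of_coprime (q := q) (hcop _ hrc) hdN
  rw [rowVal_congr_c hf.adm (hcop _ hc') (hcop _ hrc) hdN
      (by rw [← ZMod.intCast_zmod_eq_zero_iff_dvd]; push_cast; rw [hrx, hx]; ring),
    rowVal_eq hf.adm hg, rowVal_eq hf.adm hg₂]
  exact row_sq_eq hN hqN hp hF hf hr (by unfold bound at hrB; omega) hrN hgood hpr hrd hg₂ hg

omit [Fact (Nat.Prime q)] in
theorem rowVal_one {f : SL(2, ℚ) → F} (hf : UniHom q N f) {d : ℤ} (hd : (N : ℤ) ∣ d - 1) :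
    rowVal q (N : ℤ) f 1 d = 0 := by
  rw [rowVal_congr_d hf.adm isCoprime_one_left (isCoprime_one_left (x := (1 : ℤ))) hd (by simp)
    (by obtain ⟨k, hk⟩ := hd; exact ⟨-k, by linarith⟩)]
  have hrow : Row q (N : ℤ) (lo (N : ℚ)) 1 1 :=
    ⟨lo_mem_G1 (by simpa using QDvd.self (q := q) (N : ℤ)), by simp, by simp⟩
  rw [rowVal_eq hf.adm hrow]
  exact hf.adm.lo _ (by simpa using QDvd.self (q := q) (N : ℤ))

theorem rowVal_of_isSquare (hN : N ≠ 0) (hqN : ¬q ∣ N) (hp : p.Prime) (hp2 : p ≠ 2)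
    (hF : ∀ x : F, p • x = 0) {f : SL(2, ℚ) → F} (hf : UniHom q N f) {d : ℕ} (hd : d.Prime)
    (hdB : bound q N p < d) (hdN : (N : ℤ) ∣ (d : ℤ) - 1) {c : ℤ} (hc : (c : ZMod d) ≠ 0)
    (hsq : IsSquare (c : ZMod d)) : rowVal q (N : ℤ) f c d = 0 := by
  have : Fact d.Prime := ⟨hd⟩
  obtain ⟨y, hy⟩ := hsq
  rw [rowVal_sq hN hqN hp hp2 hF hf hd hdB hdN (c := 1) (by simp) hc (x := y)
    (by simp [hy, pow_two]), rowVal_one hf hdN]

/-- **Ihara's lemma**, elementary form. -/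
theorem ihara_vanish (hN : N ≠ 0) (hqN : ¬q ∣ N) (hp : p.Prime) (hp2 : p ≠ 2)
    (hF : ∀ x : F, p • x = 0) {f : SL(2, ℚ) → F} (hf : UniHom q N f) {g : SL(2, ℚ)}
    (hg : g ∈ G1 q (N : ℤ)) : f g = 0 := by
  classical
  have hq : q.Prime := Fact.out
  have hN' : (N : ℤ) ≠ 0 := by exact_mod_cast hN
  have hqN' : ¬(q : ℤ) ∣ (N : ℤ) := by exact_mod_cast hqN
  set B := bound q N p with hB
  -- all nonzero values are equal
  suffices key : ∀ g ∈ G1 q (N : ℤ), ∀ g' ∈ G1 q (N : ℤ), f g ≠ 0 → f g' ≠ 0 → f g = f g' by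
    by_contra h0
    have h2 : f (g * g) = f g + f g := hf.hom g hg g hg
    by_cases h20 : f (g * g) = 0
    · exact h0 (eq_zero_of_coprime_nsmul (hF _) (by rw [two_nsmul, ← h2, h20])
        ((Nat.coprime_primes hp Nat.prime_two).mpr hp2))
    · have := key _ (mul_mem hg hg) g hg h20 h0
      rw [h2, add_eq_left] at this
      exact h0 this
  intro g hg g' hg' h0 h0'
  obtain ⟨g₁, c, d, hd, hdB, hrow, hval⟩ := exists_prime_row (F := F) hq hN' hqN' hg B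
  obtain ⟨g₁', c', d', hd', hdB', hrow', hval'⟩ := exists_prime_row (F := F) hq hN' hqN' hg' (B + d)
  rw [← hval f hf.adm, ← rowVal_eq hf.adm hrow] at h0 ⊢
  rw [← hval' f hf.adm, ← rowVal_eq hf.adm hrow'] at h0' ⊢
  have hdq : ¬(q : ℤ) ∣ (d : ℤ) := by
    rw [Int.natCast_dvd_natCast, Nat.prime_dvd_prime_iff_eq hq hd]
    unfold bound at hB; omega
  have hdq' : ¬(q : ℤ) ∣ (d' : ℤ) := by
    rw [Int.natCast_dvd_natCast, Nat.prime_dvd_prime_iff_eq hq hd']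
    unfold bound at hB; omega
  have hcd := hrow.coprime hq hdq
  have hcd' := hrow'.coprime hq hdq'
  have hN1 : ∀ {g : SL(2, ℚ)} {c : ℤ} {d : ℕ}, Row q (N : ℤ) g c d → (N : ℤ) ∣ (d : ℤ) - 1 := by
    intro g c d h
    obtain ⟨y, ⟨k, n, hn⟩, hy⟩ := h.mem.2.2
    rw [h.d] at hy
    have h2 : ((d : ℤ) - 1) * (q : ℤ) ^ k = N * n := by
      have : ((((d : ℤ) - 1) * (q : ℤ) ^ k : ℤ) : ℚ) = ((N * n : ℤ) : ℚ) := by
        push_cast at hy ⊢; rw [← hn, hy]; ring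
      exact_mod_cast this
    exact ((Nat.prime_iff_prime_int.mp hq).coprime_iff_not_dvd.mpr
        hqN').symm.pow_right.dvd_of_dvd_mul_right ⟨n, h2⟩
  have hdN := hN1 hrow
  have hdN' := hN1 hrow'
  have : Fact d.Prime := ⟨hd⟩
  have : Fact d'.Prime := ⟨hd'⟩
  have hc0 : (c : ZMod d) ≠ 0 := by
    rw [← isUnit_iff_ne_zero, ZMod.coe_int_isUnit_iff_isCoprime]; exact hcd.symm
  have hc0' : (c' : ZMod d') ≠ 0 := by
    rw [← isUnit_iff_ne_zero, ZMod.coe_int_isUnit_iff_isCoprime]; exact hcd'.symm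
  -- replace `c`, `c'` by primes congruent to `1` modulo `4`
  have hpick : ∀ (d : ℕ) (c : ℤ) (A : ℕ), d.Prime → 4 < d → IsCoprime c (d : ℤ) →
      ∃ r, A < r ∧ r.Prime ∧ r % 4 = 1 ∧ (r : ZMod d) = (c : ZMod d) := by
    intro d c A hd hd4 hco
    have h4 : Nat.Coprime d 4 :=
      (Nat.Prime.coprime_iff_not_dvd hd).mpr fun h => by
        have := Nat.le_of_dvd (by norm_num) h; omega
    let e := ZMod.chineseRemainder h4
    have hu : IsUnit (e.symm ((c : ZMod d), 1)) := by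
      rw [MulEquiv.isUnit_map, Prod.isUnit_iff, ZMod.coe_int_isUnit_iff_isCoprime]
      exact ⟨hco.symm, isUnit_one⟩
    have : NeZero (d * 4) := ⟨by have := hd.ne_zero; omega⟩
    obtain ⟨r, hrA, hr, hrv⟩ := Nat.forall_exists_prime_gt_and_eq_mod hu A
    have hre : e (r : ZMod (d * 4)) = ((c : ZMod d), 1) := by rw [hrv, RingEquiv.apply_symm_apply]
    rw [map_natCast] at hre
    refine ⟨r, hrA, hr, ?_, congrArg Prod.fst hre⟩
    have h1 : (r : ZMod 4) = ((1 : ℕ) : ZMod 4) := by simpa using congrArg Prod.snd hre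
    rwa [ZMod.natCast_eq_natCast_iff'] at h1
  obtain ⟨r, hrA, hr, hr4, hrc⟩ := hpick d c (B + d + d') hd (by unfold bound at hB; omega) hcd
  obtain ⟨r', hrA', hr', hr4', hrc'⟩ :=
    hpick d' c' (B + d + d' + r) hd' (by unfold bound at hB; omega) hcd'
  have : Fact r.Prime := ⟨hr⟩
  have : Fact r'.Prime := ⟨hr'⟩
  have hns : ¬IsSquare (r : ZMod d) := fun h => h0
    (rowVal_of_isSquare hN hqN hp hp2 hF hf hd hdB hdN hc0 (hrc ▸ h))
  have hns' : ¬IsSquare (r' : ZMod d') := fun h => h0'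
    (rowVal_of_isSquare hN hqN hp hp2 hF hf hd' (by omega) hdN' hc0' (hrc' ▸ h))
  -- the connecting prime
  have hNr : Nat.Coprime N r := ((Nat.Prime.coprime_iff_not_dvd hr).mpr fun h => by
    have := Nat.le_of_dvd (Nat.pos_of_ne_zero hN) h; unfold bound at hB; omega).symm
  have hNr' : Nat.Coprime N r' := ((Nat.Prime.coprime_iff_not_dvd hr').mpr fun h => by
    have := Nat.le_of_dvd (Nat.pos_of_ne_zero hN) h; unfold bound at hB; omega).symm
  have hrr' : Nat.Coprime r r' := (Nat.coprime_primes hr hr').mpr (by omega)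
  let e₁ := ZMod.chineseRemainder (Nat.Coprime.mul_left hNr' hrr')
  let e₂ := ZMod.chineseRemainder hNr
  have : NeZero (N * r * r') := ⟨by simp [hN, hr.ne_zero, hr'.ne_zero]⟩
  have hu : IsUnit (e₁.symm (e₂.symm (1, (d : ZMod r)), (d' : ZMod r'))) := by
    rw [MulEquiv.isUnit_map, Prod.isUnit_iff, MulEquiv.isUnit_map, Prod.isUnit_iff]
    refine ⟨⟨isUnit_one, IsUnit.mk0 _ ?_⟩, IsUnit.mk0 _ ?_⟩ <;>
      rw [Ne, ZMod.natCast_eq_zero_iff,
        Nat.prime_dvd_prime_iff_eq (by assumption) (by assumption)] <;>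
      omega
  obtain ⟨D, hDB, hD, hDv⟩ := Nat.forall_exists_prime_gt_and_eq_mod hu (B + r + r' + d + d')
  have hDe : e₁ (D : ZMod (N * r * r')) = (e₂.symm (1, (d : ZMod r)), (d' : ZMod r')) := by
    rw [hDv, RingEquiv.apply_symm_apply]
  rw [map_natCast] at hDe
  have hDr' : (D : ZMod r') = (d' : ZMod r') := congrArg Prod.snd hDe
  have h2 : e₂ (D : ZMod (N * r)) = (1, (d : ZMod r)) := by
    have := congrArg Prod.fst hDe
    simp only [Prod.fst_natCast] at this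
    rw [this, RingEquiv.apply_symm_apply]
  rw [map_natCast] at h2
  have hDr : (D : ZMod r) = (d : ZMod r) := congrArg Prod.snd h2
  have hDN1 : ((D : ℕ) : ZMod N) = 1 := congrArg Prod.fst h2
  have hDN : (N : ℤ) ∣ (D : ℤ) - 1 := by
    rw [← ZMod.intCast_zmod_eq_zero_iff_dvd]; push_cast; rw [hDN1, sub_self]
  have : Fact D.Prime := ⟨hD⟩
  have hnsD : ¬IsSquare (r : ZMod D) := by
    rw [← ZMod.exists_sq_eq_prime_iff_of_mod_four_eq_one (p := r) (q := D) hr4 (by omega), hDr,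
      ZMod.exists_sq_eq_prime_iff_of_mod_four_eq_one (p := r) (q := d) hr4
        (by unfold bound at hB; omega)]
    exact hns
  have hnsD' : ¬IsSquare (r' : ZMod D) := by
    rw [← ZMod.exists_sq_eq_prime_iff_of_mod_four_eq_one (p := r') (q := D) hr4' (by omega), hDr',
      ZMod.exists_sq_eq_prime_iff_of_mod_four_eq_one (p := r') (q := d') hr4'
        (by unfold bound at hB; omega)]
    exact hns'
  have hcopP : ∀ {a b : ℕ}, a.Prime → b.Prime → a ≠ b → IsCoprime (a : ℤ) (b : ℤ) :=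
    fun ha hb h => Nat.Coprime.isCoprime ((Nat.coprime_primes ha hb).mpr h)
  have hmul : ∀ {a : ℕ} {x : ℕ}, Nat.Coprime N a → (x : ZMod a) = (D : ZMod a) →
      (N : ℤ) ∣ (x : ℤ) - 1 → (N : ℤ) * (a : ℤ) ∣ (D : ℤ) - (x : ℤ) := by
    intro a x hNa hxa hxN
    refine (Nat.Coprime.isCoprime hNa).mul_dvd ?_ ?_
    · have := dvd_sub hDN hxN; simpa using this
    · rw [← ZMod.intCast_zmod_eq_zero_iff_dvd]; push_cast; rw [hxa, sub_self]
  have hrD : (r : ZMod D) ≠ 0 := fun h => by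
    rw [ZMod.natCast_eq_zero_iff, Nat.prime_dvd_prime_iff_eq hD hr] at h; omega
  have hrD' : (r' : ZMod D) ≠ 0 := fun h => by
    rw [ZMod.natCast_eq_zero_iff, Nat.prime_dvd_prime_iff_eq hD hr'] at h; omega
  obtain ⟨y, hy⟩ : IsSquare ((r : ZMod D) * r') := by
    have hD2 : ringChar (ZMod D) ≠ 2 := by rw [ZMod.ringChar_zmod_n]; omega
    rw [← quadraticChar_one_iff_isSquare (mul_ne_zero hrD hrD'), map_mul,
      quadraticChar_neg_one_iff_not_isSquare.mpr hnsD,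
      quadraticChar_neg_one_iff_not_isSquare.mpr hnsD']
    norm_num
  have e1 : rowVal q (N : ℤ) f c d = rowVal q (N : ℤ) f r D := by
    rw [rowVal_congr_c hf.adm hcd (hcopP hr hd (by omega)) hdN
      (by rw [← ZMod.intCast_zmod_eq_zero_iff_dvd]; push_cast; rw [hrc, sub_self]),
      rowVal_congr_d hf.adm (hcopP hr hd (by omega)) (hcopP hr hD (by omega)) hdN hDN
        (hmul hNr hDr.symm hdN)]
  have e2 : rowVal q (N : ℤ) f c' d' = rowVal q (N : ℤ) f r' D := by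
    rw [rowVal_congr_c hf.adm hcd' (hcopP hr' hd' (by omega)) hdN'
      (by rw [← ZMod.intCast_zmod_eq_zero_iff_dvd]; push_cast; rw [hrc', sub_self]),
      rowVal_congr_d hf.adm (hcopP hr' hd' (by omega)) (hcopP hr' hD (by omega)) hdN' hDN
        (hmul hNr' hDr'.symm hdN')]
  rw [e1, e2]
  exact (rowVal_sq hN hqN hp hp2 hF hf hD (by omega) hDN (by exact_mod_cast hrD)
    (by exact_mod_cast hrD') (x := y / (r : ZMod D)) (by
      push_cast; field_simp; linear_combination hy)).symm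

end Fermat.Agent.Ihara
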