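import Fermat.Agent.Ihara.CuspLift
import Fermat.Agent.Ihara.Families
import Fermat.Agent.Ihara.IharaLemma

/-!
# Functions on cusps under `Γ₀(N)[1/q]`

## Main results

* `G0_le_of_gens`: `Γ₀(N)[1/q]` is generated by `Γ₀(N)` and `u(1/q)`.
* `fixed_of_G0_le`: a function on cusps with values in odd prime exponent which `Γ₀(N)[1/q]` moves
  only by constants is invariant under `Γ₁(N)[1/q]`.
* `exists_gamma_congr`: cusps with congruent first columns are equivalent.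
-/

set_option autoImplicit false

noncomputable section

namespace Fermat.Agent.Ihara

open Matrix OnePoint CongruenceSubgroup
open scoped MatrixGroups

/-- An integral matrix of non-zero determinant as an element of `GL(2, ℚ)`. -/
def qMat (M : Mat2) : GL (Fin 2) ℚ :=
  if h : M.det ≠ 0 then
    Matrix.GeneralLinearGroup.mkOfDetNeZero (M.map (Int.cast : ℤ → ℚ)) (by
      rw [Matrix.det_fin_two] at h ⊢
      simp only [Matrix.map_apply]
      exact_mod_cast h)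
  else 1

theorem qMat_apply {M : Mat2} (h : M.det ≠ 0) (i j : Fin 2) : qMat M i j = (M i j : ℚ) := by
  simp [qMat, h, Matrix.GeneralLinearGroup.mkOfDetNeZero]

theorem qMat_mul {M M' : Mat2} (h : M.det ≠ 0) (h' : M'.det ≠ 0) :
    qMat (M * M') = qMat M * qMat M' := by
  have hh : (M * M').det ≠ 0 := by rw [Matrix.det_mul]; exact mul_ne_zero h h'
  ext i j
  rw [qMat_apply hh, Units.val_mul, Matrix.mul_apply, Matrix.mul_apply, Fin.sum_univ_two,
    Fin.sum_univ_two, qMat_apply h, qMat_apply h, qMat_apply h', qMat_apply h']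
  push_cast
  ring

theorem qMat_mcoe (g : SL(2, ℤ)) : qMat (mcoe g) = qGL g := by
  ext i j
  rw [qMat_apply (by rw [mcoe_det]; norm_num)]
  simp

/-- `SL(2, ℚ)` inside `GL(2, ℚ)`. -/
def sGL : SL(2, ℚ) →* GL (Fin 2) ℚ := Matrix.SpecialLinearGroup.toGL

theorem sGL_apply (g : SL(2, ℚ)) (i j : Fin 2) : sGL g i j = g i j := rfl

/-- An integral unimodular matrix inside `SL(2, ℚ)`. -/
def castSL (g : SL(2, ℤ)) : SL(2, ℚ) :=
  mat (g 0 0) (g 0 1) (g 1 0) (g 1 1) (by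
    have h : g 0 0 * g 1 1 - g 0 1 * g 1 0 = 1 := by rw [← Matrix.det_fin_two]; exact g.2
    exact_mod_cast h)

@[simp] theorem castSL_apply (g : SL(2, ℤ)) (i j : Fin 2) : castSL g i j = (g i j : ℚ) := by
  fin_cases i <;> fin_cases j <;> rfl

theorem slMk_00 (a b c d : ℤ) (h) : slMk a b c d h 0 0 = a := rfl
theorem slMk_01 (a b c d : ℤ) (h) : slMk a b c d h 0 1 = b := rfl
theorem slMk_10 (a b c d : ℤ) (h) : slMk a b c d h 1 0 = c := rfl
theorem slMk_11 (a b c d : ℤ) (h) : slMk a b c d h 1 1 = d := rfl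

theorem sGL_castSL (g : SL(2, ℤ)) : sGL (castSL g) = qGL g := by
  ext i j
  rw [sGL_apply]
  fin_cases i <;> fin_cases j <;> simp

theorem tr2_two_fixes_cusp {g : SL(2, ℚ)} (h : tr2 g = 2) :
    ∃ x : OnePoint ℚ, sGL g • x = x := by
  by_cases hc : g 1 0 = 0
  · exact ⟨∞, smul_infty_eq_self_iff.mpr hc⟩
  refine ⟨(((g 0 0 - 1) / g 1 0 : ℚ) : OnePoint ℚ), ?_⟩
  have hdet := sl_det g
  have h11 : g 1 1 = 2 - g 0 0 := by rw [tr2] at h; linarith
  rw [h11] at hdet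
  have hden : g 1 0 * ((g 0 0 - 1) / g 1 0) + g 1 1 = 1 := by
    rw [mul_div_cancel₀ _ hc, h11]; ring
  have hne : sGL g 1 0 * ((g 0 0 - 1) / g 1 0) + sGL g 1 1 ≠ 0 := by
    rw [sGL_apply, sGL_apply, hden]; exact one_ne_zero
  rw [smul_some_eq_ite, if_neg hne, OnePoint.coe_eq_coe, sGL_apply, sGL_apply, sGL_apply, sGL_apply,
    hden, div_one]
  field_simp
  linear_combination -hdet

section Stab

variable {F : Type*} [AddCommGroup F] (Ψ : OnePoint ℚ → F)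

/-- The transformations changing `Ψ` by a constant. -/
def shiftStab : Subgroup SL(2, ℚ) where
  carrier := {g | ∀ x, Ψ (sGL g • x) = (Ψ (sGL g • (∞ : OnePoint ℚ)) - Ψ ∞) + Ψ x}
  one_mem' := fun x => by simp
  mul_mem' {g h} hg hh := fun x => by
    rw [map_mul, mul_smul, mul_smul, hg (sGL h • x), hg (sGL h • ∞), hh x]
    abel
  inv_mem' {g} hg := fun x => by
    have h1 := hg (sGL g⁻¹ • x)
    have h2 := hg (sGL g⁻¹ • ∞)
    rw [map_inv, smul_inv_smul] at h1 h2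
    rw [map_inv]
    rw [eq_sub_of_add_eq' h1.symm, eq_sub_of_add_eq' h2.symm]
    abel

theorem mem_shiftStab_of_forall {g : SL(2, ℚ)} {c : F} (h : ∀ x, Ψ (sGL g • x) = c + Ψ x) :
    g ∈ shiftStab Ψ := fun x => by rw [h x, h ∞, add_sub_cancel_right]

variable {q : ℕ} [hq : Fact q.Prime] {N : ℕ}

/-- `Γ₀(N)[1/q]` is generated by `Γ₀(N)` and `u(1/q)`. -/
theorem G0_le_of_gens (hqN : ¬q ∣ N) (H : Subgroup SL(2, ℚ))
    (hΓ : ∀ γ : Gamma0 N, castSL γ ∈ H) (hu : up (1 / (q : ℚ)) ∈ H) : G0 q (N : ℤ) ≤ H := by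
  have hq0 : (q : ℚ) ≠ 0 := qcast_ne_zero
  have hqi : (q : ℤ) ≠ 0 := by exact_mod_cast hq.out.ne_zero
  have hb := bezout_eq N q hqN
  set x₀ := (bezout N q).1
  set y₀ := (bezout N q).2
  -- the torus
  have htor1 : tor q (-1) ∈ H := by
    have hM : slMk x₀ 1 ((N : ℤ) * y₀) q (by linear_combination hb) ∈ Gamma0 N :=
      slMk_mem _ (dvd_mul_right _ _)
    have hlo : slMk 1 0 ((q : ℤ) * N * y₀) 1 (by ring) ∈ Gamma0 N :=
      slMk_mem _ ⟨q * y₀, by ring⟩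
    have he : tor q (-1) = (castSL (slMk 1 0 ((q : ℤ) * N * y₀) 1 (by ring)))⁻¹ *
        ((up (1 / (q : ℚ)))⁻¹ * castSL (slMk x₀ 1 ((N : ℤ) * y₀) q
          (by linear_combination hb))) := by
      have hbq : (q : ℚ) * x₀ - (N : ℚ) * y₀ = 1 := by exact_mod_cast hb
      apply sl_ext <;> simp [tor, slMk_00, slMk_01, slMk_10, slMk_11, sl_mul]
      all_goals field_simp
      · linear_combination -hbq
      · linear_combination (N : ℚ) * y₀ * hbq
    rw [he]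
    exact mul_mem (inv_mem (hΓ ⟨_, hlo⟩)) (mul_mem (inv_mem hu) (hΓ ⟨_, hM⟩))
  have htor : ∀ i : ℤ, tor q i ∈ H := by
    intro i
    induction i using Int.induction_on with
    | zero => rw [tor_zero]; exact one_mem _
    | succ n ih =>
      rw [tor_add, show tor q (1 : ℤ) = (tor q (-1))⁻¹ by rw [← tor_neg, neg_neg]]
      exact mul_mem ih (inv_mem htor1)
    | pred n ih =>
      rw [sub_eq_add_neg, tor_add]
      exact mul_mem ih htor1
  have hupint : ∀ n : ℤ, up (n : ℚ) ∈ H := fun n => by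
    have : castSL (slMk 1 n 0 1 (by ring)) = up (n : ℚ) := by
      apply sl_ext <;> simp [slMk_00, slMk_01, slMk_10, slMk_11]
    rw [← this]
    have hmem : slMk 1 n 0 1 (by ring) ∈ Gamma0 N := slMk_mem _ (dvd_zero _)
    exact hΓ ⟨_, hmem⟩
  have hup : ∀ t : ℚ, IsQInt q t → up t ∈ H := by
    rintro t ⟨k, n, hn⟩
    have he : up t = tor q (-(k : ℤ)) * up ((n * (q : ℤ) ^ k : ℤ) : ℚ) * (tor q (-(k : ℤ)))⁻¹ := by
      rw [tor_conj_up]
      congr 1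
      push_cast
      rw [← hn, show (2 : ℤ) * -(k : ℤ) = -((2 * k : ℕ) : ℤ) by push_cast; ring, _root_.zpow_neg,
        zpow_natCast]
      field_simp
      ring
    rw [he]
    exact mul_mem (mul_mem (htor _) (hupint _)) (inv_mem (htor _))
  intro g hg
  obtain ⟨⟨k₀, A, hA⟩, hB, hD, ⟨c, ⟨k₁, C, hC⟩, hgc⟩⟩ := mem_G0.mp hg
  set k := k₀ + k₁
  have hA' : g 0 0 * (q : ℚ) ^ k = ((A * (q : ℤ) ^ k₁ : ℤ) : ℚ) := by
    push_cast; rw [← hA, pow_add]; ring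
  have hC' : g 1 0 * (q : ℚ) ^ k = (((N : ℤ) * (C * (q : ℤ) ^ k₀) : ℤ) : ℚ) := by
    push_cast; rw [← hC, hgc, pow_add]; push_cast; ring
  set a₀ := A * (q : ℤ) ^ k₁
  set c₀ := (N : ℤ) * (C * (q : ℤ) ^ k₀) with hc₀
  obtain ⟨D, hDk⟩ := (show IsQInt q (g 1 1) from hD)
  obtain ⟨B, hBk⟩ := (show IsQInt q (g 0 1) from hB)
  obtain ⟨E, hE⟩ : ∃ E : ℕ, (Int.gcd a₀ c₀ : ℤ) ∣ (q : ℤ) ^ E := by
    obtain ⟨k₂, hD2⟩ := hDk
    obtain ⟨k₃, hB3⟩ := hBk
    refine ⟨k + D + B, ?_⟩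
    have e : (q : ℤ) ^ (k + D + B) = a₀ * (k₂ * (q : ℤ) ^ B) - c₀ * (k₃ * (q : ℤ) ^ D) := by
      have hdet := sl_det g
      have : ((q : ℚ) ^ (k + D + B)) = (a₀ : ℚ) * (k₂ * (q : ℚ) ^ B)
          - (c₀ : ℚ) * (k₃ * (q : ℚ) ^ D) := by
        rw [← hA', ← hC', ← hD2, ← hB3]
        linear_combination -((q : ℚ) ^ (k + D + B)) * hdet
      exact_mod_cast this
    rw [e]
    exact dvd_sub (dvd_mul_of_dvd_left (Int.gcd_dvd_left _ _) _)
      (dvd_mul_of_dvd_left (Int.gcd_dvd_right _ _) _)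
  obtain ⟨e, -, he⟩ := (Nat.dvd_prime_pow hq.out).mp
    (show Int.gcd a₀ c₀ ∣ q ^ E from Int.natCast_dvd_natCast.mp (by push_cast; exact hE))
  have hbz := Int.gcd_eq_gcd_ab a₀ c₀
  rw [he, Nat.cast_pow] at hbz
  obtain ⟨a', ha'⟩ : (q : ℤ) ^ e ∣ a₀ := by
    rw [← Nat.cast_pow, ← he]; exact Int.gcd_dvd_left _ _
  obtain ⟨c', hc'⟩ : (q : ℤ) ^ e ∣ C * (q : ℤ) ^ k₀ := by
    have h1 : (q : ℤ) ^ e ∣ c₀ := by rw [← Nat.cast_pow, ← he]; exact Int.gcd_dvd_right _ _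
    have hcop : IsCoprime ((q : ℤ) ^ e) (N : ℤ) :=
      IsCoprime.pow_left ((Nat.prime_iff_prime_int.mp hq.out).coprime_iff_not_dvd.mpr
        (by exact_mod_cast hqN))
    exact hcop.dvd_of_dvd_mul_left (hc₀ ▸ h1)
  set u := Int.gcdA a₀ c₀
  set v := Int.gcdB a₀ c₀
  have hdet' : a' * u - (-v) * ((N : ℤ) * c') = 1 := by
    refine mul_left_cancel₀ (pow_ne_zero e hqi) ?_
    rw [hc₀, hc', ha'] at hbz
    linear_combination -hbz
  set γ : Gamma0 N := ⟨slMk a' (-v) ((N : ℤ) * c') u hdet', slMk_mem _ (dvd_mul_right _ _)⟩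
  set h := (castSL γ)⁻¹ * g with hh
  have hqk : (q : ℚ) ^ k ≠ 0 := pow_ne_zero _ hq0
  have hc0q : ((c₀ : ℤ) : ℚ) = (q : ℚ) ^ e * ((N : ℚ) * c') := by
    rw [hc₀, hc']; push_cast; ring
  have ha0q : ((a₀ : ℤ) : ℚ) = (q : ℚ) ^ e * a' := by rw [ha']; push_cast; ring
  have h10 : h 1 0 = 0 := by
    refine mul_right_cancel₀ hqk ?_
    have e : h 1 0 = -((N : ℚ) * c') * g 0 0 + (a' : ℚ) * g 1 0 := by
      rw [hh, sl_mul, sl_inv10, sl_inv11]
      simp [γ, slMk_00, slMk_10]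
    rw [zero_mul, e]
    linear_combination (-((N : ℚ) * c')) * hA'.trans ha0q + (a' : ℚ) * hC'.trans hc0q
  have h00 : h 0 0 = (q : ℚ) ^ ((e : ℤ) - k) := by
    have e' : h 0 0 = (u : ℚ) * g 0 0 + (v : ℚ) * g 1 0 := by
      rw [hh, sl_mul, sl_inv00, sl_inv01]
      simp [γ, slMk_01, slMk_11]
    rw [zpow_sub₀ hq0, zpow_natCast, zpow_natCast, eq_div_iff hqk, e']
    have hz : (a' : ℚ) * u - (-(v : ℚ)) * ((N : ℚ) * c') = 1 := by exact_mod_cast hdet'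
    linear_combination (u : ℚ) * hA'.trans ha0q + (v : ℚ) * hC'.trans hc0q + (q : ℚ) ^ e * hz
  have h11 : h 1 1 = ((q : ℚ) ^ ((e : ℤ) - k))⁻¹ := by
    have := sl_det h
    rw [h10, mul_zero, sub_zero, h00] at this
    exact eq_inv_of_mul_eq_one_left (by rw [mul_comm]; exact this)
  have hhG : h ∈ G0 q (N : ℤ) := by
    refine mul_mem (inv_mem ?_) hg
    refine mem_G0.mpr ⟨?_, ?_, ?_, ?_⟩
    · exact IsQInt.intCast _
    · exact IsQInt.intCast _
    · exact IsQInt.intCast _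
    · exact QDvd.of_dvd (mem_Gamma0_iff.mp γ.2)
  have hsplit : h = tor q ((e : ℤ) - k) * up ((q : ℚ) ^ (-((e : ℤ) - k)) * h 0 1) := by
    apply sl_ext <;> simp [tor, sl_mul, h10, h00, h11]
    rw [← mul_assoc, ← zpow_add₀ hq0]
    simp
  have : g = castSL γ * h := by rw [hh, mul_inv_cancel_left]
  rw [this, hsplit]
  exact mul_mem (hΓ γ) (mul_mem (htor _)
    (hup _ ((IsQInt.zpow hq.out.ne_zero _).mul (mem_G0.mp hhG).2.1)))

/-- If `Γ₀(N)[1/q]` changes `Ψ` by constants, `Γ₁(N)[1/q]` fixes it. -/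
theorem fixed_of_G0_le {p : ℕ} (hp : p.Prime) (hp2 : p ≠ 2) (hN : N ≠ 0) (hqN : ¬q ∣ N)
    (hF : ∀ x : F, p • x = 0) (hle : G0 q (N : ℤ) ≤ shiftStab Ψ) {g : SL(2, ℚ)}
    (hg : g ∈ G1 q (N : ℤ)) (x : OnePoint ℚ) : Ψ (sGL g • x) = Ψ x := by
  have hf : UniHom q (N : ℤ) (fun g => Ψ (sGL g • (∞ : OnePoint ℚ)) - Ψ ∞) :=
    { hom := fun a ha b _ => by
        show Ψ (sGL (a * b) • ∞) - Ψ ∞ = _
        rw [map_mul, mul_smul, hle ha.1 (sGL b • ∞)]
        abel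
      uni := fun a ha htr => by
        obtain ⟨y, hy⟩ := tr2_two_fixes_cusp htr
        have := hle ha.1 y
        rw [hy] at this
        exact right_eq_add.mp this
      conj_self := fun a ha b hb => by
        show Ψ (sGL (a * b * a⁻¹) • ∞) - Ψ ∞ = _
        have h1 := hle hb.1 (sGL a⁻¹ • ∞)
        have h2 := hle ha (sGL a⁻¹ • ∞)
        rw [map_mul, map_mul, mul_smul, mul_smul, hle ha (sGL b • sGL a⁻¹ • ∞), h1]
        rw [← mul_smul, ← map_mul, mul_inv_cancel, map_one, one_smul] at h2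
        have h3 : (Ψ (sGL a • ∞) - Ψ ∞) + Ψ (sGL a⁻¹ • ∞) = Ψ ∞ := h2.symm
        linear_combination (norm := abel) h3 }
  rw [hle (G1_le_G0 _ hg) x, ihara_vanish hN hqN hp hp2 hF hf hg, zero_add]

end Stab

/-- Cusps given by congruent primitive vectors are equivalent under the principal congruence
subgroup. -/
theorem exists_gamma_congr (L : ℕ) (g h : SL(2, ℤ)) (h0 : (g 0 0 : ZMod L) = (h 0 0 : ZMod L))
    (h1 : (g 1 0 : ZMod L) = (h 1 0 : ZMod L)) :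
    ∃ γ : SL(2, ℤ), (γ 0 0 : ZMod L) = 1 ∧ (γ 1 0 : ZMod L) = 0 ∧ (γ 1 1 : ZMod L) = 1 ∧
      qGL γ • qGL g • (∞ : OnePoint ℚ) = qGL h • (∞ : OnePoint ℚ) := by
  set k : ℤ := -(g 1 1 * h 0 1 - g 0 1 * h 1 1) with hk
  set u : SL(2, ℤ) := slMk 1 k 0 1 (by ring)
  refine ⟨h * u * g⁻¹, ?_, ?_, ?_, ?_⟩
  pick_goal 4
  · rw [qGL, map_mul, map_mul, map_inv, mul_smul, mul_smul, inv_smul_smul]
    congr 1
    rw [smul_infty_eq_self_iff]
    simp [u]
  all_goals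
    have hdg : (g 0 0 : ZMod L) * g 1 1 - g 0 1 * g 1 0 = 1 := by
      have : g 0 0 * g 1 1 - g 0 1 * g 1 0 = 1 := by rw [← Matrix.det_fin_two]; exact g.2
      simpa using congrArg (fun t : ℤ => (t : ZMod L)) this
    have hdh : (h 0 0 : ZMod L) * h 1 1 - h 0 1 * h 1 0 = 1 := by
      have : h 0 0 * h 1 1 - h 0 1 * h 1 0 = 1 := by rw [← Matrix.det_fin_two]; exact h.2
      simpa using congrArg (fun t : ℤ => (t : ZMod L)) this
    simp [u, Matrix.SpecialLinearGroup.coe_mul,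
      Matrix.SpecialLinearGroup.coe_inv, Matrix.adjugate_fin_two, Matrix.mul_apply,
      Fin.sum_univ_two, hk]
    simp only [← h0, ← h1] at hdh ⊢
  · linear_combination (1 + (h 0 1 : ZMod L) * (g 1 0 : ZMod L)) * hdg
      - (g 0 1 : ZMod L) * (g 1 0 : ZMod L) * hdh
  · linear_combination (g 1 0 : ZMod L) * (h 1 1 : ZMod L) * hdg
      - (g 1 0 : ZMod L) * (g 1 1 : ZMod L) * hdh
  · linear_combination (1 + (g 0 1 : ZMod L) * (g 1 0 : ZMod L)) * hdh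
      - (g 1 0 : ZMod L) * (h 0 1 : ZMod L) * hdg

end Fermat.Agent.Ihara
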