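import Fermat.Agent.Ihara.CuspStab
import Fermat.Agent.Ihara.Relations

/-!
# The degeneracy map modulo `p`

## Main results

* `degeneracy_kernel_of_fixed`: for a subgroup `Γ` of level `N`, if the functions on cusps which
  `Γ` and its twist by `diag(q, 1)` move by constants are fixed by `Γ₁(N)[1/q]`, then both
  components of a pair in the kernel of `(res, diag)` are killed by `(T_ℓ - (ℓ + 1)) ^ 2` for the
  primes `ℓ ≡ 1 (mod N q)`.
* `degeneracy_kernel`: if `res χ₁ + diag χ₂ = 0` modulo an odd prime at `Γ = Γ₀(N)`, both `χᵢ` are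
  Eisenstein in this sense.
-/

set_option autoImplicit false

noncomputable section

namespace Fermat.Agent.Ihara

open Matrix OnePoint CongruenceSubgroup
open scoped MatrixGroups

variable {F : Type*} [AddCommGroup F]

/-- The sum of a function on cusps over the translates by the representatives of `T_ℓ`. -/
def heckeLift (ℓ : ℕ) [Fact ℓ.Prime] (Ψ : OnePoint ℚ → F) (x : OnePoint ℚ) : F :=
  ∑ j, Ψ (qMat (zRep ℓ j) • x)

theorem det_zRep_ne {ℓ : ℕ} [hℓ : Fact ℓ.Prime] (x : OnePoint (ZMod ℓ)) : (zRep ℓ x).det ≠ 0 := by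
  rw [det_zRep]
  exact_mod_cast hℓ.out.ne_zero

/-- A family with the representatives of `T_ℓ` sends a cusp lift to its sum over them. -/
theorem isCuspLift_heckeLift {ℓ : ℕ} [hℓ : Fact ℓ.Prime] {Γ : Subgroup SL(2, ℤ)}
    (S : CosetSys Γ Γ (OnePoint (ZMod ℓ))) (hS : S.α = zRep ℓ) {χ : Additive Γ →+ F}
    {Ψ : OnePoint ℚ → F} (h : IsCuspLift χ Ψ) :
    IsCuspLift (S.op ℤ F χ) (heckeLift ℓ Ψ) := by
  intro γ x
  have : NeZero ℓ := ⟨hℓ.out.ne_zero⟩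
  have e : ∀ j, Ψ (qMat (zRep ℓ j) • qGL γ • x)
      = χ (Additive.ofMul (S.cof γ j)) + Ψ (qMat (zRep ℓ (S.idx γ j)) • x) := by
    intro j
    have e1 : zRep ℓ j * mcoe γ = mcoe (S.cof γ j) * zRep ℓ (S.idx γ j) := hS ▸ S.mul_eq γ j
    have e2 := congrArg qMat e1
    rw [qMat_mul (det_zRep_ne j) (by simp),
      qMat_mul (by simp) (det_zRep_ne _), qMat_mcoe, qMat_mcoe] at e2
    rw [← mul_smul, e2, mul_smul, h]
  show (∑ j, Ψ (qMat (zRep ℓ j) • qGL γ • x)) = _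
  simp only [e, Finset.sum_add_distrib, S.op_apply]
  congr 1
  exact Equiv.sum_comp (S.permE γ) (fun j => Ψ (qMat (zRep ℓ j) • x))

/-- The projective line over `ZMod ℓ` has `ℓ + 1` points. -/
theorem card_onePoint_zmod (ℓ : ℕ) [Fact ℓ.Prime] [NeZero ℓ] :
    Fintype.card (OnePoint (ZMod ℓ)) = ℓ + 1 := by
  rw [← Nat.card_eq_fintype_card, show Nat.card (OnePoint (ZMod ℓ)) = Nat.card (Option (ZMod ℓ))
    from rfl, Finite.card_option, Nat.card_zmod]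

/-- For `ℓ ≡ 1 (mod L)` every representative of `T_ℓ` moves a cusp like some element of
`Γ₁(L)`. -/
theorem exists_gamma_zRep (L : ℕ) {ℓ : ℕ} [hℓ : Fact ℓ.Prime] (h1 : (ℓ : ZMod L) = 1)
    (j : OnePoint (ZMod ℓ)) (x : OnePoint ℚ) :
    ∃ γ : SL(2, ℤ), (γ 0 0 : ZMod L) = 1 ∧ (γ 1 0 : ZMod L) = 0 ∧ (γ 1 1 : ZMod L) = 1 ∧
      qMat (zRep ℓ j) • x = qGL γ • x := by
  obtain ⟨g, rfl⟩ := exists_cusp_eq x
  -- an upper unipotent congruent to the representative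
  obtain ⟨k, hk00, hk01, hk10, hk11⟩ : ∃ k : ℤ, (zRep ℓ j 0 0 : ZMod L) = 1 ∧
      (zRep ℓ j 0 1 : ZMod L) = (k : ZMod L) ∧ zRep ℓ j 1 0 = 0 ∧
      (zRep ℓ j 1 1 : ZMod L) = 1 := by
    induction j using OnePoint.rec with
    | infty => exact ⟨0, by simp [zRep_infty, h1], by simp [zRep_infty], by simp [zRep_infty],
        by simp [zRep_infty]⟩
    | coe i => exact ⟨(i.val : ℤ), by simp [zRep_coe], by simp [zRep_coe, -ZMod.natCast_val],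
        by simp [zRep_coe], by simp [zRep_coe, h1]⟩
  set u : SL(2, ℤ) := slMk 1 k 0 1 (by ring) with hu
  set M : Mat2 := zRep ℓ j * mcoe g with hM
  have hMdet : M.det = ℓ := by rw [hM, Matrix.det_mul, det_zRep, mcoe_det, mul_one]
  set d := Int.gcd (M 0 0) (M 1 0) with hd
  have hdℓ : (d : ℤ) ∣ (ℓ : ℤ) := by
    rw [← hMdet, Matrix.det_fin_two]
    exact dvd_sub (dvd_mul_of_dvd_left (Int.gcd_dvd_left _ _) _)
      (dvd_mul_of_dvd_right (Int.gcd_dvd_right _ _) _)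
  have hd1 : (d : ZMod L) = 1 := by
    rcases (Nat.dvd_prime hℓ.out).mp (Int.natCast_dvd_natCast.mp hdℓ) with h | h <;> rw [h]
    · exact Nat.cast_one
    · exact h1
  have hd0 : (d : ℤ) ≠ 0 := fun h0 => hℓ.out.ne_zero (by
    rw [h0, zero_dvd_iff] at hdℓ
    exact_mod_cast hdℓ)
  obtain ⟨a, ha⟩ : (d : ℤ) ∣ M 0 0 := Int.gcd_dvd_left _ _
  obtain ⟨c, hc⟩ : (d : ℤ) ∣ M 1 0 := Int.gcd_dvd_right _ _
  have hbz := Int.gcd_eq_gcd_ab (M 0 0) (M 1 0)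
  rw [← hd] at hbz
  set s := Int.gcdA (M 0 0) (M 1 0)
  set t := Int.gcdB (M 0 0) (M 1 0)
  have hdet : a * s - (-t) * c = 1 := by
    refine mul_left_cancel₀ hd0 ?_
    rw [ha, hc] at hbz
    linear_combination -hbz
  set h : SL(2, ℤ) := slMk a (-t) c s hdet with hh
  have hz : qMat (zRep ℓ j) • qGL g • (∞ : OnePoint ℚ) = qGL h • (∞ : OnePoint ℚ) := by
    set T : Mat2 := mcoe h⁻¹ * M with hT
    have hTdet : T.det ≠ 0 := by
      rw [hT, Matrix.det_mul, mcoe_det, one_mul, hMdet]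
      exact_mod_cast hℓ.out.ne_zero
    rw [← mul_smul, ← qMat_mcoe g, ← qMat_mul (det_zRep_ne j) (by simp), ← hM,
      ← mcoe_mul_inv_cancel h M, qMat_mul (by simp) hTdet, mul_smul, qMat_mcoe]
    congr 1
    rw [smul_infty_eq_self_iff, qMat_apply hTdet, Int.cast_eq_zero, hT]
    simp [hh, Matrix.mul_apply, Fin.sum_univ_two, Matrix.adjugate_fin_two,
      Matrix.SpecialLinearGroup.coe_inv, ha, hc]
    ring
  have hcol0 : ((u * g) 0 0 : ZMod L) = (h 0 0 : ZMod L) := by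
    have : (h 0 0 : ZMod L) = (M 0 0 : ZMod L) := by
      rw [hh, slMk_00, ha]; push_cast; rw [hd1, one_mul]
    rw [this, hM, Matrix.mul_apply, Fin.sum_univ_two]
    simp [hu, slMk, Matrix.SpecialLinearGroup.coe_mul, Matrix.mul_apply, Fin.sum_univ_two, hk00,
      hk01]
  have hcol1 : ((u * g) 1 0 : ZMod L) = (h 1 0 : ZMod L) := by
    have : (h 1 0 : ZMod L) = (M 1 0 : ZMod L) := by
      rw [hh, slMk_10, hc]; push_cast; rw [hd1, one_mul]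
    rw [this, hM, Matrix.mul_apply, Fin.sum_univ_two]
    simp [hu, slMk, Matrix.SpecialLinearGroup.coe_mul, Matrix.mul_apply, Fin.sum_univ_two, hk10,
      hk11]
  obtain ⟨γ, g00, g10, g11, hγ⟩ := exists_gamma_congr L (u * g) h hcol0 hcol1
  refine ⟨γ * u, ?_, ?_, ?_, ?_⟩
  · simp [hu, slMk, Matrix.SpecialLinearGroup.coe_mul, Matrix.mul_apply, Fin.sum_univ_two, g00]
  · simp [hu, slMk, Matrix.SpecialLinearGroup.coe_mul, Matrix.mul_apply, Fin.sum_univ_two, g10]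
  · simp [hu, slMk, Matrix.SpecialLinearGroup.coe_mul, Matrix.mul_apply, Fin.sum_univ_two, g10,
      g11]
  · rw [hz, ← hγ]
    simp only [qGL, map_mul, mul_smul]

variable (N q : ℕ) [hq : Fact q.Prime]

theorem det_diagMat_ne : (diagMat q).det ≠ 0 := by
  simp [diagMat, hq.out.ne_zero]

/-- The representatives of `T_ℓ` commute with `x ↦ q x` up to translations. -/
theorem exists_perm_diag_zRep {ℓ : ℕ} [hℓ : Fact ℓ.Prime] (hne : ℓ ≠ q) :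
    ∃ (π : OnePoint (ZMod ℓ) ≃ OnePoint (ZMod ℓ)) (t : OnePoint (ZMod ℓ) → ℤ),
      ∀ j, diagMat q * zRep ℓ j
        = mcoe (slMk 1 (t j) 0 1 (by ring)) * (zRep ℓ (π j) * diagMat q) := by
  have : NeZero ℓ := ⟨hℓ.out.ne_zero⟩
  have hq0 : (q : ZMod ℓ) ≠ 0 := fun h =>
    hne ((Nat.prime_dvd_prime_iff_eq hℓ.out hq.out).mp ((ZMod.natCast_eq_zero_iff _ _).mp h))
  let π₀ : OnePoint (ZMod ℓ) → OnePoint (ZMod ℓ) := fun x =>
    x.elim OnePoint.infty fun i : ZMod ℓ => ((((q : ZMod ℓ) * i : ZMod ℓ)) : OnePoint (ZMod ℓ))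
  have hinj : Function.Injective π₀ := by
    intro x y hxy
    induction x using OnePoint.rec with
    | infty =>
      induction y using OnePoint.rec with
      | infty => rfl
      | coe b => exact absurd hxy (OnePoint.infty_ne_coe _)
    | coe a =>
      induction y using OnePoint.rec with
      | infty => exact absurd hxy (OnePoint.coe_ne_infty _)
      | coe b => exact congrArg _ (mul_left_cancel₀ hq0 (OnePoint.coe_injective hxy))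
  have key : ∀ j, ∃ t : ℤ, diagMat q * zRep ℓ j
      = mcoe (slMk 1 t 0 1 (by ring)) * (zRep ℓ (π₀ j) * diagMat q) := by
    intro j
    induction j using OnePoint.rec with
    | infty =>
      refine ⟨0, ?_⟩
      show diagMat q * zRep ℓ OnePoint.infty = _ * (zRep ℓ OnePoint.infty * _)
      rw [zRep_infty, diagMat, mcoe_slMk]
      ext i k
      fin_cases i <;> fin_cases k <;> simp [mul_comm]
    | coe i =>
      obtain ⟨t, ht⟩ : (ℓ : ℤ) ∣ (q : ℤ) * i.val - (((q : ZMod ℓ) * i).val : ℤ) := by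
        rw [← ZMod.intCast_zmod_eq_zero_iff_dvd]
        push_cast
        rw [ZMod.natCast_zmod_val, ZMod.natCast_zmod_val, sub_self]
      refine ⟨t, ?_⟩
      show diagMat q * zRep ℓ (i : OnePoint (ZMod ℓ))
        = _ * (zRep ℓ (((q : ZMod ℓ) * i : ZMod ℓ) : OnePoint (ZMod ℓ)) * _)
      rw [zRep_coe, zRep_coe, diagMat, mcoe_slMk]
      ext a b
      fin_cases a <;> fin_cases b <;> simp [-ZMod.natCast_val]; linarith
  choose t ht using key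
  exact ⟨Equiv.ofBijective π₀ (Finite.injective_iff_bijective.mp hinj), t, ht⟩

/-- The common proof of Ihara's lemma for a group `Γ` of level `N`, given the invariance under
`Γ₁(N)[1/q]` of the functions on cusps moved by constants under `Γ` and its twist. -/
theorem degeneracy_kernel_of_fixed {Γ Γq : Subgroup SL(2, ℤ)} {ℓ : ℕ} [hℓ : Fact ℓ.Prime]
    (hℓ1 : (ℓ : ZMod (N * q)) = 1) (S : CosetSys Γ Γ (OnePoint (ZMod ℓ))) (hS : S.α = zRep ℓ)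
    (D : CosetSys Γ Γq Unit) (hD : ∀ u, D.α u = diagMat q)
    (hu : ∀ t : ℤ, slMk 1 t 0 1 (by ring) ∈ Γ)
    (hΓq : ∀ γ : SL(2, ℤ), (γ 1 0 : ZMod (N * q)) = 0 → (γ 1 1 : ZMod (N * q)) = 1 → γ ∈ Γq)
    (hle : Γq ≤ Γ)
    (hfix : ∀ Φ : OnePoint ℚ → F, (∀ γ : Γ, castSL γ ∈ shiftStab Φ) →
      (∀ (γ : Γ) (g : SL(2, ℚ)), g 0 0 = castSL γ 0 0 → g 0 1 = castSL γ 0 1 / q →
        g 1 0 = castSL γ 1 0 * q → g 1 1 = castSL γ 1 1 → g ∈ shiftStab Φ) →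
      ∀ g ∈ G1 q (N : ℤ), ∀ x, Φ (sGL g • x) = Φ x)
    {χ₁ χ₂ : Additive Γ →+ F}
    (hχ₁ : χ₁ ∈ Cosets.parEllHoms ℤ Γ F) (hχ₂ : χ₂ ∈ Cosets.parEllHoms ℤ Γ F)
    (hker : ∀ γ : Γq,
      χ₁ (Additive.ofMul ⟨γ, hle γ.2⟩) + χ₂ (Additive.ofMul (D.cof γ ())) = 0) :
    (S.op ℤ F (S.op ℤ F χ₁ - (ℓ + 1) • χ₁) = (ℓ + 1) • (S.op ℤ F χ₁ - (ℓ + 1) • χ₁)) ∧
    (S.op ℤ F (S.op ℤ F χ₂ - (ℓ + 1) • χ₂) = (ℓ + 1) • (S.op ℤ F χ₂ - (ℓ + 1) • χ₂)) := by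
  have : NeZero ℓ := ⟨hℓ.out.ne_zero⟩
  have hne : ℓ ≠ q := by
    rintro rfl
    have h := congrArg (ZMod.castHom (dvd_mul_left ℓ N) (ZMod ℓ)) hℓ1
    rw [map_natCast, map_one, ZMod.natCast_self] at h
    exact zero_ne_one h
  obtain ⟨Ψ₁, hΨ₁⟩ := exists_cuspLift χ₁ (fun γ hγ => hχ₁ γ hγ.le)
  obtain ⟨Ψ₂, hΨ₂⟩ := exists_cuspLift χ₂ (fun γ hγ => hχ₂ γ hγ.le)
  set ι : GL (Fin 2) ℚ := qMat (diagMat q) with hι
  -- the invariant function
  have hf : ∀ (γ : Γq) (x : OnePoint ℚ),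
      Ψ₁ (qGL γ • x) + Ψ₂ (ι • qGL γ • x) = Ψ₁ x + Ψ₂ (ι • x) := by
    intro γ x
    set c := D.cof γ ()
    have hc : ι * qGL γ = qGL c * ι := by
      have e1 : diagMat q * mcoe γ = mcoe c * diagMat q := by simpa [hD] using D.mul_eq γ ()
      have e2 := congrArg qMat e1
      rwa [qMat_mul (det_diagMat_ne q) (by simp),
        qMat_mul (by simp) (det_diagMat_ne q), qMat_mcoe, qMat_mcoe] at e2
    rw [← mul_smul ι, hc, mul_smul,
      show Ψ₁ (qGL γ • x) = _ from hΨ₁ ⟨γ, hle γ.2⟩ x, hΨ₂]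
    rw [add_add_add_comm, hker γ, zero_add]
  set Φ₁ : OnePoint ℚ → F := fun x => heckeLift ℓ Ψ₁ x - (ℓ + 1) • Ψ₁ x with hΦ₁
  set Φ₂ : OnePoint ℚ → F := fun x => heckeLift ℓ Ψ₂ x - (ℓ + 1) • Ψ₂ x with hΦ₂
  have hlift : ∀ (χ : Additive Γ →+ F) (Ψ : OnePoint ℚ → F), IsCuspLift χ Ψ →
      IsCuspLift (S.op ℤ F χ - (ℓ + 1) • χ) (fun x => heckeLift ℓ Ψ x - (ℓ + 1) • Ψ x) := by
    intro χ Ψ h γ x
    simp only [isCuspLift_heckeLift S hS h γ x, h γ x, AddMonoidHom.sub_apply,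
      AddMonoidHom.smul_apply, smul_add]
    abel
  have hΦ₁l : IsCuspLift _ Φ₁ := hlift χ₁ Ψ₁ hΨ₁
  have hΦ₂l : IsCuspLift _ Φ₂ := hlift χ₂ Ψ₂ hΨ₂
  have hsum : ∀ x, Φ₁ x + Φ₂ (ι • x) = 0 := by
    intro x
    obtain ⟨π, t, hπ⟩ := exists_perm_diag_zRep q hne
    have e1 : heckeLift ℓ Ψ₂ (ι • x) = ∑ j, Ψ₂ (ι • qMat (zRep ℓ j) • x) := by
      rw [heckeLift, ← Equiv.sum_comp π]
      refine Finset.sum_congr rfl fun j _ => ?_
      have e2 := congrArg qMat (hπ j)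
      rw [qMat_mul (det_diagMat_ne q) (det_zRep_ne j), qMat_mul (by simp)
        (by rw [Matrix.det_mul]; exact mul_ne_zero (det_zRep_ne _) (det_diagMat_ne q)),
        qMat_mul (det_zRep_ne _) (det_diagMat_ne q), qMat_mcoe] at e2
      rw [← mul_smul ι, e2, mul_smul, mul_smul]
      rw [show Ψ₂ (qGL (slMk 1 (t j) 0 1 (by ring)) • _) = _ from hΨ₂ ⟨_, hu (t j)⟩ _,
        hχ₂ ⟨_, hu (t j)⟩ (by simp [slMk, Matrix.trace_fin_two]), zero_add]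
    have e3 : heckeLift ℓ Ψ₁ x + heckeLift ℓ Ψ₂ (ι • x)
        = (ℓ + 1) • (Ψ₁ x + Ψ₂ (ι • x)) := by
      rw [e1, heckeLift, ← Finset.sum_add_distrib]
      have e4 : ∀ j, Ψ₁ (qMat (zRep ℓ j) • x) + Ψ₂ (ι • qMat (zRep ℓ j) • x)
          = Ψ₁ x + Ψ₂ (ι • x) := by
        intro j
        obtain ⟨γ, -, h10, h11, hγ⟩ := exists_gamma_zRep (N * q) hℓ1 j x
        rw [hγ]
        exact hf ⟨γ, hΓq γ h10 h11⟩ x
      rw [Finset.sum_congr rfl fun j _ => e4 j, Finset.sum_const, Finset.card_univ,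
        card_onePoint_zmod]
    simp only [hΦ₁, hΦ₂]
    rw [smul_add] at e3
    rw [sub_add_sub_comm, e3, sub_self]
  -- the twisted copy acts on `Φ₁` through `Φ₂`
  have hq0 : (q : ℚ) ≠ 0 := qcast_ne_zero
  have htwist : ∀ (γ : SL(2, ℤ)) (g : SL(2, ℚ)), g 0 0 = castSL γ 0 0 →
      g 0 1 = castSL γ 0 1 / q → g 1 0 = castSL γ 1 0 * q → g 1 1 = castSL γ 1 1 →
      ι * sGL g = qGL γ * ι := by
    intro γ g e1 e2 e3 e4
    ext i k
    rw [Units.val_mul, Units.val_mul, Matrix.mul_apply, Matrix.mul_apply, Fin.sum_univ_two,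
      Fin.sum_univ_two]
    simp only [hι, qMat_apply (det_diagMat_ne q), sGL_apply, ← qMat_mcoe,
      qMat_apply (show (mcoe γ).det ≠ 0 by simp)]
    fin_cases i <;> fin_cases k <;> simp [diagMat, e1, e2, e3, e4, castSL_apply] <;> field_simp
  have hfix₁ : ∀ g ∈ G1 q (N : ℤ), ∀ x, Φ₁ (sGL g • x) = Φ₁ x := by
    refine hfix Φ₁ (fun γ => mem_shiftStab_of_forall Φ₁
      (c := (S.op ℤ F χ₁ - (ℓ + 1) • χ₁) (Additive.ofMul γ))
      fun y => by rw [sGL_castSL]; exact hΦ₁l γ y) fun γ g e1 e2 e3 e4 => ?_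
    refine mem_shiftStab_of_forall Φ₁
      (c := -((S.op ℤ F χ₂ - (ℓ + 1) • χ₂) (Additive.ofMul γ))) fun y => ?_
    have f1 := hsum (sGL g • y)
    rw [← mul_smul ι, htwist γ g e1 e2 e3 e4, mul_smul,
      show Φ₂ (qGL γ • ι • y) = _ from hΦ₂l γ _] at f1
    rw [eq_neg_of_add_eq_zero_left f1, eq_neg_of_add_eq_zero_left (hsum y), neg_add]
  have hmemG1 : ∀ γ : SL(2, ℤ), (γ 0 0 : ZMod (N * q)) = 1 → (γ 1 0 : ZMod (N * q)) = 0 →
      (γ 1 1 : ZMod (N * q)) = 1 →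
        (N : ℤ) ∣ γ 0 0 - 1 ∧ (N : ℤ) ∣ γ 1 0 ∧ (N : ℤ) ∣ γ 1 1 - 1 := by
    intro γ h00 h10 h11
    have hd : ∀ z : ℤ, (z : ZMod (N * q)) = 0 → (N : ℤ) ∣ z := fun z hz =>
      (dvd_mul_right _ (q : ℤ)).trans
        (by have := (ZMod.intCast_zmod_eq_zero_iff_dvd _ _).mp hz; rwa [Nat.cast_mul] at this)
    exact ⟨hd _ (by push_cast; rw [h00, sub_self]), hd _ h10,
      hd _ (by push_cast; rw [h11, sub_self])⟩
  have hz₁ : ∀ j x, Φ₁ (qMat (zRep ℓ j) • x) = Φ₁ x := by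
    intro j x
    obtain ⟨γ, h00, h10, h11, hγ⟩ := exists_gamma_zRep (N * q) hℓ1 j x
    obtain ⟨d00, d10, d11⟩ := hmemG1 γ h00 h10 h11
    rw [hγ, ← sGL_castSL]
    refine hfix₁ _ (mem_G1.mpr ⟨mem_G0.mpr ⟨?_, ?_, ?_, ?_⟩, ?_, ?_⟩) x <;>
      simp only [castSL_apply]
    · exact IsQInt.intCast _
    · exact IsQInt.intCast _
    · exact IsQInt.intCast _
    · exact QDvd.of_dvd d10
    · exact_mod_cast QDvd.of_dvd (q := q) d00
    · exact_mod_cast QDvd.of_dvd (q := q) d11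
  have hz₂ : ∀ j y, Φ₂ (qMat (zRep ℓ j) • y) = Φ₂ y := by
    intro j y
    obtain ⟨x, rfl⟩ : ∃ x, ι • x = y := ⟨ι⁻¹ • y, smul_inv_smul _ _⟩
    obtain ⟨γ, h00, h10, h11, hγ⟩ := exists_gamma_zRep (N * q) hℓ1 j (ι • x)
    obtain ⟨d00, d10, d11⟩ := hmemG1 γ h00 h10 h11
    set γ' : SL(2, ℚ) := mat (γ 0 0) ((γ 0 1 : ℚ) / q) ((γ 1 0 : ℚ) * q) (γ 1 1) (by
      have h : γ 0 0 * γ 1 1 - γ 0 1 * γ 1 0 = 1 := by rw [← Matrix.det_fin_two]; exact γ.2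
      have h' : (γ 0 0 : ℚ) * γ 1 1 - γ 0 1 * γ 1 0 = 1 := by exact_mod_cast h
      field_simp
      linear_combination h') with hγ'
    have hmem : γ' ∈ G1 q (N : ℤ) := by
      refine mem_G1.mpr ⟨mem_G0.mpr ⟨IsQInt.intCast _, ?_, IsQInt.intCast _, ?_⟩, ?_, ?_⟩
      · exact ⟨1, γ 0 1, by simp [hγ', mat, hq0]⟩
      · show QDvd q (N : ℤ) ((γ 1 0 : ℚ) * q)
        exact (QDvd.of_dvd d10).mul_right (IsQInt.natCast q)
      · show QDvd q (N : ℤ) ((γ 0 0 : ℚ) - 1)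
        exact_mod_cast QDvd.of_dvd (q := q) d00
      · show QDvd q (N : ℤ) ((γ 1 1 : ℚ) - 1)
        exact_mod_cast QDvd.of_dvd (q := q) d11
    rw [hγ, ← mul_smul, ← htwist γ γ' (by simp [hγ', mat, castSL_apply])
      (by simp [hγ', mat, castSL_apply]) (by simp [hγ', mat, castSL_apply])
      (by simp [hγ', mat, castSL_apply]), mul_smul,
      eq_neg_of_add_eq_zero_right (hsum (sGL γ' • x)), eq_neg_of_add_eq_zero_right (hsum x),
      hfix₁ γ' hmem x]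
  -- conclusion
  have hfinal : ∀ (χ : Additive Γ →+ F) (Φ : OnePoint ℚ → F),
      IsCuspLift χ Φ → (∀ j x, Φ (qMat (zRep ℓ j) • x) = Φ x) → S.op ℤ F χ = (ℓ + 1) • χ := by
    intro χ Φ hΦ hz
    refine AddMonoidHom.ext fun γ => ?_
    obtain ⟨γ, rfl⟩ := Additive.ofMul.surjective γ
    have hL : ∀ x, heckeLift ℓ Φ x = (ℓ + 1) • Φ x := fun x => by
      rw [heckeLift, Finset.sum_congr rfl fun j _ => hz j x, Finset.sum_const, Finset.card_univ,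
        card_onePoint_zmod]
    have h1 := isCuspLift_heckeLift S hS hΦ γ ∞
    rw [hL, hL, hΦ γ ∞, smul_add] at h1
    rw [AddMonoidHom.smul_apply]
    exact (add_right_cancel h1).symm
  exact ⟨hfinal _ Φ₁ hΦ₁l hz₁, hfinal _ Φ₂ hΦ₂l hz₂⟩

/-- **Ihara's lemma.** A pair in the kernel of `(res, diag)` modulo an odd prime is annihilated
by `(T_ℓ - ℓ - 1)²` for the primes `ℓ ≡ 1 (mod N q)`. -/
theorem degeneracy_kernel [NeZero N] (hqN : ¬q ∣ N) {p : ℕ} (hp : p.Prime) (hp2 : p ≠ 2)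
    (hF : ∀ x : F, p • x = 0) {χ₁ χ₂ : Additive (Gamma0 N) →+ F}
    (hχ₁ : χ₁ ∈ Cosets.parEllHoms ℤ (Gamma0 N) F) (hχ₂ : χ₂ ∈ Cosets.parEllHoms ℤ (Gamma0 N) F)
    (hH : (resSys N q).op ℤ F χ₁ + (diagSys N q).op ℤ F χ₂ = 0) {ℓ : ℕ} [hℓ : Fact ℓ.Prime]
    (hℓN : ¬ℓ ∣ N) (hℓ1 : (ℓ : ZMod (N * q)) = 1) :
    ((heckeSys N ℓ hℓN).op ℤ F ((heckeSys N ℓ hℓN).op ℤ F χ₁ - (ℓ + 1) • χ₁)
      = (ℓ + 1) • ((heckeSys N ℓ hℓN).op ℤ F χ₁ - (ℓ + 1) • χ₁)) ∧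
    ((heckeSys N ℓ hℓN).op ℤ F ((heckeSys N ℓ hℓN).op ℤ F χ₂ - (ℓ + 1) • χ₂)
      = (ℓ + 1) • ((heckeSys N ℓ hℓN).op ℤ F χ₂ - (ℓ + 1) • χ₂)) := by
  have hu : ∀ t : ℤ, slMk 1 t 0 1 (by ring) ∈ Gamma0 N := fun t => slMk_mem _ (dvd_zero _)
  refine degeneracy_kernel_of_fixed N q hℓ1 (heckeSys N ℓ hℓN) rfl (diagSys N q) (fun _ => rfl) hu
    (fun γ h _ => mem_Gamma0_iff.mpr ((ZMod.intCast_zmod_eq_zero_iff_dvd _ _).mp h))
    (Gamma0_le_of_dvd (dvd_mul_right N q)) (fun Φ hΓ htw g hg x => ?_) hχ₁ hχ₂ fun γ => ?_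
  · refine fixed_of_G0_le Φ hp hp2 (NeZero.ne N) hqN hF (G0_le_of_gens hqN _ hΓ ?_) hg x
    exact htw ⟨_, hu 1⟩ _ (by simp [slMk]) (by simp [slMk]) (by simp [slMk]) (by simp [slMk])
  · have := DFunLike.congr_fun hH (Additive.ofMul γ)
    rw [AddMonoidHom.add_apply, (diagSys N q).op_apply, Fintype.sum_unique,
      (resSys N q).op_apply_of_eq χ₁ γ id (fun _ => ⟨γ.1, Gamma0_le_of_dvd (dvd_mul_right N q) γ.2⟩)
        (fun _ => by simp [resSys_α]), Fintype.sum_unique, AddMonoidHom.zero_apply] at this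
    exact this

end Fermat.Agent.Ihara
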