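import Mathlib

/-!
# Common eigenvectors of commuting integral matrices

## Main results

* `exists_residue_eigenvector`: reduction modulo a prime of `ℤ̄`.
* `exists_lift_eigenvector`: lifting to characteristic zero inside the kernel of an equivariant
  integral matrix whose cokernel has no support at the given system of eigenvalues.
-/

set_option autoImplicit false

noncomputable section

namespace Fermat.Agent.Ihara

open Matrix

/-- Commuting operators have a common eigenvector in every non-zero stable subspace. -/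
theorem exists_common_eigenvector {k V : Type*} [Field k] [IsAlgClosed k] [AddCommGroup V]
    [Module k V] [FiniteDimensional k V] (S : Set (Module.End k V))
    (hS : ∀ s ∈ S, ∀ t ∈ S, ∀ v, s (t v) = t (s v)) (W : Submodule k V) (hW : W ≠ ⊥)
    (hinv : ∀ s ∈ S, ∀ w ∈ W, s w ∈ W) :
    ∃ v ∈ W, v ≠ 0 ∧ ∀ s ∈ S, ∃ c : k, s v = c • v := by
  induction h : Module.finrank k W using Nat.strong_induction_on generalizing W with
  | _ d ih =>
    have : Nontrivial W := Submodule.nontrivial_iff_ne_bot.mpr hW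
    by_cases hscal : ∀ s ∈ S, ∃ c : k, ∀ w ∈ W, s w = c • w
    · obtain ⟨v, hv, hv0⟩ := Submodule.exists_mem_ne_zero_of_ne_bot hW
      exact ⟨v, hv, hv0, fun s hs => (hscal s hs).imp fun c hc => hc v hv⟩
    · push Not at hscal
      obtain ⟨s, hs, hne⟩ := hscal
      obtain ⟨c, hc⟩ := Module.End.exists_eigenvalue (LinearMap.restrict s (hinv s hs))
      obtain ⟨⟨v, hv⟩, hvec⟩ := hc.exists_hasEigenvector
      have hvec' : s v = c • v := congrArg Subtype.val hvec.apply_eq_smul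
      let W' : Submodule k V := W ⊓ Module.End.eigenspace s c
      have hv' : v ∈ W' := ⟨hv, Module.End.mem_eigenspace_iff.mpr hvec'⟩
      have hv0 : v ≠ 0 := fun h0 => hvec.2 (Subtype.ext h0)
      have hlt : W' < W := by
        refine lt_of_le_of_ne inf_le_left fun he => ?_
        obtain ⟨w, hw, hw'⟩ := hne c
        rw [← he] at hw
        exact hw' (Module.End.mem_eigenspace_iff.mp hw.2)
      have hinv' : ∀ t ∈ S, ∀ w ∈ W', t w ∈ W' := by
        intro t ht w hw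
        refine ⟨hinv t ht w hw.1, Module.End.mem_eigenspace_iff.mpr ?_⟩
        rw [hS s hs t ht, Module.End.mem_eigenspace_iff.mp hw.2, map_smul]
      obtain ⟨x, hx, hx0, hxS⟩ := ih _ (h ▸ Submodule.finrank_lt_finrank_of_lt hlt) W'
        (fun hb => hv0 ((Submodule.mem_bot k).mp (hb ▸ hv'))) hinv' rfl
      exact ⟨x, hx.1, hx0, hxS⟩

/-- A common eigenvector gives a character. -/
theorem exists_eigenHom {T k m : Type*} [CommRing T] [Field k] [Fintype m] [DecidableEq m]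
    (φ : T →+* Matrix m m k) (w : m → k) (hw : w ≠ 0) (hex : ∀ t, ∃ c : k, φ t *ᵥ w = c • w) :
    ∃ χ : T →+* k, ∀ t, φ t *ᵥ w = χ t • w := by
  choose c hc using hex
  have inj : Function.Injective fun a : k => a • w := smul_left_injective k hw
  refine ⟨{ toFun := c, map_one' := ?_, map_mul' := ?_, map_zero' := ?_, map_add' := ?_ }, hc⟩
  · exact inj (by simp only [← hc, map_one, Matrix.one_mulVec, one_smul])
  · intro s t
    refine inj ?_
    simp only [← hc, map_mul, ← Matrix.mulVec_mulVec]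
    rw [hc t, Matrix.mulVec_smul, hc s, smul_smul, mul_comm]
  · exact inj (by simp only [← hc, map_zero, Matrix.zero_mulVec, zero_smul])
  · intro s t
    refine inj ?_
    simp only [← hc, map_add, Matrix.add_mulVec, add_smul]

/-- Reduction of an eigenvector of integral matrices modulo a prime of `ℤ̄`. -/
theorem exists_residue_eigenvector {m : Type} [Fintype m] {ι : Type*}
    (M : ι → Matrix m m ℤ) (a : ι → integralClosure ℤ ℂ) (w : m → ℂ) (hw : w ≠ 0)
    (hM : ∀ i, (M i).map (Int.cast : ℤ → ℂ) *ᵥ w = (a i : ℂ) • w)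
    (𝔪 : Ideal (integralClosure ℤ ℂ)) (h𝔪 : 𝔪 ≠ ⊤) :
    ∃ (K : Type) (_ : Field K) (π : integralClosure ℤ ℂ →+* K), (∀ x ∈ 𝔪, π x = 0) ∧
      ∃ v : m → K, v ≠ 0 ∧ ∀ i, (M i).map (Int.cast : ℤ → K) *ᵥ v = π (a i) • v := by
  classical
  obtain ⟨O, hle, hnon⟩ := Ideal.image_subset_nonunits_valuationSubring
    (A := (integralClosure ℤ ℂ).toSubring) 𝔪 h𝔪
  have hmem : ∀ x : integralClosure ℤ ℂ, (x : ℂ) ∈ O := fun x => hle x.2
  let incl : integralClosure ℤ ℂ →+* O :=
    ((integralClosure ℤ ℂ).val.toRingHom).codRestrict O hmem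
  obtain ⟨i₀, hi₀⟩ : ∃ i, w i ≠ 0 := Function.ne_iff.mp hw
  obtain ⟨j, -, hj⟩ := Finset.exists_max_image Finset.univ (fun i => O.valuation (w i))
    ⟨i₀, Finset.mem_univ _⟩
  have hwj : w j ≠ 0 := fun h0 => hi₀ <| by
    have := hj i₀ (Finset.mem_univ _)
    rw [h0, map_zero, le_zero_iff] at this
    exact (map_eq_zero O.valuation).mp this
  have hw' : ∀ i, w i / w j ∈ O := fun i => by
    rw [← ValuationSubring.valuation_le_one_iff, map_div₀]
    exact div_le_one_of_le₀ (hj i (Finset.mem_univ _)) zero_le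
  let w' : m → O := fun i => ⟨w i / w j, hw' i⟩
  have hw'M : ∀ i, (M i).map (Int.cast : ℤ → O) *ᵥ w' = incl (a i) • w' := by
    intro i
    funext r
    refine Subtype.ext ?_
    have := congrFun (hM i) r
    simp only [Matrix.mulVec, dotProduct, Matrix.map_apply, Pi.smul_apply, smul_eq_mul] at this ⊢
    push_cast
    show ∑ s, (M i r s : ℂ) * (w s / w j) = (a i : ℂ) * (w r / w j)
    rw [← mul_div_assoc, ← this, Finset.sum_div]
    simp only [mul_div_assoc]
  let red : O →+* IsLocalRing.ResidueField O := IsLocalRing.residue O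
  refine ⟨IsLocalRing.ResidueField O, inferInstance, red.comp incl, fun x hx => ?_,
    red ∘ w', fun h0 => ?_, fun i => ?_⟩
  · rw [RingHom.comp_apply, IsLocalRing.residue_eq_zero_iff]
    exact (ValuationSubring.coe_mem_nonunits_iff (A := O)).mp (hnon ⟨x, hx, rfl⟩)
  · have h1 : w' j = 1 := Subtype.ext (div_self hwj)
    simpa [h1] using congrFun h0 j
  · funext r
    have := congrArg red (congrFun (hw'M i) r)
    rw [RingHom.map_mulVec, Matrix.map_map] at this
    simpa [Function.comp_def] using this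

variable {m n : Type} [Fintype m] [DecidableEq m] [Fintype n] [DecidableEq n]
  {T : Type} [CommRing T] {K : Type} [Field K]

/-- If no functional killing the image of `B` transforms by `χ`, the cokernel is killed by an
element on which `χ` is `1`. -/
theorem exists_mul_mem_range (φ₁ : T →+* Matrix m m ℤ)
    (φ₂ : T →+* Matrix n n ℤ) (B : Matrix n m ℤ) (hint : ∀ t, B * φ₁ t = φ₂ t * B)
    (χ : T →+* K) (hmax : (RingHom.ker χ).IsMaximal)
    (hdual : ∀ ξ : n → K, (∀ t, ((φ₂ t).map (Int.cast : ℤ → K))ᵀ *ᵥ ξ = χ t • ξ) →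
      (B.map (Int.cast : ℤ → K))ᵀ *ᵥ ξ = 0 → ξ = 0) :
    ∃ (r : T) (σ : Matrix m n ℤ), χ r = 1 ∧ B * σ = φ₂ r := by
  classical
  let : Module T (n → ℤ) := Module.compHom _ (((Matrix.toLinAlgEquiv' :
    Matrix n n ℤ ≃ₐ[ℤ] Module.End ℤ (n → ℤ)).toRingEquiv.toRingHom).comp φ₂)
  have hsmul : ∀ (t : T) (y : n → ℤ), t • y = φ₂ t *ᵥ y := fun _ _ => rfl
  let R : Submodule T (n → ℤ) :=
    { carrier := Set.range fun x : m → ℤ => B *ᵥ x
      zero_mem' := ⟨0, Matrix.mulVec_zero B⟩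
      add_mem' := by
        rintro _ _ ⟨x, rfl⟩ ⟨y, rfl⟩
        exact ⟨x + y, Matrix.mulVec_add B x y⟩
      smul_mem' := by
        rintro t _ ⟨x, rfl⟩
        refine ⟨φ₁ t *ᵥ x, ?_⟩
        show B *ᵥ (φ₁ t *ᵥ x) = t • (B *ᵥ x)
        rw [hsmul, Matrix.mulVec_mulVec, Matrix.mulVec_mulVec, hint] }
  have : Module.Finite T (n → ℤ) := Module.Finite.of_restrictScalars_finite ℤ T (n → ℤ)
  set P := RingHom.ker χ with hP
  obtain ⟨r, hr1, hr⟩ : ∃ r : T, r - 1 ∈ P ∧
      ∀ y ∈ (⊤ : Submodule T ((n → ℤ) ⧸ R)), r • y = 0 := by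
    refine Submodule.exists_sub_one_mem_and_smul_eq_zero_of_fg_of_le_smul P _
      Module.Finite.fg_top ?_
    by_contra hle
    let := Ideal.Quotient.field P
    obtain ⟨y, -, hy⟩ := SetLike.not_le_iff_exists.mp hle
    set PM : Submodule T ((n → ℤ) ⧸ R) := P • ⊤ with hPM
    have hy' : (Submodule.Quotient.mk y : ((n → ℤ) ⧸ R) ⧸ PM) ≠ 0 :=
      fun h0 => hy ((Submodule.Quotient.mk_eq_zero _).mp h0)
    obtain ⟨φ, hφ⟩ : ∃ φ : Module.Dual (T ⧸ P) (((n → ℤ) ⧸ R) ⧸ PM),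
        φ (Submodule.Quotient.mk y) ≠ 0 := by
      by_contra hall
      push Not at hall
      exact hy' ((Module.forall_dual_apply_eq_zero_iff (T ⧸ P) _).mp hall)
    let χ' : T ⧸ P →+* K := Ideal.Quotient.lift P χ fun t ht => ht
    let F : (n → ℤ) →+ K := χ'.toAddMonoidHom.comp (φ.toAddMonoidHom.comp
      (PM.mkQ.toAddMonoidHom.comp R.mkQ.toAddMonoidHom))
    have hF : ∀ (t : T) (z : n → ℤ), F (t • z) = χ t * F z := by
      intro t z
      show χ' (φ (Submodule.Quotient.mk (Submodule.Quotient.mk (t • z))))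
        = χ t * χ' (φ (Submodule.Quotient.mk (Submodule.Quotient.mk z)))
      rw [Submodule.Quotient.mk_smul, Submodule.Quotient.mk_smul,
        show ∀ q : ((n → ℤ) ⧸ R) ⧸ PM, t • q = (Ideal.Quotient.mk P t) • q from fun q => rfl,
        map_smul, smul_eq_mul, map_mul]
      rfl
    let ξ : n → K := fun j => F (Pi.single j 1)
    have hFξ : ∀ z : n → ℤ, F z = ∑ j, (z j : K) * ξ j := fun z => by
      conv_lhs => rw [pi_eq_sum_univ' z]
      rw [map_sum]
      exact Finset.sum_congr rfl fun j _ => by rw [map_zsmul, zsmul_eq_mul]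
    have hξ0 : ξ = 0 := by
      refine hdual ξ (fun t => funext fun j => ?_) (funext fun j => ?_)
      · have h1 := hF t (Pi.single j 1)
        rw [hsmul, hFξ (φ₂ t *ᵥ Pi.single j 1), Matrix.mulVec_single_one] at h1
        simpa [Matrix.mulVec, dotProduct, Matrix.transpose_apply] using h1
      · have h1 : F (B *ᵥ Pi.single j 1) = 0 := by
          show χ' (φ (Submodule.Quotient.mk (Submodule.Quotient.mk _))) = 0
          rw [(Submodule.Quotient.mk_eq_zero R).mpr ⟨_, rfl⟩, Submodule.Quotient.mk_zero,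
            map_zero, map_zero]
        rw [hFξ, Matrix.mulVec_single_one] at h1
        simpa [Matrix.mulVec, dotProduct, Matrix.transpose_apply] using h1
    obtain ⟨z, rfl⟩ := Submodule.Quotient.mk_surjective _ y
    apply hφ
    have h0 : F z = 0 := by rw [hFξ, hξ0]; simp
    exact χ'.injective (h0.trans (map_zero _).symm)
  have hχr : χ r = 1 := by
    rwa [hP, RingHom.mem_ker, map_sub, map_one, sub_eq_zero] at hr1
  have hσ' : ∀ j : n, ∃ x : m → ℤ, B *ᵥ x = φ₂ r *ᵥ Pi.single j 1 := by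
    intro j
    have := hr (Submodule.Quotient.mk (Pi.single j 1)) trivial
    rw [← Submodule.Quotient.mk_smul, Submodule.Quotient.mk_eq_zero] at this
    exact this
  choose σcol hσcol using hσ'
  refine ⟨r, Matrix.of fun k j => σcol j k, hχr, Matrix.ext fun i j => ?_⟩
  have := congrFun (hσcol j) i
  rw [Matrix.mulVec_single_one] at this
  simpa [Matrix.mul_apply, Matrix.mulVec, dotProduct] using this

/-- A minimal prime below `ker χ` kills a non-zero vector of the kernel of `B`. -/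
theorem exists_prime_killing_vector [Module.Finite ℤ T] (φ₁ : T →+* Matrix m m ℤ)
    (φ₂ : T →+* Matrix n n ℤ) (B : Matrix n m ℤ) (hint : ∀ t, B * φ₁ t = φ₂ t * B)
    (χ : T →+* K) (w : m → K) (hw0 : w ≠ 0)
    (hχ : ∀ t, (φ₁ t).map (Int.cast : ℤ → K) *ᵥ w = χ t • w)
    (hBw : B.map (Int.cast : ℤ → K) *ᵥ w = 0)
    (r : T) (σ : Matrix m n ℤ) (hχr : χ r = 1) (hBσ : B * σ = φ₂ r) :
    ∃ (Q : Ideal T) (x : m → ℤ), Q.IsPrime ∧ Q ≤ RingHom.ker χ ∧ x ≠ 0 ∧ B *ᵥ x = 0 ∧
      (∀ t ∈ Q, φ₁ t *ᵥ x = 0) ∧ ∀ z : ℤ, (z : T) ∈ Q → z = 0 := by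
  classical
  have : IsNoetherianRing T := IsNoetherianRing.of_finite ℤ T
  let : Module T (m → ℤ) := Module.compHom _ (((Matrix.toLinAlgEquiv' :
    Matrix m m ℤ ≃ₐ[ℤ] Module.End ℤ (m → ℤ)).toRingEquiv.toRingHom).comp φ₁)
  have hsmul : ∀ (t : T) (y : m → ℤ), t • y = φ₁ t *ᵥ y := fun _ _ => rfl
  let L : Submodule T (m → ℤ) :=
    { carrier := {x | B *ᵥ x = 0}
      zero_mem' := Matrix.mulVec_zero B
      add_mem' := fun {x y} hx hy => by
        show B *ᵥ (x + y) = 0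
        rw [Matrix.mulVec_add, show B *ᵥ x = 0 from hx, show B *ᵥ y = 0 from hy, add_zero]
      smul_mem' := fun t x hx => by
        show B *ᵥ (t • x) = 0
        rw [hsmul, Matrix.mulVec_mulVec, hint, ← Matrix.mulVec_mulVec,
          show B *ᵥ x = 0 from hx, Matrix.mulVec_zero] }
  have hann : Module.annihilator T L ≤ RingHom.ker χ := by
    intro t ht
    rw [Module.mem_annihilator] at ht
    set D : Matrix m m ℤ := σ * B - φ₁ r with hD
    have hBD : B * D = 0 := by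
      rw [hD, Matrix.mul_sub, ← Matrix.mul_assoc, hBσ, hint, sub_self]
    have htD : φ₁ t * D = 0 := by
      refine Matrix.ext_of_mulVec_single fun j => ?_
      have hmem : D *ᵥ Pi.single j 1 ∈ L := by
        show B *ᵥ (D *ᵥ _) = 0
        rw [Matrix.mulVec_mulVec, hBD, Matrix.zero_mulVec]
      rw [← Matrix.mulVec_mulVec, Matrix.zero_mulVec, ← hsmul]
      exact congrArg Subtype.val (ht ⟨_, hmem⟩)
    set c : Matrix m m ℤ →+* Matrix m m K := (Int.castRingHom K).mapMatrix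
    have hσB : c (σ * B) *ᵥ w = 0 := by
      show (σ * B).map (Int.castRingHom K) *ᵥ w = 0
      rw [Matrix.map_mul, ← Matrix.mulVec_mulVec]
      exact (congrArg _ hBw).trans (Matrix.mulVec_zero _)
    have hc : ∀ u : T, c (φ₁ u) *ᵥ w = χ u • w := hχ
    have h1 := congrArg (fun X : Matrix m m ℤ => c X *ᵥ w) htD
    simp only [hD, map_mul, map_zero, Matrix.zero_mulVec, ← Matrix.mulVec_mulVec, map_sub,
      Matrix.sub_mulVec] at h1
    rw [hσB, hc r, hχr, one_smul, zero_sub, Matrix.mulVec_neg, hc t, neg_eq_zero] at h1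
    exact (smul_eq_zero.mp h1).resolve_right hw0
  have : Module.Finite T (m → ℤ) := Module.Finite.of_restrictScalars_finite ℤ T (m → ℤ)
  have := RingHom.ker_isPrime χ
  obtain ⟨Q, hQ, hQP⟩ := Ideal.exists_minimalPrimes_le hann
  have hQass := Module.associatedPrimes.minimalPrimes_annihilator_subset_associatedPrimes T L hQ
  obtain ⟨hQprime, x₀, hx₀⟩ := isAssociatedPrime_iff.1 hQass
  have hx₀0 : x₀ ≠ 0 := by
    rintro rfl
    exact hQprime.ne_top (hx₀.trans (by simp))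
  have hQx : ∀ t ∈ Q, φ₁ t *ᵥ x₀.1 = 0 := fun t ht => by
    rw [hx₀, Submodule.mem_colon_singleton, Submodule.mem_bot] at ht
    exact congrArg Subtype.val ht
  refine ⟨Q, x₀.1, hQprime, hQP, fun h0 => hx₀0 (Subtype.ext h0), x₀.2, hQx, fun z hz => ?_⟩
  have h := hQx _ hz
  rw [map_intCast, Matrix.intCast_mulVec] at h
  by_contra hz0
  exact hx₀0 (Subtype.ext ((smul_eq_zero.mp h).resolve_left (by simpa using hz0)))

/-- A common complex eigenvector killed by `Q` has a character with kernel `Q`. -/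
theorem exists_maximal_over [Module.Finite ℤ T] (χc : T →+* ℂ) (Q P : Ideal T) [Q.IsPrime]
    [P.IsMaximal] (hQ : Q ≤ RingHom.ker χc) (hQP : Q ≤ P) :
    ∃ (b : T → integralClosure ℤ ℂ) (𝔪' : Ideal (integralClosure ℤ ℂ)), 𝔪'.IsMaximal ∧
      (∀ t, (b t : ℂ) = χc t) ∧ ∀ t ∈ P, b t ∈ 𝔪' := by
  have : Algebra.IsIntegral ℤ T := Algebra.IsIntegral.of_finite ℤ T
  let χb : T →+* integralClosure ℤ ℂ :=
    χc.codRestrict (integralClosure ℤ ℂ).toSubring fun t =>
      (Algebra.IsIntegral.isIntegral (R := ℤ) t).map χc.toIntAlgHom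
  have hker : RingHom.ker χb ≤ P := by
    refine le_trans ?_ hQP
    intro t ht
    by_contra htQ
    have htc : t ∈ RingHom.ker χc := congrArg Subtype.val (RingHom.mem_ker.mp ht)
    have hlt := Ideal.comap_lt_comap_of_integral_mem_sdiff (R := ℤ) hQ ⟨htc, htQ⟩
      (Algebra.IsIntegral.isIntegral t)
    have hbot : (RingHom.ker χc).comap (algebraMap ℤ T) = ⊥ := by
      ext z
      simp
    rw [hbot] at hlt
    exact not_lt_bot hlt
  let : Algebra T (integralClosure ℤ ℂ) := χb.toAlgebra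
  have : IsScalarTower ℤ T (integralClosure ℤ ℂ) :=
    IsScalarTower.of_algebraMap_eq fun z => (map_intCast χb z).symm.trans (by simp)
  have : Algebra.IsIntegral T (integralClosure ℤ ℂ) :=
    ⟨fun y => IsIntegral.tower_top (R := ℤ) (Algebra.IsIntegral.isIntegral y)⟩
  obtain ⟨𝔪', h𝔪', hcomap⟩ := Ideal.exists_ideal_over_maximal_of_isIntegral
    (S := integralClosure ℤ ℂ) P hker
  exact ⟨χb, 𝔪', h𝔪', fun t => rfl, fun t ht => by rw [← hcomap] at ht; exact ht⟩

/-- A common complex eigenvector of `φ₁` and `E` in the kernel of `B`, killed by `Q`. -/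
theorem exists_eigenvector_killed (φ₁ : T →+* Matrix m m ℤ) (φ₂ : T →+* Matrix n n ℤ)
    (B : Matrix n m ℤ) (E : Matrix m m ℤ) (E' : Matrix n n ℤ)
    (hint : ∀ t, B * φ₁ t = φ₂ t * B) (hE : ∀ t, E * φ₁ t = φ₁ t * E) (hBE : B * E = E' * B)
    (Q : Ideal T) (x : m → ℤ) (hx0 : x ≠ 0) (hBx : B *ᵥ x = 0)
    (hQx : ∀ t ∈ Q, φ₁ t *ᵥ x = 0) :
    ∃ (v : m → ℂ) (c : ℂ) (χc : T →+* ℂ), v ≠ 0 ∧ B.map (Int.cast : ℤ → ℂ) *ᵥ v = 0 ∧
      E.map (Int.cast : ℤ → ℂ) *ᵥ v = c • v ∧ Q ≤ RingHom.ker χc ∧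
      ∀ t, (φ₁ t).map (Int.cast : ℤ → ℂ) *ᵥ v = χc t • v := by
  let cC : Matrix m m ℤ →+* Matrix m m ℂ := (Int.castRingHom ℂ).mapMatrix
  let W : Submodule ℂ (m → ℂ) :=
    LinearMap.ker (Matrix.toLin' (B.map (Int.cast : ℤ → ℂ))) ⊓
      ⨅ t ∈ Q, LinearMap.ker (Matrix.toLin' (cC (φ₁ t)))
  have hmemW : ∀ y, y ∈ W ↔ B.map (Int.cast : ℤ → ℂ) *ᵥ y = 0 ∧
      ∀ t ∈ Q, cC (φ₁ t) *ᵥ y = 0 := fun y => by
    simp [W, Submodule.mem_iInf]
  have hxW : (fun k => (x k : ℂ)) ∈ W := by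
    refine (hmemW _).2 ⟨funext fun k => ?_, fun t ht => funext fun k => ?_⟩
    · exact ((Int.castRingHom ℂ).map_mulVec B x k).symm.trans (by rw [hBx]; simp)
    · exact ((Int.castRingHom ℂ).map_mulVec (φ₁ t) x k).symm.trans (by rw [hQx t ht]; simp)
  let S : Set (Module.End ℂ (m → ℂ)) :=
    insert (Matrix.toLin' (cC E)) (Set.range fun t : T => Matrix.toLin' (cC (φ₁ t)))
  have hcommT : ∀ t t' : T, cC (φ₁ t) * cC (φ₁ t') = cC (φ₁ t') * cC (φ₁ t) := fun t t' => by
    rw [← map_mul cC, ← map_mul cC, ← map_mul φ₁, ← map_mul φ₁, mul_comm]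
  have hcommE : ∀ t : T, cC E * cC (φ₁ t) = cC (φ₁ t) * cC E := fun t => by
    rw [← map_mul, ← map_mul, hE t]
  have hBC : ∀ (X : Matrix m m ℤ) (Y : Matrix n n ℤ), B * X = Y * B →
      B.map (Int.cast : ℤ → ℂ) * cC X = Y.map (Int.cast : ℤ → ℂ) * B.map (Int.cast : ℤ → ℂ) := by
    intro X Y h
    show B.map (Int.castRingHom ℂ) * X.map (Int.castRingHom ℂ) = _
    rw [← Matrix.map_mul, h, Matrix.map_mul]
    rfl
  obtain ⟨v, hvW, hv0, hvS⟩ := exists_common_eigenvector S (by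
      rintro u hu u' hu' y
      simp only [S, Set.mem_insert_iff, Set.mem_range] at hu hu'
      rcases hu with rfl | ⟨t, rfl⟩ <;> rcases hu' with rfl | ⟨t', rfl⟩ <;>
        simp only [Matrix.toLin'_apply, Matrix.mulVec_mulVec]
      · rw [hcommE]
      · rw [hcommE]
      · rw [hcommT])
    W (fun hb => hx0 (funext fun k => by
      have := congrFun ((Submodule.mem_bot ℂ).mp (hb ▸ hxW)) k
      simpa using this)) (by
      rintro u hu y hy
      obtain ⟨hyB, hyQ⟩ := (hmemW y).1 hy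
      simp only [S, Set.mem_insert_iff, Set.mem_range] at hu
      rcases hu with rfl | ⟨t, rfl⟩ <;> refine (hmemW _).2 ⟨?_, fun t' ht' => ?_⟩ <;>
        rw [Matrix.toLin'_apply, Matrix.mulVec_mulVec]
      · rw [hBC E E' hBE, ← Matrix.mulVec_mulVec, hyB, Matrix.mulVec_zero]
      · rw [← hcommE, ← Matrix.mulVec_mulVec, hyQ t' ht', Matrix.mulVec_zero]
      · rw [hBC _ _ (hint t), ← Matrix.mulVec_mulVec, hyB, Matrix.mulVec_zero]
      · rw [hcommT, ← Matrix.mulVec_mulVec, hyQ t' ht', Matrix.mulVec_zero])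
  obtain ⟨χc, hχc⟩ := exists_eigenHom (cC.comp φ₁) v hv0 (fun t => by
    obtain ⟨c, hc⟩ := hvS _ (Set.mem_insert_of_mem _ ⟨t, rfl⟩)
    exact ⟨c, by simpa using hc⟩)
  obtain ⟨c, hc⟩ := hvS _ (Set.mem_insert _ _)
  refine ⟨v, c, χc, hv0, ((hmemW v).1 hvW).1, by simpa [cC] using hc, fun u hu => ?_, hχc⟩
  exact (smul_eq_zero.mp ((hχc u).symm.trans (((hmemW v).1 hvW).2 u hu))).resolve_right hv0

/-- Integers commute with rectangular matrices. -/
theorem intCast_comm_rect (B : Matrix n m ℤ) (r : ℤ) :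
    B * (r : Matrix m m ℤ) = (r : Matrix n n ℤ) * B := by
  rw [← zsmul_one r, ← zsmul_one r, Matrix.mul_smul, Matrix.smul_mul, Matrix.mul_one,
    Matrix.one_mul]

/-- Lifting of a system of eigenvalues to the kernel of `B` in characteristic zero. -/
theorem exists_lift_eigenvector {ι : Type*} {p : ℕ} (hp : p.Prime)
    (A : ι → Matrix m m ℤ) (A' : ι → Matrix n n ℤ) (B : Matrix n m ℤ) (E : Matrix m m ℤ)
    (E' : Matrix n n ℤ)
    (hA : ∀ i j, A i * A j = A j * A i) (hA' : ∀ i j, A' i * A' j = A' j * A' i)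
    (hB : ∀ i, B * A i = A' i * B) (hE : ∀ i, E * A i = A i * E) (hBE : B * E = E' * B)
    [CharP K p] (a : ι → K) (w : m → K) (hw0 : w ≠ 0)
    (hBw : B.map (Int.cast : ℤ → K) *ᵥ w = 0)
    (hAw : ∀ i, (A i).map (Int.cast : ℤ → K) *ᵥ w = a i • w)
    (hdual : ∀ ξ : n → K, (∀ i, ((A' i).map (Int.cast : ℤ → K))ᵀ *ᵥ ξ = a i • ξ) →
      (B.map (Int.cast : ℤ → K))ᵀ *ᵥ ξ = 0 → ξ = 0) :
    ∃ (x : m → ℂ) (c : ℂ) (b : ι → integralClosure ℤ ℂ) (𝔪' : Ideal (integralClosure ℤ ℂ)),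
      x ≠ 0 ∧ B.map (Int.cast : ℤ → ℂ) *ᵥ x = 0 ∧ E.map (Int.cast : ℤ → ℂ) *ᵥ x = c • x ∧
        (∀ i, (A i).map (Int.cast : ℤ → ℂ) *ᵥ x = (b i : ℂ) • x) ∧
        𝔪'.IsMaximal ∧ (p : integralClosure ℤ ℂ) ∈ 𝔪' ∧
        ∀ (i : ι) (z : ℤ), a i = (z : K) → b i - (z : integralClosure ℤ ℂ) ∈ 𝔪' := by
  classical
  set s : Set (Matrix m m ℤ × Matrix n n ℤ) := Set.range fun i => (A i, A' i) with hs
  have hcomm : ∀ x ∈ s, ∀ y ∈ s, x * y = y * x := by
    rintro _ ⟨i, rfl⟩ _ ⟨j, rfl⟩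
    exact Prod.ext (hA i j) (hA' i j)
  set U := Algebra.adjoin ℤ s with hU
  have : IsMulCommutative U := Algebra.isMulCommutative_adjoin ℤ hcomm
  let : CommRing U := open scoped IsMulCommutative in inferInstance
  let φ₁ : U →+* Matrix m m ℤ := (RingHom.fst _ _).comp U.val.toRingHom
  let φ₂ : U →+* Matrix n n ℤ := (RingHom.snd _ _).comp U.val.toRingHom
  let gen : ι → U := fun i => ⟨(A i, A' i), Algebra.subset_adjoin ⟨i, rfl⟩⟩
  have ind : ∀ (C : U → Prop), (∀ i, C (gen i)) → (∀ r : ℤ, C (r : U)) →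
      (∀ x y, C x → C y → C (x + y)) → (∀ x y, C x → C y → C (x * y)) → ∀ t, C t := by
    rintro C hg hz hadd hmul ⟨t, ht⟩
    induction ht using Algebra.adjoin_induction with
    | mem x hx => obtain ⟨i, rfl⟩ := hx; exact hg i
    | algebraMap r =>
      have e : (r : U) = ⟨algebraMap ℤ _ r, Subalgebra.algebraMap_mem _ r⟩ := Subtype.ext (by simp)
      exact e ▸ hz r
    | add x y hx hy ihx ihy => exact hadd ⟨x, hx⟩ ⟨y, hy⟩ ihx ihy
    | mul x y hx hy ihx ihy => exact hmul ⟨x, hx⟩ ⟨y, hy⟩ ihx ihy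
  have hint : ∀ t, B * φ₁ t = φ₂ t * B := ind _ hB
    (fun r => by rw [map_intCast, map_intCast]; exact intCast_comm_rect B r)
    (fun x y hx hy => by rw [map_add, map_add, Matrix.mul_add, Matrix.add_mul, hx, hy])
    (fun x y hx hy => by
      rw [map_mul, map_mul, ← Matrix.mul_assoc, hx, Matrix.mul_assoc, hy, ← Matrix.mul_assoc])
  have hE' : ∀ t, E * φ₁ t = φ₁ t * E := ind _ hE
    (fun r => by rw [map_intCast, Int.cast_comm])
    (fun x y hx hy => by rw [map_add, mul_add, add_mul, hx, hy])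
    (fun x y hx hy => by rw [map_mul, ← mul_assoc, hx, mul_assoc, hy, ← mul_assoc])
  have : Module.Finite ℤ U :=
    Module.Finite.of_injective U.val.toLinearMap Subtype.val_injective
  -- the character on `w`
  let cK : ∀ {l : Type} [Fintype l] [DecidableEq l], Matrix l l ℤ →+* Matrix l l K :=
    fun {l} _ _ => (Int.castRingHom K).mapMatrix
  obtain ⟨χ, hχ⟩ := exists_eigenHom ((cK (l := m)).comp φ₁) w hw0 (ind _
    (fun i => ⟨a i, hAw i⟩)
    (fun r => ⟨(r : K), by simp [map_intCast, Matrix.intCast_mulVec]⟩)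
    (fun x y hx hy => by
      obtain ⟨cx, hx⟩ := hx
      obtain ⟨cy, hy⟩ := hy
      exact ⟨cx + cy, by rw [map_add, Matrix.add_mulVec, hx, hy, add_smul]⟩)
    (fun x y hx hy => by
      obtain ⟨cx, hx⟩ := hx
      obtain ⟨cy, hy⟩ := hy
      exact ⟨cy * cx, by
        rw [map_mul, ← Matrix.mulVec_mulVec, hy, Matrix.mulVec_smul, hx, smul_smul]⟩))
  have hχgen : ∀ i, χ (gen i) = a i :=
    fun i => smul_left_injective K hw0 ((hχ (gen i)).symm.trans (hAw i))
  have hpP : (p : U) ∈ RingHom.ker χ := by rw [RingHom.mem_ker, map_natCast, CharP.cast_eq_zero]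
  have hPmax : (RingHom.ker χ).IsMaximal := by
    have := RingHom.ker_isPrime χ
    have : Algebra.IsIntegral ℤ U := Algebra.IsIntegral.of_finite ℤ U
    refine Ideal.isMaximal_of_isIntegral_of_isMaximal_comap (R := ℤ) _ ?_
    refine (Ideal.IsPrime.comap (algebraMap ℤ U)).isMaximal fun h0 => hp.ne_zero ?_
    have h1 : (p : ℤ) ∈ (RingHom.ker χ).comap (algebraMap ℤ U) := by
      simp [Ideal.mem_comap, hpP]
    rw [h0, Submodule.mem_bot] at h1
    exact_mod_cast h1
  obtain ⟨r, σ, hχr, hBσ⟩ := exists_mul_mem_range φ₁ φ₂ B hint χ hPmax (fun ξ hξ hBξ =>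
    hdual ξ (fun i => by rw [← hχgen i]; exact hξ (gen i)) hBξ)
  obtain ⟨Q, x, hQprime, hQP, hx0, hBx, hQx, -⟩ :=
    exists_prime_killing_vector φ₁ φ₂ B hint χ w hw0 hχ hBw r σ hχr hBσ
  obtain ⟨v, c, χc, hv0, hBv, hEv, hQc, hχc⟩ :=
    exists_eigenvector_killed φ₁ φ₂ B E E' hint hE' hBE Q x hx0 hBx hQx
  have := hQprime
  have := hPmax
  obtain ⟨b, 𝔪', h𝔪', hb, hP⟩ := exists_maximal_over χc Q (RingHom.ker χ) hQc hQP
  refine ⟨v, c, fun i => b (gen i), 𝔪', hv0, hBv, hEv,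
    fun i => by rw [hb]; exact hχc (gen i), h𝔪', ?_, fun i z hiz => ?_⟩
  · have h1 := hP _ hpP
    rwa [show b (p : U) = (p : integralClosure ℤ ℂ) from
      Subtype.ext ((hb _).trans (by simp))] at h1
  · have hm := hP (gen i - z) (by
      rw [RingHom.mem_ker, map_sub, hχgen, map_intCast, hiz, sub_self])
    rwa [show b (gen i - z) = b (gen i) - (z : integralClosure ℤ ℂ) from
      Subtype.ext ((hb _).trans (by simp [hb]))] at hm

end Fermat.Agent.Ihara
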