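import Fermat.Agent.Ihara.Crossing
import Fermat.Agent.Ihara.CuspLift

/-!
# Non-degeneracy of the intersection pairing

The proof uses the Farey tessellation.

## Main results

* `cycle_nondegenerate`: if the cycle of `γ` pairs to zero modulo an odd prime `p` with every
  cycle, every homomorphism to an `𝔽_p`-space killing elliptic and parabolic elements kills `γ`.
-/

set_option autoImplicit false

noncomputable section

namespace Fermat.Agent.Ihara

open Matrix UpperHalfPlane CongruenceSubgroup OnePoint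
open scoped MatrixGroups

/-- `z ↦ (z - 1) / z`, fixing the centre of the basic ideal triangle. -/
def matR : SL(2, ℤ) := ⟨!![1, -1; 1, 0], by norm_num [Matrix.det_fin_two_of]⟩

/-- `z ↦ -1 / z`. -/
def matS : SL(2, ℤ) := ModularGroup.S

/-- The centre of the triangle `(0, 1, ∞)`. -/
def centre : ℍ := ⟨⟨1 / 2, Real.sqrt 3 / 2⟩, by show (0 : ℝ) < Real.sqrt 3 / 2; positivity⟩

theorem centre_re : centre.re = 1 / 2 := rfl
theorem centre_im : centre.im = Real.sqrt 3 / 2 := rfl

theorem centre_sq : centre.re * centre.re + centre.im * centre.im = 1 := by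
  rw [centre_re, centre_im]
  have : Real.sqrt 3 * Real.sqrt 3 = 3 := Real.mul_self_sqrt (by norm_num)
  linarith

theorem matR_smul_centre : matR • centre = centre := by
  apply UpperHalfPlane.ext
  rw [UpperHalfPlane.coe_specialLinearGroup_apply]
  have h3 : ((Real.sqrt 3 : ℝ) : ℂ) * ((Real.sqrt 3 : ℝ) : ℂ) = 3 := by
    rw [← Complex.ofReal_mul, Real.mul_self_sqrt (by norm_num)]; norm_num
  have hne : (centre : ℂ) ≠ 0 := centre.ne_zero
  rw [div_eq_iff (by simpa [matR] using hne)]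
  have hc : (centre : ℂ) = (1 / 2 : ℂ) + ((Real.sqrt 3 : ℝ) : ℂ) / 2 * Complex.I := by
    apply Complex.ext <;> simp [centre]
  simp [matR, hc]
  linear_combination (-(1 / 4) * Complex.I ^ 2) * h3 + (-(3 / 4)) * Complex.I_sq

theorem S_centre : ((matS • centre : ℍ)).re = -(1 / 2) ∧
    (matS • centre : ℍ).im = Real.sqrt 3 / 2 := by
  have hn : Complex.normSq (centre : ℂ) = 1 := by
    rw [Complex.normSq_apply, UpperHalfPlane.coe_re, UpperHalfPlane.coe_im]; exact centre_sq
  have : ((matS • centre : ℍ) : ℂ) = -1 / (centre : ℂ) := by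
    rw [UpperHalfPlane.coe_specialLinearGroup_apply]
    simp [matS, ModularGroup.S]
  constructor
  · rw [← UpperHalfPlane.coe_re, this]
    rw [Complex.div_re, hn]; simp [centre]
  · rw [← UpperHalfPlane.coe_im, this]
    rw [Complex.div_im, hn]; simp [centre]

/-- The basic edge `(∞, 0)`. -/
def edgeWind (w : ℍ) : ℤ := wind (rvec vinf) (rvec (zmv matS vinf)) w

/-- Contribution of one translate of the basic edge. -/
def edgeJump (m : SL(2, ℤ)) : ℤ :=
  edgeWind (m • matS • centre) - edgeWind (m • centre)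

theorem edgeWind_smul (m : SL(2, ℤ)) (w : ℍ) :
    edgeWind (m • w) = ((SignType.sign (-((m 0 0 : ℝ) * m 1 0 * (w.re * w.re + w.im * w.im)
      + ((m 0 0 : ℝ) * m 1 1 + (m 0 1 : ℝ) * m 1 0) * w.re + (m 0 1 : ℝ) * m 1 1))
      : SignType) : ℤ) := by
  have hdet : m 0 0 * m 1 1 - m 0 1 * m 1 0 = 1 := by rw [← Matrix.det_fin_two]; exact m.2
  have hd' : (m 0 0 : ℝ) * m 1 1 - m 0 1 * m 1 0 = 1 := by exact_mod_cast hdet
  have hD : det2 (rvec (zmv m⁻¹ vinf)) (rvec (zmv m⁻¹ (zmv matS vinf))) = 1 := by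
    rw [det2_zmv]; simp [det2, rvec, vinf, zmv, matS, ModularGroup.S]
  rw [edgeWind, wind_smul_SL, wind, hD, one_mul, geoForm_eq]
  congr 2
  simp [rvec, vinf, zmv, matS, ModularGroup.S, Matrix.SpecialLinearGroup.coe_inv,
    Matrix.adjugate_fin_two]
  ring_nf

theorem int_key {a b c d : ℤ} (h : a * d - b * c = 1) :
    2 * |a * c + b * d| > |a * d + b * c| ∨ (b = 0 ∧ c = 0) ∨ (a = 0 ∧ d = 0) := by
  rcases eq_or_ne b 0 with rfl | hb
  · rcases eq_or_ne c 0 with rfl | hc
    · exact Or.inr (Or.inl ⟨rfl, rfl⟩)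
    · left
      have had : a * d = 1 := by linarith
      rcases Int.eq_one_or_neg_one_of_mul_eq_one' had with ⟨rfl, rfl⟩ | ⟨rfl, rfl⟩ <;>
        simp <;> have := Int.one_le_abs hc <;> omega
  rcases eq_or_ne a 0 with rfl | ha
  · rcases eq_or_ne d 0 with rfl | hd
    · exact Or.inr (Or.inr ⟨rfl, rfl⟩)
    · left
      have hbc : b * -c = 1 := by linarith
      rcases Int.eq_one_or_neg_one_of_mul_eq_one' hbc with ⟨rfl, h2⟩ | ⟨rfl, h2⟩
      · obtain rfl : c = -1 := by linarith
        simp; have := Int.one_le_abs hd; omega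
      · obtain rfl : c = 1 := by linarith
        simp; have := Int.one_le_abs hd; omega
  left
  rcases eq_or_ne c 0 with rfl | hc
  · have had : a * d = 1 := by linarith
    rcases Int.eq_one_or_neg_one_of_mul_eq_one' had with ⟨rfl, rfl⟩ | ⟨rfl, rfl⟩ <;>
      simp <;> have := Int.one_le_abs hb <;> omega
  rcases eq_or_ne d 0 with rfl | hd
  · have hbc : b * -c = 1 := by linarith
    rcases Int.eq_one_or_neg_one_of_mul_eq_one' hbc with ⟨rfl, h2⟩ | ⟨rfl, h2⟩
    · obtain rfl : c = -1 := by linarith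
      simp; have := Int.one_le_abs ha; omega
    · obtain rfl : c = 1 := by linarith
      simp; have := Int.one_le_abs ha; omega
  -- all entries are non-zero
  have hn : 0 ≤ (a * d) * (b * c) := by
    rcases le_or_gt 0 (b * c) with h1 | h1
    · exact mul_nonneg (by linarith) h1
    · exact mul_nonneg_of_nonpos_of_nonpos (by omega) h1.le
  have habs : |a * c + b * d| = |a * c| + |b * d| := by
    have hsgn : 0 ≤ (a * c) * (b * d) := by
      linarith [show (a * c) * (b * d) = (a * d) * (b * c) by ring]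
    rcases nonneg_and_nonneg_or_nonpos_and_nonpos_of_mul_nonneg hsgn with ⟨h1, h2⟩ | ⟨h1, h2⟩
    · rw [abs_of_nonneg h1, abs_of_nonneg h2, abs_of_nonneg (add_nonneg h1 h2)]
    · rw [abs_of_nonpos h1, abs_of_nonpos h2, abs_of_nonpos (add_nonpos h1 h2)]; ring
  have hP : |a * c| * |b * d| = (a * d) * (b * c) := by
    rw [← abs_mul, show a * c * (b * d) = (a * d) * (b * c) by ring, abs_of_nonneg hn]
  have hsq : (a * d + b * c) ^ 2 = 4 * ((a * d) * (b * c)) + 1 := by
    linear_combination (a * d - b * c + 1) * h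
  have hP1 : 1 ≤ |a * c| * |b * d| :=
    one_le_mul_of_one_le_of_one_le (Int.one_le_abs (mul_ne_zero ha hc))
      (Int.one_le_abs (mul_ne_zero hb hd))
  rw [habs, gt_iff_lt]
  refine lt_of_pow_lt_pow_left₀ 2 (by positivity) ?_
  rw [sq_abs, hsq, ← hP]
  nlinarith [sq_nonneg (|a * c| - |b * d|)]

theorem eq_of_diag {m : SL(2, ℤ)} (hb : m 0 1 = 0) (hc : m 1 0 = 0) : m = 1 ∨ m = -1 := by
  have hdet : m 0 0 * m 1 1 - m 0 1 * m 1 0 = 1 := by rw [← Matrix.det_fin_two]; exact m.2
  rw [hb, hc, mul_zero, sub_zero] at hdet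
  rcases Int.eq_one_or_neg_one_of_mul_eq_one' hdet with ⟨a, d⟩ | ⟨a, d⟩
  · left; ext i j; fin_cases i <;> fin_cases j <;> simp [a, d, hb, hc]
  · right; ext i j; fin_cases i <;> fin_cases j <;> simp [a, d, hb, hc]

theorem eq_of_antidiag {m : SL(2, ℤ)} (ha : m 0 0 = 0) (hd : m 1 1 = 0) :
    m = matS ∨ m = -matS := by
  have hdet : m 0 0 * m 1 1 - m 0 1 * m 1 0 = 1 := by rw [← Matrix.det_fin_two]; exact m.2
  rw [ha, hd, mul_zero, zero_sub, ← mul_neg] at hdet
  rcases Int.eq_one_or_neg_one_of_mul_eq_one' hdet with ⟨b, c⟩ | ⟨b, c⟩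
  · right; ext i j; fin_cases i <;> fin_cases j <;> simp [ha, hd, b, matS, ModularGroup.S]
    linarith
  · left; ext i j; fin_cases i <;> fin_cases j <;> simp [ha, hd, b, matS, ModularGroup.S]
    linarith

theorem edgeJump_eq_zero {m : SL(2, ℤ)} (h1 : m ≠ 1) (h2 : m ≠ -1) (h3 : m ≠ matS)
    (h4 : m ≠ -matS) : edgeJump m = 0 := by
  have hdet : m 0 0 * m 1 1 - m 0 1 * m 1 0 = 1 := by rw [← Matrix.det_fin_two]; exact m.2
  rcases int_key hdet with h | ⟨hb, hc⟩ | ⟨ha, hd⟩
  · obtain ⟨hr, hi⟩ := S_centre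
    have h3' : Real.sqrt 3 * Real.sqrt 3 = 3 := Real.mul_self_sqrt (by norm_num)
    rw [edgeJump, edgeWind_smul, edgeWind_smul, hr, hi, centre_re, centre_im, sub_eq_zero]
    set P : ℝ := (m 0 0 : ℝ) * m 1 0 + (m 0 1 : ℝ) * m 1 1 with hP
    set Q : ℝ := (m 0 0 : ℝ) * m 1 1 + (m 0 1 : ℝ) * m 1 0 with hQ
    have h' : |Q| < 2 * |P| := by rw [hP, hQ]; exact_mod_cast h
    have e1 : (m 0 0 : ℝ) * m 1 0 * (-(1 / 2) * -(1 / 2) + Real.sqrt 3 / 2 * (Real.sqrt 3 / 2))
        + Q * -(1 / 2) + (m 0 1 : ℝ) * m 1 1 = P - Q / 2 := by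
      rw [hP]; linear_combination ((m 0 0 : ℝ) * m 1 0 / 4) * h3'
    have e2 : (m 0 0 : ℝ) * m 1 0 * (1 / 2 * (1 / 2) + Real.sqrt 3 / 2 * (Real.sqrt 3 / 2))
        + Q * (1 / 2) + (m 0 1 : ℝ) * m 1 1 = P + Q / 2 := by
      rw [hP]; linear_combination ((m 0 0 : ℝ) * m 1 0 / 4) * h3'
    rw [e1, e2]
    rcases le_or_gt 0 P with hp | hp
    · rw [abs_of_nonneg hp] at h'
      rw [sign_neg (by linarith [le_abs_self Q]), sign_neg (by linarith [neg_abs_le Q])]
    · rw [abs_of_neg hp] at h'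
      rw [sign_pos (by linarith [neg_abs_le Q]), sign_pos (by linarith [le_abs_self Q])]
  · rcases eq_of_diag hb hc with h | h
    · exact absurd h h1
    · exact absurd h h2
  · rcases eq_of_antidiag ha hd with h | h
    · exact absurd h h3
    · exact absurd h h4

theorem edgeJump_one : edgeJump 1 = 2 := by
  obtain ⟨hr, hi⟩ := S_centre
  rw [edgeJump, edgeWind_smul, edgeWind_smul, hr, centre_re]
  simp

theorem edgeJump_neg (m : SL(2, ℤ)) : edgeJump (-m) = edgeJump m := by
  simp only [edgeJump, ModularGroup.SL_neg_smul]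

theorem edgeJump_S : edgeJump matS = -2 := by
  have h := edgeJump_one
  rw [edgeJump, one_smul, one_smul] at h
  have hSS : matS • matS • centre = centre := by
    rw [← mul_smul, show matS * matS = -1 by
      ext i j; fin_cases i <;> fin_cases j <;> simp [matS, ModularGroup.S],
      ModularGroup.SL_neg_smul, one_smul]
  rw [edgeJump, hSS]
  linarith

theorem qGL_mul_smul (a b : SL(2, ℤ)) (x : OnePoint ℚ) :
    qGL (a * b) • x = qGL a • qGL b • x := by
  rw [qGL, map_mul, mul_smul]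

/-- A finite family of edges decomposing the path from `∞` to `g ∞`. -/
def IsDecomposition (Γ : Subgroup SL(2, ℤ)) (g : SL(2, ℤ)) (L : List SL(2, ℤ)) : Prop :=
  (∀ (z : ℍ) (δ : Γ), crossing Γ vinf (zmv g vinf) z ((δ : SL(2, ℤ)) • z)
    = (L.map fun k => crossing Γ (zmv k vinf) (zmv (k * matS) vinf) z ((δ : SL(2, ℤ)) • z)).sum) ∧
  ∀ {A : Type} [AddCommGroup A] (Ψ : OnePoint ℚ → A), Ψ (qGL g • ∞) - Ψ ∞
    = (L.map fun k => Ψ (qGL (k * matS) • ∞) - Ψ (qGL k • ∞)).sum

theorem crossing_smul_right {Γ : Subgroup SL(2, ℤ)} (u v : Fin 2 → ℤ) (z z' : ℍ) :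
    crossing Γ u (-v) z z' = crossing Γ u v z z' := by
  have h : rvec (-v) = (-1 : ℝ) • rvec v := by ext i; simp [rvec]
  simp only [crossing, h, wind_smul_right (show (-1 : ℝ) ≠ 0 by norm_num)]

theorem qGL_infty_of_lower_zero {g : SL(2, ℤ)} (h : g 1 0 = 0) :
    qGL g • (∞ : OnePoint ℚ) = ∞ := by
  rw [OnePoint.smul_infty_eq_self_iff]; simp [h]

theorem qGL_infty_congr {g g' : SL(2, ℤ)} (h0 : g' 0 0 = -g 0 0) (h1 : g' 1 0 = -g 1 0) :
    qGL g' • (∞ : OnePoint ℚ) = qGL g • ∞ := by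
  simp [OnePoint.smul_infty_eq_ite, h0, h1]

theorem exists_decomposition (Γ : Subgroup SL(2, ℤ)) (g : SL(2, ℤ)) :
    ∃ L, IsDecomposition Γ g L := by
  have hg : g ∈ Subgroup.closure ({ModularGroup.S, ModularGroup.T} : Set SL(2, ℤ)) := by
    rw [SpecialLinearGroup.SL2Z_generators]; trivial
  induction hg using Subgroup.closure_induction_right with
  | one =>
    refine ⟨[], fun z δ => ?_, fun Ψ => by simp [qGL]⟩
    have := crossing_swap Γ vinf vinf z ((δ : SL(2, ℤ)) • z)
    simp only [one_zmv, List.map_nil, List.sum_nil]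
    linarith
  | mul_right x hx y hy ih =>
    obtain ⟨L, hL1, hL2⟩ := ih
    rcases hy with rfl | rfl
    · refine ⟨L ++ [x], fun z δ => ?_, fun Ψ => ?_⟩
      · rw [← crossing_triangle Γ vinf (zmv x vinf) _ vinf_ne_zero (zmv_ne_zero _ vinf_ne_zero)
          (zmv_ne_zero _ vinf_ne_zero) z δ, hL1]
        simp [matS]
      · rw [List.map_append, List.sum_append, ← hL2]
        simp [matS]
    · have hT : zmv ModularGroup.T vinf = vinf := by
        ext i; fin_cases i <;> simp [zmv, vinf, ModularGroup.T]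
      refine ⟨L, fun z δ => by rw [zmv_mul, hT, hL1], fun Ψ => ?_⟩
      rw [qGL, map_mul, mul_smul, qGL_infty_of_lower_zero (by simp [ModularGroup.T]), hL2]
  | mul_inv_cancel x hx y hy ih =>
    obtain ⟨L, hL1, hL2⟩ := ih
    rcases hy with rfl | rfl
    · have hv : zmv (x * ModularGroup.S⁻¹) vinf = -zmv (x * ModularGroup.S) vinf := by
        ext i; fin_cases i <;>
          simp [zmv, vinf, ModularGroup.S, Matrix.SpecialLinearGroup.coe_inv,
            Matrix.mul_apply, Fin.sum_univ_two, Matrix.adjugate_fin_two]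
      refine ⟨L ++ [x], fun z δ => ?_, fun Ψ => ?_⟩
      · rw [hv, crossing_smul_right, ← crossing_triangle Γ vinf (zmv x vinf) _ vinf_ne_zero
          (zmv_ne_zero _ vinf_ne_zero) (zmv_ne_zero _ vinf_ne_zero) z δ, hL1]
        simp [matS]
      · rw [List.map_append, List.sum_append, ← hL2]
        have : qGL (x * ModularGroup.S⁻¹) • (∞ : OnePoint ℚ) = qGL (x * matS) • ∞ := by
          apply qGL_infty_congr <;>
            simp [matS, ModularGroup.S, Matrix.SpecialLinearGroup.coe_inv, Matrix.mul_apply,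
              Fin.sum_univ_two, Matrix.adjugate_fin_two]
        simp only [List.map_cons, List.map_nil, List.sum_cons, List.sum_nil, add_zero, this]
        abel
    · have hT : zmv ModularGroup.T⁻¹ vinf = vinf := by
        ext i; fin_cases i <;>
          simp [zmv, vinf, ModularGroup.T, Matrix.SpecialLinearGroup.coe_inv,
            Matrix.adjugate_fin_two]
      refine ⟨L, fun z δ => by rw [zmv_mul, hT, hL1], fun Ψ => ?_⟩
      rw [qGL, map_mul, mul_smul, qGL_infty_of_lower_zero (by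
        simp [ModularGroup.T, Matrix.SpecialLinearGroup.coe_inv, Matrix.adjugate_fin_two]), hL2]

/-- Sum over the orbits of a permutation of order three. -/
theorem sum_eq_zero_of_order_three {X A : Type*} [DecidableEq X] [AddCommGroup A] (σ : X → X)
    (hσ : ∀ x, σ (σ (σ x)) = x) (f : X → A) (h3 : ∀ x, f x + f (σ x) + f (σ (σ x)) = 0)
    (hfix : ∀ x, σ x = x → f x = 0) :
    ∀ s : Finset X, (∀ x ∈ s, σ x ∈ s) → ∑ x ∈ s, f x = 0 := by
  intro s
  induction s using Finset.strongInduction with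
  | _ s ih =>
    intro hs
    rcases s.eq_empty_or_nonempty with rfl | ⟨a, ha⟩
    · simp
    by_cases hf : σ a = a
    · rw [← Finset.add_sum_erase s f ha, hfix a hf, zero_add]
      refine ih _ (Finset.erase_ssubset ha) fun x hx => ?_
      obtain ⟨hne, hxs⟩ := Finset.mem_erase.mp hx
      exact Finset.mem_erase.mpr ⟨fun he => hne (by rw [← hσ x, he, hf, hf]), hs x hxs⟩
    have h01 : a ≠ σ a := Ne.symm hf
    have h02 : a ≠ σ (σ a) := fun he => hf (by
      calc σ a = σ (σ (σ a)) := congrArg σ he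
        _ = a := hσ a)
    have h12 : σ a ≠ σ (σ a) := fun he => hf (by
      have := congrArg (fun t => σ (σ t)) he
      simp only [hσ] at this
      exact this.symm)
    set t : Finset X := {a, σ a, σ (σ a)} with ht
    have hts : t ⊆ s := by
      intro x hx
      simp only [ht, Finset.mem_insert, Finset.mem_singleton] at hx
      rcases hx with rfl | rfl | rfl
      · exact ha
      · exact hs _ ha
      · exact hs _ (hs _ ha)
    have hsum : ∑ x ∈ t, f x = 0 := by
      rw [ht, Finset.sum_insert (by simp [h01, h02]), Finset.sum_insert (by simp [h12]),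
        Finset.sum_singleton, ← add_assoc, h3]
    rw [← Finset.sum_sdiff hts, hsum, add_zero]
    refine ih _ (Finset.sdiff_ssubset hts ⟨a, by simp [ht]⟩) fun x hx => ?_
    simp only [Finset.mem_sdiff, ht, Finset.mem_insert, Finset.mem_singleton, not_or] at hx ⊢
    refine ⟨hs _ hx.1, fun he => hx.2.2.2 ?_, fun he => hx.2.1 ?_, fun he => hx.2.2.1 ?_⟩
    all_goals
      have := congrArg (fun t => σ (σ t)) he
      simpa [hσ] using this

variable {p : ℕ} [hp : Fact p.Prime] {Γ : Subgroup SL(2, ℤ)}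

/-- The left coset of `g⁻¹`, i.e. the right coset of `g`. -/
def rcoset (Γ : Subgroup SL(2, ℤ)) (g : SL(2, ℤ)) : SL(2, ℤ) ⧸ Γ :=
  ((g⁻¹ : SL(2, ℤ)) : SL(2, ℤ) ⧸ Γ)

theorem rcoset_eq_iff {g g' : SL(2, ℤ)} : rcoset Γ g = rcoset Γ g' ↔ g * g'⁻¹ ∈ Γ := by
  rw [rcoset, rcoset, QuotientGroup.eq, inv_inv]

theorem rcoset_mul (g k : SL(2, ℤ)) : rcoset Γ (g * k) = k⁻¹ • rcoset Γ g := by
  rw [rcoset, rcoset, _root_.mul_inv_rev]; rfl

theorem rcoset_out (q : (SL(2, ℤ) ⧸ Γ)) : rcoset Γ (q.out)⁻¹ = q := by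
  rw [rcoset, inv_inv, QuotientGroup.out_eq']

theorem neg_one_mem_Gamma0 {N : ℕ} : (-1 : SL(2, ℤ)) ∈ Gamma0 N := by simp [Gamma0_mem]

open Classical in
/-- Crossing number of one edge translate with a dual edge. -/
theorem crossing_edge (hneg1 : (-1 : SL(2, ℤ)) ∈ Γ) (k g : SL(2, ℤ)) :
    crossing Γ (zmv k vinf) (zmv (k * matS) vinf) (g • centre) ((g * matS) • centre)
      = 4 * ((if rcoset Γ k = rcoset Γ g then 1 else 0)
        - (if rcoset Γ k = rcoset Γ (g * matS) then 1 else 0)) := by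
  have hterm : ∀ h : SL(2, ℤ),
      wind (rvec (zmv k vinf)) (rvec (zmv (k * matS) vinf)) (h • (g * matS) • centre)
        - wind (rvec (zmv k vinf)) (rvec (zmv (k * matS) vinf)) (h • g • centre)
      = edgeJump (k⁻¹ * h * g) := by
    intro h
    have key : ∀ w : ℍ, wind (rvec (zmv k vinf)) (rvec (zmv (k * matS) vinf)) w
        = edgeWind (k⁻¹ • w) := fun w => by
      rw [edgeWind, wind_smul_SL k⁻¹, inv_inv, zmv_mul]
    rw [key, key, edgeJump]
    simp only [← mul_smul, mul_assoc]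
  set R : Set SL(2, ℤ) := Set.range fun h : Γ => k⁻¹ * (h : SL(2, ℤ)) * g with hR
  have hinj : Function.Injective fun h : Γ => k⁻¹ * (h : SL(2, ℤ)) * g := by
    intro a b hab
    exact Subtype.ext (mul_left_cancel (mul_right_cancel hab))
  have e1 : crossing Γ (zmv k vinf) (zmv (k * matS) vinf) (g • centre)
      ((g * matS) • centre) = ∑ᶠ m ∈ R, edgeJump m := by
    rw [crossing, finsum_mem_range hinj]
    exact finsum_congr fun h => hterm h
  have hmem : ∀ m, m ∈ R ↔ rcoset Γ (k * m) = rcoset Γ g := by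
    intro m
    rw [rcoset_eq_iff]
    constructor
    · rintro ⟨h, rfl⟩
      simp [mul_assoc]
    · intro hm
      exact ⟨⟨_, hm⟩, by simp [mul_assoc]⟩
  have hsupp : ∀ m, edgeJump m ≠ 0 → m ∈ ({1, -1, matS, -matS} : Finset SL(2, ℤ)) := by
    intro m hm
    simp only [Finset.mem_insert, Finset.mem_singleton]
    by_contra hcon
    simp only [not_or] at hcon
    exact hm (edgeJump_eq_zero hcon.1 hcon.2.1 hcon.2.2.1 hcon.2.2.2)
  rw [e1, finsum_mem_def,
    finsum_eq_sum_of_support_subset _ (s := ({1, -1, matS, -matS} : Finset SL(2, ℤ)))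
      (fun m hm => hsupp m (by
        simp only [Function.mem_support, ne_eq, Set.indicator_apply_eq_zero, not_forall] at hm
        exact hm.2))]
  have hneg : ∀ m, rcoset Γ (k * -m) = rcoset Γ (k * m) := by
    intro m
    rw [rcoset_eq_iff, mul_neg, neg_mul, mul_inv_cancel]
    exact hneg1
  have hSinv : matS⁻¹ = -matS := by
    ext i j; fin_cases i <;> fin_cases j <;>
      simp [matS, ModularGroup.S, Matrix.SpecialLinearGroup.coe_inv, Matrix.adjugate_fin_two]
  have hS : rcoset Γ (k * matS) = rcoset Γ g ↔ rcoset Γ k = rcoset Γ (g * matS) := by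
    rw [← hneg, ← hSinv, rcoset_eq_iff, rcoset_eq_iff, _root_.mul_inv_rev, ← mul_assoc]
  have d1 : (1 : SL(2, ℤ)) ≠ -1 := by decide
  have d2 : (1 : SL(2, ℤ)) ≠ matS := by decide
  have d3 : (1 : SL(2, ℤ)) ≠ -matS := by decide
  have d4 : (-1 : SL(2, ℤ)) ≠ matS := by decide
  have d5 : (-1 : SL(2, ℤ)) ≠ -matS := by decide
  have d6 : matS ≠ -matS := by decide
  rw [Finset.sum_insert (by simp [d1, d2, d3]), Finset.sum_insert (by simp [d4, d5]),
    Finset.sum_insert (by simp [d6]), Finset.sum_singleton]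
  simp only [Set.indicator_apply, hmem, hneg, edgeJump_neg, edgeJump_one, edgeJump_S, hS, mul_one]
  split_ifs <;> norm_num

/-- **Non-degeneracy**: if all intersection numbers of `γ` vanish modulo `p` then every
`F`-valued homomorphism killing elliptic and parabolic elements kills `γ`. -/
theorem cycle_nondegenerate [Γ.FiniteIndex] (hneg1 : (-1 : SL(2, ℤ)) ∈ Γ) (hp2 : p ≠ 2)
    {F : Type} [AddCommGroup F] [Module (ZMod p) F]
    (γ : Γ)
    (h : ∀ δ, ((cycleHom Γ γ (Additive.ofMul δ) : ℤ) : ZMod p) = 0)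
    (χ : Additive Γ →+ F)
    (hχ : χ ∈ Cosets.parEllHoms ℤ Γ F) : χ (Additive.ofMul γ) = 0 := by
  classical
  let := Fintype.ofFinite ((SL(2, ℤ) ⧸ Γ))
  obtain ⟨Ψ, hΨ⟩ := exists_cuspLift χ fun g hg => hχ g hg.le
  obtain ⟨L, hL1, hL2⟩ := exists_decomposition Γ (γ : SL(2, ℤ))
  -- the symbol on right cosets
  set x : SL(2, ℤ) → F := fun g => Ψ (qGL (g * matS) • ∞) - Ψ (qGL g • ∞) with hx
  have hxinv : ∀ g g', rcoset Γ g = rcoset Γ g' → x g = x g' := by
    intro g g' hgg
    rw [rcoset_eq_iff] at hgg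
    have e : ∀ r : SL(2, ℤ), Ψ (qGL (g * r) • ∞)
        = χ (Additive.ofMul (⟨_, hgg⟩ : Γ)) + Ψ (qGL (g' * r) • ∞) := by
      intro r
      rw [← hΨ, ← mul_smul, qGL, qGL, qGL, ← map_mul, ← mul_assoc, inv_mul_cancel_right]
    have e2 := e 1
    rw [mul_one, mul_one] at e2
    simp only [hx, e matS, e2, add_sub_add_left_eq_sub]
  set xq : (SL(2, ℤ) ⧸ Γ) → F := fun q => x (q.out)⁻¹ with hxq
  have hxC : ∀ g, xq (rcoset Γ g) = x g := fun g => hxinv _ _ (rcoset_out _)
  -- the potential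
  set P : SL(2, ℤ) → ℤ := fun g =>
    (L.map fun k => crossing Γ (zmv k vinf) (zmv (k * matS) vinf) centre (g • centre)).sum
    with hP
  have hPinv : ∀ g g', rcoset Γ g = rcoset Γ g' → ((P g : ℤ) : ZMod p) = (P g' : ZMod p) := by
    intro g g' hgg
    rw [rcoset_eq_iff] at hgg
    have h0 := h ⟨_, hgg⟩
    rw [cycleHom_apply Γ γ _ centre, hL1] at h0
    have : P g = (L.map fun k => crossing Γ (zmv k vinf) (zmv (k * matS) vinf) centre
        ((g * g'⁻¹) • centre)).sum + P g' := by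
      simp only [hP, ← List.sum_map_add]
      refine congrArg List.sum (List.map_congr_left fun k _ => ?_)
      rw [← crossing_trans Γ (zmv k vinf) (zmv (k * matS) vinf) centre
        ((g * g'⁻¹) • centre) (g • centre)]
      congr 1
      have := crossing_smul_pts Γ (zmv k vinf) (zmv (k * matS) vinf) centre
        (g' • centre) ⟨_, hgg⟩
      rw [← this]
      simp only [← mul_smul, inv_mul_cancel_right]
    rw [this, Int.cast_add, h0, zero_add]
  set Pq : (SL(2, ℤ) ⧸ Γ) → ZMod p := fun q => (P (q.out)⁻¹ : ZMod p) with hPq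
  have hPC : ∀ g, Pq (rcoset Γ g) = (P g : ZMod p) := fun g => hPinv _ _ (rcoset_out _)
  set A : (SL(2, ℤ) ⧸ Γ) → ℤ := fun q => (L.map fun k => if rcoset Γ k = q then 1 else 0).sum
    with hA
  have hjump : ∀ g, P (g * matS) - P g = 4 * (A (rcoset Γ g) - A (rcoset Γ (g * matS))) := by
    intro g
    simp only [hP, hA]
    clear hL1 hL2 hPinv hPC hPq hA hP
    induction L with
    | nil => simp
    | cons k L ih =>
      simp only [List.map_cons, List.sum_cons]
      have := crossing_trans Γ (zmv k vinf) (zmv (k * matS) vinf) centre (g • centre)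
        ((g * matS) • centre)
      rw [crossing_edge hneg1] at this
      linarith
  -- total value
  have htot : χ (Additive.ofMul γ) = ∑ q, A q • xq q := by
    have e := hL2 Ψ
    have e' := hΨ γ ∞
    rw [e', add_sub_cancel_right] at e
    rw [e, show (L.map fun k => Ψ (qGL (k * matS) • ∞) - Ψ (qGL k • ∞)) = L.map x from rfl]
    simp only [hA]
    clear hL1 hL2 hPinv hPC hPq hP hjump hA e e'
    induction L with
    | nil => simp
    | cons k L ih =>
      simp only [List.map_cons, List.sum_cons, ih, add_smul, Finset.sum_add_distrib, ite_smul,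
        one_smul, zero_smul, Finset.sum_ite_eq, Finset.mem_univ, if_true, hxC]
  have hinfS : qGL (matS * matS) • (∞ : OnePoint ℚ) = ∞ :=
    qGL_infty_of_lower_zero (by simp [matS, ModularGroup.S])
  have hinfR : qGL (matR * matS) • (∞ : OnePoint ℚ) = ∞ :=
    qGL_infty_of_lower_zero (by simp [matR, matS, ModularGroup.S])
  have hRS : qGL (matR * matR) • (∞ : OnePoint ℚ) = qGL matS • ∞ := by
    rw [OnePoint.smul_infty_eq_ite, OnePoint.smul_infty_eq_ite]
    simp [matR, matS, ModularGroup.S, Matrix.mul_apply, Fin.sum_univ_two]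
  have hxS : ∀ g, x (g * matS) = -x g := by
    intro g
    simp only [hx, neg_sub, mul_assoc g, qGL_mul_smul g, hinfS]
  have hR3 : qGL (matR * matR * matS) • (∞ : OnePoint ℚ) = qGL matR • ∞ := by
    rw [mul_assoc, qGL, map_mul, mul_smul, hinfR]
  have hxR : ∀ g, x g + x (g * matR) + x (g * matR * matR) = 0 := by
    intro g
    simp only [hx, mul_assoc g, qGL_mul_smul g, hinfR, hR3, hRS]
    abel
  have hxfix : ∀ g, rcoset Γ (g * matR) = rcoset Γ g → x g = 0 := by
    intro g hg
    rw [rcoset_eq_iff] at hg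
    set e : Γ := ⟨g * matR * g⁻¹, hg⟩ with he
    have he0 : χ (Additive.ofMul e) = 0 := by
      refine hχ e ?_
      rw [he, Matrix.SpecialLinearGroup.coe_mul, Matrix.trace_mul_comm,
        ← Matrix.SpecialLinearGroup.coe_mul, ← mul_assoc, inv_mul_cancel, one_mul]
      simp [matR, Matrix.trace_fin_two]
    have h2 : qGL (g * matS) • (∞ : OnePoint ℚ) = qGL e • qGL e • qGL g • ∞ := by
      rw [← qGL_mul_smul, ← qGL_mul_smul, qGL_mul_smul g matS, ← hRS, ← qGL_mul_smul, he]
      congr 2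
      dsimp only
      group
    simp only [hx, h2]
    rw [hΨ e, hΨ e, he0, zero_add, zero_add, sub_self]
  -- the `R`-part vanishes
  set σ : (SL(2, ℤ) ⧸ Γ) → (SL(2, ℤ) ⧸ Γ) := fun q => matR⁻¹ • q with hσ
  have hCR : ∀ g, rcoset Γ (g * matR) = σ (rcoset Γ g) := fun g => rcoset_mul g matR
  have hRpart : ∑ q, Pq q • xq q = 0 := by
    refine sum_eq_zero_of_order_three σ (fun q => ?_) _ (fun q => ?_) (fun q hq => ?_)
      Finset.univ (by simp)
    · simp only [hσ, ← mul_smul]
      have : matR⁻¹ * matR⁻¹ * matR⁻¹ = -1 := by decide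
      rw [mul_assoc] at this
      rw [this]
      induction q using QuotientGroup.induction_on with
      | _ g =>
        show (((-1 : SL(2, ℤ)) * g : SL(2, ℤ)) : SL(2, ℤ) ⧸ Γ) = (g : SL(2, ℤ) ⧸ Γ)
        rw [QuotientGroup.eq]
        simpa using hneg1
    · obtain ⟨g, rfl⟩ : ∃ g, q = rcoset Γ g := ⟨_, (rcoset_out q).symm⟩
      rw [← hCR, ← hCR, hxC, hxC, hxC, hPC, hPC, hPC]
      have hc : ∀ g : SL(2, ℤ), P (g * matR) = P g := fun g => by
        simp only [hP, mul_smul, matR_smul_centre]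
      simp only [hc]
      rw [← smul_add, ← smul_add, hxR, smul_zero]
    · obtain ⟨g, rfl⟩ : ∃ g, q = rcoset Γ g := ⟨_, (rcoset_out q).symm⟩
      rw [hxC, hxfix g (by rw [hCR, hq]), smul_zero]
  -- the `S`-part vanishes
  have h2ne : (2 : ZMod p) ≠ 0 := by
    show ((2 : ℕ) : ZMod p) ≠ 0
    rw [Ne, ZMod.natCast_eq_zero_iff, Nat.prime_dvd_prime_iff_eq hp.out Nat.prime_two]
    exact hp2
  set B : (SL(2, ℤ) ⧸ Γ) → ZMod p := fun q => 4 * (A q : ZMod p) + Pq q with hB
  have hSpart : ∑ q, B q • xq q = 0 := by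
    have e : ∑ q, B q • xq q = -∑ q, B q • xq q := by
      conv_lhs => rw [← Equiv.sum_comp (MulAction.toPerm (matS⁻¹ : SL(2, ℤ))
        : Equiv.Perm ((SL(2, ℤ) ⧸ Γ)))]
      rw [← Finset.sum_neg_distrib]
      refine Finset.sum_congr rfl fun q _ => ?_
      obtain ⟨g, rfl⟩ : ∃ g, q = rcoset Γ g := ⟨_, (rcoset_out q).symm⟩
      rw [MulAction.toPerm_apply, ← rcoset_mul, hxC, hxC, hxS, smul_neg]
      congr 2
      simp only [hB, hPC]
      have := congrArg (fun t : ℤ => (t : ZMod p)) (hjump g)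
      push_cast at this
      linear_combination this
    rw [eq_neg_iff_add_eq_zero, ← two_smul (ZMod p)] at e
    exact (smul_eq_zero_iff_right (M := F) h2ne).mp e
  have h4 : (4 : ZMod p) • χ (Additive.ofMul γ) = 0 := by
    rw [htot, Finset.smul_sum]
    calc ∑ q, (4 : ZMod p) • A q • xq q = ∑ q, (B q • xq q - Pq q • xq q) := by
          refine Finset.sum_congr rfl fun q _ => ?_
          rw [hB, ← Int.cast_smul_eq_zsmul (ZMod p) (A q), smul_smul, add_smul,
            add_sub_cancel_right]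
      _ = 0 := by rw [Finset.sum_sub_distrib, hSpart, hRpart, sub_zero]
  have h4ne : (4 : ZMod p) ≠ 0 := by
    rw [show (4 : ZMod p) = 2 * 2 by norm_num]; exact mul_ne_zero h2ne h2ne
  exact (smul_eq_zero_iff_right (M := F) h4ne).mp h4

end Fermat.Agent.Ihara
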