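import Fermat.Agent.Ihara.Families
import Fermat.Agent.Ihara.Nondegenerate
import Fermat.Agent.Cosets.ParLattice

/-!
# Correspondences and the intersection pairing as integral matrices

Everything is written in the coordinates `parCoord` of `Hom_par,ell(Γ₀(M), ℤ)`.

## Main results

* `opMat`, `op_parCoord`: the matrix of a correspondence.
* `gram`, `gram_adjoint`: the Gram matrix of the pairing exchanges adjoint correspondences.
* `gram_nondegenerate`: the pairing is non-degenerate modulo every odd prime.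
-/

set_option autoImplicit false

noncomputable section

namespace Fermat.Agent.Ihara

open Matrix CongruenceSubgroup Fermat.Agent.Cosets
open scoped MatrixGroups

variable {M M' : ℕ} [NeZero M] [NeZero M'] {ι : Type*} [Fintype ι]

/-- The matrix of a correspondence on the lattices. -/
def opMat (S : CosetSys (Gamma0 M) (Gamma0 M') ι) :
    Matrix (Fin (homRank M')) (Fin (homRank M)) ℤ :=
  Matrix.of fun i j => (parCoord M' ℤ ℤ).symm
    ⟨S.op ℤ ℤ (parGen M j : Additive (Gamma0 M) →+ ℤ), S.op_mem_parEllHoms (parGen M j).2⟩ i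

theorem sum_parVal_cof (S : CosetSys (Gamma0 M) (Gamma0 M') ι) (j : Fin (homRank M))
    (γ : Gamma0 M') :
    ∑ k, parVal M j (S.cof γ k) = ∑ i, opMat S i j * parVal M' i γ := by
  let f : parEllHoms ℤ (Gamma0 M') ℤ :=
    ⟨S.op ℤ ℤ (parGen M j : Additive (Gamma0 M) →+ ℤ), S.op_mem_parEllHoms (parGen M j).2⟩
  have h := parCoord_apply M' ℤ ℤ ((parCoord M' ℤ ℤ).symm f) γ
  rw [LinearEquiv.apply_symm_apply] at h
  refine (S.op_apply (R := ℤ) (parGen M j : Additive (Gamma0 M) →+ ℤ) γ).symm.trans (h.trans ?_)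
  exact Finset.sum_congr rfl fun i _ => by rw [smul_eq_mul, mul_comm]; rfl

/-- In coordinates a correspondence is given by `opMat` for all coefficients. -/
theorem op_parCoord (S : CosetSys (Gamma0 M) (Gamma0 M') ι) (R A : Type) [Semiring R]
    [AddCommGroup A] [Module R A] (a : Fin (homRank M) → A) :
    S.op R A (parCoord M R A a : Additive (Gamma0 M) →+ A)
      = (parCoord M' R A (fun i => ∑ j, opMat S i j • a j) : Additive (Gamma0 M') →+ A) := by
  refine AddMonoidHom.ext fun γ => ?_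
  obtain ⟨γ, rfl⟩ := Additive.ofMul.surjective γ
  rw [S.op_apply, parCoord_apply]
  simp only [parCoord_apply, Finset.smul_sum, ← mul_smul]
  rw [Finset.sum_comm, Finset.sum_comm (γ := Fin (homRank M'))]
  refine Finset.sum_congr rfl fun j _ => ?_
  rw [← Finset.sum_smul, sum_parVal_cof, Finset.sum_smul]
  exact Finset.sum_congr rfl fun i _ => by rw [mul_comm]

/-- The same in a commutative ring. -/
theorem op_parCoord_mulVec (S : CosetSys (Gamma0 M) (Gamma0 M') ι) (A : Type) [CommRing A]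
    (a : Fin (homRank M) → A) :
    S.op ℤ A (parCoord M ℤ A a : Additive (Gamma0 M) →+ A)
      = (parCoord M' ℤ A ((opMat S).map (Int.cast : ℤ → A) *ᵥ a) :
          Additive (Gamma0 M') →+ A) := by
  rw [op_parCoord]
  congr 2
  funext i
  simp [Matrix.mulVec, dotProduct, zsmul_eq_mul]

omit [Fintype ι] in
/-- Values at group elements detect coordinates. -/
theorem eq_zero_of_parVal {A : Type} [AddCommGroup A] (a : Fin (homRank M) → A)
    (h : ∀ γ : Gamma0 M, ∑ j, parVal M j γ • a j = 0) : a = 0 := by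
  apply (parCoord M ℤ A).injective
  rw [map_zero]
  refine Subtype.ext (AddMonoidHom.ext fun γ => ?_)
  obtain ⟨γ, rfl⟩ := Additive.ofMul.surjective γ
  rw [parCoord_apply, h]
  rfl

omit [Fintype ι] in
/-- The vector of values of the lattice basis at `γ`. -/
def evVec (M : ℕ) [NeZero M] (γ : Gamma0 M) : Fin (homRank M) → ℤ := fun j => parVal M j γ

omit [Fintype ι] in
theorem mat_eq_of_evVec {n : Type*} (X Y : Matrix n (Fin (homRank M)) ℤ)
    (h : ∀ γ, X *ᵥ evVec M γ = Y *ᵥ evVec M γ) : X = Y := by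
  refine sub_eq_zero.mp (Matrix.ext fun i j => ?_)
  refine congrFun (eq_zero_of_parVal (A := ℤ) ((X - Y) i) fun γ => ?_) j
  have := congrFun (h γ) i
  simp only [Matrix.mulVec, dotProduct, evVec] at this
  simp only [Matrix.sub_apply, smul_eq_mul, mul_sub, Finset.sum_sub_distrib]
  rw [sub_eq_zero]
  simpa [mul_comm] using this

omit [Fintype ι] in
/-- Two integral matrices acting in the same way on the lattice are equal. -/
theorem mat_eq_of_parCoord (X Y : Matrix (Fin (homRank M')) (Fin (homRank M)) ℤ)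
    (h : ∀ a : Fin (homRank M) → ℤ, (parCoord M' ℤ ℤ (X *ᵥ a) : Additive (Gamma0 M') →+ ℤ)
      = (parCoord M' ℤ ℤ (Y *ᵥ a) : Additive (Gamma0 M') →+ ℤ)) : X = Y :=
  Matrix.ext_of_mulVec_single fun _ => (parCoord M' ℤ ℤ).injective (Subtype.ext (h _))

theorem op_parCoord_int (S : CosetSys (Gamma0 M) (Gamma0 M') ι) (a : Fin (homRank M) → ℤ) :
    S.op ℤ ℤ (parCoord M ℤ ℤ a : Additive (Gamma0 M) →+ ℤ)
      = (parCoord M' ℤ ℤ (opMat S *ᵥ a) : Additive (Gamma0 M') →+ ℤ) := by
  have h := op_parCoord_mulVec S ℤ a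
  rwa [show (opMat S).map (Int.cast : ℤ → ℤ) = opMat S from Matrix.ext fun _ _ => rfl] at h

omit [Fintype ι] in
/-- Values modulo `p` fill `(ℤ/p) ^ rank`. -/
theorem exists_evVec_eq (p : ℕ) [Fact p.Prime] (v : Fin (homRank M) → ZMod p) :
    ∃ γ : Gamma0 M, ∀ j, ((parVal M j γ : ℤ) : ZMod p) = v j := by
  classical
  let e : Additive (Gamma0 M) →+ (Fin (homRank M) → ZMod p) :=
    AddMonoidHom.mk' (fun γ j => ((parVal M j γ.toMul : ℤ) : ZMod p)) fun γ δ => funext fun j => by
      simp [parVal, toMul_add, ofMul_mul, map_add]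
  let U : Submodule (ZMod p) (Fin (homRank M) → ZMod p) :=
    AddSubgroup.toZModSubmodule p e.range
  suffices hU : U = ⊤ by
    obtain ⟨γ, hγ⟩ : v ∈ e.range := by
      have : v ∈ U := hU ▸ Submodule.mem_top
      exact this
    exact ⟨γ.toMul, fun j => congrFun hγ j⟩
  by_contra hU
  obtain ⟨φ, hφ0, hφ⟩ := Submodule.exists_le_ker_of_lt_top U (lt_top_iff_ne_top.mpr hU)
  apply hφ0
  have ha : (fun j => φ (Pi.single j 1)) = 0 := eq_zero_of_parVal _ fun γ => by
    have h1 : φ (e (Additive.ofMul γ)) = 0 := hφ ⟨_, rfl⟩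
    rw [pi_eq_sum_univ' (e (Additive.ofMul γ)), map_sum] at h1
    refine (Finset.sum_congr rfl fun j _ => ?_).trans h1
    rw [map_smul, smul_eq_mul, zsmul_eq_mul]
    rfl
  exact (Pi.basisFun (ZMod p) (Fin (homRank M))).ext fun j => by simpa using congrFun ha j

/-! ## The intersection pairing -/

omit [Fintype ι] [NeZero M] in
/-- The pairing also kills elliptic and parabolic elements in its first argument. -/
theorem cycleHom_fst_eq_zero (γ δ : Gamma0 M)
    (hγ : ((γ : SL(2, ℤ)) : Matrix (Fin 2) (Fin 2) ℤ).trace ^ 2 ≤ 4) :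
    cycleHom (Gamma0 M) γ (Additive.ofMul δ) = 0 := by
  rcases trace_sq_eq_four_or_pow_twelve hγ with h4 | h12
  · obtain ⟨c, e, hc, he, hfix⟩ := exists_fixed_vec h4
    rw [cycleHom_base (Gamma0 M) γ δ c hc UpperHalfPlane.I, hfix]
    refine finsum_eq_zero_of_forall_eq_zero fun h => ?_
    have hd : det2 (rvec c) (rvec (e • c)) = 0 := by simp [det2, rvec]; ring
    rw [wind_eq_zero_of_det hd, wind_eq_zero_of_det hd, sub_self]
  · have h : (12 : ℕ) • cycleMap (Gamma0 M) (Additive.ofMul γ) = 0 := by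
      rw [← map_nsmul, ← ofMul_pow, show γ ^ 12 = 1 from Subtype.ext (by simpa using h12),
        ofMul_one, map_zero]
    have := DFunLike.congr_fun h (Additive.ofMul δ)
    simpa using this

/-- The coordinates of the cycle of `γ`. -/
def cycleCoord (hM : 2 ≤ M) (γ : Gamma0 M) : Fin (homRank M) → ℤ :=
  (parCoord M ℤ ℤ).symm ⟨cycleHom (Gamma0 M) γ, cycleHom_mem_parEll hM γ⟩

omit [Fintype ι] in
theorem cycleCoord_mul (hM : 2 ≤ M) (γ δ : Gamma0 M) :
    cycleCoord hM (γ * δ) = cycleCoord hM γ + cycleCoord hM δ := by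
  rw [cycleCoord, cycleCoord, cycleCoord, ← map_add]
  exact congrArg _ (Subtype.ext (cycleHom_mul _ γ δ))

omit [Fintype ι] in
theorem cycleCoord_eq_zero (hM : 2 ≤ M) (γ : Gamma0 M)
    (hγ : ((γ : SL(2, ℤ)) : Matrix (Fin 2) (Fin 2) ℤ).trace ^ 2 ≤ 4) : cycleCoord hM γ = 0 := by
  rw [cycleCoord, LinearEquiv.map_eq_zero_iff]
  refine Subtype.ext (AddMonoidHom.ext fun δ => ?_)
  obtain ⟨δ, rfl⟩ := Additive.ofMul.surjective δ
  exact cycleHom_fst_eq_zero γ δ hγ

/-- A coordinate of the cycle, as an element of the lattice. -/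
def cycleCoordHom (hM : 2 ≤ M) (i : Fin (homRank M)) : parEllHoms ℤ (Gamma0 M) ℤ :=
  ⟨AddMonoidHom.mk' (fun γ => cycleCoord hM γ.toMul i) fun γ δ =>
      congrFun (cycleCoord_mul hM γ.toMul δ.toMul) i,
    fun γ hγ => congrFun (cycleCoord_eq_zero hM γ hγ) i⟩

/-- The Gram matrix of the intersection pairing. -/
def gram (hM : 2 ≤ M) : Matrix (Fin (homRank M)) (Fin (homRank M)) ℤ :=
  Matrix.of fun i k => (parCoord M ℤ ℤ).symm (cycleCoordHom hM i) k

omit [Fintype ι] in
theorem cycleCoord_eq (hM : 2 ≤ M) (γ : Gamma0 M) :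
    cycleCoord hM γ = gram hM *ᵥ evVec M γ := by
  funext i
  have h := parCoord_apply M ℤ ℤ ((parCoord M ℤ ℤ).symm (cycleCoordHom hM i)) γ
  rw [LinearEquiv.apply_symm_apply] at h
  refine h.trans (Finset.sum_congr rfl fun k _ => ?_)
  rw [smul_eq_mul, mul_comm]
  rfl

omit [Fintype ι] in
theorem coe_parCoord_cycleCoord (hM : 2 ≤ M) (γ : Gamma0 M) :
    (parCoord M ℤ ℤ (gram hM *ᵥ evVec M γ) : Additive (Gamma0 M) →+ ℤ)
      = cycleHom (Gamma0 M) γ := by
  rw [← cycleCoord_eq, cycleCoord, LinearEquiv.apply_symm_apply]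

/-- Adjoint correspondences are transposed by the pairing. -/
theorem gram_adjoint {κ : Type*} [Fintype κ] (hM : 2 ≤ M) (hM' : 2 ≤ M')
    (S : CosetSys (Gamma0 M) (Gamma0 M') ι) (T : CosetSys (Gamma0 M') (Gamma0 M) κ)
    (hST : IsAdjointPair S T) : gram hM * (opMat S)ᵀ = opMat T * gram hM' := by
  refine mat_eq_of_evVec _ _ fun γ => (parCoord M ℤ ℤ).injective (Subtype.ext ?_)
  rw [← Matrix.mulVec_mulVec, ← Matrix.mulVec_mulVec, ← op_parCoord_int T, coe_parCoord_cycleCoord,
    ← cycleHom_adjoint S T hST γ]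
  have hev : (opMat S)ᵀ *ᵥ evVec M' γ = ∑ k, evVec M (S.cof γ k) := by
    funext j
    rw [Finset.sum_apply]
    show _ = ∑ k, parVal M j (S.cof γ k)
    rw [sum_parVal_cof]
    rfl
  rw [hev, Matrix.mulVec_sum, map_sum, AddSubmonoidClass.coe_finsetSum]
  exact Finset.sum_congr rfl fun k _ => coe_parCoord_cycleCoord hM _

omit [Fintype ι] in
/-- The pairing is perfect modulo an odd prime. -/
theorem gram_nondegenerate (hM : 2 ≤ M) {p : ℕ} [hp : Fact p.Prime] (hp2 : p ≠ 2) {K : Type}
    [Field K] [CharP K p] (ξ : Fin (homRank M) → K)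
    (h : (gram hM).map (Int.cast : ℤ → K) *ᵥ ξ = 0) : ξ = 0 := by
  classical
  set G := (gram hM).map (Int.cast : ℤ → ZMod p) with hG
  have hinj : Function.Injective G.mulVec := by
    intro v v' hvv'
    rw [← sub_eq_zero]
    have hv : G *ᵥ (v - v') = 0 := by rw [Matrix.mulVec_sub]; exact sub_eq_zero.mpr hvv'
    obtain ⟨γ, hγ⟩ := exists_evVec_eq (M := M) p (v - v')
    funext j
    rw [← hγ j]
    have key := cycle_nondegenerate neg_one_mem_Gamma0 hp2 γ (fun δ => ?_)
      (parCoord M ℤ (ZMod p) (Pi.single j 1) : Additive (Gamma0 M) →+ ZMod p) (Subtype.prop _)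
    · rw [parCoord_apply] at key
      simpa [Pi.single_apply, zsmul_eq_mul] using key
    · rw [← coe_parCoord_cycleCoord hM γ, parCoord_apply, Int.cast_sum]
      refine Finset.sum_eq_zero fun i _ => ?_
      have hi : ((gram hM *ᵥ evVec M γ) i : ZMod p) = 0 := by
        have := congrFun hv i
        rw [show v - v' = fun j => ((evVec M γ j : ℤ) : ZMod p) from funext fun j => (hγ j).symm]
          at this
        exact ((Int.castRingHom (ZMod p)).map_mulVec (gram hM) (evVec M γ) i).trans this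
      rw [smul_eq_mul, Int.cast_mul, hi, mul_zero]
  have hdet : G.det ≠ 0 := (Matrix.isUnit_iff_isUnit_det _).mp
    (Matrix.mulVec_injective_iff_isUnit.mp hinj) |>.ne_zero
  have hdetK : ((gram hM).map (Int.cast : ℤ → K)).det ≠ 0 := by
    have e : ∀ (R : Type) [CommRing R],
        ((gram hM).map (Int.cast : ℤ → R)).det = ((gram hM).det : R) := fun R _ =>
      (Int.cast_det (gram hM)).symm
    rw [hG, e] at hdet
    rw [e]
    intro h0
    apply hdet
    rw [ZMod.intCast_zmod_eq_zero_iff_dvd]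
    exact (CharP.intCast_eq_zero_iff K p _).mp h0
  exact Matrix.eq_zero_of_mulVec_eq_zero hdetK h

end Fermat.Agent.Ihara
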