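import Fermat.Agent.Ihara.Relations
import Fermat.Agent.Ihara.Lattice
import Fermat.Agent.GalRep.HeckeLattice

/-!
# The relations between the degeneracy maps, as integral matrices

## Main results

* `resMat`, `diaMat`, `corMat`, `trMat`, `invMat`: restriction, `f ↦ f(qτ)`, the two traces and
  the involution at `q`.
* `corMat_resMat`, `corMat_diaMat`, `trMat_resMat`, `trMat_diaMat`: the composite matrix.
* `corMat_hecke`, `trMat_hecke`, `resMat_hecke`, `diaMat_hecke`: commutation with `T_ℓ`.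
-/

set_option autoImplicit false

noncomputable section

namespace Fermat.Agent.Ihara

open Matrix CongruenceSubgroup Fermat.Agent.Cosets
open Fermat.Agent.GalRep (heckeMat heckeHomAt_parCoord latticeMat_heckeOp)
open scoped MatrixGroups

theorem heckeMat_comm (M : ℕ) [NeZero M] (a b : Nat.Primes) :
    heckeMat M a * heckeMat M b = heckeMat M b * heckeMat M a := by
  rw [← latticeMat_heckeOp, ← latticeMat_heckeOp, ← map_mul, mul_comm, map_mul]

theorem opMat_heckeSys (M : ℕ) [NeZero M] (ℓ : Nat.Primes) (h : ¬(ℓ : ℕ) ∣ M) :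
    haveI : Fact (ℓ : ℕ).Prime := ⟨ℓ.2⟩
    opMat (heckeSys M ℓ h) = heckeMat M ℓ := by
  have : Fact (ℓ : ℕ).Prime := ⟨ℓ.2⟩
  refine mat_eq_of_parCoord _ _ fun a => ?_
  rw [← op_parCoord_int, heckeSys_op_eq]
  have h2 := heckeHomAt_parCoord M ℤ ℤ ℓ a
  rw [GalRep.heckeHomAt_of_not_dvd M ℤ ℤ ℓ h] at h2
  exact h2

variable (N q : ℕ) [NeZero N] [hq : Fact q.Prime] (hqN : ¬q ∣ N)

instance neZero_mul_prime : NeZero (N * q) := ⟨mul_ne_zero (NeZero.ne N) hq.out.ne_zero⟩

/-- The prime `q`, as an element of `Nat.Primes`. -/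
def qPrime : Nat.Primes := ⟨q, hq.out⟩

/-- Restriction on the lattices. -/
def resMat : Matrix (Fin (homRank (N * q))) (Fin (homRank N)) ℤ := opMat (resSys N q)

/-- `f ↦ f(qτ)` on the lattices. -/
def diaMat : Matrix (Fin (homRank (N * q))) (Fin (homRank N)) ℤ := opMat (diagSys N q)

/-- Corestriction on the lattices. -/
def corMat : Matrix (Fin (homRank N)) (Fin (homRank (N * q))) ℤ := opMat (corSys N q hqN)

/-- The second trace on the lattices. -/
def trMat : Matrix (Fin (homRank N)) (Fin (homRank (N * q))) ℤ := opMat (traceSys N q hqN)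

/-- The Atkin–Lehner involution on the lattice of level `N q`. -/
def invMat : Matrix (Fin (homRank (N * q))) (Fin (homRank (N * q))) ℤ := opMat (wSys N q hqN)

theorem opMat_uSys : opMat (uSys N q) = heckeMat (N * q) (qPrime q) := by
  refine mat_eq_of_parCoord _ _ fun a => ?_
  rw [← op_parCoord_int, uSys_op_eq]
  have h2 := heckeHomAt_parCoord (N * q) ℤ ℤ (qPrime q) a
  rw [GalRep.heckeHomAt_of_dvd (N * q) ℤ ℤ (qPrime q) (dvd_mul_left q N)] at h2
  exact h2

include hqN

theorem invMat_resMat : invMat N q hqN * resMat N q = diaMat N q := by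
  refine mat_eq_of_parCoord _ _ fun a => ?_
  rw [invMat, resMat, diaMat, ← Matrix.mulVec_mulVec, ← op_parCoord_int, ← op_parCoord_int,
    ← op_parCoord_int, wSys_resSys]

theorem invMat_invMat : invMat N q hqN * invMat N q hqN = 1 := by
  refine mat_eq_of_parCoord _ _ fun a => ?_
  rw [invMat, ← Matrix.mulVec_mulVec, ← op_parCoord_int, ← op_parCoord_int, wSys_wSys,
    Matrix.one_mulVec]

theorem corMat_invMat : corMat N q hqN * invMat N q hqN = trMat N q hqN := by
  refine mat_eq_of_parCoord _ _ fun a => ?_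
  rw [invMat, corMat, trMat, ← Matrix.mulVec_mulVec, ← op_parCoord_int, ← op_parCoord_int,
    ← op_parCoord_int, traceSys_op]

theorem trMat_invMat : trMat N q hqN * invMat N q hqN = corMat N q hqN := by
  rw [← corMat_invMat, Matrix.mul_assoc, invMat_invMat, Matrix.mul_one]

theorem corMat_resMat : corMat N q hqN * resMat N q = (q + 1 : ℤ) • 1 := by
  refine mat_eq_of_parCoord _ _ fun a => ?_
  rw [corMat, resMat, ← Matrix.mulVec_mulVec, ← op_parCoord_int, ← op_parCoord_int,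
    corSys_resSys, Matrix.smul_mulVec, Matrix.one_mulVec, map_smul, Submodule.coe_smul]
  rw [← natCast_zsmul]
  push_cast
  rfl

theorem corMat_diaMat : corMat N q hqN * diaMat N q = heckeMat N (qPrime q) := by
  have : Fact ((qPrime q : Nat.Primes) : ℕ).Prime := hq
  have : NeZero ((qPrime q : Nat.Primes) : ℕ) := ⟨hq.out.ne_zero⟩
  rw [← opMat_heckeSys N (qPrime q) hqN]
  refine mat_eq_of_parCoord _ _ fun a => ?_
  rw [corMat, diaMat, ← Matrix.mulVec_mulVec, ← op_parCoord_int, ← op_parCoord_int,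
    ← op_parCoord_int, corSys_diagSys]
  rfl

theorem trMat_resMat : trMat N q hqN * resMat N q = heckeMat N (qPrime q) := by
  rw [← corMat_invMat, Matrix.mul_assoc, invMat_resMat, corMat_diaMat]

theorem trMat_diaMat : trMat N q hqN * diaMat N q = (q + 1 : ℤ) • 1 := by
  rw [← invMat_resMat N q hqN, ← Matrix.mul_assoc, trMat_invMat, corMat_resMat]

/-- Restriction after corestriction. -/
theorem resMat_corMat :
    resMat N q * corMat N q hqN = 1 + heckeMat (N * q) (qPrime q) * invMat N q hqN := by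
  rw [← opMat_uSys]
  refine mat_eq_of_parCoord _ _ fun a => ?_
  rw [resMat, corMat, invMat, ← Matrix.mulVec_mulVec, ← op_parCoord_int, ← op_parCoord_int,
    resSys_corSys, Matrix.add_mulVec, Matrix.one_mulVec, map_add, Submodule.coe_add,
    ← Matrix.mulVec_mulVec, ← op_parCoord_int, ← op_parCoord_int]

omit hqN in
theorem resMat_hecke (ℓ : Nat.Primes) (h : ¬(ℓ : ℕ) ∣ N * q) :
    resMat N q * heckeMat N ℓ = heckeMat (N * q) ℓ * resMat N q := by
  have : Fact (ℓ : ℕ).Prime := ⟨ℓ.2⟩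
  have hN : ¬(ℓ : ℕ) ∣ N := fun h' => h (dvd_mul_of_dvd_left h' q)
  rw [← opMat_heckeSys N ℓ hN, ← opMat_heckeSys (N * q) ℓ h]
  refine mat_eq_of_parCoord _ _ fun a => ?_
  rw [resMat, ← Matrix.mulVec_mulVec, ← Matrix.mulVec_mulVec, ← op_parCoord_int,
    ← op_parCoord_int, ← op_parCoord_int, ← op_parCoord_int, resSys_heckeSys]

theorem invMat_hecke (ℓ : Nat.Primes) (h : ¬(ℓ : ℕ) ∣ N * q) :
    invMat N q hqN * heckeMat (N * q) ℓ = heckeMat (N * q) ℓ * invMat N q hqN := by
  have : Fact (ℓ : ℕ).Prime := ⟨ℓ.2⟩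
  rw [← opMat_heckeSys (N * q) ℓ h]
  refine mat_eq_of_parCoord _ _ fun a => ?_
  rw [invMat, ← Matrix.mulVec_mulVec, ← Matrix.mulVec_mulVec, ← op_parCoord_int,
    ← op_parCoord_int, ← op_parCoord_int, ← op_parCoord_int, wSys_heckeSys]

theorem diaMat_hecke (ℓ : Nat.Primes) (h : ¬(ℓ : ℕ) ∣ N * q) :
    diaMat N q * heckeMat N ℓ = heckeMat (N * q) ℓ * diaMat N q := by
  rw [← invMat_resMat N q hqN, Matrix.mul_assoc, resMat_hecke N q ℓ h, ← Matrix.mul_assoc,
    invMat_hecke N q hqN ℓ h, Matrix.mul_assoc]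

omit hq hqN in
theorem gram_det_ne_zero {M : ℕ} [NeZero M] (hM : 2 ≤ M) : (gram hM).det ≠ 0 := by
  intro h0
  have : Fact (Nat.Prime 3) := ⟨Nat.prime_three⟩
  obtain ⟨v, hv, hGv⟩ := Matrix.exists_mulVec_eq_zero_iff.mpr
    (show ((gram hM).map (Int.cast : ℤ → ZMod 3)).det = 0 by
      rw [show ((gram hM).map (Int.cast : ℤ → ZMod 3)).det = ((gram hM).det : ZMod 3) from
        (Int.cast_det (gram hM)).symm, h0, Int.cast_zero])
  exact hv (gram_nondegenerate hM (p := 3) (by norm_num) v hGv)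

omit hq hqN in
theorem gram_cancel {M : ℕ} [NeZero M] (hM : 2 ≤ M) {n : Type*}
    {X Y : Matrix (Fin (homRank M)) n ℤ} (h : gram hM * X = gram hM * Y) : X = Y := by
  have h2 := congrArg (fun Z => (gram hM).adjugate * Z) h
  simp only [← Matrix.mul_assoc, Matrix.adjugate_mul, Matrix.smul_mul, Matrix.one_mul] at h2
  exact Matrix.ext fun i j => mul_left_cancel₀ (gram_det_ne_zero hM)
    (by simpa using congrFun (congrFun h2 i) j)

omit hqN [NeZero N] in
theorem two_le_mul (hN : 2 ≤ N) : 2 ≤ N * q := le_trans hN (Nat.le_mul_of_pos_right N hq.out.pos)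

theorem gram_cor (hN : 2 ≤ N) :
    gram (two_le_mul N q hN) * (corMat N q hqN)ᵀ = resMat N q * gram hN :=
  gram_adjoint _ _ _ _ (res_cor_adjoint N q hqN)

theorem gram_tr (hN : 2 ≤ N) :
    gram (two_le_mul N q hN) * (trMat N q hqN)ᵀ = diaMat N q * gram hN :=
  gram_adjoint _ _ _ _ (diag_trace_adjoint N q hqN)

omit hq hqN in
theorem gram_hecke {M : ℕ} [NeZero M] (hM : 2 ≤ M) (ℓ : Nat.Primes) (h : ¬(ℓ : ℕ) ∣ M) :
    gram hM * (heckeMat M ℓ)ᵀ = heckeMat M ℓ * gram hM := by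
  have : Fact (ℓ : ℕ).Prime := ⟨ℓ.2⟩
  rw [← opMat_heckeSys M ℓ h]
  exact gram_adjoint _ _ _ _ (heckeSys_adjoint M ℓ h)

/-- Corestriction commutes with `T_ℓ`. -/
theorem corMat_hecke (hN : 2 ≤ N) (ℓ : Nat.Primes) (h : ¬(ℓ : ℕ) ∣ N * q) :
    corMat N q hqN * heckeMat (N * q) ℓ = heckeMat N ℓ * corMat N q hqN := by
  have hℓN : ¬(ℓ : ℕ) ∣ N := fun h' => h (dvd_mul_of_dvd_left h' q)
  apply Matrix.transpose_injective
  refine gram_cancel (two_le_mul N q hN) ?_
  rw [Matrix.transpose_mul, Matrix.transpose_mul, ← Matrix.mul_assoc, gram_hecke _ ℓ h,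
    Matrix.mul_assoc, gram_cor N q hqN hN, ← Matrix.mul_assoc, ← Matrix.mul_assoc,
    gram_cor N q hqN hN, Matrix.mul_assoc (resMat N q), gram_hecke hN ℓ hℓN,
    ← Matrix.mul_assoc, resMat_hecke N q ℓ h]

/-- The second trace commutes with `T_ℓ`. -/
theorem trMat_hecke (hN : 2 ≤ N) (ℓ : Nat.Primes) (h : ¬(ℓ : ℕ) ∣ N * q) :
    trMat N q hqN * heckeMat (N * q) ℓ = heckeMat N ℓ * trMat N q hqN := by
  rw [← corMat_invMat, Matrix.mul_assoc, invMat_hecke N q hqN ℓ h, ← Matrix.mul_assoc,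
    corMat_hecke N q hqN hN ℓ h, Matrix.mul_assoc]

end Fermat.Agent.Ihara
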