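import Fermat.Agent.Ihara.Eigen
import Fermat.Agent.Ihara.LevelMatrices
import Fermat.Agent.Ihara.DegeneracyInjective
import Fermat.Agent.Elem.CuspWeightTwo
import Fermat.Prelude.Def_FreyPackage_LevelRaising

/-!
# Ribet's level raising in weight two

## Main results

* `exists_congruent_newAt`: a normalised eigenform of level `N`, residually non-Eisenstein and
  with `a_q ^ 2 ≡ (q + 1) ^ 2` modulo a prime above an odd `p`, is congruent to an eigenform of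
  level `N q` which is new at `q`.
-/

set_option autoImplicit false

noncomputable section

namespace Fermat.Agent.Ihara

open Matrix CongruenceSubgroup Fermat.Agent.Cosets ModularFormClass
open Fermat.Agent.GalRep (heckeMat periodEquiv periodEquiv_heckeOp)
open scoped MatrixGroups

/-- A common eigenvector of the image of a ring gives a character. -/
theorem exists_eigenHom_end {T k V : Type*} [CommRing T] [Field k] [AddCommGroup V] [Module k V]
    (φ : T →+* Module.End k V) (v : V) (hv : v ≠ 0) (hex : ∀ t, ∃ c : k, φ t v = c • v) :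
    ∃ χ : T →+* k, ∀ t, φ t v = χ t • v := by
  choose c hc using hex
  have inj : Function.Injective fun a : k => a • v := smul_left_injective k hv
  refine ⟨{ toFun := c, map_one' := ?_, map_mul' := ?_, map_zero' := ?_, map_add' := ?_ }, hc⟩
  · exact inj (by simp only [← hc, map_one, Module.End.one_apply, one_smul])
  · intro s t
    refine inj ?_
    simp only [← hc, map_mul, Module.End.mul_apply]
    rw [hc t, map_smul, hc s, smul_smul, mul_comm]
  · exact inj (by simp only [← hc, map_zero, LinearMap.zero_apply, zero_smul])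
  · intro s t
    refine inj ?_
    simp only [← hc, map_add, LinearMap.add_apply, add_smul]

section Residual

variable (N q : ℕ) [NeZero N] [hq : Fact q.Prime] (hqN : ¬q ∣ N) {K : Type} [Field K]
  {p : ℕ} [CharP K p]

/-- The kernel of `(res, diag)` has no non-zero vector with non-Eisenstein eigenvalue. -/
theorem eisenstein_vanish (hqN : ¬q ∣ N) (hp : p.Prime) (hp2 : p ≠ 2) (ℓ : Nat.Primes)
    (hℓ1 : ((ℓ : ℕ) : ZMod (N * q)) = 1) (hℓN : ¬(ℓ : ℕ) ∣ N) (a : K)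
    (ha : a ≠ ((ℓ : ℕ) : K) + 1) (v₁ v₂ : Fin (homRank N) → K)
    (h₁ : (heckeMat N ℓ).map (Int.cast : ℤ → K) *ᵥ v₁ = a • v₁)
    (h₂ : (heckeMat N ℓ).map (Int.cast : ℤ → K) *ᵥ v₂ = a • v₂)
    (h : (resMat N q).map (Int.cast : ℤ → K) *ᵥ v₁
      + (diaMat N q).map (Int.cast : ℤ → K) *ᵥ v₂ = 0) : v₁ = 0 ∧ v₂ = 0 := by
  have : Fact (ℓ : ℕ).Prime := ⟨ℓ.2⟩
  have hH : (resSys N q).op ℤ K (parCoord N ℤ K v₁ : Additive (Gamma0 N) →+ K)
      + (diagSys N q).op ℤ K (parCoord N ℤ K v₂ : Additive (Gamma0 N) →+ K) = 0 := by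
    rw [op_parCoord_mulVec, op_parCoord_mulVec, ← Submodule.coe_add, ← map_add, ← resMat,
      ← diaMat, h, map_zero, Submodule.coe_zero]
  obtain ⟨k₁, k₂⟩ := degeneracy_kernel N q hqN hp hp2
    (fun x : K => by rw [nsmul_eq_mul, CharP.cast_eq_zero, zero_mul]) (parCoord N ℤ K v₁).2
    (parCoord N ℤ K v₂).2 hH hℓN hℓ1
  suffices H : ∀ v : Fin (homRank N) → K, (heckeMat N ℓ).map (Int.cast : ℤ → K) *ᵥ v = a • v →
      ((heckeSys N ℓ hℓN).op ℤ K ((heckeSys N ℓ hℓN).op ℤ K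
          (parCoord N ℤ K v : Additive (Gamma0 N) →+ K)
          - ((ℓ : ℕ) + 1) • (parCoord N ℤ K v : Additive (Gamma0 N) →+ K))
        = ((ℓ : ℕ) + 1) • ((heckeSys N ℓ hℓN).op ℤ K (parCoord N ℤ K v : Additive (Gamma0 N) →+ K)
          - ((ℓ : ℕ) + 1) • (parCoord N ℤ K v : Additive (Gamma0 N) →+ K))) → v = 0 from
    ⟨H v₁ h₁ k₁, H v₂ h₂ k₂⟩
  intro v hv hk
  set M := (heckeMat N ℓ).map (Int.cast : ℤ → K)
  set n : ℕ := (ℓ : ℕ) + 1
  have hT : ∀ u : Fin (homRank N) → K,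
      (heckeSys N ℓ hℓN).op ℤ K (parCoord N ℤ K u : Additive (Gamma0 N) →+ K)
        = (parCoord N ℤ K (M *ᵥ u) : Additive (Gamma0 N) →+ K) := by
    intro u
    rw [op_parCoord_mulVec, opMat_heckeSys]
  rw [hT, ← Submodule.coe_smul_of_tower, ← Submodule.coe_sub, ← map_nsmul, ← map_sub, hT,
    ← Submodule.coe_smul_of_tower, ← map_nsmul] at hk
  have h3 : M *ᵥ (M *ᵥ v - n • v) = n • (M *ᵥ v - n • v) :=
    (parCoord N ℤ K).injective (Subtype.ext hk)
  rw [hv, Matrix.mulVec_sub, Matrix.mulVec_smul, Matrix.mulVec_smul, hv] at h3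
  have h4 : ((a - (n : K)) * (a - (n : K))) • v = 0 := by
    funext i
    have := congrFun h3 i
    simp only [Pi.sub_apply, Pi.smul_apply, smul_eq_mul, nsmul_eq_mul, Pi.mul_apply,
      Pi.natCast_apply] at this
    simp only [Pi.smul_apply, smul_eq_mul, Pi.zero_apply]
    linear_combination this
  have hn : (n : K) = ((ℓ : ℕ) : K) + 1 := by simp [n]
  refine (smul_eq_zero.mp h4).resolve_left (mul_self_eq_zero.not.mpr ?_)
  rw [hn]
  exact sub_ne_zero.mpr ha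

end Residual

/-- **Level raising.** -/
theorem exists_congruent_newAt {N q p : ℕ} [NeZero N] (hq : q.Prime) (hqN : ¬q ∣ N) (hp : p.Prime)
    (hp2 : p ≠ 2) (f : CuspForm (Gamma0 N) 2) (hf : f.IsNormalizedEigenform)
    (𝔪 : Ideal (integralClosure ℤ ℂ)) (hmax : 𝔪.IsMaximal) (hpm : (p : integralClosure ℤ ℂ) ∈ 𝔪)
    (P : ℕ → Prop) (ap : ℕ → ℤ)
    (hcong : ∀ ℓ : ℕ, ℓ.Prime → P ℓ → ¬ℓ ∣ N → ∃ a : integralClosure ℤ ℂ,
      (a : ℂ) = qCoeff f ℓ ∧ a - (ap ℓ : integralClosure ℤ ℂ) ∈ 𝔪)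
    (hLR : ∃ a : integralClosure ℤ ℂ, (a : ℂ) = qCoeff f q ∧
      a ^ 2 - ((q : integralClosure ℤ ℂ) + 1) ^ 2 ∈ 𝔪)
    (hNE : ∃ ℓ : ℕ, ℓ.Prime ∧ P ℓ ∧ ¬ℓ ∣ N * q ∧ (ℓ : ZMod (N * q)) = 1 ∧
      ¬(p : ℤ) ∣ ap ℓ - ((ℓ : ℤ) + 1)) :
    ∃ (g : CuspForm (Gamma0 (N * q)) 2) (𝔪' : Ideal (integralClosure ℤ ℂ)),
      g.IsNormalizedEigenform ∧ 𝔪'.IsMaximal ∧ (p : integralClosure ℤ ℂ) ∈ 𝔪' ∧
      (∀ ℓ : ℕ, ℓ.Prime → P ℓ → ¬ℓ ∣ N * q → ∃ a : integralClosure ℤ ℂ,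
        (a : ℂ) = qCoeff g ℓ ∧ a - (ap ℓ : integralClosure ℤ ℂ) ∈ 𝔪') ∧
      g.IsNewAt q := by
  classical
  have : Fact q.Prime := ⟨hq⟩
  have : Fact p.Prime := ⟨hp⟩
  have hN2 : 2 ≤ N := by
    rcases Nat.lt_or_ge N 2 with h | h
    · obtain rfl : N = 1 := by have := NeZero.ne N; omega
      have hf0 := Elem.cuspForm_two_eq_zero_of_index_lt 1
        (by rw [Elem.index_Gamma0_one]; norm_num) f
      have h1 := hf.qCoeff_one
      rw [hf0] at h1
      simp at h1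
    · exact h
  have hint : ∀ ℓ : Nat.Primes,
      IsIntegral ℤ (Hecke.eigenCharacter hf ∅ (GalRep.heckeOp N ℓ)) := fun ℓ =>
    Hecke.isIntegral_of_hasIntegralStructure (by norm_num)
      (MFCore.hasIntegralStructure N 2) _ _
  set aC : Nat.Primes → integralClosure ℤ ℂ := fun ℓ => ⟨_, hint ℓ⟩ with haC
  have haC' : ∀ ℓ : Nat.Primes, (aC ℓ : ℂ) = qCoeff f (ℓ : ℕ) := by
    intro ℓ
    show Hecke.eigenCharacter hf ∅ (GalRep.heckeOp N ℓ) = _
    by_cases h : (ℓ : ℕ) ∣ N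
    · rw [GalRep.heckeOp, dif_pos h]; exact Hecke.eigenCharacter_U hf ℓ.2 h (Set.notMem_empty _)
    · rw [GalRep.heckeOp, dif_neg h]; exact Hecke.eigenCharacter_T hf ℓ.2 h (Set.notMem_empty _)
  -- an eigenvector on the lattice of level `N`
  obtain ⟨⟨w₀, hw₀⟩, hw₀ne⟩ := Module.finrank_pos_iff_exists_ne_zero.mp
    (GalRep.heckeMat_eigen_pos N (Hecke.eigenCharacter hf ∅))
  obtain ⟨K, _, π, hπ, v, hv0, hv⟩ := exists_residue_eigenvector (heckeMat N) aC w₀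
    (fun h => hw₀ne (Subtype.ext h)) ((GalRep.mem_eigenspace _ _ _).mp hw₀) 𝔪 hmax.ne_top
  have : CharP K p := (CharP.charP_iff_prime_eq_zero hp).mpr (by
    rw [← map_natCast π]; exact hπ _ hpm)
  have hπap : ∀ ℓ : Nat.Primes, P ℓ → ¬(ℓ : ℕ) ∣ N → π (aC ℓ) = (ap ℓ : K) := by
    intro ℓ hP hℓN
    obtain ⟨a, ha, ham⟩ := hcong ℓ ℓ.2 hP hℓN
    have he : a = aC ℓ := Subtype.ext (ha.trans (haC' ℓ).symm)
    have := hπ _ ham
    rw [he, map_sub, map_intCast, sub_eq_zero] at this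
    exact this
  set qP : Nat.Primes := qPrime q
  obtain ⟨e, he2, heq⟩ : ∃ e : K, e * e = 1 ∧ π (aC qP) = e * ((q : K) + 1) := by
    obtain ⟨a, ha, ham⟩ := hLR
    have he : a = aC qP := Subtype.ext (ha.trans (haC' qP).symm)
    have := hπ _ ham
    rw [he, map_sub, map_pow, map_pow, map_add, map_natCast, map_one, sub_eq_zero] at this
    rcases sq_eq_sq_iff_eq_or_eq_neg.mp this with h | h
    · exact ⟨1, one_mul 1, by rw [h, one_mul]⟩
    · exact ⟨-1, by ring, by rw [h]; ring⟩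
  -- matrices over `K`
  set R := (resMat N q).map (Int.cast : ℤ → K) with hR
  set D := (diaMat N q).map (Int.cast : ℤ → K) with hD
  set C := (corMat N q hqN).map (Int.cast : ℤ → K) with hC
  set Tr := (trMat N q hqN).map (Int.cast : ℤ → K) with hTr
  let c : ∀ {a b : ℕ}, Matrix (Fin a) (Fin b) ℤ → Matrix (Fin a) (Fin b) K :=
    fun X => X.map (Int.cast : ℤ → K)
  have hmul : ∀ {a b d : ℕ} (X : Matrix (Fin a) (Fin b) ℤ) (Y : Matrix (Fin b) (Fin d) ℤ),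
      c (X * Y) = c X * c Y := fun X Y => Matrix.map_mul (f := Int.castRingHom K)
  have hsc : ∀ u : Fin (homRank N) → K,
      c ((q + 1 : ℤ) • (1 : Matrix (Fin (homRank N)) (Fin (homRank N)) ℤ)) *ᵥ u
        = ((q : K) + 1) • u := by
    intro u
    show Matrix.map _ _ *ᵥ u = _
    rw [Matrix.map_smulₛₗ (Int.cast : ℤ → K) (Int.cast : ℤ → K) _ (fun a => by simp) _,
      Matrix.map_one _ (by simp) (by simp), Matrix.smul_mulVec, Matrix.one_mulVec]
    push_cast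
    rfl
  have hCR : ∀ u, C *ᵥ (R *ᵥ u) = ((q : K) + 1) • u := fun u => by
    rw [Matrix.mulVec_mulVec, hC, hR, ← hsc u, ← corMat_resMat N q hqN, hmul]
  have hCD : ∀ u, C *ᵥ (D *ᵥ u) = (heckeMat N qP).map (Int.cast : ℤ → K) *ᵥ u := fun u => by
    rw [Matrix.mulVec_mulVec, hC, hD, ← corMat_diaMat N q hqN]
    exact congrArg (· *ᵥ u) (hmul _ _).symm
  have hTrR : ∀ u, Tr *ᵥ (R *ᵥ u) = (heckeMat N qP).map (Int.cast : ℤ → K) *ᵥ u := fun u => by
    rw [Matrix.mulVec_mulVec, hTr, hR, ← trMat_resMat N q hqN]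
    exact congrArg (· *ᵥ u) (hmul _ _).symm
  have hTrD : ∀ u, Tr *ᵥ (D *ᵥ u) = ((q : K) + 1) • u := fun u => by
    rw [Matrix.mulVec_mulVec, hTr, hD, ← hsc u, ← trMat_diaMat N q hqN, hmul]
  obtain ⟨ℓ₀, hℓ₀, hPℓ₀, hℓ₀Nq, hℓ₀1, hℓ₀ap⟩ := hNE
  set L₀ : Nat.Primes := ⟨ℓ₀, hℓ₀⟩
  have hℓ₀N : ¬ℓ₀ ∣ N := fun h => hℓ₀Nq (dvd_mul_of_dvd_left h q)
  have hne : π (aC L₀) ≠ ((ℓ₀ : ℕ) : K) + 1 := by
    rw [hπap L₀ hPℓ₀ hℓ₀N]
    intro h
    apply hℓ₀ap
    rw [← CharP.intCast_eq_zero_iff K p, Int.cast_sub, Int.cast_add, Int.cast_natCast,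
      Int.cast_one, h, sub_self]
  set w : Fin (homRank (N * q)) → K := R *ᵥ v + D *ᵥ ((-e) • v) with hw
  have hw0 : w ≠ 0 := by
    intro h0
    refine hv0 (eisenstein_vanish N q hqN hp hp2 L₀ hℓ₀1 hℓ₀N _ hne v ((-e) • v) (hv L₀) ?_
      h0).1
    rw [Matrix.mulVec_smul, hv L₀, smul_comm]
  -- the data for lifting
  set good := {ℓ : Nat.Primes // ¬(ℓ : ℕ) ∣ N * q}
  have hgoodN : ∀ i : good, ¬(i.1 : ℕ) ∣ N := fun i h => i.2 (dvd_mul_of_dvd_left h q)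
  set B : Matrix (Fin (homRank N) ⊕ Fin (homRank N)) (Fin (homRank (N * q))) ℤ :=
    Matrix.fromRows (corMat N q hqN) (trMat N q hqN) with hB
  have hBmap : ∀ (S : Type) [CommRing S] (u : Fin (homRank (N * q)) → S),
      B.map (Int.cast : ℤ → S) *ᵥ u = Sum.elim ((corMat N q hqN).map (Int.cast : ℤ → S) *ᵥ u)
        ((trMat N q hqN).map (Int.cast : ℤ → S) *ᵥ u) := by
    intro S _ u
    rw [hB, Matrix.fromRows_map, Matrix.fromRows_mulVec]
  have hBw : B.map (Int.cast : ℤ → K) *ᵥ w = 0 := by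
    rw [hBmap K, ← hC, ← hTr, hw, Matrix.mulVec_add, Matrix.mulVec_add, hCR, hTrR, hCD, hTrD,
      Matrix.mulVec_smul, hv qP, heq]
    ext (i | i) <;> simp only [Sum.elim_inl, Sum.elim_inr, Pi.add_apply, Pi.smul_apply,
      smul_eq_mul, Pi.zero_apply]
    · linear_combination -(((q : K) + 1) * v i) * he2
    · ring
  have hAw : ∀ i : good, (heckeMat (N * q) i.1).map (Int.cast : ℤ → K) *ᵥ w = π (aC i.1) • w := by
    intro i
    have k1 : c (heckeMat (N * q) i.1) * R = R * c (heckeMat N i.1) := by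
      rw [hR, ← hmul, ← resMat_hecke N q i.1 i.2, hmul]
    have k2 : c (heckeMat (N * q) i.1) * D = D * c (heckeMat N i.1) := by
      rw [hD, ← hmul, ← diaMat_hecke N q hqN i.1 i.2, hmul]
    show c (heckeMat (N * q) i.1) *ᵥ w = _
    rw [hw, Matrix.mulVec_add, Matrix.mulVec_mulVec, Matrix.mulVec_mulVec, k1, k2,
      ← Matrix.mulVec_mulVec, ← Matrix.mulVec_mulVec, Matrix.mulVec_smul (c (heckeMat N i.1)),
      show c (heckeMat N i.1) *ᵥ v = π (aC i.1) • v from hv i.1]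
    simp only [Matrix.mulVec_smul, smul_add, smul_comm (-e)]
  set A' : good → Matrix (Fin (homRank N) ⊕ Fin (homRank N))
      (Fin (homRank N) ⊕ Fin (homRank N)) ℤ :=
    fun i => Matrix.fromBlocks (heckeMat N i.1) 0 0 (heckeMat N i.1) with hA'
  have hdual : ∀ ξ : Fin (homRank N) ⊕ Fin (homRank N) → K,
      (∀ i : good, ((A' i).map (Int.cast : ℤ → K))ᵀ *ᵥ ξ = π (aC i.1) • ξ) →
        (B.map (Int.cast : ℤ → K))ᵀ *ᵥ ξ = 0 → ξ = 0 := by
    intro ξ hξ hBξ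
    set ξ₁ := ξ ∘ Sum.inl
    set ξ₂ := ξ ∘ Sum.inr
    have hL := hξ ⟨L₀, hℓ₀Nq⟩
    rw [hA', Matrix.fromBlocks_map, Matrix.fromBlocks_transpose, Matrix.fromBlocks_mulVec] at hL
    simp only [Matrix.map_zero _ (Int.cast_zero (R := K)), Matrix.transpose_zero,
      Matrix.zero_mulVec, add_zero, zero_add] at hL
    rw [hB, Matrix.fromRows_map, Matrix.transpose_fromRows, Matrix.fromCols_mulVec] at hBξ
    set G := (gram hN2).map (Int.cast : ℤ → K)
    set G' := (gram (two_le_mul N q hN2)).map (Int.cast : ℤ → K)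
    have hG : ∀ (u : Fin (homRank N) → K),
        (c (heckeMat N L₀))ᵀ *ᵥ u = π (aC L₀) • u →
          c (heckeMat N L₀) *ᵥ (G *ᵥ u) = π (aC L₀) • (G *ᵥ u) := by
      intro u hu
      rw [Matrix.mulVec_mulVec, show c (heckeMat N L₀) * G = G * (c (heckeMat N L₀))ᵀ by
        rw [← Matrix.transpose_map]; exact (hmul _ _).symm.trans
          ((congrArg c (gram_hecke hN2 L₀ hℓ₀N).symm).trans (hmul _ _)), ← Matrix.mulVec_mulVec,
        hu, Matrix.mulVec_smul]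
    have hker : R *ᵥ (G *ᵥ ξ₁) + D *ᵥ (G *ᵥ ξ₂) = 0 := by
      have k1 : R * G = G' * Cᵀ := by
        rw [hR, hC, ← Matrix.transpose_map]
        exact (hmul _ _).symm.trans ((congrArg c (gram_cor N q hqN hN2).symm).trans (hmul _ _))
      have k2 : D * G = G' * Trᵀ := by
        rw [hD, hTr, ← Matrix.transpose_map]
        exact (hmul _ _).symm.trans ((congrArg c (gram_tr N q hqN hN2).symm).trans (hmul _ _))
      rw [Matrix.mulVec_mulVec, Matrix.mulVec_mulVec, k1, k2, ← Matrix.mulVec_mulVec,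
        ← Matrix.mulVec_mulVec, ← Matrix.mulVec_add]
      exact (congrArg _ hBξ).trans (Matrix.mulVec_zero _)
    obtain ⟨e1, e2⟩ := eisenstein_vanish N q hqN hp hp2 L₀ hℓ₀1 hℓ₀N _ hne _ _
      (hG ξ₁ (funext fun j => by simpa [c, ξ₁, Function.comp_def] using congrFun hL (Sum.inl j)))
      (hG ξ₂ (funext fun j => by simpa [c, ξ₂, Function.comp_def] using congrFun hL (Sum.inr j)))
        hker
    have z1 := gram_nondegenerate hN2 hp2 ξ₁ e1
    have z2 := gram_nondegenerate hN2 hp2 ξ₂ e2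
    funext j
    rcases j with j | j
    · exact congrFun z1 j
    · exact congrFun z2 j
  obtain ⟨x, cW, b, 𝔪', hx0, hBx, hWx, hTx, h𝔪', hp𝔪', hb⟩ :=
    exists_lift_eigenvector hp (fun i : good => heckeMat (N * q) i.1) A' B (invMat N q hqN)
      (Matrix.fromBlocks 0 1 1 0)
      (fun i j => heckeMat_comm (N * q) i.1 j.1)
      (fun i j => by
        simp only [hA', Matrix.fromBlocks_multiply, Matrix.mul_zero, Matrix.zero_mul, add_zero,
          zero_add, heckeMat_comm N i.1 j.1])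
      (fun i => by
        simp only [hA', hB, Matrix.fromRows_mul, Matrix.fromBlocks_mul_fromRows, Matrix.zero_mul,
          add_zero, zero_add, corMat_hecke N q hqN hN2 i.1 i.2, trMat_hecke N q hqN hN2 i.1 i.2])
      (fun i => invMat_hecke N q hqN i.1 i.2)
      (by
        simp only [hB, Matrix.fromRows_mul, Matrix.fromBlocks_mul_fromRows, Matrix.zero_mul,
          Matrix.one_mul, add_zero, zero_add, corMat_invMat, trMat_invMat])
      (fun i => π (aC i.1)) w hw0 hBw hAw hdual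
  -- `U_q = -W` on the kernel
  let cc : ∀ {a b : ℕ}, Matrix (Fin a) (Fin b) ℤ → Matrix (Fin a) (Fin b) ℂ :=
    fun X => X.map (Int.cast : ℤ → ℂ)
  have hmulC : ∀ {a b d : ℕ} (X : Matrix (Fin a) (Fin b) ℤ) (Y : Matrix (Fin b) (Fin d) ℤ),
      cc (X * Y) = cc X * cc Y := fun X Y => Matrix.map_mul (f := Int.castRingHom ℂ)
  have hcW : cW * cW = 1 := by
    have h1 : cc (invMat N q hqN) *ᵥ (cc (invMat N q hqN) *ᵥ x) = x := by
      rw [Matrix.mulVec_mulVec, ← hmulC, invMat_invMat]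
      show Matrix.map _ _ *ᵥ x = x
      rw [Matrix.map_one _ Int.cast_zero Int.cast_one, Matrix.one_mulVec]
    rw [show cc (invMat N q hqN) *ᵥ x = cW • x from hWx, Matrix.mulVec_smul,
      show cc (invMat N q hqN) *ᵥ x = cW • x from hWx, smul_smul] at h1
    exact smul_left_injective ℂ hx0 (h1.trans (one_smul ℂ x).symm)
  have hUx : cc (heckeMat (N * q) qP) *ᵥ x = (-cW) • x := by
    rw [hBmap ℂ] at hBx
    have hCx : cc (corMat N q hqN) *ᵥ x = 0 := funext fun j => congrFun hBx (Sum.inl j)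
    have h1 : cc (resMat N q * corMat N q hqN) *ᵥ x = 0 := by
      rw [hmulC, ← Matrix.mulVec_mulVec, hCx, Matrix.mulVec_zero]
    rw [resMat_corMat, show cc (1 + heckeMat (N * q) (qPrime q) * invMat N q hqN)
        = 1 + cc (heckeMat (N * q) qP) * cc (invMat N q hqN) from by
      show Matrix.map _ _ = _
      rw [Matrix.map_add _ Int.cast_add, Matrix.map_one _ Int.cast_zero Int.cast_one]
      exact congrArg _ (hmulC _ _), Matrix.add_mulVec, Matrix.one_mulVec, ← Matrix.mulVec_mulVec,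
      show cc (invMat N q hqN) *ᵥ x = cW • x from hWx, Matrix.mulVec_smul] at h1
    have h2 := congrArg (fun u => cW • u) (eq_neg_of_add_eq_zero_right h1)
    simp only [smul_smul, hcW, one_smul, smul_neg] at h2
    rw [h2, neg_smul]
  -- back to cusp forms
  obtain ⟨⟨f₁, f₂⟩, hf12⟩ := (periodEquiv (N * q)).surjective x
  let op : Nat.Primes → Module.End ℂ (CuspForm (Gamma0 (N * q)) 2) := fun ℓ =>
    (GalRep.heckeOp (N * q) ℓ : Module.End ℂ (CuspForm (Gamma0 (N * q)) 2))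
  have hop : ∀ (ℓ : Nat.Primes) (l : ℂ), cc (heckeMat (N * q) ℓ) *ᵥ x = l • x →
      op ℓ f₁ = l • f₁ ∧ op ℓ f₂ = l • f₂ := by
    intro ℓ l h
    rw [← hf12, ← periodEquiv_heckeOp, ← map_smul] at h
    have h2 := (periodEquiv (N * q)).injective h
    exact ⟨congrArg Prod.fst h2, congrArg Prod.snd h2⟩
  let W : Submodule ℂ (CuspForm (Gamma0 (N * q)) 2) :=
    Module.End.eigenspace (op qP) (-cW) ⊓
      ⨅ i : good, Module.End.eigenspace (op i.1) (b i : ℂ)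
  have hWmem : ∀ h, h ∈ W ↔ op qP h = (-cW) • h ∧ ∀ i : good, op i.1 h = (b i : ℂ) • h := by
    intro h
    simp [W, Submodule.mem_iInf]
  have hWne : W ≠ ⊥ := by
    intro hbot
    have hm : ∀ fi, (fi = f₁ ∨ fi = f₂) → fi ∈ W := by
      rintro fi (rfl | rfl)
      · exact (hWmem _).mpr ⟨(hop qP _ hUx).1, fun i => (hop i.1 _ (hTx i)).1⟩
      · exact (hWmem _).mpr ⟨(hop qP _ hUx).2, fun i => (hop i.1 _ (hTx i)).2⟩
    have z1 : f₁ = 0 := (Submodule.mem_bot ℂ).mp (hbot ▸ hm f₁ (Or.inl rfl))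
    have z2 : f₂ = 0 := (Submodule.mem_bot ℂ).mp (hbot ▸ hm f₂ (Or.inr rfl))
    apply hx0
    rw [← hf12, z1, z2]
    exact map_zero _
  have := Periods.finiteDimensional_cuspForm_two (N * q)
  set H := CuspForm.heckeAlgebra (N * q) 2 ∅
  have hcommH : ∀ (s t : H) (y : CuspForm (Gamma0 (N * q)) 2),
      (s : Module.End ℂ _) ((t : Module.End ℂ (CuspForm (Gamma0 (N * q)) 2)) y)
        = (t : Module.End ℂ _) ((s : Module.End ℂ (CuspForm (Gamma0 (N * q)) 2)) y) := by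
    intro s t y
    have := congrArg (fun u : H => (u : Module.End ℂ (CuspForm (Gamma0 (N * q)) 2)) y)
      (mul_comm s t)
    exact this
  obtain ⟨v₀, hv₀W, hv₀, hv₀S⟩ := exists_common_eigenvector
    (Set.range fun t : H => (t : Module.End ℂ (CuspForm (Gamma0 (N * q)) 2)))
    (by rintro _ ⟨s, rfl⟩ _ ⟨t, rfl⟩ y; exact hcommH s t y) W hWne (by
      rintro _ ⟨t, rfl⟩ y hy
      obtain ⟨h1, h2⟩ := (hWmem y).mp hy
      refine (hWmem _).mpr ⟨?_, fun i => ?_⟩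
      · rw [hcommH, h1, map_smul]
      · rw [hcommH, h2 i, map_smul])
  obtain ⟨κ, hκ⟩ := exists_eigenHom_end H.val.toRingHom v₀ hv₀
    (fun t => hv₀S _ ⟨t, rfl⟩)
  obtain ⟨g, hg, hgκ, -⟩ := Hecke.IsEigenvector.exists_normalizedEigenform (χ := κ) hκ hv₀
  obtain ⟨hv₀U, hv₀T⟩ := (hWmem v₀).mp hv₀W
  have hκop : ∀ (ℓ : Nat.Primes) (l : ℂ), op ℓ v₀ = l • v₀ →
      qCoeff ⇑g (ℓ : ℕ) = l := by
    intro ℓ l h
    have h1 : κ (GalRep.heckeOp (N * q) ℓ) = l :=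
      smul_left_injective ℂ hv₀ ((hκ _).symm.trans h)
    rw [← h1, GalRep.heckeOp]
    by_cases hd : (ℓ : ℕ) ∣ N * q
    · rw [dif_pos hd]; exact (hgκ.qCoeff_U hg.qCoeff_one ℓ.2 hd).symm
    · rw [dif_neg hd]; exact (hgκ.qCoeff_T hg.qCoeff_one ℓ.2 hd).symm
  refine ⟨g, 𝔪', hg, h𝔪', hp𝔪', fun ℓ hℓ hP hℓNq => ?_, ?_⟩
  · refine ⟨b ⟨⟨ℓ, hℓ⟩, hℓNq⟩, (hκop ⟨ℓ, hℓ⟩ _ (hv₀T ⟨⟨ℓ, hℓ⟩, hℓNq⟩)).symm, ?_⟩
    exact hb _ _ (hπap ⟨ℓ, hℓ⟩ hP (hgoodN ⟨⟨ℓ, hℓ⟩, hℓNq⟩))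
  · show qCoeff ⇑g q ^ 2 = 1
    rw [show qCoeff ⇑g q = -cW from hκop qP _ hv₀U, neg_sq, sq, hcW]

end Fermat.Agent.Ihara
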