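import Fermat.Agent.EC.Frobenius.DetCyclotomic
import Fermat.Agent.EC.Torsion.Main

/-!
# An irreducible `E[p]` is not Eisenstein

## Main results

* `exists_nonEisenstein_prime`: for irreducible `E[p]`, `p` odd, and every `L` some good prime
  `ℓ ≡ 1 (mod L)` has `a_ℓ ≢ ℓ + 1 (mod p)`.
-/

set_option autoImplicit false

noncomputable section

open Polynomial WeierstrassCurve WeierstrassCurve.Affine.Point
open scoped WeierstrassCurve.Affine ComplexConjugate

namespace Fermat.Agent.Ihara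

/-- A group of operators on a plane all fixing non-zero vectors, normal with commutative quotient
in a group containing a reflection, leaves a line stable for the whole group. -/
theorem exists_stable_line {F V G : Type*} [Field F] [AddCommGroup V] [Module F V]
    [FiniteDimensional F V] (hdim : Module.finrank F V = 2) [Group G] (ρ : G →* Module.End F V)
    (H : Subgroup G) [hH : H.Normal] (hfix : ∀ h ∈ H, ∃ v, v ≠ 0 ∧ ρ h v = v)
    (hcomm : ∀ a b : G, a * b * a⁻¹ * b⁻¹ ∈ H) (c : G)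
    (hc : LinearMap.ker (ρ c - 1) ≠ ⊥ ∧ LinearMap.ker (ρ c - 1) ≠ ⊤) :
    ∃ W : Submodule F V, W ≠ ⊥ ∧ W ≠ ⊤ ∧ ∀ g : G, ∀ w ∈ W, ρ g w ∈ W := by
  classical
  set f : G → Module.End F V := fun h => ρ h - 1
  have hker : ∀ h ∈ H, LinearMap.ker (f h) ≠ ⊥ := fun h hh => by
    obtain ⟨v, hv, hhv⟩ := hfix h hh
    exact fun hb => hv ((Submodule.mem_bot F).mp
      (hb ▸ (by simp [f, hhv] : v ∈ LinearMap.ker (f h))))
  by_cases htriv : ∀ h ∈ H, f h = 0
  · refine ⟨LinearMap.ker (ρ c - 1), hc.1, hc.2, fun g w hw => ?_⟩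
    have h1 : ρ (g * c * g⁻¹ * c⁻¹) = 1 := sub_eq_zero.mp (htriv _ (hcomm g c))
    have h2 : ρ g * ρ c = ρ c * ρ g := by
      rw [← map_mul, ← map_mul, show g * c = g * c * g⁻¹ * c⁻¹ * (c * g) by group,
        map_mul ρ (g * c * g⁻¹ * c⁻¹), h1, one_mul]
    rw [LinearMap.mem_ker, LinearMap.sub_apply, Module.End.one_apply, sub_eq_zero] at hw ⊢
    rw [← Module.End.mul_apply, ← h2, Module.End.mul_apply, hw]
  push Not at htriv
  obtain ⟨a, ha, ha0⟩ := htriv
  have hrank : ∀ h ∈ H, f h ≠ 0 → Module.finrank F (LinearMap.range (f h)) = 1 ∧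
      Module.finrank F (LinearMap.ker (f h)) = 1 := by
    intro h hh h0
    have e := LinearMap.finrank_range_add_finrank_ker (f h)
    have r0 : LinearMap.range (f h) ≠ ⊥ := fun hb => h0 (LinearMap.range_eq_bot.mp hb)
    have r1 := Submodule.one_le_finrank_iff.mpr r0
    have k1 := Submodule.one_le_finrank_iff.mpr (hker h hh)
    omega
  -- two elements share their range or their kernel
  have key : ∀ x ∈ H, ∀ y ∈ H, f x ≠ 0 → f y ≠ 0 →
      LinearMap.range (f x) = LinearMap.range (f y) ∨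
        LinearMap.ker (f x) = LinearMap.ker (f y) := by
    intro x hx y hy hx0 hy0
    by_contra hne
    push Not at hne
    obtain ⟨hr, hk⟩ := hne
    obtain ⟨rx, kx⟩ := hrank x hx hx0
    obtain ⟨ry, ky⟩ := hrank y hy hy0
    have hxy : f (x * y) = f x + f y + f x * f y := by
      simp only [f, map_mul]; noncomm_ring
    obtain ⟨s, hsy, hsx⟩ : ∃ s, f y s = 0 ∧ f x s ≠ 0 := by
      by_contra hall
      push Not at hall
      exact hk.symm (Submodule.eq_of_le_of_finrank_eq (fun s hs => hall s hs) (ky.trans kx.symm))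
    obtain ⟨t, htx, hty⟩ : ∃ t, f x t = 0 ∧ f y t ≠ 0 := by
      by_contra hall
      push Not at hall
      exact hk (Submodule.eq_of_le_of_finrank_eq (fun s hs => hall s hs) (kx.trans ky.symm))
    have lineX : ∀ u ∈ LinearMap.range (f x), ∃ l : F, u = l • f x s := fun u hu => by
      obtain ⟨l, hl⟩ := exists_smul_eq_of_finrank_eq_one rx
        (x := ⟨f x s, LinearMap.mem_range_self _ _⟩) (fun h0 => hsx (congrArg Subtype.val h0))
        ⟨u, hu⟩
      exact ⟨l, (congrArg Subtype.val hl).symm⟩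
    have lineY : ∀ u ∈ LinearMap.range (f y), ∃ l : F, u = l • f y t := fun u hu => by
      obtain ⟨l, hl⟩ := exists_smul_eq_of_finrank_eq_one ry
        (x := ⟨f y t, LinearMap.mem_range_self _ _⟩) (fun h0 => hty (congrArg Subtype.val h0))
        ⟨u, hu⟩
      exact ⟨l, (congrArg Subtype.val hl).symm⟩
    have hX : LinearMap.range (f x) ≤ LinearMap.range (f (x * y)) := by
      intro u hu
      obtain ⟨l, rfl⟩ := lineX u hu
      exact ⟨l • s, by simp [hxy, hsy]⟩
    have hY : LinearMap.range (f y) ≤ LinearMap.range (f (x * y)) := by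
      intro u hu
      obtain ⟨l, rfl⟩ := lineY u hu
      refine Submodule.smul_mem _ _ ?_
      have h1 : f (x * y) t = f y t + f x (f y t) := by simp [hxy, htx]
      rw [show f y t = f (x * y) t - f x (f y t) by rw [h1]; abel]
      exact Submodule.sub_mem _ (LinearMap.mem_range_self _ _) (hX (LinearMap.mem_range_self _ _))
    have hlt : LinearMap.range (f x) < LinearMap.range (f x) ⊔ LinearMap.range (f y) :=
      lt_of_le_of_ne le_sup_left fun he => hr
        (Submodule.eq_of_le_of_finrank_eq (le_sup_right.trans he.ge) (ry.trans rx.symm)).symm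
    have h2 : 2 ≤ Module.finrank F (LinearMap.range (f (x * y))) := by
      have := Submodule.finrank_lt_finrank_of_lt hlt
      have := Submodule.finrank_mono (sup_le hX hY)
      omega
    have e := LinearMap.finrank_range_add_finrank_ker (f (x * y))
    have := Submodule.one_le_finrank_iff.mpr (hker _ (H.mul_mem hx hy))
    omega
  have hconj : ∀ (g : G) (h : G), h ∈ H → ρ g * f h = f (g * h * g⁻¹) * ρ g := by
    intro g h _
    simp only [f, mul_sub, sub_mul, mul_one, one_mul, ← map_mul]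
    rw [show g * h * g⁻¹ * g = g * h by group]
  have hproper : ∀ W : Submodule F V, Module.finrank F W = 1 → W ≠ ⊥ ∧ W ≠ ⊤ := fun W hW =>
    ⟨fun h => by rw [h, finrank_bot] at hW; exact zero_ne_one hW,
      fun h => by rw [h, finrank_top, hdim] at hW; exact absurd hW (by norm_num)⟩
  by_cases hsame : ∀ b ∈ H, f b ≠ 0 → LinearMap.range (f a) = LinearMap.range (f b)
  · obtain ⟨h1, h2⟩ := hproper _ (hrank a ha ha0).1
    refine ⟨LinearMap.range (f a), h1, h2, fun g w hw => ?_⟩
    obtain ⟨u, rfl⟩ := hw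
    rw [← Module.End.mul_apply, hconj g a ha, Module.End.mul_apply]
    by_cases h0 : f (g * a * g⁻¹) = 0
    · simp [h0]
    · rw [hsame _ (hH.conj_mem a ha g) h0]
      exact LinearMap.mem_range_self _ _
  · push Not at hsame
    obtain ⟨b, hb, hb0, hab⟩ := hsame
    have hkab : LinearMap.ker (f a) = LinearMap.ker (f b) :=
      (key a ha b hb ha0 hb0).resolve_left hab
    have hall : ∀ d ∈ H, f d ≠ 0 → LinearMap.ker (f a) = LinearMap.ker (f d) := by
      intro d hd hd0
      by_contra hne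
      have h1 := (key a ha d hd ha0 hd0).resolve_right hne
      rcases key b hb d hd hb0 hd0 with h | h
      · exact hab (h1.trans h.symm)
      · exact hne (hkab.trans h)
    obtain ⟨h1, h2⟩ := hproper _ (hrank a ha ha0).2
    refine ⟨LinearMap.ker (f a), h1, h2, fun g w hw => ?_⟩
    have hmem : g⁻¹ * a * g ∈ H := by simpa using hH.conj_mem a ha g⁻¹
    have he : ρ g * f (g⁻¹ * a * g) = f a * ρ g := by
      rw [hconj g _ hmem, show g * (g⁻¹ * a * g) * g⁻¹ = a by group]
    have hw' : f (g⁻¹ * a * g) w = 0 := by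
      by_cases h0 : f (g⁻¹ * a * g) = 0
      · simp [h0]
      · rw [hall _ hmem h0] at hw
        exact hw
    show f a (ρ g w) = 0
    rw [← Module.End.mul_apply, ← he, Module.End.mul_apply, hw', _root_.map_zero]

local notation "ℚbar" => AlgebraicClosure ℚ
local notation "Γ" => AlgebraicClosure ℚ ≃ₐ[ℚ] AlgebraicClosure ℚ

/-- The cyclotomic character mod `L` on the absolute Galois group. -/
def cycloChar (L : ℕ) [NeZero L] : Γ →* (ZMod L)ˣ :=
  (modularCyclotomicCharacter ℚbar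
      (HasEnoughRootsOfUnity.natCard_rootsOfUnity ℚbar L)).comp
    { toFun := fun σ => (σ : ℚbar ≃+* ℚbar), map_one' := rfl, map_mul' := fun _ _ => rfl }

theorem cycloChar_eq {L : ℕ} [NeZero L] {σ : Γ} {c : ZMod L}
    (h : ∀ t : ℚbar, t ^ L = 1 → σ t = t ^ c.val) : (cycloChar L σ : ZMod L) = c := by
  refine (modularCyclotomicCharacter.unique ℚbar _ _ fun t ht => ?_).symm
  exact h t (by rw [← Units.val_pow_eq_pow_val, (mem_rootsOfUnity L t).mp ht, Units.val_one])

theorem cycloChar_frobenius {L : ℕ} [NeZero L] {ℓ : ℕ} (hℓ : ℓ.Prime) (hℓL : ¬ℓ ∣ L)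
    {A : ValuationSubring ℚbar} (hA : A.LiesOverPrime ℓ) {τ : Γ} (hτ : A.IsFrobeniusAt τ ℓ) :
    (cycloChar L τ : ZMod L) = (ℓ : ZMod L) := by
  refine cycloChar_eq fun t ht => ?_
  rw [Fermat.Agent.Gal.apply_rootOfUnity_of_isFrobeniusAt hτ hℓ hA hℓL ht, ZMod.val_natCast]
  exact pow_eq_pow_mod ℓ ht

theorem cycloChar_level (L : ℕ) [NeZero L] : GaloisFactorsThroughFiniteLevel (cycloChar L) := by
  have := Fermat.Agent.Gal.isAlgebraic_rat_qbar
  let S : Set ℚbar := {t | t ^ L = 1}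
  have hS : S.Finite := by
    refine (Polynomial.nthRootsFinset L (1 : ℚbar)).finite_toSet.subset fun t ht => ?_
    exact Finset.mem_coe.mpr
      ((Polynomial.mem_nthRootsFinset (Nat.pos_of_ne_zero (NeZero.ne L)) 1).mpr ht)
  have : Finite S := hS.to_subtype
  refine ⟨IntermediateField.adjoin ℚ S, IntermediateField.finiteDimensional_adjoin
    fun x _ => (Algebra.IsAlgebraic.isAlgebraic x).isIntegral, fun σ hσ => Units.ext ?_⟩
  refine (cycloChar_eq fun t ht => ?_).trans Units.val_one.symm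
  rw [hσ t (IntermediateField.subset_adjoin ℚ S ht)]
  rcases Nat.lt_or_ge L 2 with hL | hL
  · have hL1 : L = 1 := by have := NeZero.ne L; omega
    subst hL1
    rw [pow_one] at ht
    simp [ht]
  · have : Fact (1 < L) := ⟨hL⟩
    rw [ZMod.val_one, pow_one]

/-- Complex conjugation. -/
theorem exists_cycloChar_eq_neg_one (L : ℕ) [NeZero L] :
    ∃ c : Γ, c * c = 1 ∧ (cycloChar L c : ZMod L) = -1 := by
  have := Fermat.Agent.Gal.isAlgebraic_rat_qbar
  let j : ℚbar →ₐ[ℚ] ℂ := IsAlgClosed.lift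
  let : Algebra ℚbar ℂ := j.toRingHom.toAlgebra
  have : IsScalarTower ℚ ℚbar ℂ := IsScalarTower.of_algebraMap_eq fun r => (j.commutes r).symm
  let cc : ℂ ≃ₐ[ℚ] ℂ := Complex.conjAe.restrictScalars ℚ
  let c : Γ := cc.restrictNormal ℚbar
  have hc : ∀ x, j (c x) = conj (j x) := fun x => AlgEquiv.restrictNormal_commutes cc ℚbar x
  refine ⟨c, AlgEquiv.ext fun x => j.toRingHom.injective ?_, cycloChar_eq fun t ht => ?_⟩
  · show j (c (c x)) = j x
    rw [hc, hc, Complex.conj_conj]
  · apply j.toRingHom.injective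
    show j (c t) = j (t ^ (-1 : ZMod L).val)
    have hjt : j t ^ L = 1 := by rw [← map_pow, ht, map_one]
    rw [hc, map_pow, ← Complex.inv_eq_conj (Complex.norm_eq_one_of_pow_eq_one hjt (NeZero.ne L))]
    obtain ⟨n, rfl⟩ := Nat.exists_eq_succ_of_ne_zero (NeZero.ne L)
    rw [ZMod.val_neg_one]
    exact (eq_inv_of_mul_eq_one_left (by rw [← pow_succ]; exact hjt)).symm

/-- An irreducible `E[p]` has a prime `ℓ ≡ 1 (mod L)` of good reduction with
`a_ℓ ≢ 1 + ℓ (mod p)`. -/
theorem exists_nonEisenstein_prime (E : WeierstrassCurve ℚ) [E.IsElliptic] {W : WeierstrassCurve ℤ}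
    (hW : W.IsIntegralModelOf E) {p : ℕ} (hp : p.Prime) (hp2 : p ≠ 2)
    (hirr : GaloisRepIsIrreducible (K := AlgebraicClosure ℚ) ℚ E p) (L : ℕ) [NeZero L] :
    ∃ ℓ : ℕ, ℓ.Prime ∧ W.IsGoodPrimeFor ℓ ∧ ℓ ≠ p ∧ ¬ℓ ∣ L ∧ (ℓ : ZMod L) = 1 ∧
      ¬(p : ℤ) ∣ W.apOfModel ℓ - ((ℓ : ℤ) + 1) := by
  have : Fact p.Prime := ⟨hp⟩
  have : NeZero p := ⟨hp.ne_zero⟩
  have := Fermat.Agent.Gal.isAlgebraic_rat_qbar
  have := EC.Frobenius.moduleFinite_torsion E p
  have hΔ : W.Δ ≠ 0 := by
    obtain ⟨D, hD⟩ := hW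
    have h1 : (W.map (Int.castRingHom ℚ)).Δ ≠ 0 := by
      rw [← hD]; exact (D • E).isUnit_Δ.ne_zero
    intro h0
    exact h1 (by rw [map_Δ, h0, _root_.map_zero])
  set V := Submodule.torsionBy ℤ (E⁄ℚbar).Point p with hV
  set ρ := galoisRepModuleEnd (K := ℚbar) ℚ E.toAffine p with hρ
  have : (E⁄ℚbar).IsElliptic := inferInstanceAs (E.map (algebraMap ℚ ℚbar)).IsElliptic
  have hdim : Module.finrank (ZMod p) V = 2 :=
    EC.Torsion.finrank_torsionBy E ℚbar (Nat.cast_ne_zero.mpr hp.ne_zero)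
  by_contra hcon
  push Not at hcon
  set H := (cycloChar L).ker with hH
  -- every element trivial on `μ_L` fixes a point
  have hfix : ∀ σ ∈ H, ∃ v : V, v ≠ 0 ∧ ρ σ v = v := by
    intro σ hσ
    obtain ⟨L₁, hL₁, hL₁'⟩ := EC.Frobenius.galoisFactorsThroughFiniteLevel_torsion E hp.ne_zero
    obtain ⟨L₂, hL₂, hL₂'⟩ := cycloChar_level L
    have := IntermediateField.finiteDimensional_sup L₁ L₂
    set M := IntermediateField.normalClosure ℚ (L₁ ⊔ L₂ : IntermediateField ℚ ℚbar) ℚbar with hM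
    have : Normal ℚ M := normalClosure.normal ℚ _ ℚbar
    have hle := IntermediateField.le_normalClosure (L₁ ⊔ L₂ : IntermediateField ℚ ℚbar)
    have hlev : ∀ u u' : Γ, AlgEquiv.restrictNormalHom M u = AlgEquiv.restrictNormalHom M u' →
        ρ u = ρ u' ∧ cycloChar L u = cycloChar L u' := by
      intro u u' huu'
      have he : ∀ x ∈ M, u x = u' x := fun x hx => by
        have h1 := AlgEquiv.restrictNormal_commutes u M ⟨x, hx⟩
        have h2 := AlgEquiv.restrictNormal_commutes u' M ⟨x, hx⟩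
        rw [show AlgEquiv.restrictNormal u M = AlgEquiv.restrictNormal u' M from huu'] at h1
        exact h1.symm.trans h2
      exact ⟨Density.apply_eq_of_eqOn ρ L₁ hL₁' fun x hx => he x (hle (le_sup_left (b := L₂) hx)),
        Density.apply_eq_of_eqOn (cycloChar L) L₂ hL₂'
          fun x hx => he x (hle (le_sup_right (a := L₁) hx))⟩
    have hbad : ({p} ∪ ({ℓ : ℕ | (ℓ : ℤ) ∣ W.Δ} ∪ {ℓ : ℕ | ℓ ∣ L})).Finite := by
      refine (Set.finite_singleton p).union (Set.Finite.union ?_ ?_)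
      · exact (Set.finite_Iic W.Δ.natAbs).subset fun ℓ hℓ =>
          Nat.le_of_dvd (Int.natAbs_pos.mpr hΔ) (Int.natCast_dvd.mp hℓ)
      · exact (Set.finite_Iic L).subset fun ℓ hℓ =>
          Nat.le_of_dvd (Nat.pos_of_ne_zero (NeZero.ne L)) hℓ
    obtain ⟨ℓ, hℓ, hℓS, hex⟩ := Density.exists_prime_zpowers_restrict_eq M σ hbad.toFinset
    simp only [Set.Finite.mem_toFinset, Set.mem_union, Set.mem_singleton_iff, Set.mem_ofPred_eq,
      not_or] at hℓS
    obtain ⟨hℓp, hgood, hℓL⟩ := hℓS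
    obtain ⟨A, hA⟩ := Gal.exists_liesOverPrime (L := ℚbar) hℓ
    obtain ⟨τ, hτ⟩ := Gal.exists_isFrobeniusAt hℓ hA
    obtain ⟨g, hg⟩ := (hex A hA).2 τ hτ
    -- `ℓ ≡ 1`
    obtain ⟨i, hi⟩ : AlgEquiv.restrictNormalHom M (g * τ * g⁻¹) ∈
        Subgroup.zpowers (AlgEquiv.restrictNormalHom M σ) := hg ▸ Subgroup.mem_zpowers _
    have hτH : cycloChar L τ = 1 := by
      have h1 := (hlev (σ ^ i) (g * τ * g⁻¹) (by rw [map_zpow]; exact hi)).2
      rw [map_zpow, MonoidHom.mem_ker.mp hσ, one_zpow, map_mul, map_mul, map_inv,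
        mul_inv_cancel_comm] at h1
      exact h1.symm
    have hℓ1 : (ℓ : ZMod L) = 1 := by
      rw [← cycloChar_frobenius hℓ hℓL hA hτ, hτH, Units.val_one]
    have hap := hcon ℓ hℓ hgood hℓp hℓL hℓ1
    obtain ⟨-, -, hchar⟩ :=
      EC.Frobenius.trace_det_charpoly_of_isIntegralModelOf hW hℓ hgood (Ne.symm hℓp) hA hτ
    have hev : Module.End.HasEigenvalue (ρ τ) 1 := by
      rw [Module.End.hasEigenvalue_iff_isRoot_charpoly, hρ, hchar]
      have h0 := (ZMod.intCast_zmod_eq_zero_iff_dvd _ p).mpr hap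
      push_cast at h0
      simp only [IsRoot.def, eval_add, eval_sub, eval_pow, eval_X, eval_mul, eval_C, one_pow,
        mul_one]
      linear_combination -h0
    obtain ⟨v, hv⟩ := hev.exists_hasEigenvector
    have hv1 : τ • v = v := hv.apply_eq_smul.trans (one_smul _ v)
    refine ⟨g • v, fun h0 => hv.2 (by rwa [smul_eq_zero_iff_eq] at h0), ?_⟩
    obtain ⟨j, hj⟩ : AlgEquiv.restrictNormalHom M σ ∈
        Subgroup.zpowers (AlgEquiv.restrictNormalHom M (g * τ * g⁻¹)) :=
      hg.symm ▸ Subgroup.mem_zpowers _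
    have h1 := (hlev ((g * τ * g⁻¹) ^ j) σ (by rw [map_zpow]; exact hj)).1
    rw [← h1]
    show (g * τ * g⁻¹) ^ j • g • v = g • v
    refine MulAction.mem_stabilizer_iff.mp (Subgroup.zpow_mem _ ?_ j)
    rw [MulAction.mem_stabilizer_iff, mul_smul, inv_smul_smul, mul_smul, hv1]
  -- complex conjugation
  obtain ⟨c, hc2, hcχ⟩ := exists_cycloChar_eq_neg_one p
  have hdet : LinearMap.det (ρ c) = (-1 : ZMod p) := by
    have h := EC.Frobenius.galoisRepDetEqCyclotomic_of_isIntegralModelOf E W hΔ hW p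
      (HasEnoughRootsOfUnity.natCard_rootsOfUnity ℚbar p) c
    rw [hρ, ← EC.Frobenius.coe_galoisRepDet, h]
    exact hcχ
  have h2 : (2 : ZMod p) ≠ 0 := by
    intro h
    have h' : ((2 : ℕ) : ZMod p) = 0 := by exact_mod_cast h
    exact hp2 ((Nat.prime_dvd_prime_iff_eq hp Nat.prime_two).mp
      ((ZMod.natCast_eq_zero_iff 2 p).mp h'))
  have h11 : (1 : ZMod p) ≠ -1 := fun h => h2 (by linear_combination h)
  have hc : LinearMap.ker (ρ c - 1) ≠ ⊥ ∧ LinearMap.ker (ρ c - 1) ≠ ⊤ := by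
    constructor
    · intro hb
      have hz : (ρ c - 1) * (ρ c + 1) = 0 := by
        have : ρ c * ρ c = 1 := by rw [← map_mul, hc2, map_one]
        rw [sub_mul, mul_add, this, one_mul, mul_one]
        abel
      have hneg : ρ c = -1 := eq_neg_of_add_eq_zero_left (LinearMap.ext fun v =>
        LinearMap.ker_eq_bot.mp hb (((LinearMap.congr_fun hz v)).trans (_root_.map_zero _).symm))
      rw [hneg, show (-1 : Module.End (ZMod p) V) = (-1 : ZMod p) • 1 by rw [neg_one_smul],
        LinearMap.det_smul, hdim, map_one, neg_one_sq, one_mul] at hdet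
      exact h11 hdet
    · intro ht
      rw [LinearMap.ker_eq_top, sub_eq_zero] at ht
      rw [ht, map_one] at hdet
      exact h11 hdet
  obtain ⟨U, hU0, hU1, hU⟩ := exists_stable_line hdim ρ H hfix (fun a b => by
    rw [hH, MonoidHom.mem_ker, map_mul, map_mul, map_mul, map_inv, map_inv, mul_inv_cancel_comm,
      mul_inv_cancel]) c hc
  rcases hirr.2 U (fun σ x hx => hU σ x hx) with h | h
  · exact hU0 h
  · exact hU1 h

end Fermat.Agent.Ihara
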