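import Fermat.Agent.Periods.Transfer
import Fermat.Agent.Cosets.ParEllHoms

/-!
# Correspondences given by families of integral matrices

`CosetSys Γ₁ Γ₂ ι` is a finite family of matrices permuted by `Γ₂` on the right up to `Γ₁` on the
left; `CosetSys.op` is the operator `Hom(Γ₁, A) → Hom(Γ₂, A)` it defines.

## Main results

* `CosetSys.op_congr`: the operator does not depend on the representatives.
* `CosetSys.op_prod`: composition.
* `CosetSys.op_mem_parEllHoms`: elliptic and parabolic elements are still killed.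
-/

set_option autoImplicit false

noncomputable section

namespace Fermat.Agent.Ihara

open Matrix
open scoped MatrixGroups

/-- Integral `2 × 2` matrices. -/
abbrev Mat2 := Matrix (Fin 2) (Fin 2) ℤ

/-- Underlying matrix. -/
abbrev mcoe (g : SL(2, ℤ)) : Mat2 := (g : Matrix (Fin 2) (Fin 2) ℤ)

theorem mcoe_mul (g h : SL(2, ℤ)) : mcoe (g * h) = mcoe g * mcoe h :=
  Matrix.SpecialLinearGroup.coe_mul g h

theorem mcoe_one : mcoe 1 = 1 := Matrix.SpecialLinearGroup.coe_one

theorem mcoe_det (g : SL(2, ℤ)) : (mcoe g).det = 1 := g.2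

theorem mat2_right_cancel {a b M : Mat2} (hM : M.det ≠ 0) (h : a * M = b * M) : a = b := by
  have h2 := congrArg (fun X : Mat2 => X * M.adjugate) h
  simp only [mul_assoc, Matrix.mul_adjugate, Algebra.mul_smul_comm, mul_one] at h2
  exact smul_right_injective _ hM h2

theorem mcoe_injective : Function.Injective mcoe := fun _ _ h => Subtype.ext h

theorem mcoe_inv_mul_cancel (g : SL(2, ℤ)) (M : Mat2) : mcoe g⁻¹ * (mcoe g * M) = M := by
  rw [← mul_assoc, ← mcoe_mul, inv_mul_cancel, mcoe_one, one_mul]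

theorem mcoe_mul_inv_cancel (g : SL(2, ℤ)) (M : Mat2) : mcoe g * (mcoe g⁻¹ * M) = M := by
  rw [← mul_assoc, ← mcoe_mul, mul_inv_cancel, mcoe_one, one_mul]

/-- A finite family of integral matrices inducing `Hom(Γ₁, A) → Hom(Γ₂, A)`. -/
structure CosetSys (Γ₁ Γ₂ : Subgroup SL(2, ℤ)) (ι : Type*) where
  /-- The family. -/
  α : ι → Mat2
  pos : ∀ i, 0 < (α i).det
  exists_perm : ∀ (γ : Γ₂) (i : ι), ∃ (j : ι) (g : Γ₁),
    α i * mcoe γ = mcoe g * α j
  inj : ∀ (i j : ι) (g : Γ₁), α i = mcoe g * α j → i = j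

namespace CosetSys

variable {Γ₁ Γ₂ Γ₃ : Subgroup SL(2, ℤ)} {ι κ μ : Type*} (S : CosetSys Γ₁ Γ₂ ι)

/-- Index attached to `γ` and `i`. -/
def idx (γ : Γ₂) (i : ι) : ι := (S.exists_perm γ i).choose

/-- Element of `Γ₁` attached to `γ` and `i`. -/
def cof (γ : Γ₂) (i : ι) : Γ₁ := (S.exists_perm γ i).choose_spec.choose

theorem mul_eq (γ : Γ₂) (i : ι) : S.α i * mcoe γ = mcoe (S.cof γ i) * S.α (S.idx γ i) :=
  (S.exists_perm γ i).choose_spec.choose_spec

theorem eq_of_mul_eq {γ : Γ₂} {i j : ι} {g : Γ₁} (e : S.α i * mcoe γ = mcoe g * S.α j) :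
    j = S.idx γ i ∧ g = S.cof γ i := by
  have e' := (S.mul_eq γ i).symm.trans e
  have hj : S.idx γ i = j := by
    refine S.inj _ _ ((S.cof γ i)⁻¹ * g) ?_
    rw [Subgroup.coe_mul, Subgroup.coe_inv, mcoe_mul, mul_assoc, ← e', mcoe_inv_mul_cancel]
  refine ⟨hj.symm, ?_⟩
  rw [hj] at e'
  exact (Subtype.ext (mcoe_injective (mat2_right_cancel (S.pos j).ne' e'))).symm

theorem idx_mul (γ δ : Γ₂) (i : ι) :
    S.idx (γ * δ) i = S.idx δ (S.idx γ i) ∧
      S.cof (γ * δ) i = S.cof γ i * S.cof δ (S.idx γ i) := by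
  have e : S.α i * mcoe (γ * δ : Γ₂)
      = mcoe (S.cof γ i * S.cof δ (S.idx γ i) : Γ₁) * S.α (S.idx δ (S.idx γ i)) := by
    rw [Subgroup.coe_mul, Subgroup.coe_mul, mcoe_mul, mcoe_mul, ← mul_assoc, S.mul_eq γ i,
      mul_assoc, S.mul_eq δ, ← mul_assoc]
  obtain ⟨e1, e2⟩ := S.eq_of_mul_eq e
  exact ⟨e1.symm, e2.symm⟩

theorem idx_one (i : ι) : S.idx 1 i = i :=
  ((S.eq_of_mul_eq (γ := 1) (g := 1) (i := i) (j := i)
    (by rw [OneMemClass.coe_one, OneMemClass.coe_one, mcoe_one, mul_one, one_mul])).1).symm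

/-- The permutation attached to `γ`. -/
def permE (γ : Γ₂) : Equiv.Perm ι where
  toFun := S.idx γ
  invFun := S.idx γ⁻¹
  left_inv i := by rw [← (S.idx_mul γ γ⁻¹ i).1, mul_inv_cancel, idx_one]
  right_inv i := by rw [← (S.idx_mul γ⁻¹ γ i).1, inv_mul_cancel, idx_one]

theorem permE_apply (γ : Γ₂) (i : ι) : S.permE γ i = S.idx γ i := rfl

variable [Fintype ι] (R : Type*) [Semiring R] (A : Type*) [AddCommGroup A] [Module R A]

/-- The operator of a family. -/
def op : (Additive Γ₁ →+ A) →ₗ[R] (Additive Γ₂ →+ A) where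
  toFun φ := AddMonoidHom.mk' (fun γ => ∑ i, φ (Additive.ofMul (S.cof γ.toMul i)))
    (fun γ δ => by
      simp only [toMul_add, (S.idx_mul _ _ _).2, ofMul_mul, map_add, Finset.sum_add_distrib]
      congr 1
      exact Equiv.sum_comp (S.permE γ.toMul) (fun i => φ (Additive.ofMul (S.cof δ.toMul i))))
  map_add' φ ψ := by
    ext γ
    simp [Finset.sum_add_distrib]
  map_smul' c φ := by
    ext γ
    simp [Finset.smul_sum]

variable {R A}

theorem op_apply (φ : Additive Γ₁ →+ A) (γ : Γ₂) :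
    S.op R A φ (Additive.ofMul γ) = ∑ i, φ (Additive.ofMul (S.cof γ i)) := rfl

theorem op_apply_of_eq (φ : Additive Γ₁ →+ A) (γ : Γ₂) (σ : ι → ι) (g : ι → Γ₁)
    (e : ∀ i, S.α i * mcoe γ = mcoe (g i) * S.α (σ i)) :
    S.op R A φ (Additive.ofMul γ) = ∑ i, φ (Additive.ofMul (g i)) := by
  rw [op_apply]
  exact Finset.sum_congr rfl fun i _ => by rw [(S.eq_of_mul_eq (e i)).2]

/-- The operators are natural in the coefficient group. -/
theorem op_natural {R' : Type*} [Semiring R'] {B : Type*} [AddCommGroup B] [Module R' B]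
    (u : A →+ B) (φ : Additive Γ₁ →+ A) :
    S.op R' B (u.comp φ) = u.comp (S.op R A φ) := by
  refine AddMonoidHom.ext fun γ => ?_
  obtain ⟨γ, rfl⟩ := Additive.ofMul.surjective γ
  simp [op_apply]

/-- Families which agree up to left multiplication and a common scalar define the same operator. -/
theorem op_congr [Fintype κ] (S' : CosetSys Γ₁ Γ₂ κ) (e : ι ≃ κ) (k : ℤ) (_hk : k ≠ 0)
    (h : ∀ i, ∃ g : Γ₁, S.α i = k • (mcoe g * S'.α (e i))) (φ : Additive Γ₁ →+ A) :
    S.op R A φ = S'.op R A φ := by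
  refine AddMonoidHom.ext fun γ => ?_
  obtain ⟨γ, rfl⟩ := Additive.ofMul.surjective γ
  choose g hg using h
  have hw : ∀ i, S.α i * mcoe γ
      = mcoe (g i * S'.cof γ (e i) * (g (e.symm (S'.idx γ (e i))))⁻¹ : Γ₁)
        * S.α (e.symm (S'.idx γ (e i))) := by
    intro i
    rw [hg (e.symm (S'.idx γ (e i))), e.apply_symm_apply, Subgroup.coe_mul, Subgroup.coe_mul,
      Subgroup.coe_inv, mcoe_mul, mcoe_mul, Matrix.mul_smul, mul_assoc, mul_assoc,
      mcoe_inv_mul_cancel, ← S'.mul_eq, hg i, Matrix.smul_mul, mul_assoc]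
  rw [S.op_apply_of_eq φ γ _ _ hw, S'.op_apply]
  simp only [ofMul_mul, ofMul_inv, map_add, map_neg, Finset.sum_add_distrib,
    Finset.sum_neg_distrib]
  rw [Equiv.sum_comp e (fun k => φ (Additive.ofMul (S'.cof γ k))),
    show (∑ i, φ (Additive.ofMul (g (e.symm (S'.idx γ (e i)))))) =
        ∑ i, φ (Additive.ofMul (g i)) from
      Equiv.sum_comp ((e.trans (S'.permE γ)).trans e.symm) (fun i => φ (Additive.ofMul (g i)))]
  abel

omit [Fintype ι] in
/-- The product of two families, when it is injective modulo `Γ₁`. -/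
def prod (T : CosetSys Γ₂ Γ₃ κ)
    (hinj : ∀ i i' k k' (g : Γ₁), S.α i * T.α k = mcoe g * (S.α i' * T.α k') → (i, k) = (i', k')) :
    CosetSys Γ₁ Γ₃ (ι × κ) where
  α x := S.α x.1 * T.α x.2
  pos x := by rw [Matrix.det_mul]; exact mul_pos (S.pos _) (T.pos _)
  exists_perm γ x := ⟨(S.idx (T.cof γ x.2) x.1, T.idx γ x.2), S.cof (T.cof γ x.2) x.1, by
    rw [mul_assoc, T.mul_eq γ x.2, ← mul_assoc, S.mul_eq, mul_assoc]⟩
  inj x y g h := hinj x.1 y.1 x.2 y.2 g h

omit [Fintype ι] in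
theorem prod_α (T : CosetSys Γ₂ Γ₃ κ) (hinj) (x : ι × κ) :
    (S.prod T hinj).α x = S.α x.1 * T.α x.2 := rfl

/-- The product family defines the composite operator. -/
theorem op_prod [Fintype κ] (T : CosetSys Γ₂ Γ₃ κ) (hinj) (φ : Additive Γ₁ →+ A) :
    (S.prod T hinj).op R A φ = T.op R A (S.op R A φ) := by
  refine AddMonoidHom.ext fun γ => ?_
  obtain ⟨γ, rfl⟩ := Additive.ofMul.surjective γ
  rw [(S.prod T hinj).op_apply_of_eq φ γ
    (fun x => (S.idx (T.cof γ x.2) x.1, T.idx γ x.2)) (fun x => S.cof (T.cof γ x.2) x.1)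
    (fun x => by
      rw [prod_α, prod_α, mul_assoc, T.mul_eq γ x.2, ← mul_assoc, S.mul_eq, mul_assoc]),
    T.op_apply, Fintype.sum_prod_type, Finset.sum_comm]
  simp only [S.op_apply]

omit [Fintype ι] in
theorem exists_pow_mul_eq {A : Type*} [AddCommGroup A] (φ : Additive Γ₁ →+ A) (γ : Γ₂) (i : ι)
    (n : ℕ) :
    ∃ P : Γ₁, S.α i * mcoe (γ ^ n : Γ₂) = mcoe P * S.α ((S.permE γ)^[n] i) ∧
      φ (Additive.ofMul P) =
        ∑ k ∈ Finset.range n, φ (Additive.ofMul (S.cof γ ((S.permE γ)^[k] i))) := by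
  induction n with
  | zero => exact ⟨1, by simp, by simp⟩
  | succ n ih =>
    obtain ⟨P, hP, hφP⟩ := ih
    refine ⟨P * S.cof γ ((S.permE γ)^[n] i), ?_, ?_⟩
    · rw [Function.iterate_succ_apply', pow_succ, Subgroup.coe_mul, Subgroup.coe_mul, mcoe_mul,
        mcoe_mul, ← mul_assoc, hP, mul_assoc, S.mul_eq γ, ← mul_assoc, permE_apply]
    · rw [ofMul_mul, map_add, hφP, Finset.sum_range_succ]

/-- Correspondences preserve the homomorphisms killing elliptic and parabolic elements. -/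
theorem op_mem_parEllHoms {φ : Additive Γ₁ →+ A} (hφ : φ ∈ Cosets.parEllHoms R Γ₁ A) :
    S.op R A φ ∈ Cosets.parEllHoms R Γ₂ A := by
  classical
  intro γ hγ
  rw [op_apply]
  set σ := S.permE γ with hσ
  rw [← Finset.sum_fiberwise Finset.univ (fun i => Quotient.mk (Equiv.Perm.SameCycle.setoid σ) i)]
  refine Finset.sum_eq_zero fun q _ => ?_
  set i := q.out
  set r := Function.minimalPeriod σ i with hr
  have hr0 : 0 < r :=
    Function.minimalPeriod_pos_iff_mem_periodicPts.mpr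
      ⟨orderOf σ, orderOf_pos σ, by
        show σ^[orderOf σ] i = i
        rw [← Equiv.Perm.coe_pow, pow_orderOf_eq_one, Equiv.Perm.one_apply]⟩
  have hfib : (Finset.univ.filter fun x => Quotient.mk (Equiv.Perm.SameCycle.setoid σ) x = q)
      = (Finset.range r).image fun k => σ^[k] i := by
    ext x
    simp only [Finset.mem_filter, Finset.mem_univ, true_and, Finset.mem_image, Finset.mem_range]
    constructor
    · intro hx
      have hx' : Equiv.Perm.SameCycle σ i x :=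
        Quotient.exact ((Quotient.out_eq q).trans hx.symm)
      obtain ⟨k, -, hk⟩ := hx'.exists_pow_eq'
      refine ⟨k % r, Nat.mod_lt _ hr0, ?_⟩
      rw [hr, Function.iterate_mod_minimalPeriod_eq, ← Equiv.Perm.coe_pow, hk]
    · rintro ⟨k, -, rfl⟩
      rw [← Quotient.out_eq q]
      refine Quotient.sound (show Equiv.Perm.SameCycle σ (σ^[k] i) i from ?_)
      rw [← Equiv.Perm.coe_pow]
      exact Equiv.Perm.SameCycle.symm ⟨k, by simp⟩
  rw [hfib, Finset.sum_image (fun a ha b hb hab =>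
    Function.iterate_injOn_Iio_minimalPeriod (Finset.mem_range.mp ha) (Finset.mem_range.mp hb) hab)]
  obtain ⟨Q, hQ, hφQ⟩ := S.exists_pow_mul_eq φ γ i r
  rw [← hσ, hr, Function.iterate_minimalPeriod, ← hr] at hQ
  rw [← hσ] at hφQ
  rw [← hφQ]
  refine hφ Q ?_
  have htr : (mcoe Q).trace = (mcoe (γ ^ r : Γ₂)).trace := by
    have h2 := congrArg (fun X : Mat2 => ((S.α i).adjugate * X).trace) hQ
    simp only [← mul_assoc, Matrix.adjugate_mul] at h2
    rw [Matrix.trace_mul_comm _ (S.α i), ← mul_assoc, Matrix.mul_adjugate] at h2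
    simp only [Matrix.smul_mul, one_mul, Matrix.trace_smul] at h2
    exact smul_right_injective ℤ (S.pos i).ne' h2.symm
  show (mcoe Q).trace ^ 2 ≤ 4
  rw [htr, SubmonoidClass.coe_pow]
  exact Periods.trace_pow_sq_le_four (γ : SL(2, ℤ)) hγ r

end CosetSys

end Fermat.Agent.Ihara
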