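import Mathlib

/-!
# The ring `ℤ[1/q]` and congruence subgroups of `SL(2, ℤ[1/q])`

Everything lives inside `ℚ` and `SL(2, ℚ)`: `IsQInt`, `QDvd`, the subgroups `G0`, `G1` and the
predicate `IsCongr`.

## Main results

* `exists_conj_congr`: a conjugate of a deep enough congruence subgroup is contained in a given
  one.
-/

set_option autoImplicit false

namespace Fermat.Agent.Ihara

open Matrix
open scoped MatrixGroups

variable {q : ℕ}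

/-- `x ∈ ℤ[1/q]`. -/
def IsQInt (q : ℕ) (x : ℚ) : Prop := ∃ (k : ℕ) (n : ℤ), x * (q : ℚ) ^ k = n

theorem IsQInt.intCast (n : ℤ) : IsQInt q (n : ℚ) := ⟨0, n, by simp⟩

theorem IsQInt.natCast (n : ℕ) : IsQInt q (n : ℚ) := ⟨0, n, by simp⟩

theorem IsQInt.zero : IsQInt q 0 := ⟨0, 0, by simp⟩

theorem IsQInt.one : IsQInt q 1 := ⟨0, 1, by simp⟩

theorem IsQInt.add {x y : ℚ} (hx : IsQInt q x) (hy : IsQInt q y) : IsQInt q (x + y) := by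
  obtain ⟨k, n, hn⟩ := hx
  obtain ⟨l, m, hm⟩ := hy
  exact ⟨k + l, n * (q : ℤ) ^ l + m * (q : ℤ) ^ k, by push_cast; rw [← hn, ← hm]; ring⟩

theorem IsQInt.mul {x y : ℚ} (hx : IsQInt q x) (hy : IsQInt q y) : IsQInt q (x * y) := by
  obtain ⟨k, n, hn⟩ := hx
  obtain ⟨l, m, hm⟩ := hy
  exact ⟨k + l, n * m, by push_cast; rw [← hn, ← hm]; ring⟩

theorem IsQInt.neg {x : ℚ} (hx : IsQInt q x) : IsQInt q (-x) := by
  obtain ⟨k, n, hn⟩ := hx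
  exact ⟨k, -n, by push_cast; rw [← hn]; ring⟩

theorem IsQInt.sub {x y : ℚ} (hx : IsQInt q x) (hy : IsQInt q y) : IsQInt q (x - y) := by
  simpa [sub_eq_add_neg] using hx.add hy.neg

theorem IsQInt.zpow (hq : q ≠ 0) (i : ℤ) : IsQInt q ((q : ℚ) ^ i) := by
  rcases i with n | n
  · exact ⟨0, (q : ℤ) ^ n, by simp⟩
  · refine ⟨n + 1, 1, ?_⟩
    rw [zpow_negSucc, inv_mul_cancel₀ (pow_ne_zero _ (by exact_mod_cast hq))]
    simp

/-- `x ∈ M ℤ[1/q]`. -/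
def QDvd (q : ℕ) (M : ℤ) (x : ℚ) : Prop := ∃ y, IsQInt q y ∧ x = M * y

theorem QDvd.zero (M : ℤ) : QDvd q M 0 := ⟨0, IsQInt.zero, by simp⟩

theorem QDvd.isQInt {M : ℤ} {x : ℚ} (h : QDvd q M x) : IsQInt q x := by
  obtain ⟨y, hy, rfl⟩ := h
  exact (IsQInt.intCast M).mul hy

theorem QDvd.self (M : ℤ) : QDvd q M (M : ℚ) := ⟨1, IsQInt.one, by simp⟩

theorem QDvd.add {M : ℤ} {x y : ℚ} (hx : QDvd q M x) (hy : QDvd q M y) : QDvd q M (x + y) := by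
  obtain ⟨a, ha, rfl⟩ := hx
  obtain ⟨b, hb, rfl⟩ := hy
  exact ⟨a + b, ha.add hb, by ring⟩

theorem QDvd.neg {M : ℤ} {x : ℚ} (hx : QDvd q M x) : QDvd q M (-x) := by
  obtain ⟨a, ha, rfl⟩ := hx
  exact ⟨-a, ha.neg, by ring⟩

theorem QDvd.sub {M : ℤ} {x y : ℚ} (hx : QDvd q M x) (hy : QDvd q M y) : QDvd q M (x - y) := by
  simpa [sub_eq_add_neg] using hx.add hy.neg

theorem QDvd.mul_left {M : ℤ} {x y : ℚ} (hx : IsQInt q x) (hy : QDvd q M y) :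
    QDvd q M (x * y) := by
  obtain ⟨b, hb, rfl⟩ := hy
  exact ⟨x * b, hx.mul hb, by ring⟩

theorem QDvd.mul_right {M : ℤ} {x y : ℚ} (hx : QDvd q M x) (hy : IsQInt q y) :
    QDvd q M (x * y) := by
  rw [mul_comm]; exact hy |> (fun h => QDvd.mul_left h hx)

theorem QDvd.of_dvd {M : ℤ} {n : ℤ} (h : M ∣ n) : QDvd q M (n : ℚ) := by
  obtain ⟨k, rfl⟩ := h
  exact ⟨k, IsQInt.intCast k, by push_cast; ring⟩

theorem QDvd.trans {M M' : ℤ} {x : ℚ} (h : M ∣ M') (hx : QDvd q M' x) : QDvd q M x := by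
  obtain ⟨k, rfl⟩ := h
  obtain ⟨a, ha, rfl⟩ := hx
  exact ⟨k * a, (IsQInt.intCast k).mul ha, by push_cast; ring⟩

/-- Matrix with prescribed entries. -/
def mat (a b c d : ℚ) (h : a * d - b * c = 1) : SL(2, ℚ) :=
  ⟨!![a, b; c, d], by rw [det_fin_two_of, h]⟩

@[simp] theorem mat_00 (a b c d : ℚ) (h) : (mat a b c d h) 0 0 = a := rfl
@[simp] theorem mat_01 (a b c d : ℚ) (h) : (mat a b c d h) 0 1 = b := rfl
@[simp] theorem mat_10 (a b c d : ℚ) (h) : (mat a b c d h) 1 0 = c := rfl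
@[simp] theorem mat_11 (a b c d : ℚ) (h) : (mat a b c d h) 1 1 = d := rfl

theorem sl_ext {g g' : SL(2, ℚ)} (h00 : g 0 0 = g' 0 0) (h01 : g 0 1 = g' 0 1)
    (h10 : g 1 0 = g' 1 0) (h11 : g 1 1 = g' 1 1) : g = g' := by
  ext i j
  fin_cases i <;> fin_cases j <;> assumption

theorem sl_det (g : SL(2, ℚ)) : g 0 0 * g 1 1 - g 0 1 * g 1 0 = 1 := by
  have h := g.det_coe
  rw [det_fin_two] at h
  exact h

theorem sl_mul (g h : SL(2, ℚ)) (i j : Fin 2) :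
    (g * h) i j = g i 0 * h 0 j + g i 1 * h 1 j := by
  simp [Matrix.SpecialLinearGroup.coe_mul, Matrix.mul_apply, Fin.sum_univ_two]

theorem sl_inv (g : SL(2, ℚ)) :
    (g⁻¹) 0 0 = g 1 1 ∧ (g⁻¹) 0 1 = -g 0 1 ∧ (g⁻¹) 1 0 = -g 1 0 ∧ (g⁻¹) 1 1 = g 0 0 := by
  simp [Matrix.SpecialLinearGroup.coe_inv, Matrix.adjugate_fin_two]

@[simp] theorem sl_inv00 (g : SL(2, ℚ)) : (g⁻¹) 0 0 = g 1 1 := (sl_inv g).1
@[simp] theorem sl_inv01 (g : SL(2, ℚ)) : (g⁻¹) 0 1 = -g 0 1 := (sl_inv g).2.1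
@[simp] theorem sl_inv10 (g : SL(2, ℚ)) : (g⁻¹) 1 0 = -g 1 0 := (sl_inv g).2.2.1
@[simp] theorem sl_inv11 (g : SL(2, ℚ)) : (g⁻¹) 1 1 = g 0 0 := (sl_inv g).2.2.2

/-- Upper unipotent. -/
def up (t : ℚ) : SL(2, ℚ) := mat 1 t 0 1 (by ring)

/-- Lower unipotent. -/
def lo (t : ℚ) : SL(2, ℚ) := mat 1 0 t 1 (by ring)

/-- Diagonal matrix. -/
def dg (w : ℚ) (hw : w ≠ 0) : SL(2, ℚ) := mat w 0 0 w⁻¹ (by field_simp; ring)

@[simp] theorem up_00 (t : ℚ) : (up t) 0 0 = 1 := rfl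
@[simp] theorem up_01 (t : ℚ) : (up t) 0 1 = t := rfl
@[simp] theorem up_10 (t : ℚ) : (up t) 1 0 = 0 := rfl
@[simp] theorem up_11 (t : ℚ) : (up t) 1 1 = 1 := rfl
@[simp] theorem lo_00 (t : ℚ) : (lo t) 0 0 = 1 := rfl
@[simp] theorem lo_01 (t : ℚ) : (lo t) 0 1 = 0 := rfl
@[simp] theorem lo_10 (t : ℚ) : (lo t) 1 0 = t := rfl
@[simp] theorem lo_11 (t : ℚ) : (lo t) 1 1 = 1 := rfl
@[simp] theorem dg_00 (w : ℚ) (hw) : (dg w hw) 0 0 = w := rfl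
@[simp] theorem dg_01 (w : ℚ) (hw) : (dg w hw) 0 1 = 0 := rfl
@[simp] theorem dg_10 (w : ℚ) (hw) : (dg w hw) 1 0 = 0 := rfl
@[simp] theorem dg_11 (w : ℚ) (hw) : (dg w hw) 1 1 = w⁻¹ := rfl

theorem up_mul_up (s t : ℚ) : up s * up t = up (s + t) := by
  apply sl_ext <;> simp [sl_mul, add_comm]

/-- Trace of an element. -/
def tr2 (g : SL(2, ℚ)) : ℚ := g 0 0 + g 1 1

theorem tr2_conj (g x : SL(2, ℚ)) : tr2 (g * x * g⁻¹) = tr2 x := by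
  have h := sl_det g
  simp only [tr2, sl_mul, sl_inv00, sl_inv01, sl_inv10, sl_inv11]
  linear_combination (x 0 0 + x 1 1) * h

/-- `Γ₀(N)` over `ℤ[1/q]`. -/
def G0 (q : ℕ) (N : ℤ) : Subgroup SL(2, ℚ) where
  carrier := {g | IsQInt q (g 0 0) ∧ IsQInt q (g 0 1) ∧ IsQInt q (g 1 1) ∧ QDvd q N (g 1 0)}
  one_mem' := by simp [IsQInt.one, IsQInt.zero, QDvd.zero]
  mul_mem' := by
    rintro x y ⟨a, b, d, c⟩ ⟨a', b', d', c'⟩
    simp only [Set.mem_ofPred_eq, sl_mul]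
    exact ⟨(a.mul a').add (b.mul c'.isQInt), (a.mul b').add (b.mul d'),
      (c.isQInt.mul b').add (d.mul d'), (c.mul_right a').add (QDvd.mul_left d c')⟩
  inv_mem' := by
    rintro x ⟨a, b, d, c⟩
    simp only [Set.mem_ofPred_eq, sl_inv00, sl_inv01, sl_inv10, sl_inv11]
    exact ⟨d, b.neg, a, c.neg⟩

theorem mem_G0 {N : ℤ} {g : SL(2, ℚ)} :
    g ∈ G0 q N ↔
      IsQInt q (g 0 0) ∧ IsQInt q (g 0 1) ∧ IsQInt q (g 1 1) ∧ QDvd q N (g 1 0) := Iff.rfl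

/-- `Γ₁(N)` over `ℤ[1/q]`. -/
def G1 (q : ℕ) (N : ℤ) : Subgroup SL(2, ℚ) where
  carrier := {g | g ∈ G0 q N ∧ QDvd q N (g 0 0 - 1) ∧ QDvd q N (g 1 1 - 1)}
  one_mem' := ⟨one_mem _, by simp [QDvd.zero], by simp [QDvd.zero]⟩
  mul_mem' := by
    rintro x y ⟨hx, hxa, hxd⟩ ⟨hy, hya, hyd⟩
    refine ⟨mul_mem hx hy, ?_, ?_⟩
    · have : (x * y) 0 0 - 1 = (x 0 0 - 1) * y 0 0 + (y 0 0 - 1) + x 0 1 * y 1 0 := by
        rw [sl_mul]; ring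
      rw [this]
      exact ((hxa.mul_right hy.1).add hya).add (QDvd.mul_left hx.2.1 hy.2.2.2)
    · have : (x * y) 1 1 - 1 = (x 1 1 - 1) * y 1 1 + (y 1 1 - 1) + x 1 0 * y 0 1 := by
        rw [sl_mul]; ring
      rw [this]
      exact ((hxd.mul_right hy.2.2.1).add hyd).add (hx.2.2.2.mul_right hy.2.1)
  inv_mem' := by
    rintro x ⟨hx, hxa, hxd⟩
    exact ⟨inv_mem hx, by simpa using hxd, by simpa using hxa⟩

theorem mem_G1 {N : ℤ} {g : SL(2, ℚ)} :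
    g ∈ G1 q N ↔ g ∈ G0 q N ∧ QDvd q N (g 0 0 - 1) ∧ QDvd q N (g 1 1 - 1) := Iff.rfl

theorem G1_le_G0 (N : ℤ) : G1 q N ≤ G0 q N := fun _ h => h.1

theorem G0_mono {N M : ℤ} (h : N ∣ M) : G0 q M ≤ G0 q N :=
  fun _ hx => ⟨hx.1, hx.2.1, hx.2.2.1, hx.2.2.2.trans h⟩

theorem G1_mono {N M : ℤ} (h : N ∣ M) : G1 q M ≤ G1 q N :=
  fun _ hx => ⟨G0_mono h hx.1, hx.2.1.trans h, hx.2.2.trans h⟩

theorem mem_G1_of_d {N : ℤ} {g : SL(2, ℚ)} (hg : g ∈ G0 q N) (hd : QDvd q N (g 1 1 - 1)) :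
    g ∈ G1 q N := by
  refine ⟨hg, ?_, hd⟩
  have : g 0 0 - 1 = g 0 1 * g 1 0 - g 0 0 * (g 1 1 - 1) := by
    linear_combination sl_det g
  rw [this]
  exact (QDvd.mul_left hg.2.1 hg.2.2.2).sub (QDvd.mul_left hg.1 hd)

theorem up_mem_G1 {N : ℤ} {t : ℚ} (ht : IsQInt q t) : up t ∈ G1 q N :=
  ⟨by simp [mem_G0, IsQInt.one, ht, QDvd.zero], by simp [QDvd.zero], by simp [QDvd.zero]⟩

theorem lo_mem_G1 {N : ℤ} {t : ℚ} (ht : QDvd q N t) : lo t ∈ G1 q N :=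
  ⟨by simp [mem_G0, IsQInt.one, ht, IsQInt.zero], by simp [QDvd.zero], by simp [QDvd.zero]⟩

theorem dg_zpow_mem_G0 {N : ℤ} (hq : q ≠ 0) (i : ℤ) :
    dg ((q : ℚ) ^ i) (zpow_ne_zero _ (by exact_mod_cast hq)) ∈ G0 q N := by
  refine ⟨IsQInt.zpow hq i, IsQInt.zero, ?_, QDvd.zero _⟩
  rw [dg_11, ← _root_.zpow_neg]; exact IsQInt.zpow hq (-i)

/-- Principal congruence subgroup of level `M` over `ℤ[1/q]`, entrywise. -/
structure IsCongr (q : ℕ) (M : ℤ) (g : SL(2, ℚ)) : Prop where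
  a : QDvd q M (g 0 0 - 1)
  b : QDvd q M (g 0 1)
  c : QDvd q M (g 1 0)
  d : QDvd q M (g 1 1 - 1)

theorem IsCongr.mem_G1 {M N : ℤ} {g : SL(2, ℚ)} (h : IsCongr q M g) (hNM : N ∣ M) :
    g ∈ G1 q N := by
  refine ⟨⟨?_, h.b.isQInt, ?_, h.c.trans hNM⟩, h.a.trans hNM, h.d.trans hNM⟩
  · simpa using h.a.isQInt.add IsQInt.one
  · simpa using h.d.isQInt.add IsQInt.one

theorem IsCongr.trans {M M' : ℤ} {g : SL(2, ℚ)} (h : M ∣ M') (hg : IsCongr q M' g) :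
    IsCongr q M g :=
  ⟨hg.a.trans h, hg.b.trans h, hg.c.trans h, hg.d.trans h⟩

theorem exists_denominator (x : ℚ) : ∃ n : ℤ, (x.den : ℚ) * x = n :=
  ⟨x.num, Rat.den_mul_eq_num x⟩

/-- Conjugation by a rational matrix carries deep congruence subgroups into a given one. -/
theorem exists_conj_congr (g : SL(2, ℚ)) {M : ℤ} (hM : M ≠ 0) :
    ∃ M' : ℤ, M' ≠ 0 ∧ M ∣ M' ∧ ∀ x, IsCongr q M' x → IsCongr q M (g * x * g⁻¹) := by
  set D : ℤ := (g 0 0).den * (g 0 1).den * (g 1 0).den * (g 1 1).den with hD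
  have hD0 : D ≠ 0 := by simp [hD]
  have hint : ∀ i j : Fin 2, ∃ n : ℤ, (D : ℚ) * g i j = n := by
    intro i j
    obtain ⟨n, hn⟩ := exists_denominator (g i j)
    fin_cases i <;> fin_cases j
    · exact ⟨n * ((g 0 1).den * (g 1 0).den * (g 1 1).den), by
        simp only [hD] at hn ⊢; push_cast; rw [← hn]; simp only [Fin.zero_eta]; ring⟩
    · exact ⟨n * ((g 0 0).den * (g 1 0).den * (g 1 1).den), by
        simp only [hD] at hn ⊢; push_cast; rw [← hn]; simp only [Fin.zero_eta, Fin.mk_one]; ring⟩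
    · exact ⟨n * ((g 0 0).den * (g 0 1).den * (g 1 1).den), by
        simp only [hD] at hn ⊢; push_cast; rw [← hn]; simp only [Fin.zero_eta, Fin.mk_one]; ring⟩
    · exact ⟨n * ((g 0 0).den * (g 0 1).den * (g 1 0).den), by
        simp only [hD] at hn ⊢; push_cast; rw [← hn]; simp only [Fin.mk_one]; ring⟩
  obtain ⟨A, hA⟩ := hint 0 0
  obtain ⟨B, hB⟩ := hint 0 1
  obtain ⟨C, hC⟩ := hint 1 0
  obtain ⟨E, hE⟩ := hint 1 1
  refine ⟨M * D ^ 2, mul_ne_zero hM (pow_ne_zero _ hD0), Dvd.intro _ rfl, fun x hx => ?_⟩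
  obtain ⟨y00, i00, e00⟩ := hx.a
  obtain ⟨y01, i01, e01⟩ := hx.b
  obtain ⟨y10, i10, e10⟩ := hx.c
  obtain ⟨y11, i11, e11⟩ := hx.d
  have hd := sl_det g
  push_cast at e00 e01 e10 e11
  have key : ∀ (u v w z : ℤ), QDvd q M
      ((M : ℚ) * ((u : ℚ) * y00 + v * y01 + w * y10 + z * y11)) :=
    fun u v w z => ⟨_, ((((IsQInt.intCast u).mul i00).add ((IsQInt.intCast v).mul i01)).add
      ((IsQInt.intCast w).mul i10)).add ((IsQInt.intCast z).mul i11), rfl⟩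
  refine ⟨?_, ?_, ?_, ?_⟩ <;> simp only [sl_mul, sl_inv00, sl_inv01, sl_inv10, sl_inv11]
  · convert key (A * E) (-(A * C)) (B * E) (-(B * C)) using 1
    push_cast; rw [← hA, ← hB, ← hC, ← hE]
    linear_combination (g 0 0 * g 1 1) * e00 - (g 0 0 * g 1 0) * e01 + (g 0 1 * g 1 1) * e10
      - (g 0 1 * g 1 0) * e11 + hd
  · convert key (-(A * B)) (A * A) (-(B * B)) (A * B) using 1
    push_cast; rw [← hA, ← hB]
    linear_combination -(g 0 0 * g 0 1) * e00 + (g 0 0 * g 0 0) * e01 - (g 0 1 * g 0 1) * e10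
      + (g 0 0 * g 0 1) * e11
  · convert key (C * E) (-(C * C)) (E * E) (-(C * E)) using 1
    push_cast; rw [← hC, ← hE]
    linear_combination (g 1 0 * g 1 1) * e00 - (g 1 0 * g 1 0) * e01 + (g 1 1 * g 1 1) * e10
      - (g 1 0 * g 1 1) * e11
  · convert key (-(B * C)) (A * C) (-(B * E)) (A * E) using 1
    push_cast; rw [← hA, ← hB, ← hC, ← hE]
    linear_combination -(g 0 1 * g 1 0) * e00 + (g 0 0 * g 1 0) * e01 - (g 0 1 * g 1 1) * e10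
      + (g 0 0 * g 1 1) * e11 + hd

end Fermat.Agent.Ihara
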