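import Fermat.Agent.Ihara.QInt

/-!
# Admissible homomorphisms and bottom rows

An admissible homomorphism on `Γ₁(L)` over `ℤ[1/q]` kills the elementary unipotents.

## Main results

* `Adm.row_congr_c`, `Adm.row_congr_d`: its value depends only on the bottom row, up to elementary
  moves.
* `exists_prime_row`: a representative whose lower right entry is a large prime.
-/

set_option autoImplicit false

namespace Fermat.Agent.Ihara

open Matrix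
open scoped MatrixGroups

variable {q : ℕ} {F : Type*} [AddCommGroup F]

/-- Homomorphism on `Γ₁(L)[1/q]` killing elementary unipotents. -/
structure Adm (q : ℕ) (L : ℤ) (f : SL(2, ℚ) → F) : Prop where
  hom : ∀ x ∈ G1 q L, ∀ y ∈ G1 q L, f (x * y) = f x + f y
  up : ∀ t, IsQInt q t → f (up t) = 0
  lo : ∀ t, QDvd q L t → f (lo t) = 0

namespace Adm

variable {L : ℤ} {f : SL(2, ℚ) → F}

theorem map_one (hf : Adm q L f) : f 1 = 0 := by
  have h := hf.hom 1 (one_mem _) 1 (one_mem _)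
  simpa using h

theorem map_inv (hf : Adm q L f) {x : SL(2, ℚ)} (hx : x ∈ G1 q L) : f x⁻¹ = -f x := by
  have h := hf.hom x hx x⁻¹ (inv_mem hx)
  rw [mul_inv_cancel, hf.map_one] at h
  exact eq_neg_of_add_eq_zero_right h.symm

theorem eq_of_row (hf : Adm q L f) {x y : SL(2, ℚ)} (hx : x ∈ G1 q L) (hy : y ∈ G1 q L)
    (hc : x 1 0 = y 1 0) (hd : x 1 1 = y 1 1) : f x = f y := by
  have hz : y * x⁻¹ = Ihara.up ((y * x⁻¹) 0 1) := by
    have h10 : (y * x⁻¹) 1 0 = 0 := by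
      rw [sl_mul, sl_inv00, sl_inv10, ← hc, ← hd]; ring
    have h11 : (y * x⁻¹) 1 1 = 1 := by
      rw [sl_mul, sl_inv01, sl_inv11, ← hc, ← hd]; linear_combination sl_det x
    have h00 : (y * x⁻¹) 0 0 = 1 := by
      have h := sl_det (y * x⁻¹)
      rw [h10, h11] at h
      linarith
    exact sl_ext (by simpa using h00) (by simp) (by simpa using h10) (by simpa using h11)
  have hmem := mul_mem hy (inv_mem hx)
  have h := hf.hom _ hmem x hx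
  rw [inv_mul_cancel_right, hz, hf.up _ hmem.1.2.1, zero_add] at h
  exact h.symm

theorem mul_up (hf : Adm q L f) {x : SL(2, ℚ)} (hx : x ∈ G1 q L) {t : ℚ} (ht : IsQInt q t) :
    f (x * Ihara.up t) = f x := by
  rw [hf.hom x hx _ (up_mem_G1 ht), hf.up t ht, add_zero]

theorem mul_lo (hf : Adm q L f) {x : SL(2, ℚ)} (hx : x ∈ G1 q L) {t : ℚ} (ht : QDvd q L t) :
    f (x * Ihara.lo t) = f x := by
  rw [hf.hom x hx _ (lo_mem_G1 ht), hf.lo t ht, add_zero]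

end Adm

/-- Integral bottom row `(L c₀, d)` of an element of `Γ₁(L)[1/q]`. -/
structure Row (q : ℕ) (L : ℤ) (g : SL(2, ℚ)) (c₀ d : ℤ) : Prop where
  mem : g ∈ G1 q L
  c : g 1 0 = ((L * c₀ : ℤ) : ℚ)
  d : g 1 1 = (d : ℚ)

theorem exists_row_of_coprime {L c₀ d : ℤ} (hco : IsCoprime c₀ d) (hd : L ∣ d - 1) :
    ∃ g, Row q L g c₀ d := by
  have hLd : IsCoprime L d := by
    obtain ⟨k, hk⟩ := hd
    exact ⟨-k, 1, by linarith⟩
  obtain ⟨u, v, huv⟩ := hLd.mul_left hco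
  have hdet : (v : ℚ) * d - ((-u : ℤ) : ℚ) * ((L * c₀ : ℤ) : ℚ) = 1 := by
    have := congrArg (fun z : ℤ => (z : ℚ)) huv
    push_cast at this ⊢
    linarith
  refine ⟨mat v (-u : ℤ) (L * c₀ : ℤ) d hdet, mem_G1_of_d ?_ ?_, rfl, rfl⟩
  · refine ⟨IsQInt.intCast _, IsQInt.intCast _, IsQInt.intCast _, ?_⟩
    exact QDvd.of_dvd (Dvd.intro _ rfl)
  · have : ((d : ℤ) : ℚ) - 1 = ((d - 1 : ℤ) : ℚ) := by push_cast; ring
    rw [mat_11, this]
    exact QDvd.of_dvd hd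

theorem Adm.row_eq {L : ℤ} {f : SL(2, ℚ) → F} (hf : Adm q L f) {g g' : SL(2, ℚ)}
    {c₀ d : ℤ} (h : Row q L g c₀ d) (h' : Row q L g' c₀ d) : f g = f g' :=
  hf.eq_of_row h.mem h'.mem (h.c.trans h'.c.symm) (h.d.trans h'.d.symm)

/-- The value only depends on the lower left entry modulo the lower right one. -/
theorem Adm.row_congr_c {L : ℤ} {f : SL(2, ℚ) → F} (hf : Adm q L f) {g g' : SL(2, ℚ)}
    {c₀ c₀' d : ℤ} (h : Row q L g c₀ d) (h' : Row q L g' c₀' d) (hdvd : d ∣ c₀' - c₀) :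
    f g = f g' := by
  obtain ⟨t, ht⟩ := hdvd
  have htL : QDvd q L ((L * t : ℤ) : ℚ) := QDvd.of_dvd (Dvd.intro _ rfl)
  rw [← hf.mul_lo h.mem htL]
  refine hf.eq_of_row (mul_mem h.mem (lo_mem_G1 htL)) h'.mem ?_ ?_
  · simp only [sl_mul, lo_00, lo_10, h.c, h.d, h'.c]
    rw [show c₀' = c₀ + d * t by linarith]
    push_cast; ring
  · simp only [sl_mul, lo_01, lo_11, h.d, h'.d]; ring

/-- The value only depends on the lower right entry modulo `L` times the lower left one. -/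
theorem Adm.row_congr_d {L : ℤ} {f : SL(2, ℚ) → F} (hf : Adm q L f) {g g' : SL(2, ℚ)}
    {c₀ d d' : ℤ} (h : Row q L g c₀ d) (h' : Row q L g' c₀ d') (hdvd : L * c₀ ∣ d' - d) :
    f g = f g' := by
  obtain ⟨t, ht⟩ := hdvd
  rw [← hf.mul_up h.mem (IsQInt.intCast t)]
  refine hf.eq_of_row (mul_mem h.mem (up_mem_G1 (IsQInt.intCast t))) h'.mem ?_ ?_
  · simp only [sl_mul, up_00, up_10, h.c, h'.c]; ring
  · simp only [sl_mul, up_01, up_11, h.c, h.d, h'.d]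
    rw [show d' = d + L * c₀ * t by linarith]
    push_cast; ring

theorem Row.coprime {L : ℤ} (hq : q.Prime) {g : SL(2, ℚ)} {c₀ d : ℤ} (h : Row q L g c₀ d)
    (hqd : ¬(q : ℤ) ∣ d) : IsCoprime c₀ d := by
  obtain ⟨ka, na, hna⟩ := h.mem.1.1
  obtain ⟨kb, nb, hnb⟩ := h.mem.1.2.1
  have hdet := sl_det g
  rw [h.c, h.d] at hdet
  have key : na * (q : ℤ) ^ kb * d - nb * (q : ℤ) ^ ka * L * c₀ = (q : ℤ) ^ (ka + kb) := by
    have : ((na * (q : ℤ) ^ kb * d - nb * (q : ℤ) ^ ka * L * c₀ : ℤ) : ℚ)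
        = (((q : ℤ) ^ (ka + kb) : ℤ) : ℚ) := by
      push_cast; rw [← hna, ← hnb]; push_cast at hdet
      linear_combination ((q : ℚ) ^ ka * (q : ℚ) ^ kb) * hdet
    exact_mod_cast this
  have hcq : IsCoprime ((q : ℤ) ^ (ka + kb)) d :=
    ((Nat.prime_iff_prime_int.mp hq).coprime_iff_not_dvd.mpr hqd).pow_left
  obtain ⟨x, y, hxy⟩ := hcq
  exact ⟨-x * nb * (q : ℤ) ^ ka * L, x * na * (q : ℤ) ^ kb + y, by linear_combination hxy + x * key⟩

/-- Every element is equivalent to one with integral bottom row `(L c₀, d)`, `d` a large prime. -/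
theorem exists_prime_row {L : ℤ} (hq : q.Prime) (hL : L ≠ 0) (hqL : ¬(q : ℤ) ∣ L)
    {g : SL(2, ℚ)} (hg : g ∈ G1 q L) (B : ℕ) :
    ∃ (g' : SL(2, ℚ)) (c₀ : ℤ) (d : ℕ), d.Prime ∧ B < d ∧ Row q L g' c₀ d ∧
      ∀ (f : SL(2, ℚ) → F), Adm q L f → f g' = f g := by
  have hqz : Prime (q : ℤ) := Nat.prime_iff_prime_int.mp hq
  have hq0 : (q : ℚ) ≠ 0 := by exact_mod_cast hq.ne_zero
  -- make the lower left entry nonzero
  obtain ⟨g₁, hg₁, hc₁, hval₁⟩ : ∃ g₁, g₁ ∈ G1 q L ∧ g₁ 1 0 ≠ 0 ∧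
      ∀ (f : SL(2, ℚ) → F), Adm q L f → f g₁ = f g := by
    by_cases hc : g 1 0 = 0
    · refine ⟨g * lo L, mul_mem hg (lo_mem_G1 (QDvd.self L)), ?_,
        fun f hf => hf.mul_lo hg (QDvd.self L)⟩
      have hd := sl_det g
      rw [hc] at hd
      simp only [sl_mul, lo_00, lo_10, hc, zero_mul, zero_add]
      refine mul_ne_zero ?_ (by exact_mod_cast hL)
      intro h0; rw [h0] at hd; simp at hd
    · exact ⟨g, hg, hc, fun f _ => rfl⟩
  obtain ⟨y, ⟨k, m, hm⟩, hy⟩ := hg₁.1.2.2.2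
  obtain ⟨j, n, hn⟩ := hg₁.1.2.2.1
  obtain ⟨ka, na, hna⟩ := hg₁.1.1
  obtain ⟨kb, nb, hnb⟩ := hg₁.1.2.1
  have hm0 : m ≠ 0 := by
    rintro rfl
    simp [hq0] at hm
    exact hc₁ (by simp [hy, hm])
  obtain ⟨s, m₀, hm₀, rfl⟩ : ∃ (s : ℕ) (m₀ : ℤ), ¬(q : ℤ) ∣ m₀ ∧ m = (q : ℤ) ^ s * m₀ :=
    WfDvdMonoid.max_power_factor hm0 hqz.irreducible
  -- the relation `a d - b c = 1` cleared of denominators
  have key : na * (q : ℤ) ^ (kb + k) * n - nb * (q : ℤ) ^ (ka + j) * L * ((q : ℤ) ^ s * m₀)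
      = (q : ℤ) ^ (ka + kb + j + k) := by
    have hdet := sl_det g₁
    rw [hy] at hdet
    have : ((na * (q : ℤ) ^ (kb + k) * n - nb * (q : ℤ) ^ (ka + j) * L * ((q : ℤ) ^ s * m₀)
        : ℤ) : ℚ)
        = (((q : ℤ) ^ (ka + kb + j + k) : ℤ) : ℚ) := by
      push_cast at hm ⊢
      rw [← hna, ← hnb, ← hn, ← hm]
      linear_combination ((q : ℚ) ^ (ka + kb + j + k)) * hdet
    exact_mod_cast this
  have hQ : IsCoprime ((q : ℤ)) (L * m₀) :=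
    (hqz.coprime_iff_not_dvd.mpr hqL).mul_right (hqz.coprime_iff_not_dvd.mpr hm₀)
  obtain ⟨u, v, huv⟩ : IsCoprime ((q : ℤ) ^ j) (L * m₀) := hQ.pow_left
  have hnu : IsCoprime (n * u) (L * m₀) := by
    refine IsCoprime.mul_left ?_ ⟨(q : ℤ) ^ j, v, by linear_combination huv⟩
    obtain ⟨x, z, hxz⟩ : IsCoprime ((q : ℤ) ^ (ka + kb + j + k)) (L * m₀) := hQ.pow_left
    exact ⟨x * na * (q : ℤ) ^ (kb + k), z - x * nb * (q : ℤ) ^ (ka + j) * (q : ℤ) ^ s,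
      by linear_combination hxz + x * key⟩
  have hLm : (L * m₀).natAbs ≠ 0 := by
    simp only [Int.natAbs_ne_zero]
    exact mul_ne_zero hL fun h => hm₀ (h ▸ dvd_zero _)
  obtain ⟨d, hdB, hd, hdmod⟩ := Nat.forall_exists_prime_gt_and_zmodEq (B + q) hLm
    (a := n * u) (by rw [Int.natCast_natAbs]; simpa using hnu.abs_right)
  obtain ⟨w, hw⟩ : L * m₀ ∣ (d : ℤ) - n * u := by
    rw [← Int.natAbs_dvd]
    exact Int.ModEq.dvd hdmod.symm
  -- `d = n / q ^ j + (L y) t`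
  have hqs : ((q : ℚ) ^ s) ≠ 0 := pow_ne_zero _ hq0
  have hqj : ((q : ℚ) ^ j) ≠ 0 := pow_ne_zero _ hq0
  have hqk : ((q : ℚ) ^ k) ≠ 0 := pow_ne_zero _ hq0
  set t : ℚ := ((w : ℚ) * (q : ℚ) ^ j - (n : ℚ) * v) * (q : ℚ) ^ k *
    ((q : ℚ) ^ (-(j : ℤ))) * ((q : ℚ) ^ (-(s : ℤ))) with ht
  have htI : IsQInt q t := by
    rw [ht]
    refine (((IsQInt.mul ?_ ?_).mul (IsQInt.zpow hq.ne_zero _)).mul (IsQInt.zpow hq.ne_zero _))
    · exact ⟨0, w * (q : ℤ) ^ j - n * v, by push_cast; ring⟩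
    · exact ⟨0, (q : ℤ) ^ k, by simp⟩
  have hd₂ : (g₁ * up t) 1 1 = ((d : ℤ) : ℚ) := by
    have huv' : (u : ℚ) * (q : ℚ) ^ j + v * (L * m₀) = 1 := by exact_mod_cast huv
    have hw' : ((d : ℤ) : ℚ) - n * u = L * m₀ * w := by exact_mod_cast hw
    simp only [sl_mul, up_01, up_11, ht, hy, _root_.zpow_neg, zpow_natCast]
    push_cast at hm
    have hn' : g₁ 1 1 = n * ((q : ℚ) ^ j)⁻¹ := by rw [← hn]; field_simp
    have hy' : y = (q : ℚ) ^ s * m₀ * ((q : ℚ) ^ k)⁻¹ := by rw [← hm]; field_simp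
    rw [hn', hy']
    field_simp
    linear_combination -(n : ℚ) * huv' - (q : ℚ) ^ j * hw'
  have hg₂ : g₁ * up t ∈ G1 q L := mul_mem hg₁ (up_mem_G1 htI)
  -- make the lower left entry integral
  have hqd : ¬(q : ℤ) ∣ (d : ℤ) := by
    rw [Int.natCast_dvd_natCast, Nat.prime_dvd_prime_iff_eq hq hd]; omega
  obtain ⟨u', v', huv''⟩ : IsCoprime ((q : ℤ) ^ k) (d : ℤ) :=
    (hqz.coprime_iff_not_dvd.mpr hqd).pow_left
  set t' : ℚ := (-((q : ℤ) ^ s * m₀ * v') : ℤ) * (q : ℚ) ^ (-(k : ℤ)) with ht'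
  have ht'I : QDvd q L ((L : ℚ) * t') :=
    ⟨t', (IsQInt.intCast _).mul (IsQInt.zpow hq.ne_zero _), rfl⟩
  refine ⟨g₁ * up t * lo ((L : ℚ) * t'), (q : ℤ) ^ s * m₀ * u', d, hd, by omega,
    ⟨mul_mem hg₂ (lo_mem_G1 ht'I), ?_, ?_⟩, fun f hf => ?_⟩
  · simp only [sl_mul (g₁ * up t), lo_00, lo_10, hd₂]
    simp only [sl_mul, up_00, up_10, hy, ht', _root_.zpow_neg, zpow_natCast]
    push_cast at hm ⊢
    have hy' : y = (q : ℚ) ^ s * m₀ * ((q : ℚ) ^ k)⁻¹ := by rw [← hm]; field_simp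
    have huv3 : (u' : ℚ) * (q : ℚ) ^ k + v' * d = 1 := by exact_mod_cast huv''
    rw [hy']
    field_simp
    linear_combination -((L : ℚ) * (q : ℚ) ^ s * m₀) * huv3
  · simp only [sl_mul (g₁ * up t), lo_01, lo_11, hd₂]; ring
  · rw [hf.mul_lo hg₂ ht'I, hf.mul_up hg₁ htI, hval₁ f hf]

end Fermat.Agent.Ihara
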