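import Fermat.Agent.Ihara.TorusInvariance

/-!
# Homomorphisms of `Γ₁(N)[1/q]` killing unipotents

## Main results

* `UniHom`: such a homomorphism, invariant under conjugation by `Γ₀(N)[1/q]`.
* `dg_mem_stab`: for all but finitely many primes `r`, conjugation by `diag(r, 1/r)` fixes it on a
  congruence subgroup.
-/

set_option autoImplicit false

namespace Fermat.Agent.Ihara

open Matrix
open scoped MatrixGroups

variable {q : ℕ} [Fact q.Prime] {F : Type*} [AddCommGroup F]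

/-- Homomorphism on `Γ₁(N)[1/q]` killing unipotents, invariant under conjugation by
`Γ₀(N)[1/q]`. -/
structure UniHom (q : ℕ) (N : ℤ) (f : SL(2, ℚ) → F) : Prop where
  hom : ∀ x ∈ G1 q N, ∀ y ∈ G1 q N, f (x * y) = f x + f y
  uni : ∀ x ∈ G1 q N, tr2 x = 2 → f x = 0
  conj_self : ∀ g ∈ G0 q N, ∀ x ∈ G1 q N, f (g * x * g⁻¹) = f x

namespace UniHom

variable {N : ℤ} {f : SL(2, ℚ) → F}

omit [Fact (Nat.Prime q)] in
theorem adm (hf : UniHom q N f) : Adm q N f where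
  hom x hx y hy := hf.hom x hx y hy
  up t ht := hf.uni _ (up_mem_G1 ht) (by simp [tr2]; norm_num)
  lo t ht := hf.uni _ (lo_mem_G1 ht) (by simp [tr2]; norm_num)

end UniHom

/-- Elements whose conjugation fixes `f` on some congruence subgroup. -/
def stab {N : ℤ} (hN : N ≠ 0) (f : SL(2, ℚ) → F) : Subgroup SL(2, ℚ) where
  carrier := {g | ∃ M : ℤ, M ≠ 0 ∧ N ∣ M ∧
    ∀ x, IsCongr q M x → g * x * g⁻¹ ∈ G0 q N ∧ f (g * x * g⁻¹) = f x}
  one_mem' := ⟨N, hN, dvd_rfl, fun x hx => by simpa using (hx.mem_G1 dvd_rfl).1⟩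
  mul_mem' := by
    rintro g h ⟨M, hM, hNM, hg⟩ ⟨M', hM', hNM', hh⟩
    obtain ⟨M'', hM'', hMM, hconj⟩ := exists_conj_congr (q := q) h hM
    refine ⟨M'' * M', mul_ne_zero hM'' hM', (hNM.trans hMM).trans (dvd_mul_right _ _),
      fun x hx => ?_⟩
    obtain ⟨h1, h2⟩ := hh x (hx.trans (dvd_mul_left _ _))
    obtain ⟨g1, g2⟩ := hg _ (hconj x (hx.trans (dvd_mul_right _ _)))
    rw [show g * h * x * (g * h)⁻¹ = g * (h * x * h⁻¹) * g⁻¹ by group]
    exact ⟨g1, g2.trans h2⟩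
  inv_mem' := by
    rintro g ⟨M, hM, hNM, hg⟩
    obtain ⟨M', hM', hMM', hconj⟩ := exists_conj_congr (q := q) g⁻¹ hM
    refine ⟨M', hM', hNM.trans hMM', fun x hx => ?_⟩
    have hc := hconj x hx
    obtain ⟨-, g2⟩ := hg _ hc
    refine ⟨(hc.mem_G1 hNM).1, ?_⟩
    rw [← g2]; congr 1; group

omit [Fact (Nat.Prime q)] in
theorem G0_le_stab {N : ℤ} (hN : N ≠ 0) {f : SL(2, ℚ) → F} (hf : UniHom q N f) :
    G0 q N ≤ stab (q := q) hN f := fun g hg =>
  ⟨N, hN, dvd_rfl, fun x hx =>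
    ⟨mul_mem (mul_mem hg (hx.mem_G1 dvd_rfl).1) (inv_mem hg),
      hf.conj_self g hg x (hx.mem_G1 dvd_rfl)⟩⟩

variable {N : ℕ}

omit [Fact (Nat.Prime q)] in
theorem conj_up_mem {r : ℕ} (hr : r ≠ 0) {x : SL(2, ℚ)}
    (hx : x ∈ G1 q ((N * r ^ 2 : ℕ) : ℤ)) :
    up ((r : ℚ)⁻¹) * x * (up ((r : ℚ)⁻¹))⁻¹ ∈ G0 q N := by
  obtain ⟨⟨ia, ib, id, yc, iyc, hc⟩, ⟨ya, iya, ha⟩, yd, iyd, hd⟩ := hx
  push_cast at ha hc hd
  have hr' : (r : ℚ) ≠ 0 := by exact_mod_cast hr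
  have iN : IsQInt q (N : ℚ) := IsQInt.natCast N
  have ir : IsQInt q (r : ℚ) := IsQInt.natCast r
  simp only [mem_G0, sl_mul, sl_inv00, sl_inv01, sl_inv10, sl_inv11, up_00, up_01, up_10, up_11]
  refine ⟨?_, ?_, ?_, ?_⟩
  · convert ia.add (((iN.mul ir)).mul iyc) using 1
    rw [hc]; field_simp; ring
  · convert (ib.add (((iN.mul ir)).mul (iyd.sub iya))).sub (iN.mul iyc) using 1
    have ha' : x 0 0 = 1 + N * r ^ 2 * ya := by linear_combination ha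
    have hd' : x 1 1 = 1 + N * r ^ 2 * yd := by linear_combination hd
    rw [hc, ha', hd']; field_simp; ring
  · convert id.sub (((iN.mul ir)).mul iyc) using 1
    rw [hc]; field_simp; ring
  · exact ⟨(r : ℚ) ^ 2 * yc, ((IsQInt.natCast r).mul (IsQInt.natCast r) |> fun h => by
      simpa [pow_two] using h.mul iyc), by rw [hc]; push_cast; ring⟩

omit [Fact (Nat.Prime q)] in
theorem conj_up_mem_G1 {r : ℕ} (hr : r ≠ 0) {x : SL(2, ℚ)}
    (hx : x ∈ G1 q ((N * r ^ 2 : ℕ) : ℤ)) :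
    up ((r : ℚ)⁻¹) * x * (up ((r : ℚ)⁻¹))⁻¹ ∈ G1 q (N : ℤ) := by
  refine mem_G1_of_d (conj_up_mem hr hx) ?_
  obtain ⟨⟨-, -, -, yc, iyc, hc⟩, -, yd, iyd, hd⟩ := hx
  push_cast at hc hd
  refine ⟨(r : ℚ) ^ 2 * yd - r * yc, ?_, ?_⟩
  · simpa [pow_two] using
      (((IsQInt.natCast r).mul (IsQInt.natCast r)).mul iyd).sub ((IsQInt.natCast r).mul iyc)
  · simp only [sl_mul, sl_inv01, sl_inv11, up_00, up_01, up_10, up_11]
    rw [hc]
    push_cast
    have hr' : (r : ℚ) ≠ 0 := by exact_mod_cast hr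
    field_simp
    linear_combination (r : ℚ) * hd

omit [Fact (Nat.Prime q)] in
theorem adm_conj_up {f : SL(2, ℚ) → F} (hf : UniHom q N f) {r : ℕ} (hr : r ≠ 0) :
    Adm q ((N * r ^ 2 : ℕ) : ℤ) fun x => f (up ((r : ℚ)⁻¹) * x * (up ((r : ℚ)⁻¹))⁻¹) where
  hom x hx y hy := by
    show f _ = _
    rw [show ∀ g : SL(2, ℚ), g * (x * y) * g⁻¹ = (g * x * g⁻¹) * (g * y * g⁻¹) from
      fun g => by group]
    exact hf.hom _ (conj_up_mem_G1 hr hx) _ (conj_up_mem_G1 hr hy)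
  up t ht := hf.uni _ (conj_up_mem_G1 hr (up_mem_G1 ht)) (by rw [tr2_conj]; simp [tr2]; norm_num)
  lo t ht := hf.uni _ (conj_up_mem_G1 hr (lo_mem_G1 ht)) (by rw [tr2_conj]; simp [tr2]; norm_num)

/-- `diag(r, 1/r)` fixes `f` on a deep congruence subgroup. -/
theorem dg_mem_stab (hN : N ≠ 0) (hqN : ¬q ∣ N) {f : SL(2, ℚ) → F} (hf : UniHom q N f)
    {r : ℕ} (hr : r.Prime) (hrq : r ≠ q) (hrN : ¬r ∣ N)
    (hgood : ¬(r : ℤ) ∣ (q : ℤ) ^ (4 * N) - 1) :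
    dg (r : ℚ) (by exact_mod_cast hr.ne_zero) ∈
      stab (q := q) (N := (N : ℤ)) (by exact_mod_cast hN) f := by
  have hq : q.Prime := Fact.out
  have hrq0 : (r : ℚ) ≠ 0 := by exact_mod_cast hr.ne_zero
  set L : ℕ := N * r ^ 2 with hL
  have hL0 : L ≠ 0 := by simp [hL, hN, hr.ne_zero]
  have hqL : ¬q ∣ L := by
    intro h
    rcases hq.dvd_mul.mp h with h | h
    · exact hqN h
    · exact hrq ((Nat.prime_dvd_prime_iff_eq hq hr).mp (hq.dvd_of_dvd_pow h)).symm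
  set S := stab (q := q) (N := (N : ℤ)) (by exact_mod_cast hN) f with hS
  have hG0 : G0 q (N : ℤ) ≤ S := G0_le_stab _ hf
  set g := up ((r : ℚ)⁻¹) with hg
  set h := tor q (2 * L : ℤ) with hh
  -- `g h g⁻¹` lies in the stabilizer
  have he : g * h * g⁻¹ ∈ S := by
    obtain ⟨M, hM, hLM, hconj⟩ := exists_conj_congr (q := q) g⁻¹
      (M := (L : ℤ)) (by exact_mod_cast hL0)
    have hNL : (N : ℤ) ∣ (L : ℤ) := ⟨(r : ℤ) ^ 2, by simp [hL]⟩
    refine ⟨M, hM, hNL.trans hLM, fun x hx => ?_⟩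
    have hy : g⁻¹ * x * (g⁻¹)⁻¹ ∈ G1 q (L : ℤ) := (hconj x hx).mem_G1 dvd_rfl
    rw [show g * h * g⁻¹ * x * (g * h * g⁻¹)⁻¹
        = g * (h * (g⁻¹ * x * (g⁻¹)⁻¹) * h⁻¹) * g⁻¹ by group]
    refine ⟨conj_up_mem hr.ne_zero (tor_conj_mem _ hy), ?_⟩
    have := two_mul_mem_fixExp (F := F) hL0 hqL hy _ (adm_conj_up hf hr.ne_zero)
    simp only [← hg] at this
    rw [this]; congr 1; group
  -- upper unipotents in the stabilizer
  let U : AddSubgroup ℚ :=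
    { carrier := {t | up t ∈ S}
      zero_mem' := by
        show up 0 ∈ S
        rw [show up 0 = 1 from sl_ext (by simp) (by simp) (by simp) (by simp)]; exact one_mem _
      add_mem' := fun {a b} ha hb => by show up _ ∈ S; rw [← up_mul_up]; exact mul_mem ha hb
      neg_mem' := fun {a} ha => by
        show up _ ∈ S
        rw [show up (-a) = (up a)⁻¹ from sl_ext (by simp) (by simp) (by simp) (by simp)]
        exact inv_mem ha }
  set n : ℤ := 1 - (q : ℤ) ^ (4 * L) with hn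
  have hnU : (n : ℚ) * (r : ℚ)⁻¹ ∈ U := by
    show up _ ∈ S
    have : g * h * g⁻¹ * h⁻¹ ∈ S := mul_mem he (inv_mem (hG0 (dg_zpow_mem_G0 hq.ne_zero _)))
    convert this using 1
    rw [show g * h * g⁻¹ * h⁻¹ = g * (h * g⁻¹ * h⁻¹) by group, hg,
      show (up ((r : ℚ)⁻¹))⁻¹ = up (-((r : ℚ)⁻¹)) from
        sl_ext (by simp) (by simp) (by simp) (by simp), hh, tor_conj_up, up_mul_up, hn]
    congr 1
    push_cast
    rw [show (2 : ℤ) * (2 * (L : ℤ)) = ((4 * L : ℕ) : ℤ) by push_cast; ring, zpow_natCast]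
    ring
  have hndvd : ¬(r : ℤ) ∣ n := by
    intro hd
    apply hgood
    have : Fact r.Prime := ⟨hr⟩
    rw [← ZMod.intCast_zmod_eq_zero_iff_dvd] at hd ⊢
    simp only [hn, hL] at hd
    push_cast at hd ⊢
    have h4 : 4 * (N * r ^ 2) = (4 * N) * r * r := by ring
    rw [h4, pow_mul, ZMod.pow_card, pow_mul, ZMod.pow_card] at hd
    linear_combination -hd
  obtain ⟨a, b, hab⟩ := ((Nat.prime_iff_prime_int.mp hr).coprime_iff_not_dvd.mpr hndvd).symm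
  have hinvU : (r : ℚ)⁻¹ ∈ U := by
    have hb : (b : ℚ) ∈ U := hG0 (up_mem_G1 (IsQInt.intCast b)).1
    have h2 : a • ((n : ℚ) * (r : ℚ)⁻¹) + (b : ℚ) ∈ U :=
      add_mem (AddSubgroup.zsmul_mem _ hnU a) hb
    convert h2 using 1
    have hab' : (a : ℚ) * n + b * r = 1 := by exact_mod_cast hab
    rw [zsmul_eq_mul]
    field_simp
    linear_combination -hab'
  -- Whitehead identity
  obtain ⟨u, t, hut⟩ : IsCoprime (r : ℤ) (N : ℤ) :=
    (Nat.prime_iff_prime_int.mp hr).coprime_iff_not_dvd.mpr (by exact_mod_cast hrN)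
  have hP : mat (u : ℚ) 1 (-(N * t) : ℤ) (r : ℚ) (by
      have : (u : ℚ) * r + t * N = 1 := by exact_mod_cast hut
      push_cast; linear_combination this) ∈ S := hG0
    ⟨IsQInt.intCast _, IsQInt.one, IsQInt.natCast _, QDvd.of_dvd ⟨-t, by ring⟩⟩
  have hlo : lo ((-(N * t * r) : ℤ) : ℚ) ∈ S :=
    hG0 (lo_mem_G1 (QDvd.of_dvd ⟨-t * r, by ring⟩)).1
  have hd : (dg (r : ℚ) hrq0)⁻¹ ∈ S := by
    have h3 := mul_mem (mul_mem (inv_mem hlo) (inv_mem (hinvU : up ((r : ℚ)⁻¹) ∈ S))) hP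
    convert h3 using 1
    have hut' : (u : ℚ) * r + t * N = 1 := by exact_mod_cast hut
    apply sl_ext <;> simp [sl_mul] <;> field_simp
    · linear_combination -hut'
    · norm_num
    · linear_combination -((t : ℚ) * N) * hut'
    · ring
  exact inv_mem_iff.mp hd

end Fermat.Agent.Ihara
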