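import Fermat.Agent.Ihara.Rows

/-!
# Torus invariance of admissible homomorphisms

## Main results

* `two_mul_mem_fixExp`: a fixed power of the torus acts trivially on every admissible
  homomorphism of `Γ₁(L)[1/q]`.
-/

set_option autoImplicit false

namespace Fermat.Agent.Ihara

open Matrix
open scoped MatrixGroups

variable {q : ℕ} [Fact q.Prime] {F : Type*} [AddCommGroup F]

theorem qcast_ne_zero : (q : ℚ) ≠ 0 := by exact_mod_cast (Fact.out : q.Prime).ne_zero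

/-- The torus element `diag(q ^ i, q ^ (-i))`. -/
def tor (q : ℕ) [Fact q.Prime] (i : ℤ) : SL(2, ℚ) :=
  dg ((q : ℚ) ^ i) (zpow_ne_zero _ qcast_ne_zero)

theorem tor_add (i j : ℤ) : tor q (i + j) = tor q i * tor q j := by
  have := qcast_ne_zero (q := q)
  apply sl_ext <;> simp [tor, sl_mul, zpow_add₀ this, mul_comm]

theorem tor_zero : tor q 0 = 1 := by
  apply sl_ext <;> simp [tor]

theorem tor_neg (i : ℤ) : tor q (-i) = (tor q i)⁻¹ := by
  apply eq_inv_of_mul_eq_one_left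
  rw [← tor_add, neg_add_cancel, tor_zero]

theorem tor_conj_entries (i : ℤ) (g : SL(2, ℚ)) :
    (tor q i * g * (tor q i)⁻¹) 0 0 = g 0 0 ∧
    (tor q i * g * (tor q i)⁻¹) 0 1 = (q : ℚ) ^ (2 * i) * g 0 1 ∧
    (tor q i * g * (tor q i)⁻¹) 1 0 = (q : ℚ) ^ (-(2 * i)) * g 1 0 ∧
    (tor q i * g * (tor q i)⁻¹) 1 1 = g 1 1 := by
  have hq := qcast_ne_zero (q := q)
  have hi : (q : ℚ) ^ i ≠ 0 := zpow_ne_zero _ hq
  simp only [tor, sl_mul, sl_inv00, sl_inv01, sl_inv10, sl_inv11, dg_00, dg_01, dg_10, dg_11,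
    _root_.zpow_neg, two_mul, zpow_add₀ hq, _root_.mul_inv]
  refine ⟨?_, ?_, ?_, ?_⟩ <;> field_simp <;> ring

theorem tor_conj_mem {L : ℤ} (i : ℤ) {g : SL(2, ℚ)} (hg : g ∈ G1 q L) :
    tor q i * g * (tor q i)⁻¹ ∈ G1 q L := by
  obtain ⟨e00, e01, e10, e11⟩ := tor_conj_entries (q := q) i g
  have hq0 := (Fact.out : q.Prime).ne_zero
  refine ⟨⟨e00.symm ▸ hg.1.1, e01.symm ▸ (IsQInt.zpow hq0 _).mul hg.1.2.1, e11.symm ▸ hg.1.2.2.1,
    e10.symm ▸ QDvd.mul_left (IsQInt.zpow hq0 _) hg.1.2.2.2⟩, ?_, ?_⟩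
  · rw [e00]; exact hg.2.1
  · rw [e11]; exact hg.2.2

theorem tor_conj_up (i : ℤ) (t : ℚ) :
    tor q i * up t * (tor q i)⁻¹ = up ((q : ℚ) ^ (2 * i) * t) := by
  obtain ⟨e00, e01, e10, e11⟩ := tor_conj_entries (q := q) i (up t)
  apply sl_ext <;> simp [e00, e01, e10, e11]

theorem tor_conj_lo (i : ℤ) (t : ℚ) :
    tor q i * lo t * (tor q i)⁻¹ = lo ((q : ℚ) ^ (-(2 * i)) * t) := by
  obtain ⟨e00, e01, e10, e11⟩ := tor_conj_entries (q := q) i (lo t)
  apply sl_ext <;> simp [e00, e01, e10, e11]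

theorem Adm.comp_tor {L : ℤ} {f : SL(2, ℚ) → F} (hf : Adm q L f) (i : ℤ) :
    Adm q L fun g => f (tor q i * g * (tor q i)⁻¹) where
  hom x hx y hy := by
    show f _ = _
    rw [show tor q i * (x * y) * (tor q i)⁻¹
        = (tor q i * x * (tor q i)⁻¹) * (tor q i * y * (tor q i)⁻¹) by group]
    exact hf.hom _ (tor_conj_mem i hx) _ (tor_conj_mem i hy)
  up t ht := by
    show f _ = 0
    rw [tor_conj_up]
    exact hf.up _ ((IsQInt.zpow (Fact.out : q.Prime).ne_zero _).mul ht)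
  lo t ht := by
    show f _ = 0
    rw [tor_conj_lo]
    exact hf.lo _ (QDvd.mul_left (IsQInt.zpow (Fact.out : q.Prime).ne_zero _) ht)

/-- Exponents `i` such that conjugation by `diag(q ^ i, q ^ (-i))` fixes the class of `g`. -/
def fixExp (F : Type*) [AddCommGroup F] (L : ℤ) (g : SL(2, ℚ)) : AddSubgroup ℤ where
  carrier := {i | ∀ f : SL(2, ℚ) → F, Adm q L f → f (tor q i * g * (tor q i)⁻¹) = f g}
  zero_mem' f _ := by simp [tor_zero]
  add_mem' {i j} hi hj f hf := by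
    show f _ = f g
    have h := hi (fun x => f (tor q j * x * (tor q j)⁻¹)) (hf.comp_tor j)
    rw [show tor q (i + j) * g * (tor q (i + j))⁻¹
        = tor q j * (tor q i * g * (tor q i)⁻¹) * (tor q j)⁻¹ by
      rw [add_comm, tor_add]; group]
    exact h.trans (hj f hf)
  neg_mem' {i} hi f hf := by
    show f _ = f g
    have h := hi (fun x => f (tor q (-i) * x * (tor q (-i))⁻¹)) (hf.comp_tor (-i))
    simp only [tor_neg] at h ⊢
    rw [← h]; congr 1; group

theorem fixExp_congr {L : ℤ} {g g' : SL(2, ℚ)}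
    (h : ∀ f : SL(2, ℚ) → F, Adm q L f → f g' = f g) :
    fixExp (q := q) F L g' ≤ fixExp (q := q) F L g := by
  intro i hi f hf
  exact ((h _ (hf.comp_tor i)).symm.trans (hi f hf)).trans (h f hf)

/-- A prime `d` as bottom right entry gives the exponent `(d - 1)`. -/
theorem sub_one_mem_fixExp {L : ℤ} {g : SL(2, ℚ)} {c₀ : ℤ} {d : ℕ} (hd : d.Prime) (hdq : d ≠ q)
    (h : Row q L g c₀ d) : ((d : ℤ) - 1) ∈ fixExp (q := q) F L g := by
  rw [show ((d : ℤ) - 1) = -(-((d - 1 : ℕ) : ℤ)) by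
    rw [neg_neg, Nat.cast_sub hd.one_le, Nat.cast_one]]
  refine neg_mem ?_
  intro f hf
  obtain ⟨e00, e01, e10, e11⟩ := tor_conj_entries (q := q) (-((d - 1 : ℕ) : ℤ)) g
  have h' : Row q L (tor q (-((d - 1 : ℕ) : ℤ)) * g * (tor q (-((d - 1 : ℕ) : ℤ)))⁻¹)
      (c₀ * (q : ℤ) ^ (2 * (d - 1))) d := by
    refine ⟨tor_conj_mem _ h.mem, ?_, ?_⟩
    · rw [e10, h.c, mul_neg, neg_neg, show (2 : ℤ) * ((d - 1 : ℕ) : ℤ) = ((2 * (d - 1) : ℕ) : ℤ) by
        push_cast; ring, zpow_natCast]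
      push_cast; ring
    · rw [e11, h.d]
  refine (hf.row_congr_c h h' ?_).symm
  have : Fact d.Prime := ⟨hd⟩
  rw [← ZMod.intCast_zmod_eq_zero_iff_dvd]
  push_cast
  rw [pow_mul', ZMod.pow_card_sub_one_eq_one, one_pow]
  · ring
  · intro h0
    rw [ZMod.natCast_eq_zero_iff] at h0
    exact hdq ((Nat.prime_dvd_prime_iff_eq hd Fact.out).mp h0)

/-- Chinese remainder choice: `t` prime to `e` up to `2`, with `1 + A t` prime to `e`. -/
theorem exists_good_shift {A e : ℕ} (he : e ≠ 0) :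
    ∃ t : ℕ, Nat.gcd t e ∣ 2 ∧ Nat.Coprime (1 + A * t) e := by
  classical
  let m : ℕ → ℕ := fun l => if l = 2 then 4 else l
  let a : ℕ → ℕ := fun l =>
    if l = 2 then (if 2 ∣ A then 1 else 2)
    else if l ∣ A then 1 else ((-2 : ZMod l) * (A : ZMod l)⁻¹).val
  have hm0 : ∀ l ∈ e.primeFactors, m l ≠ 0 := by
    intro l hl
    have := (Nat.prime_of_mem_primeFactors hl).ne_zero
    simp only [m]; split_ifs <;> omega
  have hpair : Set.Pairwise (↑e.primeFactors) (fun l l' => Nat.Coprime (m l) (m l')) := by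
    intro l hl l' hl' hne
    have hp := Nat.prime_of_mem_primeFactors (Finset.mem_coe.mp hl)
    have hp' := Nat.prime_of_mem_primeFactors (Finset.mem_coe.mp hl')
    simp only [m]
    split_ifs with h1 h2 h3
    · omega
    · rw [show (4 : ℕ) = 2 ^ 2 by norm_num]
      exact ((Nat.coprime_primes Nat.prime_two hp').mpr (Ne.symm h2)).pow_left 2
    · rw [show (4 : ℕ) = 2 ^ 2 by norm_num]
      exact ((Nat.coprime_primes hp Nat.prime_two).mpr h1).pow_right 2
    · exact (Nat.coprime_primes hp hp').mpr hne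
  obtain ⟨t, ht⟩ : ∃ t, ∀ l ∈ e.primeFactors, t ≡ a l [MOD m l] :=
    ⟨_, (Nat.chineseRemainderOfFinset a m e.primeFactors hm0 hpair).2⟩
  refine ⟨t, ?_, ?_⟩
  · have hall : ∀ l : ℕ, l.Prime → l ∣ Nat.gcd t e → l = 2 := by
      intro l hl hdvd
      by_contra hl2
      have hle : l ∈ e.primeFactors :=
        Nat.mem_primeFactors.mpr ⟨hl, hdvd.trans (Nat.gcd_dvd_right _ _), he⟩
      have hmod := ht l hle
      simp only [m, a, if_neg hl2] at hmod
      have ht0 : (t : ZMod l) = 0 := by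
        rw [ZMod.natCast_eq_zero_iff]; exact hdvd.trans (Nat.gcd_dvd_left _ _)
      rw [← ZMod.natCast_eq_natCast_iff, ht0] at hmod
      have : Fact l.Prime := ⟨hl⟩
      split_ifs at hmod with hA
      · simp at hmod
      · rw [ZMod.natCast_zmod_val] at hmod
        rcases mul_eq_zero.mp hmod.symm with h | h
        · rw [neg_eq_zero, show (2 : ZMod l) = ((2 : ℕ) : ZMod l) by norm_num,
            ZMod.natCast_eq_zero_iff, Nat.prime_dvd_prime_iff_eq hl Nat.prime_two] at h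
          exact hl2 h
        · rw [inv_eq_zero, ZMod.natCast_eq_zero_iff] at h
          exact hA h
    have h4 : ¬4 ∣ Nat.gcd t e := by
      intro h4
      have hle : 2 ∈ e.primeFactors := Nat.mem_primeFactors.mpr ⟨Nat.prime_two,
        (Nat.dvd_trans (by norm_num) h4).trans (Nat.gcd_dvd_right _ _), he⟩
      have hmod := ht 2 hle
      simp only [m, a, if_true] at hmod
      have ht4 : t % 4 = 0 := Nat.mod_eq_zero_of_dvd (h4.trans (Nat.gcd_dvd_left _ _))
      unfold Nat.ModEq at hmod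
      split_ifs at hmod <;> omega
    have hg0 : Nat.gcd t e ≠ 0 := fun h => he (Nat.eq_zero_of_gcd_eq_zero_right h)
    have hpow := Nat.eq_prime_pow_of_unique_prime_dvd hg0 (fun {l} hl hd => hall l hl hd)
    set k := (Nat.gcd t e).primeFactorsList.length
    rcases Nat.lt_or_ge k 2 with hk | hk
    · rw [hpow]; exact (pow_dvd_pow 2 (by omega : k ≤ 1)).trans (by norm_num)
    · exact absurd (hpow ▸ (show (4 : ℕ) ∣ 2 ^ k from (by norm_num : (4 : ℕ) = 2 ^ 2) ▸
        pow_dvd_pow 2 hk)) h4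
  · refine Nat.coprime_of_dvd' fun l hl h1 h2 => ?_
    exfalso
    have hmod := ht l (Nat.mem_primeFactors.mpr ⟨hl, h2, he⟩)
    have h1' : ((1 : ZMod l) + A * t) = 0 := by
      have := (ZMod.natCast_eq_zero_iff _ _).mpr h1
      push_cast at this; exact this
    have : Fact l.Prime := ⟨hl⟩
    simp only [m, a] at hmod
    by_cases hA : l ∣ A
    · have : (A : ZMod l) = 0 := (ZMod.natCast_eq_zero_iff _ _).mpr hA
      simp [this] at h1'
    · by_cases hl2 : l = 2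
      · subst hl2
        simp only [if_true, if_neg hA] at hmod
        have : (t : ZMod 2) = 0 := by
          rw [ZMod.natCast_eq_zero_iff]; unfold Nat.ModEq at hmod; omega
        simp [this] at h1'
      · simp only [if_neg hl2, if_neg hA] at hmod
        rw [← ZMod.natCast_eq_natCast_iff, ZMod.natCast_zmod_val] at hmod
        have hA0 : (A : ZMod l) ≠ 0 := fun h => hA ((ZMod.natCast_eq_zero_iff _ _).mp h)
        rw [hmod, mul_left_comm, mul_inv_cancel₀ hA0] at h1'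
        have : (1 : ZMod l) = 0 := by linear_combination -h1'
        exact one_ne_zero this

/-- `diag(q ^ (2L), q ^ (-2L))` fixes every class. -/
theorem two_mul_mem_fixExp {L : ℕ} (hL : L ≠ 0) (hqL : ¬q ∣ L) {g : SL(2, ℚ)}
    (hg : g ∈ G1 q L) : (2 * L : ℤ) ∈ fixExp (q := q) F L g := by
  have hq : q.Prime := Fact.out
  have hqLz : ¬(q : ℤ) ∣ (L : ℤ) := by exact_mod_cast hqL
  obtain ⟨g₁, c₀, d₁, hd₁, hd₁B, hrow₁, hval₁⟩ :=
    exists_prime_row (F := F) hq (by exact_mod_cast hL) hqLz hg (q + L + 2)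
  refine fixExp_congr hval₁ ?_
  -- second representative
  have hd₁q : ¬(q : ℤ) ∣ (d₁ : ℤ) := by
    rw [Int.natCast_dvd_natCast, Nat.prime_dvd_prime_iff_eq hq hd₁]; omega
  have hLd : (L : ℤ) ∣ (d₁ : ℤ) - 1 := by
    obtain ⟨y, ⟨k, n, hn⟩, hy⟩ := hrow₁.mem.2.2
    rw [hrow₁.d] at hy
    have h : ((d₁ : ℤ) - 1) * (q : ℤ) ^ k = L * n := by
      have : ((((d₁ : ℤ) - 1) * (q : ℤ) ^ k : ℤ) : ℚ) = ((L * n : ℤ) : ℚ) := by
        push_cast at hy ⊢; rw [← hn, hy]; ring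
      exact_mod_cast this
    have hcop : IsCoprime (L : ℤ) ((q : ℤ) ^ k) :=
      ((Nat.prime_iff_prime_int.mp hq).coprime_iff_not_dvd.mpr hqLz).symm.pow_right
    exact hcop.dvd_of_dvd_mul_right ⟨n, h⟩
  obtain ⟨ez, hez⟩ := hLd
  have hez0 : 0 ≤ ez := by
    by_contra hneg
    have : (d₁ : ℤ) - 1 ≤ 0 := by
      rw [hez]; exact mul_nonpos_of_nonneg_of_nonpos (Int.natCast_nonneg _) (le_of_not_ge hneg)
    omega
  obtain ⟨e, rfl⟩ := Int.eq_ofNat_of_zero_le hez0
  have he : d₁ = 1 + L * e := by omega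
  have he0 : e ≠ 0 := by rintro rfl; simp at he; omega
  have : Fact d₁.Prime := ⟨hd₁⟩
  have hc₀ : IsUnit (c₀ : ZMod d₁) := by
    rw [ZMod.coe_int_isUnit_iff_isCoprime]
    exact (hrow₁.coprime hq hd₁q).symm
  obtain ⟨r, hr, hrp, hrc⟩ := Nat.forall_exists_prime_gt_and_eq_mod hc₀ (d₁ + e + L)
  obtain ⟨t, htg, htc⟩ := exists_good_shift (A := L * r) he0
  have hrd : d₁ < r := by omega
  have hcop : Nat.Coprime (d₁ + L * r * t) (L * r * e) := by
    refine Nat.Coprime.mul_right (Nat.Coprime.mul_right ?_ ?_) ?_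
    · have : d₁ + L * r * t = 1 + L * (e + r * t) := by rw [he]; ring
      rw [this, Nat.coprime_add_mul_left_left]; exact Nat.coprime_one_left _
    · rw [show d₁ + L * r * t = d₁ + r * (L * t) by ring, Nat.coprime_add_mul_left_left]
      exact (Nat.coprime_primes hd₁ hrp).mpr (by omega)
    · rw [he, show 1 + L * e + L * r * t = (1 + L * r * t) + e * L by ring,
        Nat.coprime_add_mul_left_left]
      exact htc
  obtain ⟨d₂, hd₂B, hd₂, hd₂m⟩ := Nat.forall_exists_prime_gt_and_modEq (q + r + d₁ + L * r * t)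
    (by simp [hL, he0, hrp.ne_zero]) hcop
  -- the two rows with lower left entry `r`
  have hd₂q : d₂ ≠ q := by omega
  have hrd₁ : IsCoprime (r : ℤ) (d₁ : ℤ) :=
    (Nat.Coprime.isCoprime ((Nat.coprime_primes hrp hd₁).mpr (by omega)))
  obtain ⟨g₂, hrow₂⟩ := exists_row_of_coprime (q := q) (L := (L : ℤ)) hrd₁ ⟨e, hez⟩
  obtain ⟨s, hs⟩ : ((L * r * e : ℕ) : ℤ) ∣ (d₂ : ℤ) - ((d₁ + L * r * t : ℕ) : ℤ) :=
    (Int.natCast_modEq_iff.mpr hd₂m.symm).dvd
  push_cast at hs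
  have hd₂1 : (d₂ : ℤ) - 1 = (L : ℤ) * (e + r * t + r * e * s) := by linarith
  have hrd₂ : IsCoprime (r : ℤ) (d₂ : ℤ) :=
    (Nat.Coprime.isCoprime ((Nat.coprime_primes hrp hd₂).mpr (by omega)))
  obtain ⟨g₃, hrow₃⟩ := exists_row_of_coprime (q := q) (L := (L : ℤ)) hrd₂ ⟨_, hd₂1⟩
  have h12 : ∀ f : SL(2, ℚ) → F, Adm q L f → f g₂ = f g₁ := fun f hf => by
    refine (hf.row_congr_c hrow₁ hrow₂ ?_).symm
    rw [← ZMod.intCast_zmod_eq_zero_iff_dvd]
    push_cast; rw [hrc]; simp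
  have h23 : ∀ f : SL(2, ℚ) → F, Adm q L f → f g₃ = f g₂ := fun f hf =>
    (hf.row_congr_d hrow₂ hrow₃ ⟨t + e * s, by linarith⟩).symm
  have m1 : ((d₁ : ℤ) - 1) ∈ fixExp (q := q) F L g₁ := sub_one_mem_fixExp hd₁ (by omega) hrow₁
  have m2 : ((d₂ : ℤ) - 1) ∈ fixExp (q := q) F L g₁ :=
    fixExp_congr (fun f hf => (h23 f hf).trans (h12 f hf)) (sub_one_mem_fixExp hd₂ hd₂q hrow₃)
  -- gcd of the exponents divides `2 L`
  have hgcd : Int.gcd ((e : ℤ) + r * t + r * e * s) e ∣ 2 := by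
    have hre : Nat.Coprime r e :=
      (Nat.Prime.coprime_iff_not_dvd hrp).mpr fun h => by
        have := Nat.le_of_dvd (Nat.pos_of_ne_zero he0) h; omega
    have e1 : ((e : ℤ) + r * t + r * e * s) = r * t + (1 + r * s) * e := by ring
    rw [e1, Int.gcd_add_mul_right_left]
    have : Int.gcd ((r : ℤ) * t) (e : ℤ) = Nat.gcd (r * t) e := by
      rw [← Int.natCast_mul, Int.gcd_natCast_natCast]
    rw [this, Nat.Coprime.gcd_mul_left_cancel t hre]
    exact htg
  obtain ⟨k, hk⟩ := hgcd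
  have hbez := Int.gcd_eq_gcd_ab ((e : ℤ) + r * t + r * e * s) e
  have key : (2 * L : ℤ) = (k * Int.gcdA ((e : ℤ) + r * t + r * e * s) e) * ((d₂ : ℤ) - 1)
      + (k * Int.gcdB ((e : ℤ) + r * t + r * e * s) e) * ((d₁ : ℤ) - 1) := by
    have hk' : (2 : ℤ) = (Int.gcd ((e : ℤ) + r * t + r * e * s) e : ℤ) * k := by exact_mod_cast hk
    rw [hd₂1, hez, hk', hbez]; ring
  rw [key]
  exact add_mem (by simpa using AddSubgroup.zsmul_mem _ m2 _)
    (by simpa using AddSubgroup.zsmul_mem _ m1 _)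

end Fermat.Agent.Ihara
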