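import Fermat.Agent.Ihara.Winding

/-!
# Ideal triangles

## Main results

* `finite_triSum`: the sum of the three side functions of an ideal triangle takes one constant
  value on all but finitely many translates of a given point.
-/

set_option autoImplicit false

noncomputable section

namespace Fermat.Agent.Ihara

open Matrix UpperHalfPlane
open scoped MatrixGroups ComplexConjugate

/-- Sum of the three sides. -/
def triSum (a b c : Fin 2 → ℝ) (z : ℍ) : ℤ := wind a b z + wind b c z + wind c a z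

theorem triSum_swap (a b c : Fin 2 → ℝ) (z : ℍ) : triSum b a c z = -triSum a b c z := by
  simp only [triSum, wind_swap a b, wind_swap c a, wind_swap b c]; ring

/-- Off the closed triangle with vertices `r < s` and `∞` the sum is `-1`. -/
theorem triSum_eq_neg_one {r s : ℝ} (hrs : r < s) {z : ℍ}
    (h : triSum ![r, 1] ![s, 1] ![1, 0] z ≠ -1) :
    (r ≤ z.re ∧ z.re ≤ s) ∧ (z.re - r) * (s - z.re) ≤ z.im * z.im := by
  have hA : wind ![r, 1] ![s, 1] z
      = ((SignType.sign ((r - s) * ((z.re - r) * (z.re - s) + z.im * z.im)) : SignType) : ℤ) := by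
    simp [wind, det2, geoForm_eq]
  have hB : wind ![s, 1] ![1, 0] z = ((SignType.sign (z.re - s) : SignType) : ℤ) := by
    simp [wind, det2, geoForm_eq]
  have hC : wind ![1, 0] ![r, 1] z = ((SignType.sign (r - z.re) : SignType) : ℤ) := by
    simp [wind, det2, geoForm_eq]
  rw [triSum, hA, hB, hC] at h
  have him : 0 < z.im * z.im := mul_pos z.im_pos z.im_pos
  have houtA : 0 < (z.re - r) * (z.re - s) + z.im * z.im →
      SignType.sign ((r - s) * ((z.re - r) * (z.re - s) + z.im * z.im)) = -1 := fun hq =>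
    sign_neg (mul_neg_of_neg_of_pos (sub_neg.mpr hrs) hq)
  refine ⟨⟨?_, ?_⟩, ?_⟩
  · by_contra hx
    apply h
    rw [houtA (add_pos (mul_pos_of_neg_of_neg (by linarith) (by linarith)) him),
      sign_neg (show z.re - s < 0 by linarith), sign_pos (show 0 < r - z.re by linarith)]
    rfl
  · by_contra hx
    apply h
    rw [houtA (add_pos (mul_pos (by linarith) (by linarith)) him),
      sign_pos (show 0 < z.re - s by linarith), sign_neg (show r - z.re < 0 by linarith)]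
    rfl
  · by_contra hx
    apply h
    have hq : (z.re - r) * (z.re - s) + z.im * z.im < 0 := by linarith
    have hr : r < z.re := by
      by_contra hr
      nlinarith [mul_nonneg (sub_nonneg.mpr (not_lt.mp hr)) (show (0 : ℝ) ≤ s - z.re by linarith)]
    have hs : z.re < s := by
      by_contra hs
      nlinarith [mul_nonneg (show (0 : ℝ) ≤ z.re - r by linarith) (sub_nonneg.mpr (not_lt.mp hs))]
    rw [sign_pos (mul_pos_of_neg_of_neg (sub_neg.mpr hrs) hq),
      sign_neg (show z.re - s < 0 by linarith), sign_neg (show r - z.re < 0 by linarith)]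
    rfl

theorem row_ne_zero_of_SL (h : SL(2, ℤ)) :
    (![-h 1 1, h 1 0] : Fin 2 → ℤ) ≠ 0 := by
  intro h0
  have hdet : h 0 0 * h 1 1 - h 0 1 * h 1 0 = 1 := by rw [← Matrix.det_fin_two]; exact h.2
  have a := congrFun h0 0
  have b := congrFun h0 1
  simp at a b
  simp [a, b] at hdet

/-- A linear form at a translate. -/
theorem lin_smul (h : SL(2, ℤ)) (a : Fin 2 → ℤ) (z : ℍ) :
    ((a 1 : ℂ) * ((h • z : ℍ) : ℂ) - a 0) * ((h 1 0 : ℂ) * z + h 1 1)
      = ((zmv h⁻¹ a) 1 : ℂ) * z - ((zmv h⁻¹ a) 0 : ℂ) := by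
  have hne : ((h 1 0 : ℂ) * z + h 1 1) ≠ 0 := by
    have := denom_ne_zero (SpecialLinearGroup.mapGL ℝ h) z
    simpa [denom] using this
  have hsm : ((h • z : ℍ) : ℂ)
      = ((h 0 0 : ℂ) * z + h 0 1) / ((h 1 0 : ℂ) * z + h 1 1) := by
    rw [UpperHalfPlane.coe_specialLinearGroup_apply]
    simp
  rw [hsm, sub_mul, mul_assoc, div_mul_cancel₀ _ hne]
  simp [zmv, Matrix.SpecialLinearGroup.coe_inv, Matrix.adjugate_fin_two]
  ring

theorem im_smul_mul (h : SL(2, ℤ)) (z : ℍ) :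
    (h • z : ℍ).im * Complex.normSq ((h 1 0 : ℂ) * z + h 1 1) = z.im := by
  rw [ModularGroup.im_smul_eq_div_normSq, ModularGroup.denom_apply]
  exact div_mul_cancel₀ _ (ne_of_gt (Complex.normSq_pos.mpr (by
    have := denom_ne_zero (SpecialLinearGroup.mapGL ℝ h) z
    simpa [denom] using this)))

/-- Only finitely many translates of `z` lie in an ideal triangle with rational vertices. -/
theorem finite_in_triangle (a b : Fin 2 → ℤ) (ha : a 1 ≠ 0) (hb : b 1 ≠ 0) (z : ℍ) :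
    {h : SL(2, ℤ) | ((a 0 : ℝ) / a 1 ≤ (h • z : ℍ).re ∧ (h • z : ℍ).re ≤ (b 0 : ℝ) / b 1) ∧
      ((h • z : ℍ).re - (a 0 : ℝ) / a 1) * ((b 0 : ℝ) / b 1 - (h • z : ℍ).re)
        ≤ (h • z : ℍ).im * (h • z : ℍ).im}.Finite := by
  set ε := min 1 z.im with hε
  have hε0 : 0 < ε := lt_min one_pos z.im_pos
  set K := max ((a 1 : ℝ) ^ 2) ((b 1 : ℝ) ^ 2) with hK
  have hK0 : 0 < K := lt_max_of_lt_left (by positivity)
  set R := max |(a 0 : ℝ) / a 1| |(b 0 : ℝ) / b 1| with hR
  set M := Real.sqrt (2 * K * z.im ^ 2 / ε ^ 2) with hM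
  set Y := z.im / ε ^ 2 with hY
  set S₁ := {w : Fin 2 → ℤ | ∃ p : ℂ, z.im ≤ p.im ∧ |p.re| ≤ |z.re| ∧ ‖(w 1 : ℂ) * p - w 0‖ ≤ M}
  set S₂ := {w : Fin 2 → ℤ |
    ∃ p : ℂ, z.im ≤ p.im ∧ |p.re| ≤ |z.re| ∧ ‖(w 1 : ℂ) * p - w 0‖ ≤ (R + Y) * M}
  refine Set.Finite.of_finite_image
    (f := fun h : SL(2, ℤ) => ((![-h 1 1, h 1 0] : Fin 2 → ℤ), (![-h 0 1, h 0 0] : Fin 2 → ℤ)))
    (((finite_lin_bounded M z.im |z.re| z.im_pos).prod
      (finite_lin_bounded ((R + Y) * M) z.im |z.re| z.im_pos)).subset ?_) ?_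
  · rintro _ ⟨h, ⟨⟨hx₁, hx₂⟩, hq⟩, rfl⟩
    set w : ℍ := h • z with hw
    set den : ℂ := (h 1 0 : ℂ) * z + h 1 1 with hden
    have hyden : w.im * Complex.normSq den = z.im := im_smul_mul h z
    have hdlow : ε ≤ ‖den‖ := by
      have := norm_lin_lower (row_ne_zero_of_SL h) (z : ℂ)
      rw [hden]; convert this using 2 <;> simp
    have hnsq : Complex.normSq den = ‖den‖ ^ 2 := Complex.normSq_eq_norm_sq den
    have hYup : w.im ≤ Y := by
      rw [hY, le_div_iff₀ (pow_pos hε0 2), ← hyden, hnsq]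
      exact mul_le_mul_of_nonneg_left (pow_le_pow_left₀ hε0.le hdlow 2) w.im_pos.le
    -- the lower bound for the height
    have key : ∀ c : Fin 2 → ℤ, (c 1 : ℝ) ^ 2 ≤ K → c 1 ≠ 0 →
        (w.re - (c 0 : ℝ) / c 1) ^ 2 ≤ w.im * w.im → ε ^ 2 ≤ 2 * K * z.im * w.im := by
      intro c hcK hc hle
      have hc0 : c ≠ 0 := fun h0 => hc (by simp [h0])
      have h1 : ε ≤ ‖((zmv h⁻¹ c) 1 : ℂ) * z - ((zmv h⁻¹ c) 0 : ℂ)‖ :=
        norm_lin_lower (zmv_ne_zero _ hc0) (z : ℂ)
      have h1' : ε ^ 2 ≤ Complex.normSq (((c 1 : ℂ) * (w : ℂ) - c 0)) * Complex.normSq den := by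
        rw [← map_mul, hw, hden, lin_smul, Complex.normSq_eq_norm_sq]
        exact pow_le_pow_left₀ hε0.le h1 2
      have h2 : Complex.normSq ((c 1 : ℂ) * (w : ℂ) - c 0)
          = (c 1 : ℝ) ^ 2 * ((w.re - (c 0 : ℝ) / c 1) ^ 2 + w.im * w.im) := by
        have hc' : (c 1 : ℝ) ≠ 0 := by exact_mod_cast hc
        simp [Complex.normSq_apply]
        field_simp
      rw [h2] at h1'
      have h3 : (c 1 : ℝ) ^ 2 * ((w.re - (c 0 : ℝ) / c 1) ^ 2 + w.im * w.im)
          ≤ K * (2 * (w.im * w.im)) := by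
        refine mul_le_mul hcK (by linarith) (by positivity) hK0.le
      calc ε ^ 2 ≤ K * (2 * (w.im * w.im)) * Complex.normSq den :=
            h1'.trans (mul_le_mul_of_nonneg_right h3 (Complex.normSq_nonneg _))
        _ = 2 * K * (w.im * Complex.normSq den) * w.im := by ring
        _ = 2 * K * z.im * w.im := by rw [hyden]
    have hlow : ε ^ 2 ≤ 2 * K * z.im * w.im := by
      rcases le_total (w.re - (a 0 : ℝ) / a 1) ((b 0 : ℝ) / b 1 - w.re) with hc | hc
      · refine key a (le_max_left _ _) ha (le_trans ?_ hq)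
        rw [pow_two]; exact mul_le_mul_of_nonneg_left hc (sub_nonneg.mpr hx₁)
      · refine key b (le_max_right _ _) hb (le_trans ?_ hq)
        rw [pow_two, show (w.re - (b 0 : ℝ) / b 1) * (w.re - (b 0 : ℝ) / b 1)
          = ((b 0 : ℝ) / b 1 - w.re) * ((b 0 : ℝ) / b 1 - w.re) by ring]
        exact mul_le_mul_of_nonneg_right hc (sub_nonneg.mpr hx₂)
    have hdenM : ‖den‖ ≤ M := by
      rw [hM]
      refine Real.le_sqrt_of_sq_le ?_
      rw [le_div_iff₀ (pow_pos hε0 2), ← hnsq]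
      calc Complex.normSq den * ε ^ 2 ≤ Complex.normSq den * (2 * K * z.im * w.im) :=
            mul_le_mul_of_nonneg_left hlow (Complex.normSq_nonneg _)
        _ = 2 * K * z.im * (w.im * Complex.normSq den) := by ring
        _ = 2 * K * z.im ^ 2 := by rw [hyden]; ring
    refine ⟨⟨z, le_rfl, le_rfl, by simpa [hden] using hdenM⟩, ⟨z, le_rfl, le_rfl, ?_⟩⟩
    have hnum : ((h 0 0 : ℂ) * z + h 0 1) = (w : ℂ) * den := by
      rw [hw, hden, UpperHalfPlane.coe_specialLinearGroup_apply]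
      have hne : ((h 1 0 : ℂ) * z + h 1 1) ≠ 0 := by
        have := denom_ne_zero (SpecialLinearGroup.mapGL ℝ h) z
        simpa [denom] using this
      simp [div_mul_cancel₀ _ hne]
    have hwn : ‖(w : ℂ)‖ ≤ R + Y := by
      refine (Complex.norm_le_abs_re_add_abs_im _).trans (add_le_add ?_ ?_)
      · exact abs_le_max_abs_abs hx₁ hx₂
      · rw [UpperHalfPlane.coe_im, abs_of_pos w.im_pos]; exact hYup
    simp only [Matrix.cons_val_zero, Matrix.cons_val_one, Int.cast_neg, sub_neg_eq_add]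
    rw [hnum, norm_mul]
    exact mul_le_mul hwn hdenM (norm_nonneg _) ((norm_nonneg _).trans hwn)
  · intro g _ g' _ hgg'
    have a1 := congrFun (congrArg Prod.fst hgg') 0
    have a2 := congrFun (congrArg Prod.fst hgg') 1
    have a3 := congrFun (congrArg Prod.snd hgg') 0
    have a4 := congrFun (congrArg Prod.snd hgg') 1
    simp at a1 a2 a3 a4
    ext i j
    fin_cases i <;> fin_cases j <;> simp [a1, a2, a3, a4]

theorem finite_triSum_rat (a b : Fin 2 → ℤ) (ha : a 1 ≠ 0) (hb : b 1 ≠ 0) (z : ℍ) :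
    ∃ κ : ℤ, {h : SL(2, ℤ) |
      triSum ![(a 0 : ℝ) / a 1, 1] ![(b 0 : ℝ) / b 1, 1] ![1, 0] (h • z) ≠ κ}.Finite := by
  rcases lt_trichotomy ((a 0 : ℝ) / a 1) ((b 0 : ℝ) / b 1) with h | h | h
  · exact ⟨-1, (finite_in_triangle a b ha hb z).subset fun g hg => triSum_eq_neg_one h hg⟩
  · refine ⟨0, Set.finite_empty.subset fun g hg => hg ?_⟩
    rw [h, triSum, wind_self, wind_swap (![1, 0]) ]
    ring
  · refine ⟨1, (finite_in_triangle b a hb ha z).subset fun g hg => triSum_eq_neg_one h ?_⟩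
    rw [triSum_swap]
    intro he
    exact hg (by linarith)

theorem triSum_degenerate {a b : Fin 2 → ℤ} (c : Fin 2 → ℤ) (ha : a ≠ 0) (hb : b ≠ 0)
    (hab : det2 (rvec a) (rvec b) = 0) (z : ℍ) : triSum (rvec a) (rvec b) (rvec c) z = 0 := by
  obtain ⟨t, ht, hta⟩ : ∃ t : ℝ, t ≠ 0 ∧ rvec b = t • rvec a := by
    by_cases h1 : a 1 = 0
    · have h0 : a 0 ≠ 0 := fun h0 => ha (by ext i; fin_cases i <;> assumption)
      have hb1 : b 1 = 0 := by
        have : ((a 0 * b 1 : ℤ) : ℝ) = 0 := by simpa [det2, rvec, h1] using hab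
        simpa [h0] using this
      have hb0 : b 0 ≠ 0 := fun h0 => hb (by ext i; fin_cases i <;> assumption)
      refine ⟨(b 0 : ℝ) / a 0, by simp [h0, hb0], ?_⟩
      ext i
      fin_cases i <;> simp [rvec, h1, hb1, h0]
    · have hb1 : b 1 ≠ 0 := by
        intro h
        have : ((a 1 * b 0 : ℤ) : ℝ) = 0 := by
          simp only [det2, rvec, h] at hab; push_cast at hab ⊢; linarith
        have hb0 : b 0 = 0 := by simpa [h1] using this
        exact hb (by ext i; fin_cases i <;> assumption)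
      refine ⟨(b 1 : ℝ) / a 1, by simp [h1, hb1], ?_⟩
      have ha1 : (a 1 : ℝ) ≠ 0 := by exact_mod_cast h1
      ext i
      fin_cases i <;> simp [rvec, h1]
      field_simp
      simp only [det2, rvec] at hab
      linarith
  rw [triSum, wind_eq_zero_of_det hab, hta, wind_smul_left ht, wind_swap (rvec c)]
  ring

theorem exists_SL_map_infty {c : Fin 2 → ℤ} (hc : c ≠ 0) :
    ∃ (g : SL(2, ℤ)) (k : ℤ), k ≠ 0 ∧ zmv g ![k, 0] = c := by
  have hg : Int.gcd (c 0) (c 1) ≠ 0 := by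
    intro h
    rw [Int.gcd_eq_zero_iff] at h
    exact hc (by ext i; fin_cases i <;> simp [h.1, h.2])
  obtain ⟨x, hx⟩ := Int.gcd_dvd_left (c 0) (c 1)
  obtain ⟨y, hy⟩ := Int.gcd_dvd_right (c 0) (c 1)
  have hbz := Int.gcd_eq_gcd_ab (c 0) (c 1)
  set k : ℤ := (Int.gcd (c 0) (c 1) : ℤ) with hk
  set A := Int.gcdA (c 0) (c 1)
  set B := Int.gcdB (c 0) (c 1)
  have hk0 : k ≠ 0 := by simpa [hk] using hg
  have hdet : x * A + y * B = 1 := by
    refine mul_left_cancel₀ hk0 ?_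
    linear_combination -hbz - A * hx - B * hy
  refine ⟨⟨!![x, -B; y, A], by rw [Matrix.det_fin_two_of]; linarith⟩, k, hk0, ?_⟩
  ext i
  fin_cases i <;> simp [zmv] <;> linarith

theorem triSum_smul_SL (g : SL(2, ℤ)) (a b c : Fin 2 → ℤ) (z : ℍ) :
    triSum (rvec a) (rvec b) (rvec c) (g • z)
      = triSum (rvec (zmv g⁻¹ a)) (rvec (zmv g⁻¹ b)) (rvec (zmv g⁻¹ c)) z := by
  simp only [triSum, wind_smul_SL]

/-- All but finitely many translates of a point give the same sum of sides. -/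
theorem finite_triSum (a b c : Fin 2 → ℤ) (ha : a ≠ 0) (hb : b ≠ 0) (hc : c ≠ 0) (z : ℍ) :
    ∃ κ : ℤ, {h : SL(2, ℤ) | triSum (rvec a) (rvec b) (rvec c) (h • z) ≠ κ}.Finite := by
  by_cases hab : det2 (rvec a) (rvec b) = 0
  · exact ⟨0, by simp [triSum_degenerate c ha hb hab]⟩
  by_cases hbc : det2 (rvec b) (rvec c) = 0
  · refine ⟨0, Set.finite_empty.subset fun h hh => hh ?_⟩
    have := triSum_degenerate (c := a) hb hc hbc (h • z)
    simp only [triSum] at this ⊢; linarith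
  by_cases hca : det2 (rvec c) (rvec a) = 0
  · refine ⟨0, Set.finite_empty.subset fun h hh => hh ?_⟩
    have := triSum_degenerate (c := b) hc ha hca (h • z)
    simp only [triSum] at this ⊢; linarith
  obtain ⟨g, k, hk, hgk⟩ := exists_SL_map_infty hc
  set a' := zmv g⁻¹ a with ha'
  set b' := zmv g⁻¹ b with hb'
  have hc' : zmv g⁻¹ c = ![k, 0] := by rw [← hgk, ← zmv_mul, inv_mul_cancel, one_zmv]
  have hne : ∀ x : Fin 2 → ℤ, det2 (rvec x) (rvec c) ≠ 0 → (zmv g⁻¹ x) 1 ≠ 0 := by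
    intro x hx h
    apply hx
    have hxe : x = zmv g ![(zmv g⁻¹ x) 0, 0] := by
      have : (![(zmv g⁻¹ x) 0, 0] : Fin 2 → ℤ) = zmv g⁻¹ x := by
        ext i; fin_cases i
        · rfl
        · simpa using h.symm
      rw [this, ← zmv_mul, mul_inv_cancel, one_zmv]
    rw [hxe, ← hgk]
    simp [det2, rvec, zmv]; ring
  have ha1 : a' 1 ≠ 0 := hne a fun h => hca (by simp only [det2] at h ⊢; linarith)
  have hb1 : b' 1 ≠ 0 := hne b hbc
  obtain ⟨κ, hκ⟩ := finite_triSum_rat a' b' ha1 hb1 z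
  refine ⟨κ, (hκ.image fun h => g * h).subset ?_⟩
  intro h hh
  refine ⟨g⁻¹ * h, ?_, mul_inv_cancel_left g h⟩
  intro he
  apply hh
  rw [← he, show h • z = g • ((g⁻¹ * h) • z) by rw [← mul_smul, mul_inv_cancel_left],
    triSum_smul_SL, ← ha', ← hb', hc']
  have ea : rvec a' = (a' 1 : ℝ) • ![(a' 0 : ℝ) / a' 1, 1] := by
    have : (a' 1 : ℝ) ≠ 0 := by exact_mod_cast ha1
    ext i; fin_cases i <;> simp [rvec]; field_simp
  have eb : rvec b' = (b' 1 : ℝ) • ![(b' 0 : ℝ) / b' 1, 1] := by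
    have : (b' 1 : ℝ) ≠ 0 := by exact_mod_cast hb1
    ext i; fin_cases i <;> simp [rvec]; field_simp
  have ec : rvec ![k, 0] = (k : ℝ) • ![(1 : ℝ), 0] := by
    ext i; fin_cases i <;> simp [rvec]
  have ha2 : (a' 1 : ℝ) ≠ 0 := by exact_mod_cast ha1
  have hb2 : (b' 1 : ℝ) ≠ 0 := by exact_mod_cast hb1
  have hk2 : (k : ℝ) ≠ 0 := by exact_mod_cast hk
  rw [ea, eb, ec]
  simp only [triSum, wind_smul_left ha2, wind_smul_left hb2, wind_smul_left hk2,
    wind_smul_right ha2, wind_smul_right hb2, wind_smul_right hk2]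

end Fermat.Agent.Ihara
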