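import Mathlib

/-!
# Sides of geodesics between cusps

A non-zero integral vector stands for the cusp it spans.  `wind u v z` is the side (`-1`, `0` or
`1`) of the oriented geodesic from `u` to `v` on which the point `z` lies.

## Main results

* `wind_mv`: equivariance under `GL₂⁺(ℝ)`.
* `finite_wind_ne`: only finitely many elements of `SL(2, ℤ)` separate two given points by a given
  geodesic.
-/

set_option autoImplicit false

noncomputable section

namespace Fermat.Agent.Ihara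

open Matrix UpperHalfPlane
open scoped MatrixGroups ComplexConjugate

/-- Action of a matrix on a column vector. -/
def mv (g : GL (Fin 2) ℝ) (u : Fin 2 → ℝ) : Fin 2 → ℝ :=
  ![g 0 0 * u 0 + g 0 1 * u 1, g 1 0 * u 0 + g 1 1 * u 1]

@[simp] theorem mv_zero (g : GL (Fin 2) ℝ) (u : Fin 2 → ℝ) :
    mv g u 0 = g 0 0 * u 0 + g 0 1 * u 1 := rfl

@[simp] theorem mv_one (g : GL (Fin 2) ℝ) (u : Fin 2 → ℝ) :
    mv g u 1 = g 1 0 * u 0 + g 1 1 * u 1 := rfl

/-- `det (u, v)`. -/
def det2 (u v : Fin 2 → ℝ) : ℝ := u 0 * v 1 - u 1 * v 0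

/-- Quadratic function vanishing exactly on the geodesic from `u` to `v`. -/
def geoForm (u v : Fin 2 → ℝ) (z : ℂ) : ℝ :=
  (((u 1 : ℂ) * z - u 0) * conj ((v 1 : ℂ) * z - v 0)).re

/-- Side of the oriented geodesic from the cusp `u` to the cusp `v`. -/
def wind (u v : Fin 2 → ℝ) (z : ℍ) : ℤ :=
  ((SignType.sign (det2 u v * geoForm u v z) : SignType) : ℤ)

theorem geoForm_eq (u v : Fin 2 → ℝ) (z : ℂ) :
    geoForm u v z
      = (u 1 * z.re - u 0) * (v 1 * z.re - v 0) + u 1 * v 1 * z.im * z.im := by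
  simp [geoForm]
  ring

theorem geoForm_swap (u v : Fin 2 → ℝ) (z : ℂ) : geoForm v u z = geoForm u v z := by
  simp only [geoForm_eq]; ring

theorem wind_swap (u v : Fin 2 → ℝ) (z : ℍ) : wind v u z = -wind u v z := by
  rw [wind, wind, geoForm_swap, show det2 v u = -det2 u v by unfold det2; ring, neg_mul,
    Left.sign_neg]
  cases SignType.sign (det2 u v * geoForm u v z) <;> rfl

theorem wind_self (u : Fin 2 → ℝ) (z : ℍ) : wind u u z = 0 := by
  simp [wind, show det2 u u = 0 by unfold det2; ring]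

theorem wind_smul_left {r : ℝ} (hr : r ≠ 0) (u v : Fin 2 → ℝ) (z : ℍ) :
    wind (r • u) v z = wind u v z := by
  have h : det2 (r • u) v * geoForm (r • u) v z = r * r * (det2 u v * geoForm u v z) := by
    simp only [det2, geoForm_eq, Pi.smul_apply, smul_eq_mul]; ring
  rw [wind, wind, h, sign_mul, sign_pos (mul_self_pos.mpr hr), one_mul]

theorem wind_smul_right {r : ℝ} (hr : r ≠ 0) (u v : Fin 2 → ℝ) (z : ℍ) :
    wind u (r • v) z = wind u v z := by
  rw [← neg_inj, ← wind_swap, ← wind_swap, wind_smul_left hr]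

theorem wind_eq_zero_of_det {u v : Fin 2 → ℝ} (h : det2 u v = 0) (z : ℍ) : wind u v z = 0 := by
  simp [wind, h]

/-- Equivariance under `GL₂⁺(ℝ)`. -/
theorem wind_mv {g : GL (Fin 2) ℝ} (hg : 0 < g.det.val) (u v : Fin 2 → ℝ) (z : ℍ) :
    wind (mv g u) (mv g v) (g • z) = wind u v z := by
  have hd : det2 (mv g u) (mv g v) = g.det.val * det2 u v := by
    simp [det2, Matrix.GeneralLinearGroup.val_det_apply, Matrix.det_fin_two]; ring
  have hdenom : denom g z ≠ 0 := denom_ne_zero g z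
  have hlin : ∀ u : Fin 2 → ℝ,
      ((mv g u 1 : ℝ) : ℂ) * ((g • z : ℍ) : ℂ) - ((mv g u 0 : ℝ) : ℂ)
        = (g.det.val : ℂ) / denom g z * ((u 1 : ℂ) * (z : ℂ) - (u 0 : ℂ)) := by
    intro u
    rw [coe_smul_of_det_pos hg]
    simp only [num, denom, mv_zero, mv_one, Matrix.GeneralLinearGroup.val_det_apply,
      Matrix.det_fin_two] at hdenom ⊢
    push_cast
    rw [div_mul_eq_mul_div, eq_div_iff hdenom, sub_mul, mul_assoc, div_mul_cancel₀ _ hdenom]
    ring
  have hQ : geoForm (mv g u) (mv g v) ((g • z : ℍ) : ℂ)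
      = (g.det.val ^ 2 / Complex.normSq (denom g z)) * geoForm u v z := by
    simp only [geoForm, hlin, map_mul, map_div₀, Complex.conj_ofReal]
    rw [← Complex.re_ofReal_mul]
    congr 1
    have : ((Complex.normSq (denom g z) : ℝ) : ℂ) = denom g z * conj (denom g z) :=
      (Complex.mul_conj _).symm
    push_cast
    rw [this]
    field_simp
  have hpos : 0 < g.det.val * (g.det.val ^ 2 / Complex.normSq (denom g z)) :=
    mul_pos hg (div_pos (pow_pos hg 2) (Complex.normSq_pos.mpr hdenom))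
  rw [wind, wind, hd, hQ, show g.det.val * det2 u v *
      (g.det.val ^ 2 / Complex.normSq (denom g z) * geoForm u v z)
      = (g.det.val * (g.det.val ^ 2 / Complex.normSq (denom g z))) * (det2 u v * geoForm u v z) by
    ring, sign_mul, sign_pos hpos, one_mul]

/-- Cast of an integral vector. -/
def rvec (u : Fin 2 → ℤ) : Fin 2 → ℝ := fun i => (u i : ℝ)

/-- Action of an integral matrix on an integral vector. -/
def zmv (h : SL(2, ℤ)) (u : Fin 2 → ℤ) : Fin 2 → ℤ :=
  ![h 0 0 * u 0 + h 0 1 * u 1, h 1 0 * u 0 + h 1 1 * u 1]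

theorem zmv_mul (g h : SL(2, ℤ)) (u : Fin 2 → ℤ) : zmv (g * h) u = zmv g (zmv h u) := by
  ext i
  fin_cases i <;>
    simp [zmv, Matrix.SpecialLinearGroup.coe_mul, Matrix.mul_apply, Fin.sum_univ_two] <;> ring

theorem one_zmv (u : Fin 2 → ℤ) : zmv 1 u = u := by
  ext i
  fin_cases i <;> simp [zmv]

theorem rvec_zmv (h : SL(2, ℤ)) (u : Fin 2 → ℤ) :
    rvec (zmv h u) = mv (SpecialLinearGroup.mapGL ℝ h) (rvec u) := by
  ext i
  fin_cases i <;> simp [zmv, rvec]

theorem zmv_ne_zero (h : SL(2, ℤ)) {u : Fin 2 → ℤ} (hu : u ≠ 0) : zmv h u ≠ 0 := by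
  intro h0
  apply hu
  have := congrArg (zmv h⁻¹) h0
  rw [← zmv_mul, inv_mul_cancel, one_zmv] at this
  rw [this]
  ext i
  fin_cases i <;> simp [zmv]

theorem wind_smul_SL (h : SL(2, ℤ)) (u v : Fin 2 → ℤ) (z : ℍ) :
    wind (rvec u) (rvec v) (h • z) = wind (rvec (zmv h⁻¹ u)) (rvec (zmv h⁻¹ v)) z := by
  have hg : 0 < (SpecialLinearGroup.mapGL ℝ h).det.val := by simp
  rw [← wind_mv hg (rvec (zmv h⁻¹ u)) (rvec (zmv h⁻¹ v)) z, ← rvec_zmv, ← rvec_zmv, ← zmv_mul,
    ← zmv_mul, mul_inv_cancel, one_zmv, one_zmv]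
  rfl

theorem finite_vec_bounded (A B : ℝ) :
    {u : Fin 2 → ℤ | |(u 0 : ℝ)| ≤ A ∧ |(u 1 : ℝ)| ≤ B}.Finite := by
  refine ((Set.finite_Icc (fun _ => -max ⌈A⌉ ⌈B⌉ : Fin 2 → ℤ) (fun _ => max ⌈A⌉ ⌈B⌉))).subset ?_
  rintro u ⟨h0, h1⟩
  have h0' : |u 0| ≤ ⌈A⌉ := by exact_mod_cast h0.trans (Int.le_ceil A)
  have h1' : |u 1| ≤ ⌈B⌉ := by exact_mod_cast h1.trans (Int.le_ceil B)
  rw [abs_le] at h0' h1'
  constructor <;> intro i <;> fin_cases i <;> simp <;> omega

/-- Lower bound for a non-zero integral linear form at a point. -/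
theorem norm_lin_lower {u : Fin 2 → ℤ} (hu : u ≠ 0) (z : ℂ) :
    min 1 z.im ≤ ‖(u 1 : ℂ) * z - u 0‖ := by
  rcases eq_or_ne (u 1) 0 with h | h
  · have h0 : u 0 ≠ 0 := fun h0 => hu (by ext i; fin_cases i <;> assumption)
    simp only [h, Int.cast_zero, zero_mul, zero_sub, norm_neg, Complex.norm_intCast]
    exact (min_le_left _ _).trans (by exact_mod_cast Int.one_le_abs h0)
  · refine (min_le_right _ _).trans ((le_abs_self _).trans ?_)
    refine le_trans ?_ (Complex.abs_im_le_norm _)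
    simp only [Complex.sub_im, Complex.mul_im, Complex.intCast_re, Complex.intCast_im, zero_mul,
      add_zero, sub_zero, abs_mul]
    exact le_mul_of_one_le_left (abs_nonneg _) (by exact_mod_cast Int.one_le_abs h)

/-- Points where a linear form is bounded come from bounded vectors. -/
theorem finite_lin_bounded (M ymin X : ℝ) (hy : 0 < ymin) :
    {u : Fin 2 → ℤ | ∃ z : ℂ, ymin ≤ z.im ∧ |z.re| ≤ X ∧ ‖(u 1 : ℂ) * z - u 0‖ ≤ M}.Finite := by
  refine (finite_vec_bounded (M + M / ymin * X) (M / ymin)).subset ?_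
  rintro u ⟨z, hz, hX, hM⟩
  have him : |(u 1 : ℝ)| * z.im ≤ M := by
    have := (Complex.abs_im_le_norm ((u 1 : ℂ) * z - u 0)).trans hM
    simpa [abs_mul, abs_of_pos (hy.trans_le hz)] using this
  have hre : |(u 1 : ℝ) * z.re - u 0| ≤ M := by
    simpa using (Complex.abs_re_le_norm ((u 1 : ℂ) * z - u 0)).trans hM
  have h1 : |(u 1 : ℝ)| ≤ M / ymin := by
    rw [le_div_iff₀ hy]
    exact le_trans (mul_le_mul_of_nonneg_left hz (abs_nonneg _)) him
  refine ⟨?_, h1⟩
  have : |(u 1 : ℝ) * z.re| ≤ M / ymin * X := by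
    rw [abs_mul]
    exact mul_le_mul h1 hX (abs_nonneg _) ((abs_nonneg _).trans h1)
  calc |(u 0 : ℝ)| = |(u 1 : ℝ) * z.re - ((u 1 : ℝ) * z.re - u 0)| := by ring_nf
    _ ≤ |(u 1 : ℝ) * z.re| + |(u 1 : ℝ) * z.re - u 0| := abs_sub _ _
    _ ≤ M + M / ymin * X := by linarith

theorem zmv_pair_injective {u v : Fin 2 → ℤ} (hD : det2 (rvec u) (rvec v) ≠ 0) {g g' : SL(2, ℤ)}
    (hu : zmv g u = zmv g' u) (hv : zmv g v = zmv g' v) : g = g' := by
  have hD' : u 0 * v 1 - u 1 * v 0 ≠ 0 := by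
    intro h; apply hD; simp only [det2, rvec]; exact_mod_cast h
  have a := congrFun hu 0
  have b := congrFun hu 1
  have c := congrFun hv 0
  have d := congrFun hv 1
  simp [zmv] at a b c d
  ext i j
  fin_cases i <;> fin_cases j <;> simp <;> refine mul_right_cancel₀ hD' ?_
  · linear_combination (v 1) * a - (u 1) * c
  · linear_combination -(v 0) * a + (u 0) * c
  · linear_combination (v 1) * b - (u 1) * d
  · linear_combination -(v 0) * b + (u 0) * d

/-- Only finitely many translates of a geodesic separate two given points. -/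
theorem finite_wind_ne (u v : Fin 2 → ℤ) (z z' : ℍ) :
    {h : SL(2, ℤ) |
      wind (rvec u) (rvec v) (h • z') ≠ wind (rvec u) (rvec v) (h • z)}.Finite := by
  rcases eq_or_ne (det2 (rvec u) (rvec v)) 0 with hD | hD
  · simp [wind_eq_zero_of_det hD]
  have hu : u ≠ 0 := fun h => hD (by simp [h, det2, rvec])
  have hv : v ≠ 0 := fun h => hD (by simp [h, det2, rvec])
  set D := |det2 (rvec u) (rvec v)|
  set ymin := min z.im z'.im with hymin
  set ymax := max z.im z'.im with hymax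
  set X := max |z.re| |z'.re| with hX
  set ε := min 1 ymin with hε
  have hy : 0 < ymin := lt_min z.im_pos z'.im_pos
  have hε0 : 0 < ε := lt_min one_pos hy
  set M := D * ymax / ε with hM
  set S := {w : Fin 2 → ℤ | ∃ p : ℂ, ymin ≤ p.im ∧ |p.re| ≤ X ∧ ‖(w 1 : ℂ) * p - w 0‖ ≤ M}
  have hS : S.Finite := finite_lin_bounded M ymin X hy
  refine Set.Finite.of_finite_image (f := fun h : SL(2, ℤ) => (zmv h⁻¹ u, zmv h⁻¹ v))
    ((hS.prod hS).subset ?_) ?_
  · rintro _ ⟨h, hh, rfl⟩
    simp only [Set.mem_ofPred_eq, wind_smul_SL] at hh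
    set u' := zmv h⁻¹ u with hu'
    set v' := zmv h⁻¹ v with hv'
    have hu'0 : u' ≠ 0 := zmv_ne_zero _ hu
    have hv'0 : v' ≠ 0 := zmv_ne_zero _ hv
    have hD' : |det2 (rvec u') (rvec v')| = D := by
      show _ = |det2 (rvec u) (rvec v)|
      congr 1
      have hdet : (h⁻¹ : SL(2, ℤ)) 0 0 * (h⁻¹ : SL(2, ℤ)) 1 1
          - (h⁻¹ : SL(2, ℤ)) 0 1 * (h⁻¹ : SL(2, ℤ)) 1 0 = 1 := by
        rw [← Matrix.det_fin_two]; exact (h⁻¹).2
      simp only [det2, rvec, hu', hv', zmv]
      have := congrArg (fun x : ℤ => (x : ℝ)) hdet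
      push_cast at this
      simp
      linear_combination ((u 0 : ℝ) * v 1 - u 1 * v 0) * this
    -- a zero of the form on the segment
    set γ : ℝ → ℂ := fun t => (1 - t : ℝ) * (z : ℂ) + (t : ℝ) * (z' : ℂ) with hγ
    set φ : ℝ → ℝ := fun t => det2 (rvec u') (rvec v') * geoForm (rvec u') (rvec v') (γ t) with hφ
    have hcont : Continuous φ := by
      simp only [hφ, geoForm, hγ]; fun_prop
    have h0 : φ 0 = det2 (rvec u') (rvec v') * geoForm (rvec u') (rvec v') z := by simp [hφ, hγ]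
    have h1 : φ 1 = det2 (rvec u') (rvec v') * geoForm (rvec u') (rvec v') z' := by simp [hφ, hγ]
    obtain ⟨t, ht, htz⟩ : ∃ t ∈ Set.Icc (0 : ℝ) 1, φ t = 0 := by
      rcases lt_trichotomy (φ 0) 0 with a | a | a
      · rcases lt_trichotomy (φ 1) 0 with b | b | b
        · exact absurd (by rw [wind, wind, ← h0, ← h1, sign_neg a, sign_neg b]) hh
        · exact ⟨1, ⟨zero_le_one, le_rfl⟩, b⟩
        · exact intermediate_value_Icc zero_le_one hcont.continuousOn ⟨a.le, b.le⟩
      · exact ⟨0, ⟨le_rfl, zero_le_one⟩, a⟩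
      · rcases lt_trichotomy (φ 1) 0 with b | b | b
        · exact intermediate_value_Icc' zero_le_one hcont.continuousOn ⟨b.le, a.le⟩
        · exact ⟨1, ⟨zero_le_one, le_rfl⟩, b⟩
        · exact absurd (by rw [wind, wind, ← h0, ← h1, sign_pos a, sign_pos b]) hh
    obtain ⟨ht0, ht1⟩ := ht
    set p := γ t with hp
    have hpim : p.im = (1 - t) * z.im + t * z'.im := by simp [hp, hγ]
    have hpre : p.re = (1 - t) * z.re + t * z'.re := by simp [hp, hγ]
    have hlo : ymin ≤ p.im := by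
      rw [hpim]
      nlinarith [min_le_left z.im z'.im, min_le_right z.im z'.im]
    have hhi : p.im ≤ ymax := by
      rw [hpim]
      nlinarith [le_max_left z.im z'.im, le_max_right z.im z'.im]
    have hreX : |p.re| ≤ X := by
      rw [hpre]
      refine (abs_add_le _ _).trans ?_
      rw [abs_mul, abs_mul, abs_of_nonneg ht0, abs_of_nonneg (sub_nonneg.mpr ht1)]
      nlinarith [le_max_left |z.re| |z'.re|, le_max_right |z.re| |z'.re|]
    have hne : det2 (rvec u') (rvec v') ≠ 0 := by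
      rw [← abs_ne_zero, hD']; exact abs_ne_zero.mpr hD
    have hQ : geoForm (rvec u') (rvec v') p = 0 := by
      simpa [hφ, hne] using htz
    set A : ℂ := (u' 1 : ℂ) * p - u' 0 with hA
    set B : ℂ := (v' 1 : ℂ) * p - v' 0 with hB
    have hAB : ‖A‖ * ‖B‖ = D * p.im := by
      have hre : (A * conj B).re = 0 := by simpa [geoForm, rvec, hA, hB] using hQ
      have him : (A * conj B).im = det2 (rvec u') (rvec v') * p.im * (-1) ∨
          (A * conj B).im = det2 (rvec u') (rvec v') * p.im := by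
        first
          | (left; simp [hA, hB, det2, rvec]; ring; done)
          | (right; simp [hA, hB, det2, rvec]; ring)
      rw [← Complex.norm_conj B, ← norm_mul,
        ← (Complex.abs_im_eq_norm.mpr hre)]
      rcases him with e | e <;> rw [e] <;>
        simp [abs_mul, hD', abs_of_pos (hy.trans_le hlo)]
    have hbound : ∀ {a b : ℝ}, ε ≤ b → 0 ≤ a → a * b = D * p.im → a ≤ M := by
      intro a b hb ha hab
      rw [hM, le_div_iff₀ hε0]
      calc a * ε ≤ a * b := mul_le_mul_of_nonneg_left hb ha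
        _ = D * p.im := hab
        _ ≤ D * ymax := mul_le_mul_of_nonneg_left hhi (abs_nonneg _)
    have hAlow : ε ≤ ‖A‖ := le_trans (min_le_min le_rfl hlo) (norm_lin_lower hu'0 p)
    have hBlow : ε ≤ ‖B‖ := le_trans (min_le_min le_rfl hlo) (norm_lin_lower hv'0 p)
    exact ⟨⟨p, hlo, hreX, hbound hBlow (norm_nonneg _) hAB⟩,
      ⟨p, hlo, hreX, hbound hAlow (norm_nonneg _) (by rw [mul_comm]; exact hAB)⟩⟩
  · intro a _ b _ hab
    exact inv_injective (zmv_pair_injective hD (congrArg Prod.fst hab) (congrArg Prod.snd hab))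

end Fermat.Agent.Ihara
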